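import Fermat.Agent.LT.Lift.Defs
import Fermat.Agent.LT.Boundary.Defs
import Mathlib.NumberTheory.NumberField.Cyclotomic.PID

/-!
# The ring of integers of `F = ℚ(√-3)` as Eisenstein data

`𝓞 F` is a principal ideal domain, and for every embedding it carries `EisData` with
`emb w = (-1 + √-3)/2`.
-/

set_option autoImplicit false

noncomputable section

namespace Fermat.Agent.LT.Lift

open NumberField Fermat.Agent.Galois
open Orbit (EisData)
open scoped IntermediateField
open WeierstrassCurve (modThreeCyclotomicChar modThreeCyclotomicChar_apply)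

/-- `F = ℚ(ζ₃)`. -/
theorem fieldF_eq_adjoin {ζ : Qbar} (hζ : IsPrimitiveRoot ζ 3) : fieldF = ℚ⟮ζ⟯ := by
  refine le_antisymm ?_ (IntermediateField.adjoin_simple_le_iff.mpr ?_)
  · have hint : IsIntegral ℚ ζ := hζ.isIntegral (by norm_num) |>.tower_top
    have := IntermediateField.adjoin.finiteDimensional hint
    intro x hx
    rw [← InfiniteGalois.fixedField_fixingSubgroup (ℚ⟮ζ⟯)]
    exact fun g => hx ⟨g.1, MonoidHom.mem_ker.mpr (modThreeCyclotomicChar_eq_one_of_fixes hζ
      ((IntermediateField.mem_fixingSubgroup_iff _ _).1 g.2 ζ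
        (IntermediateField.mem_adjoin_simple_self ℚ ζ)))⟩
  · intro g
    show g.1 ζ = ζ
    have := modularCyclotomicCharacter.spec Qbar
      (IsAlgClosed.card_rootsOfUnity_eq (AlgebraicClosure ℚ) 3) (g.1 : Qbar ≃+* Qbar)
      (t := (hζ.isUnit (by norm_num)).unit)
      ((mem_rootsOfUnity _ _).mpr (Units.ext (by simpa using hζ.pow_eq_one)))
    rw [← modThreeCyclotomicChar_apply, MonoidHom.mem_ker.1 g.2] at this
    simpa [ZMod.val_one] using this

theorem isCyclotomicExtension_fieldF : IsCyclotomicExtension {3} ℚ fieldF := by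
  obtain ⟨ζ, hζ⟩ := HasEnoughRootsOfUnity.exists_primitiveRoot Qbar 3
  rw [fieldF_eq_adjoin hζ]
  exact hζ.intermediateField_adjoin_isCyclotomicExtension ℚ

/-- `𝓞 F` is a principal ideal domain. -/
theorem isPrincipalIdealRing_fieldF : IsPrincipalIdealRing (𝓞 fieldF) :=
  have := isCyclotomicExtension_fieldF
  IsCyclotomicExtension.Rat.three_pid fieldF

theorem isBezout_fieldF : IsBezout (𝓞 fieldF) :=
  have := isPrincipalIdealRing_fieldF
  inferInstance

/-- The two complex roots of `X² + X + 1`. -/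
theorem cube_root_cases {x : ℂ} (h : x ^ 2 + x + 1 = 0) :
    x = -(1 / 2) + (Real.sqrt 3 : ℂ) / 2 * Complex.I ∨
      -1 - x = -(1 / 2) + (Real.sqrt 3 : ℂ) / 2 * Complex.I := by
  set ω : ℂ := -(1 / 2) + (Real.sqrt 3 : ℂ) / 2 * Complex.I with hω
  have h3 : (Real.sqrt 3 : ℂ) ^ 2 = 3 := by
    rw [← Complex.ofReal_pow, Real.sq_sqrt (by norm_num)]; norm_num
  have hω2 : ω ^ 2 + ω + 1 = 0 := by
    rw [hω]; linear_combination (Complex.I ^ 2 / 4) * h3 + (3 / 4) * Complex.I_sq
  rcases mul_eq_zero.mp (show (x - ω) * (-1 - x - ω) = 0 by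
    linear_combination -h + hω2) with e | e
  · exact Or.inl (sub_eq_zero.mp e)
  · exact Or.inr (sub_eq_zero.mp e)

/-- Eisenstein data from a root of `X² + X + 1` in a ring with integral power basis. -/
theorem exists_eisData_of_powerBasis {O : Type*} [CommRing O] [IsDomain O] [CharZero O]
    (pb : PowerBasis ℤ O) (hdim : pb.dim = 2) {w : O} (hw : w ^ 2 + w + 1 = 0)
    (hgen : pb.gen = w ∨ pb.gen = -1 - w) : ∃ E : EisData O, E.w = w := by
  have hg : pb.gen ^ 2 + pb.gen + 1 = 0 := by
    rcases hgen with e | e <;> rw [e] <;> linear_combination hw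
  obtain ⟨hrepr, hindep⟩ : (∀ x : O, ∃ a b : ℤ, x = (a : O) + (b : O) * pb.gen) ∧
      ∀ a b : ℤ, (a : O) + (b : O) * pb.gen = 0 → a = 0 ∧ b = 0 := by
    let B := pb.basis.reindex (finCongr hdim)
    have hB : ∀ i : Fin 2, B i = pb.gen ^ (i : ℕ) := fun i => by
      simp [B]
    refine ⟨fun x => ⟨B.repr x 0, B.repr x 1, ?_⟩, fun a b h => ?_⟩
    · conv_lhs => rw [← B.sum_repr x]
      simp [Fin.sum_univ_two, hB, zsmul_eq_mul]
    · have h0 := Fintype.linearIndependent_iff.mp B.linearIndependent ![a, b]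
        (by simpa [Fin.sum_univ_two, hB, zsmul_eq_mul] using h)
      exact ⟨by simpa using h0 0, by simpa using h0 1⟩
  have hmin : Polynomial.aeval (-1 - pb.gen) (minpoly ℤ pb.gen) = 0 := by
    have hP : minpoly ℤ pb.gen = Polynomial.X ^ 2 + Polynomial.X + 1 := by
      symm
      have hm : (Polynomial.X ^ 2 + Polynomial.X + 1 : Polynomial ℤ).Monic := by monicity!
      refine Polynomial.eq_of_monic_of_dvd_of_natDegree_le
        (minpoly.monic pb.isIntegral_gen) hm
        (minpoly.isIntegrallyClosed_dvd pb.isIntegral_gen (by simp [hg])) ?_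
      rw [pb.natDegree_minpoly, hdim]
      compute_degree!
    rw [hP]
    simp only [map_add, map_pow, Polynomial.aeval_X, map_one]
    linear_combination hg
  let c : O →+* O := (pb.lift (-1 - pb.gen) hmin).toRingHom
  have hcg : c pb.gen = -1 - pb.gen := pb.lift_gen _ hmin
  refine ⟨{
    w := w
    conj := c
    w_eq := hw
    conj_w := ?_
    repr := fun x => ?_
    indep := fun a b h => ?_ }, rfl⟩
  · rcases hgen with e | e
    · rw [← e]; exact hcg
    · rw [show w = -1 - pb.gen by rw [e]; ring, map_sub, map_neg, map_one, hcg]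
  · obtain ⟨a, b, rfl⟩ := hrepr x
    rcases hgen with e | e
    · exact ⟨a, b, by rw [e]⟩
    · exact ⟨a - b, -b, by rw [e]; push_cast; ring⟩
  · rcases hgen with e | e
    · exact hindep a b (by rwa [e])
    · have h' := hindep (a - b) (-b) (by rw [e]; push_cast; linear_combination h)
      omega

/-- For every embedding, Eisenstein data of `𝓞 F` with `emb w = (-1 + √-3)/2`. -/
theorem exists_eisData_fieldF (emb : 𝓞 fieldF →+* ℂ) :
    ∃ E : EisData (𝓞 fieldF),
      emb E.w = -(1 / 2) + (Real.sqrt 3 : ℂ) / 2 * Complex.I := by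
  have := isCyclotomicExtension_fieldF
  obtain ⟨ζ, hζ⟩ := IsCyclotomicExtension.exists_isPrimitiveRoot ℚ fieldF (S := {3}) rfl (by norm_num)
  set pb := hζ.integralPowerBasis with hpb
  have hdim : pb.dim = 2 := by
    rw [hpb, hζ.integralPowerBasis_dim]; rfl
  have hgen : pb.gen = hζ.toInteger := hζ.integralPowerBasis_gen
  have hz : hζ.toInteger ^ 2 + hζ.toInteger + 1 = 0 := by
    have h := hζ.toInteger_isPrimitiveRoot.geom_sum_eq_zero (by norm_num)
    simp only [Finset.sum_range_succ, Finset.sum_range_zero, pow_zero, pow_one, zero_add] at h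
    linear_combination h
  have he : emb hζ.toInteger ^ 2 + emb hζ.toInteger + 1 = 0 := by
    rw [← map_pow, ← map_add, ← map_one emb, ← map_add, hz, map_zero]
  rcases cube_root_cases he with e | e
  · obtain ⟨E, hE⟩ := exists_eisData_of_powerBasis pb hdim hz (Or.inl hgen)
    exact ⟨E, by rw [hE, e]⟩
  · obtain ⟨E, hE⟩ := exists_eisData_of_powerBasis pb hdim
      (w := -1 - hζ.toInteger) (by linear_combination hz) (Or.inr (by rw [hgen]; ring))
    exact ⟨E, by rw [hE, map_sub, map_neg, map_one, e]⟩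

end Fermat.Agent.LT.Lift
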