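import Fermat.Agent.LT.Boundary.Defs
import Fermat.Agent.LT.Density.Oct
import Fermat.Agent.DS.PrimeDensity
import Fermat.Agent.Galois.Cyclotomic
import Mathlib.NumberTheory.LSeries.PrimesInAP

/-!
# The rational primes used by the lift

The eigenvalue data of a descent form, read at the rational primes `p ≡ 1 (mod 3)` split in
`F = ℚ(√-3)`: one real value at each of them, equal to the octahedral trace of Frobenius outside a
set of primes of density zero.
-/

set_option autoImplicit false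

noncomputable section

namespace Fermat.Agent.LT.Lift

open NumberField IsDedekindDomain Fermat.Agent.Galois
open Fermat.Agent.Density (idealCount)
open scoped Classical MatrixGroups

variable {W : WeierstrassCurve ℤ} {ρ : GalQ →* GL (Fin 2) (ZMod 3)}

/-- The character mod 3 is trivial at a Frobenius element of a prime congruent to `1`. -/
theorem modThreeChar_frobenius_eq_one {p : ℕ} (hp : p.Prime) (hp3 : p % 3 = 1)
    {A : ValuationSubring Qbar} (hA : A.LiesOverPrime p) {σ : GalQ} (hσ : A.IsFrobeniusAt σ p) :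
    WeierstrassCurve.modThreeCyclotomicChar σ = 1 := by
  rw [WeierstrassCurve.modThreeCyclotomicChar_apply]
  refine Units.ext ?_
  have h3 : ¬ p ∣ 3 := fun h => by
    rcases (Nat.prime_dvd_prime_iff_eq hp Nat.prime_three).1 h with rfl
    norm_num at hp3
  rw [modularCyclotomicCharacter_frobenius hA hp hσ h3, Units.val_one, ← ZMod.natCast_mod, hp3,
    Nat.cast_one]

/-- Outside a finite set, a prime congruent to `1` mod 3 is the norm of a place of `F`. -/
theorem exists_finite_place_of_prime (hρ : IsThreeRep W ρ) :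
    ∃ S : Set ℕ, S.Finite ∧ ∀ p : ℕ, p.Prime → p % 3 = 1 → p ∉ S →
      ∃ v : HeightOneSpectrum (𝓞 fieldF), Ideal.absNorm v.asIdeal = p := by
  obtain ⟨S, hS, hcnt⟩ := Density.exists_idealCount_eq ρ fieldF.val
    (Matrix.GeneralLinearGroup.det : GL (Fin 2) (ZMod 3) →* (ZMod 3)ˣ).ker hρ.factors
    hρ.surjective (Density.fixing_fieldF_iff hρ)
  refine ⟨S, hS, fun p hp hp3 hpS => ?_⟩
  obtain ⟨A, hA, hσ⟩ := Density.exists_frobLift_spec hp
  have h := hcnt p hp hpS A hA _ hσ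
  rw [if_pos (by rw [MonoidHom.mem_ker, hρ.det, modThreeChar_frobenius_eq_one hp hp3 hA hσ])] at h
  have hne : Nat.card {I : Ideal (𝓞 fieldF) // Ideal.absNorm I = p} ≠ 0 := fun h0 => by
    rw [idealCount, h0, Nat.cast_zero, zero_mul] at h
    exact (Nat.card_pos (α := GL (Fin 2) (ZMod 3))).ne' (Nat.cast_eq_zero.1 h.symm)
  obtain ⟨⟨I, hI⟩⟩ := (Nat.card_ne_zero.1 hne).1
  exact ⟨⟨I, Ideal.isPrime_of_irreducible_absNorm (by rw [hI]; exact hp),
    fun h0 => hp.ne_zero (by rw [← hI, h0, Ideal.absNorm_bot])⟩, hI⟩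

theorem primeTo_of_absNorm {M p : ℕ} (hp : p.Prime) (hpM : ¬ p ∣ M)
    {v : HeightOneSpectrum (𝓞 fieldF)} (hv : Ideal.absNorm v.asIdeal = p) : PrimeTo M v := by
  intro hM
  obtain ⟨x, y, hxy⟩ := (Nat.isCoprime_iff_coprime.2 ((hp.coprime_iff_not_dvd).2 hpM)).map
    (Int.castRingHom (𝓞 fieldF))
  refine v.isPrime.ne_top ((Ideal.eq_top_iff_one _).2 ?_)
  rw [← hxy]
  refine v.asIdeal.add_mem (v.asIdeal.mul_mem_left x ?_) (v.asIdeal.mul_mem_left y ?_)
  · simpa using hv ▸ Ideal.absNorm_mem v.asIdeal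
  · simpa using hM

/-- Primes below a small set of places form a set of density zero. -/
theorem primeDensityLE_of_smallPlaceSet {X : Set (HeightOneSpectrum (𝓞 fieldF))}
    (hX : SmallPlaceSet X) :
    DS.PrimeDensityLE {p : ℕ | ∃ v ∈ X, Ideal.absNorm v.asIdeal = p} 0 := by
  refine ⟨∑' v, X.indicator (fun v => (1 : ℝ) / (Ideal.absNorm v.asIdeal : ℝ)) v,
    fun s hs _ P hP => ?_⟩
  rw [zero_mul, zero_add]
  choose V hVX hVn using fun p : P => (hP p.1 p.2).2
  have hinj : Function.Injective V := fun p q h => Subtype.ext ((hVn p).symm.trans (h ▸ hVn q))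
  refine le_trans ?_ (hX.sum_le_tsum (Finset.univ.map ⟨V, hinj⟩) fun v _ =>
    Set.indicator_nonneg (fun v _ => by positivity) v)
  rw [Finset.sum_map, ← Finset.sum_attach, Finset.univ_eq_attach]
  refine Finset.sum_le_sum fun p _ => ?_
  simp only [Function.Embedding.coeFn_mk]
  rw [Set.indicator_of_mem (hVX p), hVn, one_div, ← Real.rpow_neg_one]
  exact Real.rpow_le_rpow_of_exponent_le (by exact_mod_cast (hP p.1 p.2).1.one_le) (by linarith)

/-- **The rational data of the lift.** -/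
theorem exists_lift_primes (hρ : IsThreeRep W ρ) {M : ℕ} (hM : M ≠ 0)
    (a : HeightOneSpectrum (𝓞 fieldF) → ℂ) {X : Set (HeightOneSpectrum (𝓞 fieldF))}
    (hreal : ∀ v, PrimeTo M v → (a v).im = 0) (hX : SmallPlaceSet X)
    (hpin : ∀ v, PrimeTo M v → ∀ σ, IsFrobOver fieldF v.asIdeal σ →
      v ∉ X ∨ ρ σ ∈ quatSubgroup → a v = octTrace ρ σ) :
    ∃ (S : Set ℕ) (aP : ℕ → ℂ) (XQ : Set ℕ), DS.PrimeDensityLE XQ 0 ∧ S.Nonempty ∧
      (∀ p ∈ S, p.Prime ∧ ¬ p ∣ 3 * M ∧ p % 3 = 1 ∧ starRingEnd ℂ (aP p) = aP p ∧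
        ∃ v : HeightOneSpectrum (𝓞 fieldF),
          Ideal.absNorm v.asIdeal = p ∧ PrimeTo M v ∧ a v = aP p) ∧
      ∀ p, p.Prime → ¬ p ∣ 3 * M → p % 3 = 1 → p ∉ XQ →
        p ∈ S ∧ ∀ A : ValuationSubring Qbar, A.LiesOverPrime p →
          ∀ σ, A.IsFrobeniusAt σ p → aP p = octTrace ρ σ := by
  obtain ⟨S₀, hS₀, hplace⟩ := exists_finite_place_of_prime hρ
  obtain ⟨S₁, hS₁, hfrob⟩ := Density.exists_finite_isFrobOver ρ hρ.factors hρ.surjective fieldF
    (Matrix.GeneralLinearGroup.det : GL (Fin 2) (ZMod 3) →* (ZMod 3)ˣ).ker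
    (Density.fixing_fieldF_iff hρ)
  obtain ⟨S₂, hS₂, hconj⟩ := Density.exists_finite_isConj_frobLift ρ hρ.factors
  let S : Set ℕ := {p | p.Prime ∧ ¬ p ∣ 3 * M ∧ p % 3 = 1 ∧ p ∉ S₀}
  let aP : ℕ → ℂ := fun p =>
    if h : ∃ v : HeightOneSpectrum (𝓞 fieldF), Ideal.absNorm v.asIdeal = p then a h.choose else 0
  have hval : ∀ p ∈ S, ∃ v : HeightOneSpectrum (𝓞 fieldF),
      Ideal.absNorm v.asIdeal = p ∧ PrimeTo M v ∧ a v = aP p := by
    rintro p ⟨hp, hpM, hp3, hpS⟩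
    have h := hplace p hp hp3 hpS
    exact ⟨h.choose, h.choose_spec,
      primeTo_of_absNorm hp (fun hd => hpM (hd.mul_left 3)) h.choose_spec, (by simp only [aP]; rw [dif_pos h])⟩
  refine ⟨S, aP, {p | ∃ v ∈ X, Ideal.absNorm v.asIdeal = p} ∪ (S₀ ∪ S₁ ∪ S₂), ?_, ?_, ?_, ?_⟩
  · simpa using (primeDensityLE_of_smallPlaceSet hX).union
      (DS.primeDensityLE_of_finite ((hS₀.union hS₁).union hS₂))
  · have hinf := Nat.infinite_setOfPred_prime_and_eq_mod (q := 3) (a := 1) isUnit_one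
    obtain ⟨p, ⟨hp, hp1⟩, hpn⟩ :=
      (hinf.sdiff (hS₀.union (3 * M).divisors.finite_toSet)).nonempty
    rw [Set.mem_union, not_or] at hpn
    refine ⟨p, hp, fun hd => hpn.2 ?_, ?_, hpn.1⟩
    · exact Finset.mem_coe.2 (Nat.mem_divisors.2 ⟨hd, mul_ne_zero three_ne_zero hM⟩)
    · have h := congrArg ZMod.val hp1
      rwa [ZMod.val_natCast, show (1 : ZMod 3).val = 1 from rfl] at h
  · intro p hp
    obtain ⟨v, hvn, hvM, hva⟩ := hval p hp
    exact ⟨hp.1, hp.2.1, hp.2.2.1, Complex.conj_eq_iff_im.2 (hva ▸ hreal v hvM), v, hvn, hvM, hva⟩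
  · intro p hp hpM hp3 hpX
    simp only [Set.mem_union, not_or] at hpX
    obtain ⟨hpX, ⟨hp0, hp1⟩, hp2⟩ := hpX
    have hpS : p ∈ S := ⟨hp, hpM, hp3, hp0⟩
    refine ⟨hpS, fun A hA σ hσ => ?_⟩
    obtain ⟨v, hvn, hvM, hva⟩ := hval p hpS
    obtain ⟨A', σ', hA', hσ', hover⟩ := hfrob v p hp hvn hp1
    obtain ⟨c, hc⟩ := isConj_iff.1
      ((hconj p hp hp2 A' hA' σ' hσ').symm.trans (hconj p hp hp2 A hA σ hσ))
    rw [← hva, hpin v hvM σ' hover (Or.inl fun hv => hpX ⟨v, hv, hvn⟩), octTrace, octTrace, ← hc,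
      map_mul, map_mul, map_inv, Matrix.GeneralLinearGroup.coe_mul,
      Matrix.GeneralLinearGroup.coe_mul, Matrix.trace_units_conj]

end Fermat.Agent.LT.Lift
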