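import Fermat.Agent.LT.Descent.SForm

/-!
# Hecke translates of cusp eigenforms

For a place `v` at which the level is full, the image of a cusp eigenform under `T_v` is again
continuous, bounded, cuspidal and spherical, and keeps the eigenvalues at the other full places.
-/

set_option autoImplicit false

noncomputable section

namespace Fermat.Agent.LT.Lift

open IsDedekindDomain NumberField MeasureTheory Filter
open Fermat.Agent.LT.Adelic
open Fermat.Agent.LT.RankinSelberg (nbrMatrix compAt_nbrMatrix_of_ne heckeOp_eq_sum HasFullLocal)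
open scoped Topology

set_option linter.unusedSectionVars false

variable {K : Type*} [Field K] [NumberField K] {ι : Type*} [Fintype ι] [DecidableEq ι]
  {Φ : Frame K ι} {U : Subgroup (GfK K)}

/-- A cusp form, possibly zero: the properties of `IsCuspEigen` except nonvanishing. -/
structure IsCuspLike (φ : Space Φ U → ℂ) : Prop where
  invariant : IsInvariant φ
  continuous : ∀ y : Yf U, Continuous fun τ : ι → HSpace => φ (Space.mk τ y)
  bounded : ∃ C : ℝ, ∀ x, ‖φ x‖ ≤ C
  cuspidal : HasZeroMean φ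
  spherical : IsSphericalEigen φ 0

theorem isCuspLike_of_isCuspEigen {φ : Space Φ U → ℂ} (h : IsCuspEigen φ) : IsCuspLike φ :=
  ⟨h.invariant, h.continuous, h.bounded, h.cuspidal, h.spherical⟩

theorem IsCuspLike.isCuspEigen {φ : Space Φ U → ℂ} (h : IsCuspLike φ) (hne : φ ≠ 0) :
    IsCuspEigen φ := by
  refine ⟨h.invariant, h.continuous, h.bounded, h.cuspidal, h.spherical, ?_⟩
  by_contra hno
  push Not at hno
  exact hne (funext hno)

theorem IsCuspLike.integrableOn_box {φ : Space Φ U → ℂ} (h : IsCuspLike φ) (y : Yf U)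
    (r : ι → ℝ) (hr : ∀ i, 0 < r i) (R : ℝ) :
    IntegrableOn (fun z => φ (Space.mk (fun i => ⟨z i, r i, hr i⟩) y))
      (Set.univ.pi fun _ : ι => Metric.closedBall (0 : ℂ) R) volume := by
  refine ((h.continuous y).comp ?_).continuousOn.integrableOn_compact
    (isCompact_univ_pi fun _ => isCompact_closedBall _ _)
  refine continuous_pi fun i => continuous_induced_rng.2 ?_
  exact (continuous_apply i).prodMk continuous_const

theorem IsCuspLike.integrable_pair {φ : Space Φ U → ℂ} (h : IsCuspLike φ) {k : ℝ → ℂ}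
    (hk : Continuous k) (hc : HasCompactSupport k) (i : ι) (τ : ι → HSpace) (y : Yf U) :
    Integrable (fun p => k (HSpace.coshDist (τ i) p) * φ (Space.mk (Function.update τ i p) y))
      HSpace.measure := by
  have := Arch.opensMeasurableSpace_hspace
  obtain ⟨C, hC⟩ := h.bounded
  have hq : Arch.IsQuartic k := Descent.isQuartic_of_compactSupport hk hc
  have h0 := Arch.integrable_pointPair hk hq (τ i) (j := 0) zero_le_one
  simp only [pow_zero, mul_one] at h0
  exact h0.mul_bdd ((h.continuous y).comp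
    (continuous_const.update i continuous_id)).aestronglyMeasurable
    (Eventually.of_forall fun p => hC _)

theorem IsCuspLike.smul {φ : Space Φ U → ℂ} (h : IsCuspLike φ) (c : ℂ) : IsCuspLike (c • φ) where
  invariant γ x := by simp [h.invariant γ x]
  continuous y := (h.continuous y).const_smul c
  bounded := h.bounded.elim fun C hC => ⟨‖c‖ * C, fun x => by
    simpa using mul_le_mul_of_nonneg_left (hC x) (norm_nonneg c)⟩
  cuspidal := fun y r hr => by
    have h2 := (h.cuspidal y r hr).const_smul c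
    rw [smul_zero] at h2
    refine h2.congr fun R => ?_
    simp only [setAverage_eq, Pi.smul_apply]
    rw [integral_smul, smul_comm]
  spherical := fun k hk hc i x => by
    have h2 := h.spherical k hk hc i x
    simp only [pointPairOp, Pi.smul_apply, smul_eq_mul] at h2 ⊢
    rw [show (fun τ => k (HSpace.coshDist (x.pt i) τ) * (c * φ (x.update i τ))) =
      fun τ => c * (k (HSpace.coshDist (x.pt i) τ) * φ (x.update i τ)) from
        funext fun τ => by ring, integral_const_mul, h2]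
    ring

variable {v : HeightOneSpectrum (𝓞 K)} {ϖ : (FiniteAdeleRing (𝓞 K) K)ˣ}

/-- `T_v` as a sum over the listed neighbours. -/
theorem heckeOp_apply_nbrMatrix [Fintype (𝓞 K ⧸ v.asIdeal)]
    (hU : U ≤ principalLevel K (1 : 𝓞 K)) (hloc : HasFullLocal U v) (hϖ : IsUniformiserAt v ϖ)
    (φ : Space Φ U → ℂ) (τ : ι → HSpace) (g : GfK K) :
    heckeOp (heckeMatrix K ϖ) φ (Space.mk τ (g : Yf U)) =
      ∑ o : Option (𝓞 K ⧸ v.asIdeal), φ (Space.mk τ ((g * nbrMatrix v ϖ o : GfK K) : Yf U)) := by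
  rw [heckeOp_eq_sum hU hloc hϖ, Fintype.sum_option]
  rfl

theorem fintype_quotient_nonempty (v : HeightOneSpectrum (𝓞 K)) :
    Nonempty (Fintype (𝓞 K ⧸ v.asIdeal)) :=
  have : Finite (𝓞 K ⧸ v.asIdeal) := Ring.HasFiniteQuotients.finiteQuotient v.ne_bot
  ⟨Fintype.ofFinite _⟩

/-- `T_v` preserves cusp forms. -/
theorem IsCuspLike.heckeOp_full {φ : Space Φ U → ℂ} (h : IsCuspLike φ)
    (hU : U ≤ principalLevel K (1 : 𝓞 K)) (hloc : HasFullLocal U v) (hϖ : IsUniformiserAt v ϖ) :
    IsCuspLike (Adelic.heckeOp (heckeMatrix K ϖ) φ) := by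
  obtain ⟨_⟩ := fintype_quotient_nonempty v
  refine ⟨h.invariant.heckeOp _, fun y => ?_, ?_, fun y r hr => ?_, fun k hk hc i x => ?_⟩
  · obtain ⟨g, rfl⟩ := QuotientGroup.mk_surjective y
    simp only [heckeOp_apply_nbrMatrix hU hloc hϖ]
    exact continuous_finsetSum _ fun o _ => h.continuous _
  · obtain ⟨C, hC⟩ := h.bounded
    refine ⟨∑ _o : Option (𝓞 K ⧸ v.asIdeal), C, fun x => ?_⟩
    obtain ⟨g, hg⟩ := QuotientGroup.mk_surjective x.fin
    rw [← Space.mk_pt_fin x, ← hg, heckeOp_apply_nbrMatrix hU hloc hϖ]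
    exact (norm_sum_le _ _).trans (Finset.sum_le_sum fun o _ => hC _)
  · obtain ⟨g, rfl⟩ := QuotientGroup.mk_surjective y
    have h2 := tendsto_finsetSum (Finset.univ : Finset (Option (𝓞 K ⧸ v.asIdeal))) fun o _ =>
      h.cuspidal ((g * nbrMatrix v ϖ o : GfK K) : Yf U) r hr
    rw [Finset.sum_const_zero] at h2
    refine h2.congr fun R => ?_
    simp only [setAverage_eq, heckeOp_apply_nbrMatrix hU hloc hϖ]
    rw [integral_finsetSum _ fun o _ => h.integrableOn_box _ r hr R, Finset.smul_sum]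
  · obtain ⟨g, hg⟩ := QuotientGroup.mk_surjective x.fin
    rw [← Space.mk_pt_fin x, ← hg]
    simp only [pointPairOp, Space.update, Space.pt_mk, Space.fin_mk,
      heckeOp_apply_nbrMatrix hU hloc hϖ, Finset.mul_sum]
    rw [integral_finsetSum _ fun o _ => h.integrable_pair hk hc i x.pt _]
    refine Finset.sum_congr rfl fun o _ => ?_
    exact h.spherical k hk hc i (Space.mk x.pt ((g * nbrMatrix v ϖ o : GfK K) : Yf U))

/-- The image of a cusp eigenform, if nonzero, is a cusp eigenform. -/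
theorem isCuspEigen_heckeOp {φ : Space Φ U → ℂ} (h : IsCuspEigen φ)
    (hU : U ≤ principalLevel K (1 : 𝓞 K)) (hloc : HasFullLocal U v) (hϖ : IsUniformiserAt v ϖ)
    (hne : heckeOp (heckeMatrix K ϖ) φ ≠ 0) : IsCuspEigen (heckeOp (heckeMatrix K ϖ) φ) :=
  ((isCuspLike_of_isCuspEigen h).heckeOp_full hU hloc hϖ).isCuspEigen hne

theorem IsCuspLike.iterate_heckeOp {φ : Space Φ U → ℂ} (h : IsCuspLike φ)
    (hU : U ≤ principalLevel K (1 : 𝓞 K)) (hloc : HasFullLocal U v) (hϖ : IsUniformiserAt v ϖ)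
    (n : ℕ) : IsCuspLike ((Adelic.heckeOp (heckeMatrix K ϖ))^[n] φ) := by
  induction n with
  | zero => exact h
  | succ n ih => rw [Function.iterate_succ_apply']; exact ih.heckeOp_full hU hloc hϖ

/-- Hecke operators at distinct full places commute. -/
theorem heckeOp_comm {w : HeightOneSpectrum (𝓞 K)} {ϖ' : (FiniteAdeleRing (𝓞 K) K)ˣ}
    (hU : U ≤ principalLevel K (1 : 𝓞 K)) (hv : HasFullLocal U v) (hϖ : IsUniformiserAt v ϖ)
    (hw : HasFullLocal U w) (hϖ' : IsUniformiserAt w ϖ') (hvw : w ≠ v) (φ : Space Φ U → ℂ) :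
    heckeOp (heckeMatrix K ϖ') (heckeOp (heckeMatrix K ϖ) φ) =
      heckeOp (heckeMatrix K ϖ) (heckeOp (heckeMatrix K ϖ') φ) := by
  obtain ⟨_⟩ := fintype_quotient_nonempty v
  obtain ⟨_⟩ := fintype_quotient_nonempty w
  funext x
  obtain ⟨g, hg⟩ := QuotientGroup.mk_surjective x.fin
  rw [← Space.mk_pt_fin x, ← hg]
  simp only [heckeOp_apply_nbrMatrix hU hv hϖ, heckeOp_apply_nbrMatrix hU hw hϖ']
  rw [Finset.sum_comm]
  refine Finset.sum_congr rfl fun o _ => Finset.sum_congr rfl fun o' _ => ?_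
  rw [mul_assoc, mul_assoc]
  congr 4
  refine Descent.commute_of_disjoint fun z => ?_
  by_cases hz : z = v
  · exact Or.inl (compAt_nbrMatrix_of_ne hϖ' (hz ▸ hvw.symm) o')
  · exact Or.inr (compAt_nbrMatrix_of_ne hϖ hz o)

/-- Eigenvalues at the other places survive. -/
theorem isHeckeEigenAt_heckeOp {φ : Space Φ U → ℂ} {w : HeightOneSpectrum (𝓞 K)} {b : ℂ}
    (hUl : IsLevel U) (hv : HasFullLocal U v) (hw : HasFullLocal U w)
    (hϖ : IsUniformiserAt v ϖ) (hvw : w ≠ v) (h : IsHeckeEigenAt φ w b) :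
    IsHeckeEigenAt (heckeOp (heckeMatrix K ϖ) φ) w b := fun ϖ' hϖ' => by
  obtain ⟨n, hn, hnU, hU1⟩ := hUl
  rw [heckeOp_comm hU1 hv hϖ hw hϖ' hvw, h ϖ' hϖ', heckeOp_smul ⟨n, hn, hnU, hU1⟩]

theorem isHeckeEigenAt_iterate_heckeOp {φ : Space Φ U → ℂ} {w : HeightOneSpectrum (𝓞 K)} {b : ℂ}
    (hUl : IsLevel U) (hv : HasFullLocal U v) (hw : HasFullLocal U w)
    (hϖ : IsUniformiserAt v ϖ) (hvw : w ≠ v) (h : IsHeckeEigenAt φ w b) (n : ℕ) :
    IsHeckeEigenAt ((heckeOp (heckeMatrix K ϖ))^[n] φ) w b := by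
  induction n with
  | zero => exact h
  | succ n ih => rw [Function.iterate_succ_apply']; exact isHeckeEigenAt_heckeOp hUl hv hw hϖ hvw ih

theorem isHeckeEigenAt_smul {φ : Space Φ U → ℂ} {w : HeightOneSpectrum (𝓞 K)} {b : ℂ}
    (hUl : IsLevel U) (h : IsHeckeEigenAt φ w b) (c : ℂ) : IsHeckeEigenAt (c • φ) w b :=
  fun ϖ' hϖ' => by rw [heckeOp_smul hUl, h ϖ' hϖ', smul_comm]

end Fermat.Agent.LT.Lift
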