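import Fermat.Agent.LT.Asai.Coefficients
import Fermat.Agent.LT.Asai.Fixed
import Fermat.Agent.LT.Asai.Places
import Fermat.Agent.LT.Descent.LevelIrreducible
import Fermat.Agent.LT.Lift.HeckeImage
import Mathlib.LinearAlgebra.Eigenspace.Triangularizable

/-!
# An eigenfunction at `√-3`

The cusp forms of a level with a given system at the places prime to `3 M` form a finite
dimensional space stable under `T_v` at the place `v` above `3` when `3 ∤ M`; hence some of them are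
eigenfunctions at every place prime to `M`.
-/

set_option autoImplicit false

noncomputable section

namespace Fermat.Agent.LT.Lift

open IsDedekindDomain NumberField
open Fermat.Agent.LT.Adelic Fermat.Agent.LT.Descent
open Fermat.Agent.LT.RankinSelberg (HasFullLocal hasFullLocal_of_le)
open Fermat.Agent.LT.Asai (placesOf finite_placesOf' supportedIn_natCast)
open Orbit (EisData)

variable {K : Type*} [Field K] [NumberField K] {ι : Type*} [Fintype ι] [DecidableEq ι]
  {Φ : Frame K ι} {U : Subgroup (GfK K)}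

omit [Fintype ι] [DecidableEq ι] in
/-- At a full place `T_v` does not depend on the uniformiser. -/
theorem heckeOp_eq_of_uniformisers {v : HeightOneSpectrum (𝓞 K)}
    (hloc : HasFullLocal U v) {ϖ ϖ' : (FiniteAdeleRing (𝓞 K) K)ˣ} (hϖ : IsUniformiserAt v ϖ)
    (hϖ' : IsUniformiserAt v ϖ') (φ : Space Φ U → ℂ) :
    heckeOp (heckeMatrix K ϖ') φ = heckeOp (heckeMatrix K ϖ) φ := by
  set t := ϖ⁻¹ * ϖ'
  have ht : ∀ w, Valued.v ((t : FiniteAdeleRing (𝓞 K) K) w) = 1 ∧
      (w ≠ v → (t : FiniteAdeleRing (𝓞 K) K) w = 1) := fun w => by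
    rw [show (t : FiniteAdeleRing (𝓞 K) K) w =
      ((ϖ⁻¹ : (FiniteAdeleRing (𝓞 K) K)ˣ) : FiniteAdeleRing (𝓞 K) K) w *
        (ϖ' : FiniteAdeleRing (𝓞 K) K) w by rw [← coe_apply_mul]; rfl,
      RankinSelberg.inv_uniformiser_apply]
    by_cases hw : w = v
    · subst hw
      refine ⟨?_, fun h => absurd rfl h⟩
      rw [map_mul, map_inv₀, hϖ.1, hϖ'.1, inv_mul_cancel₀ WithZero.exp_ne_zero]
    · rw [hϖ.2 w hw, hϖ'.2 w hw]
      simp
  have hd : diag2 t 1 ∈ U := hloc _
    (Aleph.mem_principalLevel_one_iff.2 fun w => isIntLocal_diag2 w (ht w).1) fun w hw => by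
      apply Units.ext
      rw [RankinSelberg.compAt_diag2, (ht w).2 hw, Units.val_one, Units.val_one, coe_apply_one,
        Matrix.one_fin_two]
  have hmat : heckeMatrix K ϖ' = heckeMatrix K ϖ * diag2 t 1 := by
    rw [heckeMatrix, heckeMatrix, diag2_mul_diag2, one_mul, mul_inv_cancel_left]
  funext x
  obtain ⟨g, hg⟩ := QuotientGroup.mk_surjective x.fin
  have hn : nbrs (heckeMatrix K ϖ') (g : Yf U) = nbrs (heckeMatrix K ϖ) (g : Yf U) := by
    rw [nbrs_mk, nbrs_mk]
    refine Set.image_congr fun u _ => QuotientGroup.eq.2 (le_levelZ U ?_)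
    rw [hmat, ← mul_assoc (g * u), _root_.mul_inv_rev, mul_assoc, inv_mul_cancel, mul_one]
    exact inv_mem hd
  rw [← Space.mk_pt_fin x, ← hg, heckeOp_mk, heckeOp_mk, hn]

variable {M : ℕ} {a : HeightOneSpectrum (𝓞 K) → ℂ}

/-- The map from the forms of the level `U` to functions on the space. -/
def levelFun {n : ℕ} (hn : n ≠ 0) (Φ : Frame K ι) (U : Subgroup (GfK K))
    (a : HeightOneSpectrum (𝓞 K) → ℂ) :
    fixedVectors (translateRep Φ (placesOf K n) a (finite_placesOf' hn))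
      (supLevel (placesOf K n) U) →ₗ[ℂ] (Space Φ U → ℂ) where
  toFun ψ := toSpace (Φ := Φ) (U := U) ψ.1.1
  map_add' _ _ := rfl
  map_smul' _ _ := rfl

/-- The forms of the level `U` with the system `a` at the places prime to `n`, on the space. -/
def levelFunctions {n : ℕ} (hn : n ≠ 0) (Φ : Frame K ι) (U : Subgroup (GfK K))
    (a : HeightOneSpectrum (𝓞 K) → ℂ) : Submodule ℂ (Space Φ U → ℂ) :=
  LinearMap.range (levelFun hn Φ U a)

theorem mem_levelFunctions_iff {n : ℕ} (hn : n ≠ 0) (hnU : principalLevel K (n : 𝓞 K) ≤ U)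
    (hU1 : U ≤ principalLevel K (1 : 𝓞 K)) {f : Space Φ U → ℂ} :
    f ∈ levelFunctions hn Φ U a ↔
      IsCuspLike f ∧ ∀ w, PrimeTo n w → IsHeckeEigenAt f w (a w) := by
  constructor
  · rintro ⟨ψ, rfl⟩
    have hfix := invariant_of_mem_fixedVectors (finite_placesOf' hn) (supportedIn_natCast hn) hnU
      hU1 ψ.2
    refine ⟨⟨ψ.1.2.isInvariant_toSpace hfix, fun y => ψ.1.2.continuous (Quotient.out y),
      ψ.1.2.bounded.imp fun _ hC x => hC _ _, fun y r hr => ψ.1.2.cuspidal (Quotient.out y) r hr,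
      fun k hk hc i x => ψ.1.2.spherical k hk hc i x.pt (Quotient.out x.fin)⟩, fun w hw => ?_⟩
    exact isHeckeEigenAt_toSpace ψ.1.2 hU1 (supportedIn_natCast hn) hnU hfix hw
  · rintro ⟨hf, heig⟩
    let F : sForms Φ (placesOf K n) a := ⟨fun τ g => f (Space.mk τ (g : Yf U)),
      isSForm_of_space hU1 (supportedIn_natCast hn) hnU hf.invariant hf.continuous hf.bounded
        hf.cuspidal hf.spherical fun w hw => heig w hw⟩
    have hF : F ∈ fixedVectors (translateRep Φ (placesOf K n) a (finite_placesOf' hn))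
        (supLevel (placesOf K n) U) := fun j hj => Subtype.ext (funext fun τ => funext fun g => by
      show f (Space.mk τ ((g * j.1 : GfK K) : Yf U)) = f (Space.mk τ (g : Yf U))
      rw [show ((g * j.1 : GfK K) : Yf U) = (g : Yf U) from QuotientGroup.eq.2 (by
        rw [_root_.mul_inv_rev, inv_mul_cancel_right]
        exact le_levelZ U (inv_mem hj))])
    refine ⟨⟨F, hF⟩, funext fun x => ?_⟩
    show f (Space.mk x.pt ((Quotient.out x.fin : GfK K) : Yf U)) = f x
    rw [QuotientGroup.out_eq', Space.mk_pt_fin]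

/-- **An eigenfunction at every place prime to `M`.** -/
theorem exists_eigen_at_three (E : EisData (𝓞 K)) (hM : M ≠ 0) (h3 : ¬ 3 ∣ M)
    (hMU : principalLevel K (M : 𝓞 K) ≤ U) (hU1 : U ≤ principalLevel K (1 : 𝓞 K))
    {φ : Space Φ U → ℂ} (hφ : IsCuspEigen φ)
    (heig : ∀ w, PrimeTo (3 * M) w → IsHeckeEigenAt φ w (a w)) :
    ∃ (ψ : Space Φ U → ℂ) (v : HeightOneSpectrum (𝓞 K)) (a' : HeightOneSpectrum (𝓞 K) → ℂ),
      (3 : 𝓞 K) ∈ v.asIdeal ∧ IsCuspEigen ψ ∧
      (∀ w, w ≠ v → a' w = a w) ∧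
      (∀ w, PrimeTo (3 * M) w → a' w = a w ∧ IsHeckeEigenAt ψ w (a w)) ∧
      ∀ w, PrimeTo M w → IsHeckeEigenAt ψ w (a' w) := by
  classical
  obtain ⟨v, hv⟩ : ∃ v : HeightOneSpectrum (𝓞 K), ∀ u : HeightOneSpectrum (𝓞 K),
      ((3 : ℕ) : 𝓞 K) ∈ u.asIdeal ↔ u = v := by
    cases Asai.splitting E Nat.prime_three (K := K) with
    | inert v h => norm_num at h
    | split v v' h => norm_num at h
    | ramified v h hm => exact ⟨v, hm⟩
  have h3v : (3 : 𝓞 K) ∈ v.asIdeal := by simpa using (hv v).2 rfl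
  have hn : 3 * M ≠ 0 := mul_ne_zero (by norm_num) hM
  have hnU : principalLevel K ((3 * M : ℕ) : 𝓞 K) ≤ U :=
    (principalLevel_mono (Nat.cast_dvd_cast (dvd_mul_left M 3))).trans hMU
  have hUl : IsLevel U := ⟨(M : 𝓞 K), Nat.cast_ne_zero.2 hM, hMU, hU1⟩
  have hvM : PrimeTo M v :=
    Asai.not_mem_of_coprime (Nat.prime_three.coprime_iff_not_dvd.2 h3) v ((hv v).2 rfl)
  have hvn : ∀ w, PrimeTo (3 * M) w → w ≠ v := fun w hw e => hw (by
    subst e
    rw [Nat.cast_mul]
    exact w.asIdeal.mul_mem_right _ ((hv w).2 rfl))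
  have hfull : ∀ w, PrimeTo M w → HasFullLocal U w := fun w hw =>
    hasFullLocal_of_le hMU (w.intValuation_eq_one_iff.2 hw)
  obtain ⟨ϖ, hϖ⟩ := exists_uniformiser v
  set W := levelFunctions hn Φ U a
  have hmem := fun f => mem_levelFunctions_iff (Φ := Φ) (a := a) (f := f) hn hnU hU1
  let T : Module.End ℂ (Space Φ U → ℂ) :=
    { toFun := heckeOp (heckeMatrix K ϖ)
      map_add' := heckeOp_add hUl _
      map_smul' := heckeOp_smul hUl _ }
  have hWT : ∀ f ∈ W, T f ∈ W := fun f hf => by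
    obtain ⟨hc, he⟩ := (hmem f).1 hf
    refine (hmem _).2 ⟨hc.heckeOp_full hU1 (hfull v hvM) hϖ, fun w hw => ?_⟩
    exact isHeckeEigenAt_heckeOp hUl (hfull v hvM)
      (hasFullLocal_of_le hnU (w.intValuation_eq_one_iff.2 hw)) hϖ (hvn w hw) (he w hw)
  have hφW : φ ∈ W := (hmem φ).2 ⟨isCuspLike_of_isCuspEigen hφ, heig⟩
  have := finiteDimensional_fixedVectors (Φ := Φ) (a := a) (finite_placesOf' hn)
    (supportedIn_natCast hn) hnU hU1
  have hfd : FiniteDimensional ℂ W := Module.Finite.range (levelFun hn Φ U a)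
  have hnt : Nontrivial W := ⟨⟨φ, hφW⟩, 0, fun h => by
    obtain ⟨x, hx⟩ := hφ.nonzero
    exact hx (congrFun (congrArg Subtype.val h) x)⟩
  obtain ⟨μ, hμ⟩ := Module.End.exists_eigenvalue (T.restrict hWT)
  obtain ⟨⟨ψ, hψW⟩, hψT, hψ0⟩ := hμ.exists_hasEigenvector
  have hψ0' : ψ ≠ 0 := fun h => hψ0 (Subtype.ext h)
  have hTψ : heckeOp (heckeMatrix K ϖ) ψ = μ • ψ :=
    congrArg Subtype.val (Module.End.mem_eigenspace_iff.1 hψT)
  obtain ⟨hψc, hψe⟩ := (hmem ψ).1 hψW
  have hsq : (Real.sqrt (Ideal.absNorm v.asIdeal) : ℂ) ≠ 0 := by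
    rw [Ne, Complex.ofReal_eq_zero, Real.sqrt_eq_zero (Nat.cast_nonneg _), Nat.cast_eq_zero,
      Ideal.absNorm_eq_zero_iff]
    exact v.ne_bot
  refine ⟨ψ, v, Function.update a v (μ / Real.sqrt (Ideal.absNorm v.asIdeal)), h3v,
    hψc.isCuspEigen hψ0', fun w hw => Function.update_of_ne hw _ _,
    fun w hw => ⟨Function.update_of_ne (hvn w hw) _ _, hψe w hw⟩, fun w hw => ?_⟩
  by_cases hwv : w = v
  · subst hwv
    intro ϖ' hϖ'
    rw [Function.update_self, mul_div_cancel₀ _ hsq,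
      heckeOp_eq_of_uniformisers (hfull w hw) hϖ hϖ', hTψ]
  · rw [Function.update_of_ne hwv]
    refine hψe w fun h => ?_
    rw [Nat.cast_mul] at h
    rcases w.isPrime.mem_or_mem h with h | h
    · exact hwv ((hv w).1 h)
    · exact hw h

end Fermat.Agent.LT.Lift

end
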