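import Fermat.Agent.LT.Lift.PeriodLevel

/-!
# `StmtThetaLift` from the period theorem
-/

set_option autoImplicit false

open Fermat.Agent.Galois WeierstrassCurve NumberField IsDedekindDomain

noncomputable section

namespace Fermat.Agent.LT.Lift

open Adelic

local notation "𝕆" => 𝓞 fieldF

/-- The shape of the Asai period theorem. -/
def StmtPeriod : Prop :=
  ∀ (W : WeierstrassCurve ℤ) (ρ : GalQ →* GL (Fin 2) (ZMod 3)), IsThreeRep W ρ →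
    ∀ (Φ : Frame fieldF Unit) (M : ℕ) (U : Subgroup (GfK fieldF)) (φ : Space Φ U → ℂ)
      (a : HeightOneSpectrum 𝕆 → ℂ) (X : Set (HeightOneSpectrum 𝕆)),
      M ≠ 0 → principalLevel _ (M : 𝕆) ≤ U → U ≤ principalLevel _ 1 →
      IsCuspEigen φ →
      (∀ v, PrimeTo (3 * M) v → IsHeckeEigenAt φ v (a v) ∧ ‖a v‖ ≤ 2 ∧ (a v).im = 0) →
      SmallPlaceSet X →
      (∀ v, PrimeTo (3 * M) v → ∀ σ, IsFrobOver fieldF v.asIdeal σ →
        v ∉ X ∨ ρ σ ∈ quatSubgroup → a v = octTrace ρ σ) →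
      ∃ (ψ : Space Φ U → ℂ) (M' : ℕ) (_ : NeZero M') (h₀ : GfK fieldF),
        IsCuspEigen ψ ∧ (∀ v, PrimeTo (3 * M) v → IsHeckeEigenAt ψ v (a v)) ∧
        M ∣ M' ∧ (∀ p : ℕ, p.Prime → p ∣ M' → p ∣ M) ∧
        (∀ v : HeightOneSpectrum 𝕆, PrimeTo M v → Aleph.localGL fieldF v h₀ = 1) ∧
        (∀ g ∈ principalLevel fieldF ((3 * M' ^ 2 : ℕ) : 𝕆), h₀⁻¹ * g * h₀ ∈ U) ∧
        haveI : NeZero (3 * M' ^ 2) := ⟨by simp [NeZero.ne M']⟩
        ∑ g : GL (Fin 2) (ZMod (3 * M' ^ 2)),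
          Asai.planePeriod ψ ((Asai.ratLift fieldF g * h₀ : GfK fieldF) : Yf U) ≠ 0

theorem stmtThetaLift_of_period (hP : StmtPeriod) : StmtThetaLift :=
  stmtThetaLift_of_pieces fun W ρ hρ Φ M U φ a X hM hMU hU1 _ hφ heigen hX hpin => by
    obtain ⟨ψ, M', hM', h₀, hψ, hψe, hdvd, hprimes, hh₀, hconj, hsum⟩ :=
      hP W ρ hρ Φ M U φ a X hM hMU hU1 hφ heigen hX hpin
    exact ⟨ψ, hψ, hψe, hasPeriodVector_of_period hMU hdvd hprimes hh₀ hconj hsum⟩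

end Fermat.Agent.LT.Lift
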