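import Fermat.Agent.LT.Lift.Neighbours

/-!
# Hecke adjointness on the space of the lift, without fundamental domains

If the maps `x ↦ g⁻¹ • T j x` of a measure space are permuted by inversion up to a twist `σ`,
integrals of `A * ∑ B ∘ T j` over the quotient equal those of `(∑ A ∘ T j ∘ σ) * B`.  Applied to the
neighbours this moves the Hecke sum onto `A`; applied to functions of `ν` it kills their integrals
against `A`.
-/

set_option autoImplicit false

noncomputable section

namespace Fermat.Agent.LT.Lift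

open MeasureTheory
open Adelic (HSpace)
open Theta (Disc IsNeighbours IsStdEmb)
open Orbit (EisData)
open UpperHalfPlane hiding I
open Matrix
open scoped ENNReal

/-- Fibrewise sums add up over a finite index. -/
theorem hasSum_prod_fintype {J G E : Type*} [Fintype J] [AddCommMonoid E] [TopologicalSpace E]
    [ContinuousAdd E] {f : J × G → E} {a : J → E}
    (h : ∀ j, HasSum (fun g => f (j, g)) (a j)) : HasSum f (∑ j, a j) := by
  classical
  have h1 : ∀ j, HasSum (fun i : J × G => if i.1 = j then f i else 0) (a j) := fun j =>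
    ((Prod.mk_right_injective (β := G) j).hasSum_iff (fun i hi => if_neg fun e => hi ⟨i.2, by
      rw [← e]⟩)).mp (by simpa [Function.comp_def] using h j)
  convert hasSum_sum (s := Finset.univ) fun j _ => h1 j using 1
  funext i
  simp

variable {G : Type*} [Group G] [Countable G] {X : Type*} [MeasurableSpace X] [MulAction G X]
  [MeasurableConstSMul G X] {μ : Measure X} [SMulInvariantMeasure G X μ] {w : X → ℝ≥0∞}

omit [Countable G] [MeasurableSpace X] [MeasurableConstSMul G X] in
theorem hasSum_weight_inv {z : X} (hz : ∑' g : G, w (g • z) = 1) :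
    HasSum (fun g : G => ((w (g⁻¹ • z)).toReal : ℂ)) 1 := by
  have h1 : ∑' g : G, w (g⁻¹ • z) = 1 := ((Equiv.inv G).tsum_eq fun g => w (g • z)).trans hz
  have hs := ENNReal.hasSum_toReal (f := fun g : G => w (g⁻¹ • z)) (by rw [h1]; simp)
  simpa [← ENNReal.tsum_toReal_eq fun g =>
    ne_top_of_le_ne_top (h1 ▸ ENNReal.one_ne_top) (ENNReal.le_tsum g), h1] using
    (Complex.hasSum_ofReal.mpr hs)

/-- Adjointness. -/
theorem integral_mul_sum_comp {J : Type*} [Fintype J] (hw : Geom.IsWeight G μ w)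
    (T : J → X → X) (hT : ∀ j, MeasurePreserving (T j) μ μ) (σ : X → X)
    (hσ : MeasurePreserving σ μ μ) (e : J × G ≃ J × G)
    (he : ∀ (i : J × G) (y : X), i.2⁻¹ • T i.1 ((e i).2⁻¹ • T (e i).1 (σ y)) = y)
    {A B : X → ℂ} (hA : Measurable A) {C : ℝ} (hAb : ∀ x, ‖A x‖ ≤ C)
    (hAi : ∀ (g : G) (x : X), A (g • x) = A x) (hB : Measurable B)
    (hBi : ∀ (g : G) (x : X), B (g • x) = B x)
    (hint : Integrable B (Spectral.quotMeasure μ w)) :
    ∫ x, A x * ∑ j, B (T j x) ∂Spectral.quotMeasure μ w =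
      ∫ y, (∑ j, A (T j (σ y))) * B y ∂Spectral.quotMeasure μ w := by
  have hwlt := Spectral.weight_lt_top hw
  set v : X → ℂ := fun x => ((w x).toReal : ℂ) with hv
  have hvm : Measurable v := hw.1.ennreal_toReal.complex_ofReal
  set S : J × G → X → X := fun i x => i.2⁻¹ • T i.1 x with hS
  have hSp : ∀ i, MeasurePreserving (S i) μ μ := fun i =>
    (measurePreserving_smul (i.2⁻¹) μ).comp (hT i.1)
  set F : J × G → X → ℂ := fun i x => v x * A x * (v (S i x) * B (S i x)) with hF
  set H : J × G → X → ℂ := fun i y => v (S i (σ y)) * A (S i (σ y)) * (v y * B y) with hH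
  have hFm : ∀ i, Measurable (F i) := fun i =>
    (hvm.mul hA).mul ((hvm.comp (hSp i).measurable).mul (hB.comp (hSp i).measurable))
  have hHm : ∀ i, Measurable (H i) := fun i =>
    ((hvm.comp ((hSp i).measurable.comp hσ.measurable)).mul
      (hA.comp ((hSp i).measurable.comp hσ.measurable))).mul (hvm.mul hB)
  have hFH : ∀ i y, F i (S (e i) (σ y)) = H (e i) y := fun i y => by
    simp only [hF, hH]
    rw [show S i (S (e i) (σ y)) = y from he i y]
  have hmp : ∀ i, MeasurePreserving (fun y => S (e i) (σ y)) μ μ := fun i => (hSp _).comp hσ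
  have hgood : ∀ {φ : X → X}, MeasurePreserving φ μ μ →
      ∀ᵐ x ∂μ, ∀ j, ∑' g : G, w (g • T j (φ x)) = 1 := fun {φ} hφ =>
    hφ.quasiMeasurePreserving.ae
      (ae_all_iff.mpr fun j => (hT j).quasiMeasurePreserving.ae hw.2)
  -- absolute convergence
  have hfinH : ∑' i, ∫⁻ y, ‖H i y‖ₑ ∂μ ≠ ⊤ := by
    rw [← lintegral_tsum fun i => (hHm i).enorm.aemeasurable]
    have hBint : Integrable (fun y => v y * B y) μ := by
      have := (integrable_withDensity_iff_integrable_smul' hw.1 hwlt).mp hint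
      simpa [hv, Complex.real_smul] using this
    refine ne_top_of_le_ne_top (ENNReal.mul_ne_top (a := (Fintype.card J : ℝ≥0∞) *
      ENNReal.ofReal C) (by finiteness) hBint.2.ne) ?_
    rw [← lintegral_const_mul' _ _ (by finiteness)]
    refine lintegral_mono_ae ((hgood hσ).mono fun y hy => ?_)
    rw [ENNReal.tsum_prod' (f := fun i => ‖H i y‖ₑ), tsum_fintype]
    refine (Finset.sum_le_sum (g := fun _ => ENNReal.ofReal C * ‖v y * B y‖ₑ)
      fun j _ => ?_).trans ?_
    · calc ∑' g : G, ‖H (j, g) y‖ₑ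
          ≤ ∑' g : G, w (g⁻¹ • T j (σ y)) * (ENNReal.ofReal C * ‖v y * B y‖ₑ) := by
            refine ENNReal.tsum_le_tsum fun g => ?_
            simp only [hH, enorm_mul, hS, ← mul_assoc]
            gcongr
            · simp only [hv, ← ofReal_norm, Complex.norm_real,
                Real.norm_of_nonneg ENNReal.toReal_nonneg]
              exact ENNReal.ofReal_toReal_le
            · rw [← ofReal_norm]
              exact ENNReal.ofReal_le_ofReal (hAb _)
        _ = _ := by
            rw [ENNReal.tsum_mul_right,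
              show ∑' g : G, w (g⁻¹ • T j (σ y)) = 1 from
                ((Equiv.inv G).tsum_eq fun g => w (g • T j (σ y))).trans (hy j), one_mul]
    · simp [mul_assoc]
  have hfinF : ∑' i, ∫⁻ x, ‖F i x‖ₑ ∂μ ≠ ⊤ := by
    have : ∀ i, ∫⁻ x, ‖F i x‖ₑ ∂μ = ∫⁻ y, ‖H (e i) y‖ₑ ∂μ := fun i => by
      rw [← (hmp i).lintegral_comp (hFm i).enorm]
      exact lintegral_congr fun y => by rw [hFH]
    simp only [this]
    rwa [e.tsum_eq fun i => ∫⁻ y, ‖H i y‖ₑ ∂μ]
  calc ∫ x, A x * ∑ j, B (T j x) ∂Spectral.quotMeasure μ w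
      = ∫ x, ∑' i, F i x ∂μ := by
        rw [integral_withDensity_eq_integral_toReal_smul hw.1 hwlt]
        refine integral_congr_ae ((hgood (MeasurePreserving.id μ)).mono fun x hx => ?_)
        beta_reduce
        rw [(hasSum_prod_fintype (f := fun i => F i x) (a := fun j => v x * A x * B (T j x))
          fun j => ?_).tsum_eq]
        · simp [hv, Complex.real_smul, Finset.mul_sum, mul_assoc]
        · simpa [hF, hS, hBi, hv] using
            ((hasSum_weight_inv (hx j)).mul_right (B (T j x))).mul_left (v x * A x)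
    _ = ∑' i, ∫ x, F i x ∂μ := integral_tsum (fun i => (hFm i).aestronglyMeasurable) hfinF
    _ = ∑' i, ∫ y, H (e i) y ∂μ := by
        refine tsum_congr fun i => ?_
        rw [← integral_congr_ae (Filter.Eventually.of_forall (hFH i))]
        conv_lhs => rw [← (hmp i).map_eq]
        exact integral_map (hmp i).measurable.aemeasurable (hFm i).aestronglyMeasurable
    _ = ∑' i, ∫ y, H i y ∂μ := e.tsum_eq fun i => ∫ y, H i y ∂μ
    _ = ∫ y, ∑' i, H i y ∂μ :=
        (integral_tsum (fun i => (hHm i).aestronglyMeasurable) hfinH).symm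
    _ = _ := by
        rw [integral_withDensity_eq_integral_toReal_smul hw.1 hwlt]
        refine integral_congr_ae ((hgood hσ).mono fun y hy => ?_)
        beta_reduce
        rw [(hasSum_prod_fintype (f := fun i => H i y)
          (a := fun j => A (T j (σ y)) * (v y * B y)) fun j => ?_).tsum_eq]
        · simp [hv, Complex.real_smul, ← Finset.sum_mul]
          ring
        · simpa [hH, hS, hAi, hv, mul_assoc, mul_comm, mul_left_comm] using
            (hasSum_weight_inv (hy j)).mul_right (A (T j (σ y)) * (v y * B y))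

/-! ### The neighbours on the space of the lift -/

section Concrete

variable {O : Type*} [CommRing O] {emb : O →+* ℂ} {M : ℕ}

/-- `x ↦ g⁻¹ x` for an integral matrix `g`. -/
def heckeMove (emb : O →+* ℂ) {M : ℕ} (g : Matrix (Fin 2) (Fin 2) O) (x : Pt emb M) : Pt emb M :=
  Pt.mk emb ((matC emb g)⁻¹ • x.pt) ((matRed M g)⁻¹ * x.fin)

/-- The finite scalars fix the function. -/
def IsCentral (A : Pt emb M → ℂ) : Prop :=
  ∀ (c : (O ⧸ modIdeal O M)ˣ) (w : HSpace) (k : Red O M),
    A (Pt.mk emb w (GeneralLinearGroup.scalar (Fin 2) c * k)) = A (Pt.mk emb w k)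

theorem coe_matC {g : Matrix (Fin 2) (Fin 2) O} (hg : emb g.det ≠ 0) :
    (matC emb g : Matrix (Fin 2) (Fin 2) ℂ) = g.map emb := by
  rw [RingHom.map_det, RingHom.mapMatrix_apply] at hg
  rw [matC, dif_pos hg]
  rfl

theorem coe_matRed {g : Matrix (Fin 2) (Fin 2) O}
    (hg : IsUnit (Ideal.Quotient.mk (modIdeal O M) g.det)) :
    (matRed M g : Matrix (Fin 2) (Fin 2) (O ⧸ modIdeal O M)) =
      g.map (Ideal.Quotient.mk (modIdeal O M)) := by
  rw [RingHom.map_det, RingHom.mapMatrix_apply, ← Matrix.isUnit_iff_isUnit_det] at hg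
  rw [matRed, dif_pos hg]
  rfl

theorem measurePreserving_mul_fin [Finite (Red O M)] (a : Red O M) :
    MeasurePreserving (fun k : Red O M => a * k) Measure.count Measure.count := by
  refine ⟨Measurable.of_discrete, Measure.ext fun t _ => ?_⟩
  rw [Measure.map_apply Measurable.of_discrete .of_discrete, Measure.count_apply .of_discrete,
    Measure.count_apply .of_discrete,
    Set.encard_preimage_of_bijective (mul_right_injective _).bijective_of_finite]

theorem measurePreserving_heckeMove [Finite (Red O M)] (g : Matrix (Fin 2) (Fin 2) O) :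
    MeasurePreserving (heckeMove emb (M := M) g) (ptMeasure emb M) (ptMeasure emb M) :=
  (HSpace.measurePreserving_const_smul _).prod (measurePreserving_mul_fin _)

theorem measurable_of_continuous_slices [Finite (Red O M)] {A : Pt emb M → ℂ}
    (hA : ∀ k : Red O M, Continuous fun w => A (Pt.mk emb w k)) : Measurable A :=
  measurable_of_slices fun k => (hA k).measurable

/-- A good weight has finite total mass. -/
theorem isFiniteMeasure_quotMeasure [Finite (Red O M)] {wt : Pt emb M → ℝ≥0∞}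
    (hwt : IsGoodWeight wt) :
    IsFiniteMeasure (Spectral.quotMeasure (ptMeasure emb M) wt) := by
  refine isFiniteMeasure_withDensity ?_
  set D : Set HSpace := {q | 1 / 2 ≤ q.r ∧ ‖q.z‖ ≤ 1} with hD
  have hDm : MeasurableSet D := (measurableSet_le measurable_const
    HSpace.continuous_r.measurable).inter
    (measurableSet_le HSpace.continuous_z.measurable.norm measurable_const)
  have hle : ∀ x : Pt emb M, wt x ≤ (D ×ˢ (Set.univ : Set (Red O M))).indicator 1
      (x.pt, x.fin) := fun x => by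
    by_cases hx : x.pt ∈ D
    · simpa [Set.indicator_of_mem (show (x.pt, x.fin) ∈ D ×ˢ Set.univ from ⟨hx, trivial⟩)] using
        hwt.le_one x
    · rw [show wt x = 0 from not_not.mp fun h0 => hx (hwt.box x h0)]
      exact zero_le
  refine ne_top_of_le_ne_top ?_ (lintegral_mono hle)
  show ∫⁻ q : HSpace × Red O M, (D ×ˢ (Set.univ : Set (Red O M))).indicator 1 q
    ∂HSpace.measure.prod Measure.count ≠ ⊤
  rw [lintegral_indicator_one (hDm.prod MeasurableSet.univ), Measure.prod_prod]
  refine ENNReal.mul_ne_top ?_ (measure_ne_top _ _)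
  rw [HSpace.measure_apply_set hDm]
  refine ne_top_of_le_ne_top ?_ (lintegral_mono_set (t := Metric.closedBall (0 : ℂ) 1 ×ˢ
    Set.Ici (1 / 2 : ℝ)) (by rintro _ ⟨q, ⟨h1, h2⟩, rfl⟩; exact ⟨by simpa [HSpace.coords] using h2, h1⟩))
  rw [show (volume : Measure (ℂ × ℝ)) = volume.prod volume from rfl,
    ← Measure.prod_restrict, lintegral_prod _ (by unfold HSpace.dens; fun_prop)]
  simp only [HSpace.dens]
  rw [lintegral_const, Measure.restrict_apply_univ]
  refine ENNReal.mul_ne_top ?_ measure_closedBall_lt_top.ne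
  rw [setLIntegral_congr Ioi_ae_eq_Ici.symm]
  have h3 := integrableOn_Ioi_rpow_of_lt (show (-3 : ℝ) < -1 by norm_num)
    (show (0 : ℝ) < 1 / 2 by norm_num)
  refine (lt_of_le_of_lt (le_of_eq ?_) h3.2).ne
  refine setLIntegral_congr_fun measurableSet_Ioi fun t ht => ?_
  have ht' : 0 < t := lt_trans (by norm_num) (Set.mem_Ioi.mp ht)
  rw [Real.enorm_eq_ofReal (Real.rpow_nonneg ht'.le _), Real.rpow_neg ht'.le,
    show (3 : ℝ) = ((3 : ℕ) : ℝ) by norm_num, Real.rpow_natCast]

variable (E : EisData O) [NeZero M] {p : ℕ} [Fact p.Prime] {J : Type*} [Fintype J] {ϖ : O}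
  {r : O →+* ZMod p} {h : J → Matrix (Fin 2) (Fin 2) O} (hn : IsNeighbours E p ϖ r h)

include hn

omit [NeZero M] in
theorem emb_pi_ne_zero : emb ϖ ≠ 0 := fun h0 => by
  have := congrArg emb hn.norm_eq
  rw [map_mul, h0, zero_mul, map_natCast] at this
  exact (Nat.cast_ne_zero.mpr (Fact.out : p.Prime).ne_zero) this.symm

omit [NeZero M] in
theorem isUnit_mk_pi (hpM : ¬ p ∣ 3 * M) : IsUnit (Ideal.Quotient.mk (modIdeal O M) ϖ) := by
  have hc : Nat.Coprime p (3 * M ^ 2) := by
    have hp : p.Prime := Fact.out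
    have h3 := hp.coprime_iff_not_dvd.mpr hpM
    exact (Nat.Coprime.coprime_mul_right_right h3).mul_right
      ((Nat.Coprime.coprime_mul_left_right h3).pow_right 2)
  have hu := ((ZMod.isUnit_iff_coprime p (3 * M ^ 2)).mpr hc).map (ratHom O M)
  rw [map_natCast, ← map_natCast (Ideal.Quotient.mk (modIdeal O M)), ← hn.norm_eq, map_mul] at hu
  exact isUnit_of_mul_isUnit_left hu

/-- The finite scalar `ϖ`. -/
def piUnit (hpM : ¬ p ∣ 3 * M) : (O ⧸ modIdeal O M)ˣ := (isUnit_mk_pi E hn hpM).unit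

omit [NeZero M] in
/-- The inverse of the correspondence of `(j, γ)`, up to the finite scalar `ϖ`. -/
theorem heckeMove_starPerm (hpM : ¬ p ∣ 3 * M) (i : J × GL (Fin 2) O) (y : Pt emb M) :
    i.2⁻¹ • heckeMove emb (h i.1) ((starPerm E hn i).2⁻¹ • heckeMove emb (h (starPerm E hn i).1)
      (Pt.mk emb y.pt (GeneralLinearGroup.scalar (Fin 2) (piUnit E hn hpM) * y.fin))) = y := by
  have hC : matC emb (h (starPerm E hn i).1) *
      GeneralLinearGroup.map emb (starPerm E hn i).2 *
      (matC emb (h i.1) * GeneralLinearGroup.map emb i.2) =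
      GeneralLinearGroup.scalar (Fin 2) (Units.mk0 (emb ϖ) (emb_pi_ne_zero E hn)) := by
    refine Units.ext ?_
    have hd : ∀ j, emb (h j).det ≠ 0 := fun j => by rw [hn.det_eq]; exact emb_pi_ne_zero E hn
    have := congrArg (fun g : Matrix (Fin 2) (Fin 2) O => g.map emb) (starPerm_spec E hn i)
    simp only [Matrix.map_mul] at this
    rw [Units.val_mul, Units.val_mul, Units.val_mul, coe_matC (hd _), coe_matC (hd _)]
    refine this.trans ?_
    ext a b
    fin_cases a <;> fin_cases b <;> simp [GeneralLinearGroup.coe_scalar]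
  have hR : matRed M (h (starPerm E hn i).1) * redHom O M (starPerm E hn i).2 *
      (matRed M (h i.1) * redHom O M i.2) =
      GeneralLinearGroup.scalar (Fin 2) (piUnit E hn hpM) := by
    refine Units.ext ?_
    have hd : ∀ j, IsUnit (Ideal.Quotient.mk (modIdeal O M) (h j).det) := fun j => by
      rw [hn.det_eq]; exact isUnit_mk_pi E hn hpM
    have := congrArg (fun g : Matrix (Fin 2) (Fin 2) O => g.map (Ideal.Quotient.mk (modIdeal O M)))
      (starPerm_spec E hn i)
    simp only [Matrix.map_mul] at this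
    rw [Units.val_mul, Units.val_mul, Units.val_mul, coe_matRed (hd _), coe_matRed (hd _),
      map_redHom, map_redHom]
    refine this.trans ?_
    ext a b
    fin_cases a <;> fin_cases b <;> simp [GeneralLinearGroup.coe_scalar, piUnit]
  simp only [heckeMove, Pt.smul_mk, Pt.pt_mk, Pt.fin_mk, map_inv, ← mul_smul, ← mul_assoc]
  show Pt.mk emb _ _ = y
  rw [show ((GeneralLinearGroup.map emb i.2)⁻¹ * (matC emb (h i.1))⁻¹ *
      (GeneralLinearGroup.map emb (starPerm E hn i).2)⁻¹ *
      (matC emb (h (starPerm E hn i).1))⁻¹) =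
    (GeneralLinearGroup.scalar (Fin 2) (Units.mk0 (emb ϖ) (emb_pi_ne_zero E hn)))⁻¹ by
      rw [← hC]; simp [_root_.mul_inv_rev, mul_assoc],
    show ((redHom O M i.2)⁻¹ * (matRed M (h i.1))⁻¹ *
      (redHom O M (starPerm E hn i).2)⁻¹ * (matRed M (h (starPerm E hn i).1))⁻¹) =
    (GeneralLinearGroup.scalar (Fin 2) (piUnit E hn hpM))⁻¹ by
      rw [← hR]; simp [_root_.mul_inv_rev, mul_assoc],
    inv_mul_cancel, one_mul, ← map_inv, HSpace.scalar_smul, Pt.mk_pt_fin]

/-- **Adjointness.** The Hecke sum moves onto the eigenfunction. -/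
theorem integral_mul_sum_heckeMove (hpM : ¬ p ∣ 3 * M) {wt : Pt emb M → ℝ≥0∞}
    (hwt : IsGoodWeight wt) {A B : Pt emb M → ℂ} (hA : Measurable A) {C : ℝ}
    (hAb : ∀ x, ‖A x‖ ≤ C) (hAi : ∀ (γ : GL (Fin 2) O) (x : Pt emb M), A (γ • x) = A x)
    (hAc : IsCentral A) {c : ℂ} (hT : ∀ x, ∑ j, A (heckeMove emb (h j) x) = c * A x)
    (hB : Measurable B) (hBi : ∀ (γ : GL (Fin 2) O) (x : Pt emb M), B (γ • x) = B x)
    (hint : Integrable B (Spectral.quotMeasure (ptMeasure emb M) wt)) :
    ∫ x, A x * ∑ j, B (heckeMove emb (h j) x) ∂Spectral.quotMeasure (ptMeasure emb M) wt =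
      c * ∫ x, A x * B x ∂Spectral.quotMeasure (ptMeasure emb M) wt := by
  have := finite_red E M
  have := countable_of_eisData E
  have := countable_gl (O := O)
  have := smulInvariantMeasure_pt (emb := emb) (M := M)
  rw [integral_mul_sum_comp (G := GL (Fin 2) O) hwt.isWeight (fun j => heckeMove emb (h j))
    (fun j => measurePreserving_heckeMove _)
    (fun y => Pt.mk emb y.pt (GeneralLinearGroup.scalar (Fin 2) (piUnit E hn hpM) * y.fin))
    ((MeasurePreserving.id HSpace.measure).prod (measurePreserving_mul_fin _))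
    (starPerm E hn) (heckeMove_starPerm E hn hpM) hA hAb hAi hB hBi hint,
    ← integral_const_mul]
  refine integral_congr_ae (Filter.Eventually.of_forall fun y => ?_)
  have h1 : A (Pt.mk emb y.pt (GeneralLinearGroup.scalar (Fin 2) (piUnit E hn hpM) * y.fin))
      = A y := hAc (piUnit E hn hpM) y.pt y.fin
  simp only [hT, h1, mul_assoc]

omit [NeZero M] in
theorem nu_matRed (hpM : ¬ p ∣ 3 * M) (j : J) : nu E (matRed M (h j)) = (p : ZMod (3 * M ^ 2)) := by
  rw [nu_eq E (coe_matRed (by rw [hn.det_eq]; exact isUnit_mk_pi E hn hpM)).symm, hn.det_eq,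
    normO_eq E (n := (p : ℤ)) (by rw [hn.norm_eq, Int.cast_natCast]), Int.cast_natCast]

omit hn in
omit [NeZero M] [Fact p.Prime] [Fintype J] in
/-- The indicator of `ν = d`. -/
def nuEq (d : ZMod (3 * M ^ 2)) (x : Pt emb M) : ℂ := if nu E x.fin = d then 1 else 0

omit hn in
omit [NeZero M] [Fact p.Prime] [Fintype J] in
theorem measurable_comp_nu (f : ZMod (3 * M ^ 2) → ℂ) :
    Measurable fun x : Pt emb M => f (nu E x.fin) :=
  (Measurable.of_discrete (f := fun k : Red O M => f (nu E k))).comp Pt.measurable_fin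

omit hn in
omit [Fact p.Prime] [Fintype J] in
theorem integrable_comp_nu {wt : Pt emb M → ℝ≥0∞} (hwt : IsGoodWeight wt)
    (f : ZMod (3 * M ^ 2) → ℂ) : Integrable (fun x : Pt emb M => f (nu E x.fin))
      (Spectral.quotMeasure (ptMeasure emb M) wt) := by
  have := finite_red E M
  have := isFiniteMeasure_quotMeasure hwt
  have : NeZero (3 * M ^ 2) := ⟨by simp [NeZero.ne M]⟩
  exact Integrable.of_bound (measurable_comp_nu E f).aestronglyMeasurable (∑ d, ‖f d‖)
    (Filter.Eventually.of_forall fun x => Finset.single_le_sum (f := fun d => ‖f d‖)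
      (fun d _ => norm_nonneg _) (Finset.mem_univ (nu E x.fin)))

omit [NeZero M] in
theorem sum_nuEq_heckeMove (hpM : ¬ p ∣ 3 * M) (d : ZMod (3 * M ^ 2)) (x : Pt emb M) :
    ∑ j, nuEq E d (heckeMove emb (h j) x) =
      ((p : ℂ) + 1) * nuEq E ((p : ZMod (3 * M ^ 2)) * d) x := by
  have hpu : IsUnit (p : ZMod (3 * M ^ 2)) := by
    refine (ZMod.isUnit_iff_coprime _ _).mpr ?_
    have h3 := (Fact.out : p.Prime).coprime_iff_not_dvd.mpr hpM
    exact (Nat.Coprime.coprime_mul_right_right h3).mul_right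
      ((Nat.Coprime.coprime_mul_left_right h3).pow_right 2)
  have e : ∀ j, (nu E (heckeMove emb (h j) x).fin = d) ↔
      nu E x.fin = (p : ZMod (3 * M ^ 2)) * d := fun j => by
    have h1 : nu E x.fin = (p : ZMod (3 * M ^ 2)) * nu E (heckeMove emb (h j) x).fin := by
      rw [← nu_matRed E hn hpM j, ← nu_mul, heckeMove, Pt.fin_mk, mul_inv_cancel_left]
    rw [h1, hpu.mul_right_inj]
  simp only [nuEq, e, Finset.sum_const, Finset.card_univ, hn.card_eq, nsmul_eq_mul]
  push_cast
  ring

/-- Functions of `ν` integrate to `0` against an eigenfunction with `|c| < p + 1`. -/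
theorem integral_mul_nu_eq_zero_of_hecke (hpM : ¬ p ∣ 3 * M) {wt : Pt emb M → ℝ≥0∞}
    (hwt : IsGoodWeight wt) {A : Pt emb M → ℂ} (hA : Measurable A) {C : ℝ}
    (hAb : ∀ x, ‖A x‖ ≤ C) (hAi : ∀ (γ : GL (Fin 2) O) (x : Pt emb M), A (γ • x) = A x)
    (hAc : IsCentral A) {c : ℂ} (hc : ‖c‖ < p + 1)
    (hT : ∀ x, ∑ j, A (heckeMove emb (h j) x) = c * A x) (η : ZMod (3 * M ^ 2) → ℂ) :
    ∫ x, A x * η (nu E x.fin) ∂Spectral.quotMeasure (ptMeasure emb M) wt = 0 := by
  have : NeZero (3 * M ^ 2) := ⟨by simp [NeZero.ne M]⟩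
  set μ := Spectral.quotMeasure (ptMeasure emb M) wt with hμ
  set I : ZMod (3 * M ^ 2) → ℂ := fun d => ∫ x, A x * nuEq E d x ∂μ with hI'
  have hint : ∀ d, Integrable (nuEq (emb := emb) E d) μ := fun d =>
    integrable_comp_nu E hwt fun d' => if d' = d then 1 else 0
  have key : ∀ d, ((p : ℂ) + 1) * I ((p : ZMod (3 * M ^ 2)) * d) = c * I d := by
    intro d
    have h1 := integral_mul_sum_heckeMove E hn hpM hwt hA hAb hAi hAc hT
      (measurable_comp_nu (emb := emb) E fun d' => if d' = d then 1 else 0)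
      (fun γ x => by rw [Pt.fin_smul, nu_mul, nu_redHom, one_mul]) (hint d)
    simp only [hI', ← integral_const_mul]
    rw [integral_const_mul c]
    refine Eq.trans ?_ h1
    refine integral_congr_ae (Filter.Eventually.of_forall fun x => ?_)
    show _ = A x * ∑ j, nuEq E d (heckeMove emb (h j) x)
    rw [sum_nuEq_heckeMove E hn hpM]
    ring
  obtain ⟨d₀, -, hmax⟩ := Finset.exists_max_image Finset.univ (fun d => ‖I d‖)
    ⟨0, Finset.mem_univ _⟩
  obtain ⟨d, hd⟩ : ∃ d, (p : ZMod (3 * M ^ 2)) * d = d₀ := by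
    have h3 := (Fact.out : p.Prime).coprime_iff_not_dvd.mpr hpM
    have hpu : IsUnit (p : ZMod (3 * M ^ 2)) := (ZMod.isUnit_iff_coprime _ _).mpr
      ((Nat.Coprime.coprime_mul_right_right h3).mul_right
        ((Nat.Coprime.coprime_mul_left_right h3).pow_right 2))
    exact ⟨hpu.unit⁻¹ * d₀, by rw [← mul_assoc, IsUnit.mul_val_inv, one_mul]⟩
  have h0 : ‖I d₀‖ = 0 := by
    have h1 := congrArg norm (key d)
    rw [hd, norm_mul, norm_mul, show ((p : ℂ) + 1) = ((p + 1 : ℕ) : ℂ) by push_cast; ring,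
      Complex.norm_natCast] at h1
    push_cast at h1
    have h2 : ‖c‖ * ‖I d‖ ≤ ‖c‖ * ‖I d₀‖ :=
      mul_le_mul_of_nonneg_left (hmax d (Finset.mem_univ _)) (norm_nonneg c)
    nlinarith [norm_nonneg (I d₀)]
  have hI : ∀ d, I d = 0 := fun d =>
    norm_le_zero_iff.mp ((hmax d (Finset.mem_univ _)).trans h0.le)
  calc ∫ x, A x * η (nu E x.fin) ∂μ = ∫ x, ∑ d, η d * (A x * nuEq E d x) ∂μ :=
        integral_congr_ae (Filter.Eventually.of_forall fun x => by simp [nuEq, mul_comm])
    _ = ∑ d, η d * I d := by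
        rw [integral_finsetSum _ fun d _ =>
          ((hint d).bdd_mul hA.aestronglyMeasurable
            (Filter.Eventually.of_forall hAb)).const_mul _]
        exact Finset.sum_congr rfl fun d _ => integral_const_mul _ _
    _ = 0 := by simp [hI]

end Concrete

/-! ### Consequences for the input of the lift -/

variable {O : Type*} [CommRing O] {emb : O →+* ℂ} {M : ℕ} [NeZero M] {E : EisData O}
  {A : Pt emb M → ℂ} {S : Set ℕ} {a : ℕ → ℂ} {wt : Pt emb M → ℝ≥0∞}

omit [NeZero M] in
theorem norm_sqrt_mul_lt {p : ℕ} (hp : 1 < p) {b : ℂ} (hb : ‖b‖ ≤ 2) :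
    ‖(Real.sqrt p : ℂ) * b‖ < p + 1 := by
  rw [norm_mul, Complex.norm_real, Real.norm_of_nonneg (Real.sqrt_nonneg _)]
  have h1 : (1 : ℝ) < p := by exact_mod_cast hp
  have h2 : 1 < Real.sqrt p := by rw [← Real.sqrt_one]; exact Real.sqrt_lt_sqrt zero_le_one h1
  have h3 := Real.mul_self_sqrt (zero_le_one.trans h1.le)
  nlinarith [norm_nonneg b, mul_pos (sub_pos.mpr h2) (sub_pos.mpr h2)]

/-- Integrals of the eigenfunction against functions of `ν` vanish. -/
theorem LiftInput.integral_mul_nu_eq_zero (hA : LiftInput E emb M A S a) (hcen : IsCentral A)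
    (hwt : IsGoodWeight wt) {p : ℕ} (hp : p.Prime) (hpS : p ∈ S) (η : ZMod (3 * M ^ 2) → ℂ) :
    ∫ x, A x * η (nu E x.fin) ∂Spectral.quotMeasure (ptMeasure emb M) wt = 0 := by
  have := finite_red E M
  obtain ⟨C, hC⟩ := hA.bounded
  obtain ⟨hpM, -, ha, -, ϖ, r, h, hn, hT⟩ := hA.hecke p hpS hp
  have : Fact p.Prime := ⟨hp⟩
  exact integral_mul_nu_eq_zero_of_hecke E hn hpM hwt
    (measurable_of_continuous_slices hA.continuous) hC hA.invariant hcen
    (norm_sqrt_mul_lt hp.one_lt ha) (fun x => hT x.pt x.fin) η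

/-- The eigenfunction has integral `0`. -/
theorem LiftInput.integral_eq_zero (hA : LiftInput E emb M A S a) (hcen : IsCentral A)
    (hwt : IsGoodWeight wt) {p : ℕ} (hp : p.Prime) (hpS : p ∈ S) :
    ∫ x, A x ∂Spectral.quotMeasure (ptMeasure emb M) wt = 0 := by
  simpa using hA.integral_mul_nu_eq_zero hcen hwt hp hpS fun _ => 1

/-- The Hecke sum of the theta kernel integrates to the eigenvalue times the lift. -/
theorem LiftInput.integral_mul_sum_thetaKer (hA : LiftInput E emb M A S a) (hcen : IsCentral A)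
    (hwt : IsGoodWeight wt) (φ : Disc (M ^ 2) → ℂ) (τ : ℍ)
    (hm : Measurable fun x : Pt emb M => thetaKer E φ τ x)
    (hint : Integrable (fun x : Pt emb M => thetaKer E φ τ x)
      (Spectral.quotMeasure (ptMeasure emb M) wt))
    {p : ℕ} [Fact p.Prime] {J : Type*} [Fintype J] {ϖ : O} {r : O →+* ZMod p}
    {h : J → Matrix (Fin 2) (Fin 2) O} (hn : IsNeighbours E p ϖ r h) (hpM : ¬ p ∣ 3 * M)
    (hT : ∀ (w : HSpace) (k : Red O M),
      ∑ j, A (Pt.mk emb ((matC emb (h j))⁻¹ • w) ((matRed M (h j))⁻¹ * k)) =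
        (Real.sqrt p : ℂ) * a p * A (Pt.mk emb w k)) :
    ∫ x, A x * ∑ j, thetaKer E φ τ (Pt.mk emb ((matC emb (h j))⁻¹ • x.pt)
        ((matRed M (h j))⁻¹ * x.fin)) ∂Spectral.quotMeasure (ptMeasure emb M) wt =
      (Real.sqrt p : ℂ) * a p * liftF E wt A φ τ := by
  have := finite_red E M
  obtain ⟨C, hC⟩ := hA.bounded
  exact integral_mul_sum_heckeMove E hn hpM hwt (measurable_of_continuous_slices hA.continuous) hC
    hA.invariant hcen (fun x => hT x.pt x.fin) hm (thetaKer_smul E hA.emb_w φ τ) hint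

end Fermat.Agent.LT.Lift
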