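import Fermat.Agent.LT.Lift.Defs
import Fermat.Agent.LT.Boundary.Statements
import Fermat.Agent.LT.WeightOne.Rescale

/-!
# Assembly of the theta lift statement from the properties of one lift
-/

set_option autoImplicit false

open Fermat.Agent.Galois WeierstrassCurve CongruenceSubgroup NumberField
open scoped MatrixGroups ModularForm ComplexConjugate

noncomputable section

namespace Fermat.Agent.LT.Lift

/-- What the theta lift delivers: a harmonic form on `Γ₁(3) ∩ Γ(L)`, eigen at almost all split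
primes with the octahedral eigenvalues. -/
def HasMixedForm (W : WeierstrassCurve ℤ) (ρ : GalQ →* GL (Fin 2) (ZMod 3)) : Prop :=
  ∃ (L : ℕ) (_ : NeZero L) (h : ℕ) (_ : NeZero h) (F : UpperHalfPlane → ℂ) (S : Set ℕ) (a : ℕ → ℂ)
    (X : Set ℕ),
    ((3 : ℤ) ∣ W.Δ → ¬ 3 ∣ L) ∧
    (∀ γ, WeightOne.InMixed L γ → F ∣[(1 : ℤ)] γ = F) ∧
    (∀ A : SL(2, ℤ), WeightOne.HasHarmExp h (F ∣[(1 : ℤ)] A)) ∧ F ≠ 0 ∧
    (∀ p ∈ S, conj (a p) = a p) ∧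
    (∀ p : ℕ, p ∈ S → ∀ hp : p.Prime, ¬ p ∣ 3 * L ^ 2 ∧
      ∃ γ : SL(2, ℤ), (L : ℤ) ∣ γ 0 1 ∧ (L : ℤ) ∣ γ 1 0 ∧ (3 : ℤ) ∣ γ 1 0 ∧
        (3 * L : ℤ) ∣ γ 1 1 - p ∧
        (haveI : Fact p.Prime := ⟨hp⟩
         (∑ j ∈ Finset.range p, F ∣[(1 : ℤ)] WeightOne.upperM L p j) +
           (F ∣[(1 : ℤ)] γ) ∣[(1 : ℤ)] ModularForm.heckeDiagMatrix p = a p • F)) ∧
    DS.PrimeDensityLE X 0 ∧
    ∀ p : ℕ, p.Prime → ¬ p ∣ 3 * L ^ 2 → p % 3 = 1 → p ∉ X → p ∈ S ∧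
      ∀ A : ValuationSubring Qbar, A.LiesOverPrime p → ∀ σ, A.IsFrobeniusAt σ p →
        a p = octTrace ρ σ

theorem stmtThetaLift_of_hasMixedForm
    (H : ∀ (W : WeierstrassCurve ℤ) (ρ : GalQ →* GL (Fin 2) (ZMod 3)), W.Δ ≠ 0 →
      W.IsSemistableModel → IsThreeRep W ρ → HasDescentForm W ρ → HasMixedForm W ρ) :
    StmtThetaLift := by
  intro W ρ hΔ hW hρ hD
  obtain ⟨L, hL, h, hh, F, S, a, X, h3, hinv, hexp, hF, hreal, hT, hX, hexact⟩ :=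
    H W ρ hΔ hW hρ hD
  obtain ⟨f, ε, h1, hrec, hneb, heig⟩ :=
    WeightOne.exists_eigenform_of_mixed hinv hexp hF S a hreal hT
  have hN : NeZero (3 * L ^ 2) := ⟨by simp [NeZero.ne L]⟩
  refine ⟨3 * L ^ 2, hN, ε, f, fun h3Δ h9 => ?_, h1, hrec, hneb, X, hX,
    fun p hp hpN hp3 hpX A hA σ hσ => ?_⟩
  · have h' : 3 ∣ L ^ 2 :=
      (Nat.mul_dvd_mul_iff_left (by norm_num : 0 < 3)).mp (by simpa using h9)
    exact h3 h3Δ (Nat.prime_three.dvd_of_dvd_pow h')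
  · obtain ⟨hpS, htr⟩ := hexact p hp hpN hp3 hpX
    rw [heig p hpS hp]
    exact htr A hA σ hσ

end Fermat.Agent.LT.Lift
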