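import Fermat.Agent.LT.Lift.Defs

/-!
# The space of the lift: measurability, invariance of the measure
-/

set_option autoImplicit false

noncomputable section

namespace Fermat.Agent.LT.Lift

open MeasureTheory
open Adelic (HSpace)
open Orbit (EisData)

variable {O : Type*} [CommRing O]

theorem countable_of_eisData (E : EisData O) : Countable O :=
  Function.Surjective.countable (f := fun p : ℤ × ℤ => (p.1 : O) + (p.2 : O) * E.w) fun x => by
    obtain ⟨a, b, rfl⟩ := E.repr x
    exact ⟨(a, b), rfl⟩

theorem countable_gl [Countable O] : Countable (GL (Fin 2) O) :=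
  Function.Injective.countable (f := fun g : GL (Fin 2) O => fun i j => g i j) fun _ _ e =>
    Units.ext (Matrix.ext fun i j => congrFun (congrFun e i) j)

theorem finite_quot (E : EisData O) (M : ℕ) [NeZero M] : Finite (O ⧸ modIdeal O M) := by
  have : NeZero (3 * M ^ 2) := ⟨by simp [NeZero.ne M]⟩
  refine Finite.of_surjective (fun p : ZMod (3 * M ^ 2) × ZMod (3 * M ^ 2) =>
    ratHom O M p.1 + ratHom O M p.2 * Ideal.Quotient.mk _ E.w) fun y => ?_
  obtain ⟨x, rfl⟩ := Ideal.Quotient.mk_surjective y
  obtain ⟨a, b, rfl⟩ := E.repr x
  exact ⟨((a : ZMod _), (b : ZMod _)), by simp⟩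

theorem finite_red (E : EisData O) (M : ℕ) [NeZero M] : Finite (Red O M) := by
  have := finite_quot E M
  infer_instance

variable {emb : O →+* ℂ} {M : ℕ}

theorem Pt.measurable_pt : Measurable (Pt.pt : Pt emb M → HSpace) := measurable_fst

theorem Pt.measurable_fin : Measurable (Pt.fin : Pt emb M → Red O M) := measurable_snd

theorem Pt.measurable_mk (k : Red O M) : Measurable fun w : HSpace => Pt.mk emb w k :=
  measurable_id.prodMk measurable_const

@[simp] theorem Pt.mk_pt_fin (x : Pt emb M) : Pt.mk emb x.pt x.fin = x := rfl

theorem Pt.pt_smul (γ : GL (Fin 2) O) (x : Pt emb M) :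
    (γ • x).pt = Matrix.GeneralLinearGroup.map emb γ • x.pt := rfl

theorem Pt.fin_smul (γ : GL (Fin 2) O) (x : Pt emb M) :
    (γ • x).fin = redHom O M γ * x.fin := rfl

instance : MeasurableConstSMul (GL (Fin 2) O) (Pt emb M) :=
  ⟨fun γ => ((measurable_const_smul (Matrix.GeneralLinearGroup.map emb γ)).comp
    Pt.measurable_pt).prodMk ((Measurable.of_discrete
      (f := fun k : Red O M => redHom O M γ * k)).comp Pt.measurable_fin)⟩

theorem sigmaFinite_pt [Finite (Red O M)] : SigmaFinite (ptMeasure emb M) := by
  have : IsFiniteMeasure (Measure.count : Measure (Red O M)) := by infer_instance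
  exact (inferInstance : SigmaFinite (HSpace.measure.prod (Measure.count : Measure (Red O M))))

theorem smulInvariantMeasure_pt [Finite (Red O M)] :
    SMulInvariantMeasure (GL (Fin 2) O) (Pt emb M) (ptMeasure emb M) := by
  refine ⟨fun γ s hs => ?_⟩
  have h1 : MeasurePreserving (fun w : HSpace => Matrix.GeneralLinearGroup.map emb γ • w)
      HSpace.measure HSpace.measure := HSpace.measurePreserving_const_smul _
  have h2 : MeasurePreserving (fun k : Red O M => redHom O M γ * k)
      Measure.count Measure.count := by
    refine ⟨Measurable.of_discrete, ?_⟩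
    refine Measure.ext fun t _ => ?_
    rw [Measure.map_apply Measurable.of_discrete .of_discrete, Measure.count_apply .of_discrete,
      Measure.count_apply .of_discrete,
      Set.encard_preimage_of_bijective (mul_right_injective _).bijective_of_finite]
  have h := h1.prod h2
  exact h.measure_preimage hs.nullMeasurableSet

/-- Integrals over the space are sums over the finite coordinate. -/
theorem integral_pt [Finite (Red O M)] [Fintype (Red O M)] {F : Pt emb M → ℂ}
    (hF : Integrable F (ptMeasure emb M)) :
    ∫ x, F x ∂ptMeasure emb M = ∑ k : Red O M, ∫ w, F (Pt.mk emb w k) ∂HSpace.measure := by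
  have hF' : Integrable (fun p : HSpace × Red O M => F p) (HSpace.measure.prod Measure.count) := hF
  show ∫ p : HSpace × Red O M, F p ∂HSpace.measure.prod Measure.count = _
  rw [integral_prod_symm _ hF', integral_count]
  rfl

/-- Measurability can be checked on each slice. -/
theorem measurable_of_slices [Finite (Red O M)] {β : Type*} [MeasurableSpace β]
    {F : Pt emb M → β} (hF : ∀ k : Red O M, Measurable fun w => F (Pt.mk emb w k)) :
    Measurable F := by
  refine (measurable_from_prod_countable_left (f := fun p : HSpace × Red O M => F p) fun k => ?_)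
  exact hF k

/-- Integrability can be checked on each slice. -/
theorem integrable_pt_iff [Finite (Red O M)] {F : Pt emb M → ℂ} (hF : Measurable F) :
    Integrable F (ptMeasure emb M) ↔
      ∀ k : Red O M, Integrable (fun w => F (Pt.mk emb w k)) HSpace.measure := by
  have h := integrable_prod_iff' (μ := HSpace.measure) (ν := (Measure.count : Measure (Red O M)))
    (f := fun p : HSpace × Red O M => F p) hF.aestronglyMeasurable
  refine h.trans ⟨fun h' k => ?_, fun h' => ⟨Filter.Eventually.of_forall h', Integrable.of_finite⟩⟩
  exact (ae_iff_of_countable.mp h'.1) k (by simp)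

end Fermat.Agent.LT.Lift
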