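import Fermat.Agent.LT.Adelic.HypMeasure
import Fermat.Agent.LT.Adelic.Space
import Fermat.Agent.LT.Arch.Bounds
import Fermat.Agent.LT.Data.Galois
import Fermat.Agent.LT.Geom.Weight
import Fermat.Agent.LT.Spectral.Quotient
import Fermat.Agent.LT.Theta.Count
import Fermat.Agent.LT.Theta.Transform

/-!
# The theta lift of a function on `GL₂(O) \ (ℍ₃ × GL₂(O/3M²))`: definitions

`Pt emb M` is `ℍ₃ × GL₂(O/(3M²))` with the diagonal action of `GL₂(O)`.  For a function `A` on it,
`liftF A φ τ` is the integral of `A` against the theta series of the rotated weight, taken with a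
weight `wt` (a partition of unity for the group action).
-/

set_option autoImplicit false

noncomputable section

namespace Fermat.Agent.LT.Lift

open MeasureTheory Filter
open Adelic (HSpace sphTransform)
open Theta (Disc actD theta IsNeighbours)
open Orbit (EisData)
open UpperHalfPlane hiding I
open scoped Topology Real ENNReal MatrixGroups

variable {O : Type*} [CommRing O]

/-- The matrix modulus `3 M²`. -/
abbrev modIdeal (O : Type*) [CommRing O] (M : ℕ) : Ideal O :=
  Ideal.span {((3 * (M ^ 2 : ℕ) : ℤ) : O)}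

/-- `GL₂(O / 3M²)`. -/
abbrev Red (O : Type*) [CommRing O] (M : ℕ) : Type _ := GL (Fin 2) (O ⧸ modIdeal O M)

/-- Reduction of an integral invertible matrix. -/
def redHom (O : Type*) [CommRing O] (M : ℕ) : GL (Fin 2) O →* Red O M :=
  Matrix.GeneralLinearGroup.map (Ideal.Quotient.mk (modIdeal O M))

open scoped Classical in
/-- The matrix seen in `GL₂(ℂ)` (junk value `1` if it is singular). -/
def matC (emb : O →+* ℂ) (g : Matrix (Fin 2) (Fin 2) O) : GL (Fin 2) ℂ :=
  if h : (g.map emb).det ≠ 0 then Matrix.GeneralLinearGroup.mkOfDetNeZero (g.map emb) h else 1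

open scoped Classical in
/-- The matrix seen in `GL₂(O / 3M²)` (junk value `1` if it is not invertible there). -/
def matRed (M : ℕ) (g : Matrix (Fin 2) (Fin 2) O) : Red O M :=
  if h : IsUnit (g.map (Ideal.Quotient.mk (modIdeal O M))) then h.unit else 1

/-- A matrix over `O` reducing to `k`. -/
def redLift {M : ℕ} (k : Red O M) : Matrix (Fin 2) (Fin 2) O :=
  (k : Matrix (Fin 2) (Fin 2) (O ⧸ modIdeal O M)).map Quotient.out

/-- The space of the lift: a point of `ℍ₃` and an element of `GL₂(O/3M²)`. -/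
def Pt (emb : O →+* ℂ) (M : ℕ) : Type _ :=
  have := emb
  HSpace × Red O M

/-- A point of the space. -/
def Pt.mk (emb : O →+* ℂ) {M : ℕ} (w : HSpace) (k : Red O M) : Pt emb M := (w, k)

variable {emb : O →+* ℂ} {M : ℕ}

/-- The archimedean coordinate. -/
def Pt.pt (x : Pt emb M) : HSpace := x.1

/-- The finite coordinate. -/
def Pt.fin (x : Pt emb M) : Red O M := x.2

@[simp] theorem Pt.pt_mk (w : HSpace) (k : Red O M) : (Pt.mk emb w k).pt = w := rfl

@[simp] theorem Pt.fin_mk (w : HSpace) (k : Red O M) : (Pt.mk emb w k).fin = k := rfl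

instance : MulAction (GL (Fin 2) O) (Pt emb M) where
  smul γ x := Pt.mk emb (Matrix.GeneralLinearGroup.map emb γ • x.pt) (redHom O M γ * x.fin)
  one_smul x := by
    show Pt.mk emb _ _ = x
    simp only [map_one, one_smul, one_mul]
    rfl
  mul_smul γ δ x := by
    show Pt.mk emb _ _ = Pt.mk emb _ _
    simp only [map_mul, mul_smul, mul_assoc]
    rfl

theorem Pt.smul_mk (γ : GL (Fin 2) O) (w : HSpace) (k : Red O M) :
    γ • Pt.mk emb w k =
      Pt.mk emb (Matrix.GeneralLinearGroup.map emb γ • w) (redHom O M γ * k) := rfl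

instance measurableSpaceRed : MeasurableSpace (Red O M) := ⊤

instance discreteMeasurableSpaceRed : DiscreteMeasurableSpace (Red O M) := ⟨fun _ => trivial⟩

instance : MeasurableSpace (Pt emb M) := inferInstanceAs (MeasurableSpace (HSpace × Red O M))

/-- Hyperbolic volume times counting measure. -/
def ptMeasure (emb : O →+* ℂ) (M : ℕ) : Measure (Pt emb M) :=
  (HSpace.measure.prod Measure.count : Measure (HSpace × Red O M))

/-- A weight which is bounded by `1` and lives in a Siegel box. -/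
structure IsGoodWeight (wt : Pt emb M → ℝ≥0∞) : Prop where
  isWeight : Geom.IsWeight (GL (Fin 2) O) (ptMeasure emb M) wt
  le_one : ∀ x, wt x ≤ 1
  box : ∀ x, wt x ≠ 0 → 1 / 2 ≤ x.pt.r ∧ ‖x.pt.z‖ ≤ 1

/-- The rotated weight `φ ∘ k`. -/
def rotW (E : EisData O) (k : Red O M) (φ : Disc (M ^ 2) → ℂ) : Disc (M ^ 2) → ℂ :=
  fun r => φ (actD E (M ^ 2) (redLift k) r)

/-- The theta kernel: invariant under `GL₂(O)`. -/
def thetaKer [NeZero M] (E : EisData O) (φ : Disc (M ^ 2) → ℂ) (τ : ℍ) (x : Pt emb M) : ℂ :=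
  theta M (rotW E x.fin⁻¹ φ) τ x.pt

/-- The theta lift. -/
def liftF [NeZero M] (E : EisData O) (wt : Pt emb M → ℝ≥0∞) (A : Pt emb M → ℂ)
    (φ : Disc (M ^ 2) → ℂ) : ℍ → ℂ :=
  fun τ => ∫ x, A x * thetaKer E φ τ x ∂Spectral.quotMeasure (ptMeasure emb M) wt

/-- What the lift needs to know about the automorphic function. -/
structure LiftInput (E : EisData O) (emb : O →+* ℂ) (M : ℕ) (A : Pt emb M → ℂ) (S : Set ℕ)
    (a : ℕ → ℂ) : Prop where
  emb_w : emb E.w = -(1 / 2) + (Real.sqrt 3 : ℂ) / 2 * Complex.I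
  invariant : ∀ (γ : GL (Fin 2) O) (x : Pt emb M), A (γ • x) = A x
  continuous : ∀ k : Red O M, Continuous fun w => A (Pt.mk emb w k)
  bounded : ∃ C : ℝ, ∀ x, ‖A x‖ ≤ C
  /-- every kernel of quartic decay acts by its transform at `0` -/
  spherical : ∀ ker : ℝ → ℂ, Continuous ker → Arch.IsQuartic ker → ∀ (w : HSpace) (k : Red O M),
    Integrable (fun τ => ker (HSpace.coshDist w τ) * A (Pt.mk emb τ k)) HSpace.measure ∧
      ∫ τ, ker (HSpace.coshDist w τ) * A (Pt.mk emb τ k) ∂HSpace.measure =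
        sphTransform ker 0 * A (Pt.mk emb w k)
  /-- the constant term at infinity vanishes over every finite coordinate (by invariance this is
  the constant term at every cusp) -/
  zero_mean : ∀ (r : ℝ) (hr : 0 < r) (k : Red O M), Tendsto
    (fun R : ℝ => ⨍ z in Metric.closedBall (0 : ℂ) R, A (Pt.mk emb ⟨z, r, hr⟩ k) ∂volume)
    atTop (𝓝 0)
  set_nonempty : S.Nonempty
  hecke : ∀ p ∈ S, ∀ hp : p.Prime, ¬ p ∣ 3 * M ∧ p % 3 = 1 ∧ ‖a p‖ ≤ 2 ∧
    starRingEnd ℂ (a p) = a p ∧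
    ∃ (ϖ : O) (r : O →+* ZMod p) (h : Fin (p + 1) → Matrix (Fin 2) (Fin 2) O),
      (haveI : Fact p.Prime := ⟨hp⟩; IsNeighbours E p ϖ r h) ∧
      ∀ (w : HSpace) (k : Red O M),
        ∑ j, A (Pt.mk emb ((matC emb (h j))⁻¹ • w) ((matRed M (h j))⁻¹ * k)) =
          (Real.sqrt p : ℂ) * a p * A (Pt.mk emb w k)

/-- The period along the plane `Im z = 0` modulo `SL₂(ℤ)`. -/
def planePer (A : Pt emb M → ℂ) (k : Red O M) : ℂ :=
  ∫ q in {q : ℝ × ℝ | 1 ≤ q.1 ^ 2 + q.2 ^ 2 ∧ |q.1| ≤ 1 / 2 ∧ 0 < q.2},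
    (if h : 0 < q.2 then (q.2 ^ 2)⁻¹ • A (Pt.mk emb ⟨(q.1 : ℂ), q.2, h⟩ k) else 0)

theorem natCast_lvl_eq_zero (O : Type*) [CommRing O] (M : ℕ) :
    ((3 * M ^ 2 : ℕ) : O ⧸ modIdeal O M) = 0 := by
  rw [← map_natCast (Ideal.Quotient.mk (modIdeal O M)), Ideal.Quotient.eq_zero_iff_mem]
  exact Ideal.mem_span_singleton.mpr (by simp)

/-- `ℤ/3M² → O/3M²`. -/
def ratHom (O : Type*) [CommRing O] (M : ℕ) : ZMod (3 * M ^ 2) →+* O ⧸ modIdeal O M :=
  (Ideal.Quotient.lift (Ideal.span {((3 * M ^ 2 : ℕ) : ℤ)}) (Int.castRingHom (O ⧸ modIdeal O M))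
    fun x hx => by
      obtain ⟨y, rfl⟩ := Ideal.mem_span_singleton.mp hx
      rw [map_mul, map_natCast, natCast_lvl_eq_zero, zero_mul]).comp
    (Int.quotientSpanNatEquivZMod (3 * M ^ 2)).symm.toRingHom

/-- Matrices with rational integer entries, in `GL₂(O/3M²)`. -/
def ratRed (O : Type*) [CommRing O] (M : ℕ) : GL (Fin 2) (ZMod (3 * M ^ 2)) →* Red O M :=
  Matrix.GeneralLinearGroup.map (ratHom O M)

/-- The periods needed for nonvanishing. -/
def HasNonzeroPeriod [NeZero M] (A : Pt emb M → ℂ) : Prop :=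
  ∑ g : GL (Fin 2) (ZMod (3 * M ^ 2)), planePer A (ratRed O M g) ≠ 0

end Fermat.Agent.LT.Lift
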