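import Fermat.Agent.LT.Orbit.Lift
import Fermat.Agent.LT.WeightOne.Rescale

/-!
# Diamond elements for the mixed level and the two choices of the level of the lift
-/

set_option autoImplicit false

open scoped MatrixGroups

namespace Fermat.Agent.LT.Lift

/-- An element of `SL₂(ℤ)` congruent to `diag(p⁻¹, p)` modulo `3L`. -/
theorem exists_diamond {L p : ℕ} (hL : L ≠ 0) (hp : p.Prime) (hpL : ¬ p ∣ 3 * L) :
    ∃ γ : SL(2, ℤ), (L : ℤ) ∣ γ 0 1 ∧ (L : ℤ) ∣ γ 1 0 ∧ (3 : ℤ) ∣ γ 1 0 ∧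
      (3 * L : ℤ) ∣ γ 0 1 ∧ (3 * L : ℤ) ∣ γ 1 0 ∧ (3 * L : ℤ) ∣ γ 1 1 - p := by
  have hco : IsCoprime (p : ℤ) ((3 * L : ℕ) : ℤ) :=
    Int.isCoprime_iff_gcd_eq_one.mpr (by
      rw [Int.gcd_natCast_natCast]
      exact (hp.coprime_iff_not_dvd).mpr hpL)
  obtain ⟨u, v, huv⟩ := hco
  have hN : ((3 * L : ℕ) : ℤ) ≠ 0 := by exact_mod_cast (by omega : 3 * L ≠ 0)
  obtain ⟨γ, -, h01, h10, h11⟩ := Orbit.exists_sl2_lift hN (A := u) (B := 0) (C := 0) (D := p)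
    ⟨-v, by linear_combination huv⟩
  rw [sub_zero] at h01 h10
  push_cast at h01 h10 h11
  exact ⟨γ, (dvd_mul_left _ _).trans h01, (dvd_mul_left _ _).trans h10,
    (dvd_mul_right _ _).trans h10, h01, h10, h11⟩

/-- The level at which the lift is rescaled. -/
def liftLevel (M : ℕ) : ℕ := if 3 ∣ M then 3 * M ^ 2 else M ^ 2

theorem liftLevel_ne_zero {M : ℕ} (hM : M ≠ 0) : liftLevel M ≠ 0 := by
  rw [liftLevel]; split_ifs <;> simp [hM]

theorem three_not_dvd_liftLevel {M : ℕ} (hM : ¬ 3 ∣ M) : ¬ 3 ∣ liftLevel M := by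
  rw [liftLevel, if_neg hM]
  exact fun h => hM (Nat.prime_three.dvd_of_dvd_pow h)

theorem not_dvd_liftLevel {M p : ℕ} (hp : p.Prime) (h : ¬ p ∣ 3 * M) :
    ¬ p ∣ 3 * liftLevel M := by
  have h3 : ¬ p ∣ 3 := fun hh => h (hh.mul_right M)
  have hM : ¬ p ∣ M := fun hh => h (hh.mul_left 3)
  have hM2 : ¬ p ∣ M ^ 2 := fun hh => hM (hp.dvd_of_dvd_pow hh)
  rw [liftLevel]
  split_ifs <;> simp [hp.dvd_mul, h3, hM2]

theorem dvd_three_mul_of_dvd_level {M p : ℕ} (hp : p.Prime) (h : p ∣ 3 * M) :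
    p ∣ 3 * liftLevel M ^ 2 := by
  rcases hp.dvd_mul.mp h with h3 | hM
  · exact h3.mul_right _
  · refine Dvd.dvd.mul_left ?_ 3
    have hM2 : p ∣ M ^ 2 := dvd_pow hM two_ne_zero
    refine dvd_pow ?_ two_ne_zero
    rw [liftLevel]
    split_ifs
    exacts [hM2.mul_left 3, hM2]

theorem three_mul_sq_dvd {M : ℕ} {x : ℤ} (h3 : (3 : ℤ) ∣ x) (hL : ((liftLevel M : ℕ) : ℤ) ∣ x) :
    ((3 * M ^ 2 : ℕ) : ℤ) ∣ x := by
  by_cases hM : 3 ∣ M
  · rwa [liftLevel, if_pos hM] at hL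
  · rw [liftLevel, if_neg hM] at hL
    push_cast at hL ⊢
    refine IsCoprime.mul_dvd ?_ h3 hL
    refine IsCoprime.pow_right ?_
    exact (Int.prime_three.coprime_iff_not_dvd).mpr (by exact_mod_cast hM)

end Fermat.Agent.LT.Lift
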