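import Fermat.Agent.LT.Lift.Defs
import Fermat.Agent.LT.Theta.Identity

/-!
# Invariance of the theta kernel; how `SL₂(ℤ)` moves it

`GL₂(O)` fixes the kernel.  An element of `SL₂(ℤ)` acting in `τ` changes the weight in a way
depending on the rotation `k` through `ν(k) = N(det k) mod 3M²` only.
-/

set_option autoImplicit false

noncomputable section

namespace Fermat.Agent.LT.Lift

open Adelic (HSpace)
open Theta
open Orbit (EisData)
open UpperHalfPlane hiding I
open scoped MatrixGroups ModularForm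

variable {O : Type*} [CommRing O] (E : EisData O)

/-! ### The norm -/

include E in
theorem exists_normO (x : O) : ∃ n : ℤ, x * E.conj x = (n : O) :=
  E.conj_eq_self_iff.mp (by rw [map_mul, E.conj_conj, mul_comm])

/-- The norm `x x̄`. -/
def normO (x : O) : ℤ := (exists_normO E x).choose

theorem normO_spec (x : O) : x * E.conj x = (normO E x : O) := (exists_normO E x).choose_spec

theorem normO_eq {x : O} {n : ℤ} (h : x * E.conj x = (n : O)) : normO E x = n :=
  E.intCast_inj ((normO_spec E x).symm.trans h)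

theorem normO_mul (x y : O) : normO E (x * y) = normO E x * normO E y :=
  normO_eq E (by rw [map_mul, Int.cast_mul, ← normO_spec, ← normO_spec]; ring)

theorem normO_intCast (n : ℤ) : normO E (n : O) = n * n :=
  normO_eq E (by rw [map_intCast, Int.cast_mul])

theorem normO_one : normO E (1 : O) = 1 := by
  simpa using normO_intCast E 1

theorem normO_nonneg (x : O) : 0 ≤ normO E x := by
  obtain ⟨a, b, rfl⟩ := E.repr x
  rw [normO_eq E (n := a * a - a * b + b * b) (by
    simp only [map_add, map_mul, map_intCast, E.conj_w]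
    push_cast
    linear_combination -((b : O) * (b : O)) * E.w_eq)]
  nlinarith [sq_nonneg (a - b), sq_nonneg a, sq_nonneg b]

theorem normO_of_isUnit {x : O} (h : IsUnit x) : normO E x = 1 := by
  obtain ⟨u, rfl⟩ := h
  have h1 : normO E (u : O) * normO E ((u⁻¹ : Oˣ) : O) = 1 := by
    rw [← normO_mul, Units.mul_inv, normO_one]
  rcases Int.eq_one_or_neg_one_of_mul_eq_one h1 with h2 | h2
  · exact h2
  · linarith [normO_nonneg E (u : O)]

theorem normO_congr {x y : O} {N : ℤ} (h : (N : O) ∣ x - y) : N ∣ normO E x - normO E y := by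
  refine (E.intCast_dvd_intCast).mp ?_
  obtain ⟨c, hc⟩ := h
  refine ⟨c * E.conj x + y * E.conj c, ?_⟩
  rw [Int.cast_sub, ← normO_spec, ← normO_spec, show x = y + (N : O) * c by rw [← hc]; ring]
  simp only [map_add, map_mul, map_intCast]
  ring

variable {M : ℕ}

/-! ### Matrices modulo `3 M²` -/

theorem dvd_of_map_eq {g g' : Matrix (Fin 2) (Fin 2) O}
    (h : g.map (Ideal.Quotient.mk (modIdeal O M)) = g'.map (Ideal.Quotient.mk (modIdeal O M)))
    (i j : Fin 2) : ((3 * (M ^ 2 : ℕ) : ℤ) : O) ∣ g i j - g' i j :=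
  Ideal.mem_span_singleton.mp (Ideal.Quotient.eq.mp (congrFun (congrFun h i) j))

theorem actD_eq_of_map_eq {g g' : Matrix (Fin 2) (Fin 2) O}
    (h : g.map (Ideal.Quotient.mk (modIdeal O M)) = g'.map (Ideal.Quotient.mk (modIdeal O M)))
    (r : Disc (M ^ 2)) : actD E (M ^ 2) g r = actD E (M ^ 2) g' r :=
  actD_congr E (M ^ 2) (dvd_of_map_eq h) r

theorem map_redLift (k : Red O M) : (redLift k).map (Ideal.Quotient.mk (modIdeal O M)) =
    (k : Matrix (Fin 2) (Fin 2) (O ⧸ modIdeal O M)) := by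
  ext i j
  simp [redLift, Ideal.Quotient.mk_out]

theorem map_redLift_mul (a b : Red O M) :
    (redLift a * redLift b).map (Ideal.Quotient.mk (modIdeal O M)) =
      (redLift (a * b)).map (Ideal.Quotient.mk (modIdeal O M)) := by
  rw [Matrix.map_mul, map_redLift, map_redLift, map_redLift, Units.val_mul]

theorem map_redLift_one :
    (redLift (1 : Red O M)).map (Ideal.Quotient.mk (modIdeal O M)) =
      (1 : Matrix (Fin 2) (Fin 2) O).map (Ideal.Quotient.mk (modIdeal O M)) := by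
  rw [map_redLift, Units.val_one, Matrix.map_one _ (map_zero _) (map_one _)]

theorem map_redHom (γ : GL (Fin 2) O) :
    ((redHom O M γ : Red O M) : Matrix (Fin 2) (Fin 2) (O ⧸ modIdeal O M)) =
      (γ : Matrix (Fin 2) (Fin 2) O).map (Ideal.Quotient.mk (modIdeal O M)) := rfl

/-- `ν(k) = N(det k) mod 3 M²`. -/
def nu (k : Red O M) : ZMod (3 * M ^ 2) := (normO E (redLift k).det : ZMod (3 * M ^ 2))

theorem nu_eq {k : Red O M} {g : Matrix (Fin 2) (Fin 2) O}
    (h : g.map (Ideal.Quotient.mk (modIdeal O M)) =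
      (k : Matrix (Fin 2) (Fin 2) (O ⧸ modIdeal O M))) :
    nu E k = (normO E g.det : ZMod (3 * M ^ 2)) := by
  rw [nu, ZMod.intCast_eq_intCast_iff_dvd_sub]
  push_cast
  refine normO_congr E ?_
  have h1 : Ideal.Quotient.mk (modIdeal O M) g.det =
      Ideal.Quotient.mk (modIdeal O M) (redLift k).det := by
    rw [RingHom.map_det, RingHom.map_det, RingHom.mapMatrix_apply, RingHom.mapMatrix_apply, h,
      map_redLift]
  have h2 := Ideal.mem_span_singleton.mp (Ideal.Quotient.eq.mp h1)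
  simpa using h2

theorem nu_mul (a b : Red O M) : nu E (a * b) = nu E a * nu E b := by
  rw [nu_eq E ((map_redLift_mul a b).trans (map_redLift _)), Matrix.det_mul, normO_mul, Int.cast_mul]
  rfl

theorem nu_redHom (γ : GL (Fin 2) O) : nu E (redHom O M γ) = 1 := by
  rw [nu_eq E (map_redHom γ).symm, normO_of_isUnit E (Matrix.isUnits_det_units γ), Int.cast_one]

theorem nu_one : nu E (1 : Red O M) = 1 := by
  rw [← map_one (redHom O M), nu_redHom]

theorem nu_inv_mul (k : Red O M) : nu E k⁻¹ * nu E k = 1 := by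
  rw [← nu_mul, inv_mul_cancel, nu_one]

/-! ### Rotated weights -/

theorem rotW_mul (a b : Red O M) (φ : Disc (M ^ 2) → ℂ) :
    rotW E (a * b) φ = rotW E b (rotW E a φ) := by
  funext r
  rw [rotW, rotW, rotW, ← actD_mul, actD_eq_of_map_eq E (map_redLift_mul a b).symm]

theorem rotW_one (φ : Disc (M ^ 2) → ℂ) : rotW E (1 : Red O M) φ = φ := by
  funext r
  obtain ⟨y, rfl⟩ := dcls_surjective (M ^ 2) r
  rw [rotW, actD_eq_of_map_eq E map_redLift_one, actD_dcls, actK_one]

/-- The action of `k` on the discriminant group as a bijection. -/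
def rotEquiv (k : Red O M) : Disc (M ^ 2) ≃ Disc (M ^ 2) where
  toFun := actD E (M ^ 2) (redLift k)
  invFun := actD E (M ^ 2) (redLift k⁻¹)
  left_inv r := by
    rw [← actD_mul, actD_eq_of_map_eq E (map_redLift_mul k⁻¹ k), inv_mul_cancel]
    obtain ⟨y, rfl⟩ := dcls_surjective (M ^ 2) r
    rw [actD_eq_of_map_eq E map_redLift_one, actD_dcls, actK_one]
  right_inv r := by
    rw [← actD_mul, actD_eq_of_map_eq E (map_redLift_mul k k⁻¹), mul_inv_cancel]
    obtain ⟨y, rfl⟩ := dcls_surjective (M ^ 2) r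
    rw [actD_eq_of_map_eq E map_redLift_one, actD_dcls, actK_one]

theorem isTrivialAtThree_rotW {k : Red O M} {φ : Disc (M ^ 2) → ℂ}
    (hφ : IsTrivialAtThree M φ) : IsTrivialAtThree M (rotW E k φ) := by
  intro y hy
  rw [rotW, actD_dcls] at hy
  have h := hφ _ hy
  rw [q3_actK E _ y _ (normO_spec E (redLift k).det)] at h
  refine (Int.prime_three.dvd_or_dvd h).resolve_left fun h3 => ?_
  set f := ZMod.castHom (dvd_mul_right 3 (M ^ 2)) (ZMod 3) with hf
  have h1 : f (nu E k) = 0 := by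
    rw [nu, map_intCast]
    exact (ZMod.intCast_zmod_eq_zero_iff_dvd _ _).mpr (by exact_mod_cast h3)
  have h2 := congrArg f (nu_inv_mul E k)
  rw [map_mul, map_one, h1, mul_zero] at h2
  exact zero_ne_one h2

variable {emb : O →+* ℂ} [NeZero M]

omit [NeZero M] in
theorem absDet_map (hι : IsStdEmb E emb) (γ : GL (Fin 2) O) :
    HSpace.absDet (Matrix.GeneralLinearGroup.map emb γ) = 1 := by
  have h : emb (γ : Matrix (Fin 2) (Fin 2) O).det * emb (E.conj (γ : Matrix (Fin 2) (Fin 2) O).det)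
      = 1 := by
    rw [← map_mul, normO_spec, normO_of_isUnit E (Matrix.isUnits_det_units γ), Int.cast_one,
      map_one]
  rw [hι.map_conj, Complex.mul_conj'] at h
  have hd : HSpace.absDet (Matrix.GeneralLinearGroup.map emb γ) =
      ‖emb (γ : Matrix (Fin 2) (Fin 2) O).det‖ := by
    rw [HSpace.absDet, RingHom.map_det]
    rfl
  have h' : HSpace.absDet (Matrix.GeneralLinearGroup.map emb γ) ^ 2 = 1 := by
    rw [hd]; exact_mod_cast h
  exact (pow_eq_one_iff_of_nonneg (HSpace.absDet_pos _).le two_ne_zero).mp h'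

omit [NeZero M] in
theorem hermC_dv_smul_actK (hι : IsStdEmb E emb) (γ : GL (Fin 2) O) (c : ℝ) (y : IVec) :
    hermC (c • dv (actK E γ y)) = (HSpace.absDet (Matrix.GeneralLinearGroup.map emb γ) : ℂ)⁻¹ •
      ((Matrix.GeneralLinearGroup.map emb γ : Matrix (Fin 2) (Fin 2) ℂ) * hermC (c • dv y) *
        (Matrix.GeneralLinearGroup.map emb γ : Matrix (Fin 2) (Fin 2) ℂ).conjTranspose) := by
  rw [absDet_map E hι, hermC_smul, hermC_smul, hι.hermC_dv_actK, Complex.ofReal_one, inv_one,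
    one_smul, Matrix.mul_smul, Matrix.smul_mul]
  rfl

omit [NeZero M] in
/-- `gK` at the translated point and vector. -/
theorem gK_smul_actK (hι : IsStdEmb E emb) (γ : GL (Fin 2) O) (τ : ℍ) (w : HSpace) (c : ℝ)
    (y : IVec) :
    gK τ (Matrix.GeneralLinearGroup.map emb γ • w) (c • dv (actK E γ y)) = gK τ w (c • dv y) :=
  gK_equivariant τ _ w _ _ (hermC_dv_smul_actK E hι γ c y)

omit [NeZero M] in
/-- The last adapted coordinate is invariant. -/
theorem frame_smul_actK (hι : IsStdEmb E emb) (γ : GL (Fin 2) O) (w : HSpace) (y : IVec) :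
    frame (Matrix.GeneralLinearGroup.map emb γ • w) (dv (actK E γ y)) 3 = frame w (dv y) 3 := by
  have h := hermC_dv_smul_actK E hι γ 1 y
  rw [one_smul, one_smul] at h
  exact_mod_cast frame_three_equivariant _ h w

theorem q3_actK_unit (γ : GL (Fin 2) O) (y : IVec) : q3 (actK E γ y) = q3 y := by
  rw [q3_actK E _ y _ (normO_spec E _), normO_of_isUnit E (Matrix.isUnits_det_units γ), one_mul]

omit [NeZero M] in
/-- The rotated weight of the translated point at the translated vector. -/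
theorem rotW_fin_smul (φ : Disc (M ^ 2) → ℂ) (γ : GL (Fin 2) O) (x : Pt emb M) (y : IVec) :
    rotW E (γ • x).fin⁻¹ φ (dcls (M ^ 2) (actK E γ y)) = rotW E x.fin⁻¹ φ (dcls (M ^ 2) y) := by
  rw [show (γ • x).fin = redHom O M γ * x.fin from rfl, mul_inv_rev, rotW_mul]
  show rotW E x.fin⁻¹ φ (actD E (M ^ 2) (redLift (redHom O M γ)⁻¹) _) = _
  congr 1
  rw [← actD_dcls E, ← actD_mul, actD_eq_of_map_eq E (g' := (1 : Matrix (Fin 2) (Fin 2) O))]
  · rw [actD_dcls, actK_one]
  · rw [Matrix.map_mul, map_redLift, ← map_redHom, ← Units.val_mul, inv_mul_cancel, Units.val_one,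
      Matrix.map_one _ (map_zero _) (map_one _)]

omit [NeZero M] in
/-- One term of the kernel is covariant. -/
theorem thetaTerm_smul (hι : IsStdEmb E emb) (φ : Disc (M ^ 2) → ℂ) (τ : ℍ) (γ : GL (Fin 2) O)
    (x : Pt emb M) (y : IVec) :
    rotW E (γ • x).fin⁻¹ φ (dcls (M ^ 2) (actK E γ y)) *
        gK τ (γ • x).pt ((M : ℝ)⁻¹ • dv (actK E γ y)) =
      rotW E x.fin⁻¹ φ (dcls (M ^ 2) y) * gK τ x.pt ((M : ℝ)⁻¹ • dv y) := by
  rw [rotW_fin_smul, show (γ • x).pt = Matrix.GeneralLinearGroup.map emb γ • x.pt from rfl,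
    gK_smul_actK E hι]

/-- The theta kernel is invariant under `GL₂(O)`. -/
theorem thetaKer_smul (hι : IsStdEmb E emb) (φ : Disc (M ^ 2) → ℂ) (τ : ℍ) (γ : GL (Fin 2) O)
    (x : Pt emb M) : thetaKer E φ τ (γ • x) = thetaKer E φ τ x := by
  let e : IVec ≃ IVec :=
    ⟨actK E γ, actK E ((γ⁻¹ : GL (Fin 2) O) : Matrix (Fin 2) (Fin 2) O),
      fun y => by rw [← actK_mul, Units.inv_mul, actK_one],
      fun y => by rw [← actK_mul, Units.mul_inv, actK_one]⟩
  rw [thetaKer, thetaKer, theta, theta, ← e.tsum_eq]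
  exact tsum_congr fun y => thetaTerm_smul E hι φ τ γ x y

/-! ### Slashing in `τ` -/

variable (M) in
/-- `A` moves every rotated weight through `ν` only. -/
def Intertwines (A : SL(2, ℤ)) : Prop :=
  ∀ (φ : Disc (M ^ 2) → ℂ) (n n' : ℤ), (n : ZMod (3 * M ^ 2)) * n' = 1 →
    ∃ ψ : Disc (M ^ 2) → ℂ, ∀ k : Red O M, nu E k = n → ∀ w,
      thetaFun M (rotW E k φ) w ∣[(1 : ℤ)] A = thetaFun M (rotW E k ψ) w

omit [NeZero M] in
theorem Intertwines.mul {A B : SL(2, ℤ)} (hA : Intertwines E M A) (hB : Intertwines E M B) :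
    Intertwines E M (A * B) := by
  intro φ n n' hn
  obtain ⟨ψ, hψ⟩ := hA φ n n' hn
  obtain ⟨χ, hχ⟩ := hB ψ n n' hn
  exact ⟨χ, fun k hk w => by rw [SlashAction.slash_mul, hψ k hk w, hχ k hk w]⟩

omit [NeZero M] in
theorem intertwines_one : Intertwines E M (1 : SL(2, ℤ)) :=
  fun φ _ _ _ => ⟨φ, fun _ _ _ => SlashAction.slash_one _ _⟩

omit [NeZero M] in
theorem dvd_normO_mul_sub {k : Red O M} {n n' : ℤ} (hn : (n : ZMod (3 * M ^ 2)) * n' = 1)
    (hk : nu E k = n) : ((3 * M ^ 2 : ℕ) : ℤ) ∣ n' * normO E (redLift k).det - 1 := by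
  rw [← ZMod.intCast_eq_intCast_iff_dvd_sub, Int.cast_one, Int.cast_mul,
    show (normO E (redLift k).det : ZMod (3 * M ^ 2)) = n from hk]
  linear_combination -hn

theorem translWeight_rotW {k : Red O M} {n n' : ℤ} (hn : (n : ZMod (3 * M ^ 2)) * n' = 1)
    (hk : nu E k = n) (m : ℤ) (φ : Disc (M ^ 2) → ℂ) :
    translWeight M m (rotW E k φ) = rotW E k (translWeight M (m * n') φ) := by
  funext r
  obtain ⟨y, rfl⟩ := dcls_surjective (M ^ 2) r
  have : NeZero (3 * M ^ 2) := ⟨by simp [NeZero.ne M]⟩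
  simp only [translWeight, rotW, actD_dcls]
  rw [ez_q3_congr (N := M ^ 2) m (dcls_out (M ^ 2) _),
    ez_q3_congr (N := M ^ 2) (m * n') (dcls_out (M ^ 2) _)]
  congr 1
  refine ez_eq_of_dvd ?_
  rw [q3_actK E _ y _ (normO_spec E _)]
  obtain ⟨u, hu⟩ := dvd_normO_mul_sub E hn hk
  exact ⟨-(u * m * q3 y), by linear_combination (-(m * q3 y)) * hu⟩

theorem w3_actK (g : Matrix (Fin 2) (Fin 2) O) (a b : IVec) :
    w3 (actK E g a) (actK E g b) = normO E g.det * w3 a b := by
  have h := q3_actK E g (a + b) _ (normO_spec E _)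
  rw [map_add, q3_add, q3_add, q3_actK E g a _ (normO_spec E _),
    q3_actK E g b _ (normO_spec E _)] at h
  linarith

theorem ez_w3_out (a b : IVec) :
    ez (3 * M ^ 2) (w3 (dcls (M ^ 2) a).out (dcls (M ^ 2) b).out) = ez (3 * M ^ 2) (w3 a b) := by
  rw [ez_w3_congr (N := M ^ 2) _ (dcls_out (M ^ 2) (dcls (M ^ 2) b)), w3_comm,
    ez_w3_congr (N := M ^ 2) _ (dcls_out (M ^ 2) (dcls (M ^ 2) a)), w3_comm]

theorem fourierWeight_rotW {k : Red O M} {n n' : ℤ} (hn : (n : ZMod (3 * M ^ 2)) * n' = 1)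
    (hk : nu E k = n) (φ : Disc (M ^ 2) → ℂ) :
    fourierWeight M (rotW E k φ) = rotW E k fun u => fourierWeight M φ (n' • u) := by
  funext r
  obtain ⟨y, rfl⟩ := dcls_surjective (M ^ 2) r
  have : NeZero (3 * M ^ 2) := ⟨by simp [NeZero.ne M]⟩
  show fourierWeight M (rotW E k φ) (dcls (M ^ 2) y) =
    fourierWeight M φ (n' • actD E (M ^ 2) (redLift k) (dcls (M ^ 2) y))
  rw [actD_dcls, ← map_zsmul]
  simp only [fourierWeight]
  congr 1
  refine Fintype.sum_equiv (rotEquiv E k) _ _ fun s => ?_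
  obtain ⟨z, rfl⟩ := dcls_surjective (M ^ 2) s
  show φ (actD E (M ^ 2) (redLift k) (dcls (M ^ 2) z)) * _ =
    φ (actD E (M ^ 2) (redLift k) (dcls (M ^ 2) z)) *
      ez (3 * M ^ 2) (w3 _ (actD E (M ^ 2) (redLift k) (dcls (M ^ 2) z)).out)
  rw [actD_dcls, ez_w3_out, ez_w3_out, w3_comm (n' • _), w3_smul_right, w3_actK, w3_comm z]
  congr 1
  refine ez_eq_of_dvd ?_
  obtain ⟨u, hu⟩ := dvd_normO_mul_sub E hn hk
  exact ⟨-(u * w3 y z), by linear_combination (-(w3 y z)) * hu⟩

theorem intertwines_T_zpow (m : ℤ) : Intertwines E M (ModularGroup.T ^ m) := fun φ n n' hn =>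
  ⟨translWeight M (m * n') φ, fun k hk w => by
    rw [thetaFun_slash_T_zpow, translWeight_rotW E hn hk]⟩

theorem intertwines_S : Intertwines E M ModularGroup.S := fun φ n n' hn =>
  ⟨fun u => fourierWeight M φ (n' • u), fun k hk w => by
    rw [thetaFun_slash_S, fourierWeight_rotW E hn hk]⟩

/-- Every element of `SL₂(ℤ)` intertwines. -/
theorem intertwines (A : SL(2, ℤ)) : Intertwines E M A := by
  have hS : ModularGroup.S⁻¹ = ModularGroup.S * ModularGroup.S * ModularGroup.S := by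
    refine inv_eq_of_mul_eq_one_left (Subtype.ext ?_)
    simp only [Matrix.SpecialLinearGroup.coe_mul, ModularGroup.coe_S,
      Matrix.SpecialLinearGroup.coe_one]
    ext i j; fin_cases i <;> fin_cases j <;> simp [Matrix.mul_apply, Fin.sum_univ_two]
  have hA : A ∈ Subgroup.closure {ModularGroup.S, ModularGroup.T} := by
    rw [SpecialLinearGroup.SL2Z_generators]; trivial
  induction hA using Subgroup.closure_induction_right with
  | one => exact intertwines_one E
  | mul_right x _ y hy ih =>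
    rcases hy with rfl | rfl
    · exact ih.mul E (intertwines_S E)
    · exact ih.mul E (by simpa using intertwines_T_zpow (M := M) E 1)
  | mul_inv_cancel x _ y hy ih =>
    rcases hy with rfl | rfl
    · rw [hS]
      exact ih.mul E (((intertwines_S E).mul E (intertwines_S E)).mul E (intertwines_S E))
    · exact ih.mul E (by simpa using intertwines_T_zpow (M := M) E (-1))

/-- An element of `SL₂(ℤ)` acting in `τ` turns the kernel into kernels of new weights, one for
each value of `ν`. -/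
theorem exists_slash_thetaKer (φ : Disc (M ^ 2) → ℂ) (A : SL(2, ℤ)) :
    ∃ ψ : ZMod (3 * M ^ 2) → Disc (M ^ 2) → ℂ, ∀ x : Pt emb M,
      (fun τ => thetaKer E φ τ x) ∣[(1 : ℤ)] A =
        fun τ => thetaKer E (ψ (nu E x.fin)) τ x := by
  have : NeZero (3 * M ^ 2) := ⟨by simp [NeZero.ne M]⟩
  have key : ∀ d : ZMod (3 * M ^ 2), ∃ ψ, ∀ k : Red O M, nu E k = d → ∀ w,
      thetaFun M (rotW E k⁻¹ φ) w ∣[(1 : ℤ)] A = thetaFun M (rotW E k⁻¹ ψ) w := by
    intro d
    by_cases hd : ∃ k : Red O M, nu E k = d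
    · obtain ⟨k₀, hk₀⟩ := hd
      obtain ⟨ψ, hψ⟩ := intertwines (M := M) E A φ (normO E (redLift k₀⁻¹).det) (d.val : ℤ) (by
        rw [Int.cast_natCast, ZMod.natCast_zmod_val, ← hk₀]
        exact nu_inv_mul E k₀)
      refine ⟨ψ, fun k hk w => hψ k⁻¹ ?_ w⟩
      show nu E k⁻¹ = nu E k₀⁻¹
      calc nu E k⁻¹ = nu E k⁻¹ * (nu E k₀⁻¹ * nu E k₀) := by rw [nu_inv_mul, mul_one]
        _ = nu E k₀⁻¹ * (nu E k⁻¹ * nu E k) := by rw [hk₀, hk]; ring
        _ = _ := by rw [nu_inv_mul, mul_one]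
    · exact ⟨0, fun k hk => absurd ⟨k, hk⟩ hd⟩
  choose ψ hψ using key
  exact ⟨ψ, fun x => hψ _ x.fin rfl x.pt⟩

end Fermat.Agent.LT.Lift
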