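import Fermat.Agent.LT.Lift.Basic
import Fermat.Agent.LT.Aleph.Mean
import Fermat.Agent.LT.Aleph.Horospherical
import Fermat.Agent.LT.Lift.Invariance
import Mathlib.Algebra.Module.ZLattice.Basic
import Mathlib.Analysis.SpecialFunctions.ImproperIntegrals

/-!
# The null shell of the theta lift

The vectors `k` with `q3 k = 0` contribute nothing to the lift: `k = 0` pairs with the integral of
`A`, and every other one is a translate of `(0, a, 0, 0)`, whose kernel depends on the height only;
unfolding to the translations by `3M² O` leaves the integral of `A` over a period parallelogram,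
which vanishes when the averages over large discs tend to zero.
-/

set_option autoImplicit false

noncomputable section

namespace Fermat.Agent.LT.Lift

open MeasureTheory Filter Set Complex
open Adelic (HSpace)
open Theta (Disc dcls dv gK actK actD IVec q3)
open Orbit (EisData)
open UpperHalfPlane hiding I
open scoped Topology Real ENNReal MatrixGroups

variable {O : Type*} [CommRing O] {emb : O →+* ℂ} {M : ℕ}

/-- One term of the theta kernel. -/
def latTerm (E : EisData O) (φ : Disc (M ^ 2) → ℂ) (τ : ℍ) (k : IVec) (x : Pt emb M) : ℂ :=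
  rotW E x.fin⁻¹ φ (dcls (M ^ 2) k) * gK τ x.pt ((M : ℝ)⁻¹ • dv k)

theorem continuous_gK_point (τ : ℍ) (v : Theta.RVec) : Continuous fun w : HSpace => gK τ w v := by
  have hz := HSpace.continuous_z
  have hr := HSpace.continuous_r
  have h3 : Continuous fun w : HSpace => Theta.frame w v 3 := by
    simp only [Theta.frame_apply, Theta.frameFun, Matrix.cons_val]
    refine (Continuous.add (Continuous.div (by fun_prop) hr fun w => w.r_pos.ne') ?_).div_const 2
    fun_prop
  simp only [Theta.gK_eq]
  fun_prop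

theorem measurable_latTerm [Finite (Red O M)] (E : EisData O) (φ : Disc (M ^ 2) → ℂ) (τ : ℍ)
    (k : IVec) : Measurable fun x : Pt emb M => latTerm E φ τ k x :=
  measurable_of_slices fun j => by
    simp only [latTerm, Pt.fin_mk, Pt.pt_mk]
    exact (continuous_gK_point τ _).measurable.const_mul _

theorem latTerm_zero (E : EisData O) (φ : Disc (M ^ 2) → ℂ) (τ : ℍ) (x : Pt emb M) :
    latTerm E φ τ 0 x = φ 0 * (Real.sqrt τ.im : ℂ) := by
  have : dv 0 = 0 := by
    have h := Theta.dv_smul_gmap 0 0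
    simpa using h
  simp [latTerm, rotW, this, gK, Theta.gStd]

/-! ### Units of `O` -/

theorem eq_one_of_norm_eq_one (E : EisData O) {e : O} (he : e * E.conj e = 1)
    (h3 : ((3 : ℤ) : O) ∣ e - 1) : e = 1 := by
  obtain ⟨p, q, rfl⟩ := E.repr e
  have h : p * p - p * q + q * q = 1 := E.intCast_inj (by
    simp only [map_add, map_mul, map_intCast, E.conj_w] at he
    push_cast
    linear_combination he + (q : O) * (q : O) * E.w_eq)
  obtain ⟨⟨u, hu⟩, v, hv⟩ : (3 : ℤ) ∣ p - 1 ∧ (3 : ℤ) ∣ q := E.dvd_iff.mp (by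
    rw [show (((p - 1 : ℤ)) : O) + (q : O) * E.w = (p : O) + (q : O) * E.w - 1 by push_cast; ring]
    exact h3)
  have hp : -1 ≤ p ∧ p ≤ 1 := by constructor <;> nlinarith [sq_nonneg (p - 2 * q)]
  have hq : -1 ≤ q ∧ q ≤ 1 := by constructor <;> nlinarith [sq_nonneg (2 * p - q)]
  obtain rfl : q = 0 := by omega
  obtain rfl : p = 1 := by omega
  simp

/-! ### Translations -/

/-- `(1, b; 0, 1)`. -/
def translGL (b : O) : GL (Fin 2) O :=
  ⟨!![1, b; 0, 1], !![1, -b; 0, 1], by simp [Matrix.one_fin_two], by simp [Matrix.one_fin_two]⟩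

theorem coe_translGL (b : O) : (translGL b : Matrix (Fin 2) (Fin 2) O) = !![1, b; 0, 1] := rfl

theorem map_translGL_smul (b : O) (w : HSpace) :
    Matrix.GeneralLinearGroup.map emb (translGL b) • w = ⟨w.z + emb b, w.r, w.r_pos⟩ := by
  have hden : HSpace.denSq (Matrix.GeneralLinearGroup.map emb (translGL b)) w = 1 := by
    simp [HSpace.denSq, translGL]
  refine HSpace.ext ?_ ?_
  · rw [HSpace.smul_z, hden]; simp [translGL]
  · rw [HSpace.smul_r, hden]; simp [HSpace.absDet, translGL, Matrix.det_fin_two]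

theorem redHom_translGL {b : O} (hb : b ∈ modIdeal O M) : redHom O M (translGL b) = 1 := by
  refine Units.ext (Matrix.ext fun i j => ?_)
  have h0 := Ideal.Quotient.eq_zero_iff_mem.mpr hb
  fin_cases i <;> fin_cases j <;>
    simp [redHom, translGL, Matrix.GeneralLinearGroup.map_apply, h0]

theorem mem_modIdeal {b : O} : b ∈ modIdeal O M ↔ ∃ c : O, b = ((3 * (M ^ 2 : ℕ) : ℤ) : O) * c :=
  Ideal.mem_span_singleton

/-! ### The period parallelogram -/

section Lattice

variable (E : EisData O) (hι : Theta.IsStdEmb E emb) [NeZero M]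

include hι in
theorem linearIndependent_period :
    LinearIndependent ℝ ![((3 * M ^ 2 : ℕ) : ℂ), ((3 * M ^ 2 : ℕ) : ℂ) * emb E.w] := by
  have hN : ((3 * M ^ 2 : ℕ) : ℝ) ≠ 0 := by simp [NeZero.ne M]
  refine LinearIndependent.pair_iff.mpr fun s t hst => ?_
  rw [show emb E.w = _ from hι] at hst
  have him := congrArg Complex.im hst
  have hre := congrArg Complex.re hst
  simp [Complex.real_smul, ← Complex.ofReal_natCast, -Nat.cast_mul, -Nat.cast_pow,
    Complex.div_ofNat_re, Complex.div_ofNat_im] at him hre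
  have ht : t = 0 := by
    rcases him with h | h
    · exact h
    · exact absurd h (NeZero.ne M)
  subst ht
  simp at hre
  refine ⟨?_, rfl⟩
  rcases hre with h | h
  · exact h
  · exact absurd h (NeZero.ne M)

/-- The lattice `3M² O` as a basis of `ℂ`. -/
def periodBas : Module.Basis (Fin 2) ℝ ℂ :=
  basisOfLinearIndependentOfCardEqFinrank (linearIndependent_period E hι (M := M))
    (by simp [Complex.finrank_real_complex])

/-- The period parallelogram of `3M² O`. -/
def perPar : Set ℂ := ZSpan.fundamentalDomain (periodBas E hι (M := M))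

theorem measurableSet_perPar : MeasurableSet (perPar E hι (M := M)) :=
  ZSpan.fundamentalDomain_measurableSet _

theorem volume_perPar_lt_top : volume (perPar E hι (M := M)) < ⊤ :=
  (ZSpan.fundamentalDomain_isBounded _).measure_lt_top

theorem repr_add_emb (z : ℂ) (p q : ℤ) :
    (periodBas E hι (M := M)).repr
        (z + emb (((3 * (M ^ 2 : ℕ) : ℤ) : O) * ((p : O) + (q : O) * E.w))) =
      (periodBas E hι (M := M)).repr z + Finsupp.single 0 (p : ℝ) + Finsupp.single 1 (q : ℝ) := by
  have h0 : periodBas E hι (M := M) 0 = ((3 * M ^ 2 : ℕ) : ℂ) := by simp [periodBas]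
  have h1 : periodBas E hι (M := M) 1 = ((3 * M ^ 2 : ℕ) : ℂ) * emb E.w := by simp [periodBas]
  have h : z + emb (((3 * (M ^ 2 : ℕ) : ℤ) : O) * ((p : O) + (q : O) * E.w)) =
      z + ((p : ℝ) • periodBas E hι (M := M) 0 + (q : ℝ) • periodBas E hι (M := M) 1) := by
    rw [h0, h1]
    simp [Complex.real_smul, map_ofNat]
    ring
  rw [h, map_add, map_add, map_smul, map_smul, Module.Basis.repr_self, Module.Basis.repr_self,
    Finsupp.smul_single, Finsupp.smul_single, smul_eq_mul, smul_eq_mul, mul_one, mul_one,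
    ← add_assoc]

/-- Every point has exactly one translate in the parallelogram. -/
theorem existsUnique_perPar (z : ℂ) :
    ∃! b : O, b ∈ modIdeal O M ∧ z + emb b ∈ perPar E hι (M := M) := by
  set c := (periodBas E hι (M := M)).repr z with hc
  refine ⟨((3 * (M ^ 2 : ℕ) : ℤ) : O) * (((-⌊c 0⌋ : ℤ) : O) + ((-⌊c 1⌋ : ℤ) : O) * E.w),
    ⟨mem_modIdeal.mpr ⟨_, rfl⟩, ?_⟩, ?_⟩
  · rw [perPar, ZSpan.mem_fundamentalDomain]
    intro i
    rw [repr_add_emb, ← hc]
    fin_cases i <;> simp [Int.self_sub_floor, ← sub_eq_add_neg, Int.fract_nonneg, Int.fract_lt_one]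
  · rintro b ⟨hb, hmem⟩
    obtain ⟨x, rfl⟩ := mem_modIdeal.mp hb
    obtain ⟨p, q, rfl⟩ := E.repr x
    rw [perPar, ZSpan.mem_fundamentalDomain] at hmem
    have h0 := hmem 0
    have h1 := hmem 1
    rw [repr_add_emb, ← hc] at h0 h1
    simp only [Finsupp.add_apply, Finsupp.single_eq_same, ne_eq, Fin.reduceEq, not_false_eq_true,
      Finsupp.single_eq_of_ne, add_zero, mem_Ico] at h0 h1
    have hp : ⌊c 0⌋ = -p := Int.floor_eq_iff.mpr ⟨by push_cast; linarith, by push_cast; linarith⟩
    have hq : ⌊c 1⌋ = -q := Int.floor_eq_iff.mpr ⟨by push_cast; linarith, by push_cast; linarith⟩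
    rw [hp, hq, neg_neg, neg_neg]

/-- A periodic function whose averages over discs tend to `0` has integral `0` over a period. -/
theorem setIntegral_perPar_eq_zero {f : ℂ → ℂ} (hf : Measurable f) {C : ℝ} (hC : ∀ z, ‖f z‖ ≤ C)
    (hper : ∀ b ∈ modIdeal O M, ∀ z, f (emb b + z) = f z)
    (hmean : Tendsto (fun R : ℝ => ⨍ z in Metric.closedBall (0 : ℂ) R, f z ∂volume) atTop (𝓝 0)) :
    ∫ z in perPar E hι (M := M), f z = 0 := by
  set e : (Unit → ℂ) ≃ₗ[ℝ] ℂ := LinearEquiv.funUnique Unit ℝ ℂ
  set bV : Module.Basis (Fin 2) ℝ (Unit → ℂ) := (periodBas E hι (M := M)).map e.symm with hbV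
  have hmp : MeasurePreserving (fun v : Unit → ℂ => v ()) volume volume :=
    volume_preserving_funUnique Unit ℂ
  have hemb : MeasurableEmbedding (fun v : Unit → ℂ => v ()) :=
    (MeasurableEquiv.funUnique Unit ℂ).measurableEmbedding
  have hpre : (fun v : Unit → ℂ => v ()) ⁻¹' perPar E hι (M := M) = ZSpan.fundamentalDomain bV := by
    ext v
    simp [perPar, ZSpan.mem_fundamentalDomain, hbV, e]
  obtain ⟨D, hD⟩ := (ZSpan.fundamentalDomain_isBounded bV).subset_closedBall (0 : Unit → ℂ)
  have hspan : ∀ l ∈ Submodule.span ℤ (Set.range bV), ∀ v : Unit → ℂ,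
      f ((l + v) ()) = f (v ()) := by
    intro l hl
    induction hl using Submodule.span_induction with
    | mem x hx =>
      obtain ⟨i, rfl⟩ := hx
      intro v
      fin_cases i
      · have := hper _ (mem_modIdeal.mpr ⟨1, rfl⟩) (v ())
        simpa [hbV, e, periodBas, map_ofNat] using this
      · have := hper _ (mem_modIdeal.mpr ⟨E.w, rfl⟩) (v ())
        simpa [hbV, e, periodBas, map_ofNat] using this
    | zero => simp
    | add x y _ _ hx hy =>
      intro v
      have h1 := hx (y + v)
      have h2 := hy v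
      simp only [Pi.add_apply] at h1 h2 ⊢
      rw [add_assoc, h1, h2]
    | smul n x _ hx =>
      intro v
      have key : Function.Periodic f (x ()) := fun z => by
        have := hx (fun _ => z)
        simpa [add_comm] using this
      have := key.zsmul n (v ())
      simpa [add_comm] using this
  have hperV : ∀ (l : (Submodule.span ℤ (Set.range bV)).toAddSubgroup) (v : Unit → ℂ),
      f (((l : Unit → ℂ) + v) ()) = f (v ()) := fun l v => hspan l l.2 v
  have : Countable (Submodule.span ℤ (Set.range bV)).toAddSubgroup :=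
    inferInstanceAs (Countable (Submodule.span ℤ (Set.range bV)))
  have hm := Aleph.hasMean_of_periodic (L := (Submodule.span ℤ (Set.range bV)).toAddSubgroup)
    (B := ZSpan.fundamentalDomain bV) (ZSpan.isAddFundamentalDomain' bV volume) hD
    (ZSpan.measure_fundamentalDomain_ne_zero _) (f := fun v => f (v ()))
    (hf.comp (measurable_pi_apply ())) (fun v => hC _) hperV
  have hball : ∀ R : ℝ, ⨍ z in Metric.closedBall (0 : ℂ) R, f z ∂volume =
      ⨍ v in Set.univ.pi (fun _ : Unit => Metric.closedBall (0 : ℂ) R), f (v ()) := fun R => by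
    have hset : (Set.univ.pi fun _ : Unit => Metric.closedBall (0 : ℂ) R) =
        (fun v : Unit → ℂ => v ()) ⁻¹' Metric.closedBall 0 R := by
      ext v; simp ; exact ⟨fun h => h (), fun h _ => h⟩
    rw [setAverage_eq, setAverage_eq, hset, hmp.setIntegral_preimage_emb hemb, Measure.real,
      Measure.real, hmp.measure_preimage Metric.isClosed_closedBall.nullMeasurableSet]
  simp only [hball] at hmean
  have h0 := tendsto_nhds_unique hm.tendsto_average hmean
  rcases mul_eq_zero.mp h0 with h | h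
  · rw [inv_eq_zero, Complex.ofReal_eq_zero, ENNReal.toReal_eq_zero_iff] at h
    rcases h with h | h
    · exact absurd h (ZSpan.measure_fundamentalDomain_ne_zero _)
    · exact absurd h (ZSpan.fundamentalDomain_isBounded bV).measure_lt_top.ne
  · rwa [← hpre, hmp.setIntegral_preimage_emb hemb] at h

end Lattice

/-! ### Vectors of norm zero -/

/-- `(0, a, 0, 0)`: the form is `diag(a, 0)` up to a scalar. -/
def nullVec (a : ℤ) : IVec := ![0, a, 0, 0]

theorem exists_actK_eq_nullVec [IsDomain O] [IsBezout O] (E : EisData O) {k : IVec} (hk : k ≠ 0)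
    (hq : q3 k = 0) : ∃ (γ : GL (Fin 2) O) (a : ℤ), a ≠ 0 ∧ actK E γ k = nullVec a := by
  obtain ⟨v, hv0, hv⟩ := Matrix.exists_vecMul_eq_zero_iff.mpr
    (show (Theta.skewMat E k).det = 0 by rw [Theta.det_skewMat, hq, Int.cast_zero])
  obtain ⟨x, y, hxy⟩ := IsBezout.gcd_eq_sum (v 0) (v 1)
  obtain ⟨c, hc⟩ := IsBezout.gcd_dvd_left (v 0) (v 1)
  obtain ⟨d, hd⟩ := IsBezout.gcd_dvd_right (v 0) (v 1)
  set g := IsBezout.gcd (v 0) (v 1)
  have hg : g ≠ 0 := fun h => hv0 (funext fun i => by
    fin_cases i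
    · show v 0 = 0
      rw [hc, h, zero_mul]
    · show v 1 = 0
      rw [hd, h, zero_mul])
  have h1 : x * c + y * d = 1 := mul_left_cancel₀ hg (by
    rw [mul_one]; linear_combination hxy - x * hc - y * hd)
  have hrow : ∀ j, c * Theta.skewMat E k 0 j + d * Theta.skewMat E k 1 j = 0 := fun j => by
    have h2 := congrFun hv j
    simp only [Matrix.vecMul, dotProduct, Fin.sum_univ_two, Pi.zero_apply] at h2
    exact mul_left_cancel₀ hg (by rw [hc, hd] at h2; rw [mul_zero]; linear_combination h2)
  have hdet : IsUnit (!![y, -x; c, d] : Matrix (Fin 2) (Fin 2) O).det := by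
    rw [Matrix.det_fin_two_of, show y * d - -x * c = 1 by linear_combination h1]
    exact isUnit_one
  obtain ⟨γ, hγ⟩ : ∃ γ : GL (Fin 2) O, (γ : Matrix (Fin 2) (Fin 2) O) = !![y, -x; c, d] :=
    ⟨Matrix.GeneralLinearGroup.mk'' _ hdet, rfl⟩
  set l := actK E γ k with hl
  have hl1 : ∀ j, Theta.skewMat E l 1 j = 0 := fun j => by
    have h2 : ∀ i, ((γ : Matrix (Fin 2) (Fin 2) O) * Theta.skewMat E k) 1 i = 0 := fun i => by
      simpa [hγ, Matrix.mul_apply, Fin.sum_univ_two] using hrow i
    rw [hl, Theta.skewMat_actK, Matrix.mul_apply, Fin.sum_univ_two, h2, h2, zero_mul, zero_mul,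
      add_zero]
  have h10 := hl1 0
  have h11 := hl1 1
  have hz : E.conj (-(l 3 : O) + (l 2 : O) * E.w) = 0 := by
    simp [Theta.skewMat] at h10
    simp only [map_add, map_mul, map_neg, map_intCast]
    linear_combination -h10
  have hz' : -(l 3 : O) + (l 2 : O) * E.w = 0 := by
    have := congrArg E.conj hz
    rwa [E.conj_conj, map_zero] at this
  obtain ⟨h3, h2⟩ := E.indep (-l 3) (l 2) (by push_cast; exact hz')
  have h0 : l 0 = 0 := by
    have h : E.s * ((l 0 : ℤ) : O) = 0 := by simpa [Theta.skewMat] using h11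
    exact E.intCast_inj (by rw [(mul_eq_zero.mp h).resolve_left E.s_ne_zero, Int.cast_zero])
  have hle : l = nullVec (l 1) := by
    funext i
    fin_cases i <;> simp [nullVec, h0, h2, neg_eq_zero.mp h3]
  refine ⟨γ, l 1, fun h => hk ?_, hle⟩
  have h4 : l = 0 := by
    rw [hle, h]; funext i; fin_cases i <;> simp [nullVec]
  have h5 := congrArg (actK E ((γ⁻¹ : GL (Fin 2) O) : Matrix (Fin 2) (Fin 2) O)) h4
  rwa [hl, ← Theta.actK_mul, Units.inv_mul, Theta.actK_one, map_zero] at h5

theorem actK_translGL (E : EisData O) (b : O) (a : ℤ) :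
    actK E (translGL b) (nullVec a) = nullVec a := by
  refine Theta.skewMat_injective E ?_
  rw [Theta.skewMat_actK, coe_translGL]
  ext i j
  fin_cases i <;> fin_cases j <;>
    simp [Matrix.mul_apply, Fin.sum_univ_two, Theta.adjT, Theta.skewMat, nullVec]

/-- The elements of the stabiliser which are `1` modulo `3M²` are translations. -/
theorem exists_eq_translGL [IsDomain O] (E : EisData O) {a : ℤ} (ha : a ≠ 0) {h : GL (Fin 2) O}
    (hfix : actK E h (nullVec a) = nullVec a) (hred : redHom O M h = 1) :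
    ∃ b ∈ modIdeal O M, h = translGL b := by
  set g := (h : Matrix (Fin 2) (Fin 2) O) with hg
  set y : O := -(E.s * (a : O)) with hy
  have hy0 : y ≠ 0 := neg_ne_zero.mpr (mul_ne_zero E.s_ne_zero fun h =>
    ha (E.intCast_inj (by simpa using h)))
  have e := congrArg (Theta.skewMat E) hfix
  rw [Theta.skewMat_actK] at e
  have e00 := congrFun (congrFun e 0) 0
  have e11 := congrFun (congrFun e 1) 1
  simp [Matrix.mul_apply, Fin.sum_univ_two, Theta.adjT, Theta.skewMat, nullVec, ← hy] at e00 e11
  have hc : g 1 0 = 0 := by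
    rcases e11 with (h | h) | h
    · exact h
    · exact absurd h hy0
    · have := congrArg E.conj h
      rwa [E.conj_conj, map_zero] at this
  have h00 : g 0 0 * E.conj (g 0 0) = 1 := mul_left_cancel₀ hy0 (by
    rw [hy, mul_one]; linear_combination e00)
  have hmod : ∀ i j, ((3 * (M ^ 2 : ℕ) : ℤ) : O) ∣ g i j - (1 : Matrix (Fin 2) (Fin 2) O) i j :=
    dvd_of_map_eq (by
      rw [hg, ← map_redHom, hred, Units.val_one, Matrix.map_one _ (map_zero _) (map_one _)])
  have h3 : ((3 : ℤ) : O) ∣ ((3 * (M ^ 2 : ℕ) : ℤ) : O) := by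
    rw [E.intCast_dvd_intCast]; exact dvd_mul_right _ _
  have ea : g 0 0 = 1 := eq_one_of_norm_eq_one E h00 (h3.trans (by simpa using hmod 0 0))
  have ed : g 1 1 = 1 := by
    have hu : IsUnit g.det := Matrix.isUnits_det_units h
    rw [Matrix.det_fin_two, hc, mul_zero, sub_zero, ea, one_mul] at hu
    refine eq_one_of_norm_eq_one E ?_ (h3.trans (by simpa using hmod 1 1))
    rw [normO_spec, normO_of_isUnit E hu, Int.cast_one]
  refine ⟨g 0 1, Ideal.mem_span_singleton.mpr (by simpa using hmod 0 1),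
    Units.ext (Matrix.ext fun i j => ?_)⟩
  fin_cases i <;> fin_cases j <;> simp [translGL, ← hg, ea, ed, hc]

/-! ### The profile in the height -/

theorem gK_nullVec (τ : ℍ) (w : HSpace) (a : ℤ) :
    gK τ w ((M : ℝ)⁻¹ • dv (nullVec a)) = (Real.sqrt τ.im : ℂ) *
      (Real.exp (-(π * τ.im * ((a : ℝ) / M) ^ 2 / w.r ^ 2)) : ℂ) := by
  have hr := w.r_pos.ne'
  rw [Theta.gK_eq]
  have hf : Theta.frame w ((M : ℝ)⁻¹ • dv (nullVec a)) 3 = -((a : ℝ) / M) / (2 * w.r) := by
    simp [Theta.frame_apply, Theta.frameFun, dv, Theta.dvecR, nullVec]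
    field_simp
  have hq : Theta.qR ((M : ℝ)⁻¹ • dv (nullVec a)) = 0 := by
    simp [Theta.qR, dv, Theta.dvecR, nullVec]
  have hr' : (w.r : ℂ) ≠ 0 := Complex.ofReal_ne_zero.mpr hr
  rw [hf, hq, Complex.ofReal_exp]
  congr 2
  push_cast
  field_simp
  ring

theorem exp_neg_le_two_div_sq {t : ℝ} (ht : 0 < t) : Real.exp (-t) ≤ 2 / t ^ 2 := by
  rw [Real.exp_neg, inv_eq_one_div, div_le_div_iff₀ (Real.exp_pos _) (by positivity), one_mul]
  have := Real.pow_div_factorial_le_exp t ht.le 2
  norm_num [Nat.factorial] at this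
  linarith

theorem integrableOn_profile {K : ℝ} (hK : 0 < K) :
    IntegrableOn (fun r : ℝ => (r ^ 3)⁻¹ * Real.exp (-(K / r ^ 2))) (Ioi 0) := by
  refine Integrable.mono' ((integrable_inv_one_add_sq.integrableOn (s := Ioi 0)).const_mul
    (2 + 4 / K ^ 2)) (by fun_prop) ?_
  filter_upwards [ae_restrict_mem measurableSet_Ioi] with r (hr : 0 < r)
  rw [norm_mul, Real.norm_of_nonneg (by positivity), Real.norm_of_nonneg (Real.exp_pos _).le,
    ← div_eq_mul_inv, le_div_iff₀ (by positivity)]
  rcases le_total 1 r with h1 | h1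
  · have he : Real.exp (-(K / r ^ 2)) ≤ 1 := by
      rw [Real.exp_le_one_iff, neg_nonpos]; positivity
    calc (r ^ 3)⁻¹ * Real.exp (-(K / r ^ 2)) * (1 + r ^ 2) ≤ (r ^ 3)⁻¹ * 1 * (2 * r ^ 3) := by
          have : 1 + r ^ 2 ≤ 2 * r ^ 3 := by nlinarith
          gcongr
      _ = 2 := by field_simp
      _ ≤ 2 + 4 / K ^ 2 := le_add_of_nonneg_right (by positivity)
  · calc (r ^ 3)⁻¹ * Real.exp (-(K / r ^ 2)) * (1 + r ^ 2)
        ≤ (r ^ 3)⁻¹ * (2 / (K / r ^ 2) ^ 2) * 2 := by
          gcongr
          · exact exp_neg_le_two_div_sq (by positivity)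
          · nlinarith
      _ = 4 * r / K ^ 2 := by field_simp; ring
      _ ≤ 4 / K ^ 2 := by gcongr; linarith
      _ ≤ 2 + 4 / K ^ 2 := le_add_of_nonneg_left zero_le_two

/-! ### Unfolding -/

section Vanish

variable (E : EisData O) (hι : Theta.IsStdEmb E emb) [NeZero M]
  {A : Pt emb M → ℂ} (hAi : ∀ (γ : GL (Fin 2) O) (x : Pt emb M), A (γ • x) = A x)
  (hAc : ∀ k : Red O M, Continuous fun w => A (Pt.mk emb w k))
  (hAb : ∃ C : ℝ, ∀ x, ‖A x‖ ≤ C)
  (hAz : ∀ (r : ℝ) (hr : 0 < r) (k : Red O M), Tendsto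
    (fun R : ℝ => ⨍ z in Metric.closedBall (0 : ℂ) R, A (Pt.mk emb ⟨z, r, hr⟩ k) ∂volume)
    atTop (𝓝 0))
  (φ : Disc (M ^ 2) → ℂ) (τ : ℍ)

include E hι hAi hAc hAb hAz in
theorem setIntegral_perPar_slice (r : ℝ) (hr : 0 < r) (j : Red O M) :
    ∫ z in perPar E hι (M := M), A (Pt.mk emb ⟨z, r, hr⟩ j) = 0 := by
  obtain ⟨C, hC⟩ := hAb
  have hm : Measurable fun z : ℂ => A (Pt.mk emb ⟨z, r, hr⟩ j) :=
    ((hAc j).comp (HSpace.continuous_iff_coords.mpr
      (continuous_id.prodMk continuous_const))).measurable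
  refine setIntegral_perPar_eq_zero E hι hm (fun z => hC _) (fun b hb z => ?_) (hAz r hr j)
  have h := hAi (translGL b) (Pt.mk emb ⟨z, r, hr⟩ j)
  rw [Pt.smul_mk, redHom_translGL hb, one_mul, map_translGL_smul] at h
  rw [← h, add_comm]

/-- The integrand of the folded integral. -/
def nullFold (A : Pt emb M → ℂ) (a : ℤ) (x : Pt emb M) : ℂ :=
  (perPar E hι (M := M)).indicator (fun _ => (1 : ℂ)) x.pt.z *
    (A x * latTerm E φ τ (nullVec a) x)

include hAi hAc hAb hAz in
theorem integrable_nullFold_slice {a : ℤ} (ha : a ≠ 0) (j : Red O M) :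
    Integrable (fun w => nullFold E hι φ τ A a (Pt.mk emb w j)) HSpace.measure ∧
      ∫ w, nullFold E hι φ τ A a (Pt.mk emb w j) ∂HSpace.measure = 0 := by
  obtain ⟨C, hC⟩ := id hAb
  set P := perPar E hι (M := M)
  have hP : MeasurableSet P := measurableSet_perPar E hι
  set K : ℝ := π * τ.im * ((a : ℝ) / M) ^ 2 with hKdef
  have hK : 0 < K := by
    have := τ.im_pos
    have : (a : ℝ) / M ≠ 0 :=
      div_ne_zero (Int.cast_ne_zero.mpr ha) (Nat.cast_ne_zero.mpr (NeZero.ne M))
    positivity
  set W : ℂ := rotW E j⁻¹ φ (dcls (M ^ 2) (nullVec a)) * (Real.sqrt τ.im : ℂ)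
  set B : ℂ × ℝ → ℂ := Function.extend HSpace.coords (fun w => A (Pt.mk emb w j)) 0
  have hBm : Measurable B :=
    HSpace.measurableEmbedding_coords.measurable_extend (hAc j).measurable measurable_zero
  have hBc : ∀ w : HSpace, B w.coords = A (Pt.mk emb w j) := fun w =>
    HSpace.coords_injective.extend_apply _ _ w
  set G : ℂ × ℝ → ℂ := fun x =>
    P.indicator (fun _ => (1 : ℂ)) x.1 * (W * (Real.exp (-(K / x.2 ^ 2)) : ℂ) * B x)
  have hG : ∀ w : HSpace, nullFold E hι φ τ A a (Pt.mk emb w j) = G w.coords := fun w => by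
    have e1 : w.coords.1 = w.z := rfl
    have e2 : w.coords.2 = w.r := rfl
    simp only [nullFold, latTerm, Pt.pt_mk, Pt.fin_mk, gK_nullVec, G, hBc, e1, e2, ← hKdef, W, P]
    ring
  simp only [hG]
  have hset : {x : ℂ × ℝ | 0 < x.2} = (univ : Set ℂ) ×ˢ Ioi (0 : ℝ) := by ext; simp
  have hmeas : MeasurableSet {x : ℂ × ℝ | 0 < x.2} :=
    (isOpen_lt continuous_const continuous_snd).measurableSet
  have hGm : Measurable G :=
    ((measurable_const.indicator hP).comp measurable_fst).mul
      (((Complex.measurable_ofReal.comp (Real.measurable_exp.comp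
        ((measurable_const.div (measurable_snd.pow_const 2)).neg))).const_mul W).mul hBm)
  have hI : IntegrableOn (fun x => (x.2 ^ 3)⁻¹ • G x) {x : ℂ × ℝ | 0 < x.2} := by
    rw [hset, IntegrableOn, Measure.volume_eq_prod, ← Measure.prod_restrict, Measure.restrict_univ]
    have h1 : Integrable (P.indicator fun _ => (1 : ℝ)) volume :=
      IntegrableOn.integrable_indicator (integrableOn_const (volume_perPar_lt_top E hι).ne) hP
    refine (h1.mul_prod ((integrableOn_profile hK).const_mul (‖W‖ * C))).mono'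
      ((measurable_snd.pow_const 3).inv.smul hGm).aestronglyMeasurable ?_
    have hae : ∀ᵐ x ∂(volume : Measure ℂ).prod ((volume : Measure ℝ).restrict (Ioi 0)), 0 < x.2 :=
      Measure.quasiMeasurePreserving_snd.ae (ae_restrict_mem measurableSet_Ioi)
    filter_upwards [hae] with x hx
    rw [norm_smul, Real.norm_of_nonneg (by positivity)]
    by_cases hxP : x.1 ∈ P
    · have hBx : ‖B x‖ ≤ C := by
        have h := hBc ⟨x.1, x.2, hx⟩
        exact (congrArg norm h).trans_le (hC _)
      simp only [G, Set.indicator_of_mem hxP, one_mul, norm_mul, Complex.norm_real,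
        Real.norm_of_nonneg (Real.exp_pos _).le]
      calc (x.2 ^ 3)⁻¹ * (‖W‖ * Real.exp (-(K / x.2 ^ 2)) * ‖B x‖)
          ≤ (x.2 ^ 3)⁻¹ * (‖W‖ * Real.exp (-(K / x.2 ^ 2)) * C) := by gcongr
        _ = _ := by ring
    · simp [G, Set.indicator_of_notMem hxP]
  refine ⟨?_, ?_⟩
  · rw [show (fun w : HSpace => G w.coords) = G ∘ HSpace.coords from rfl,
      ← HSpace.measurableEmbedding_coords.integrable_map_iff, HSpace.measure,
      HSpace.measurableEmbedding_coords.map_comap, HSpace.range_coords,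
      restrict_withDensity hmeas, integrable_withDensity_iff_integrable_smul' (by fun_prop)
        (Filter.Eventually.of_forall fun _ => ENNReal.ofReal_lt_top)]
    refine hI.congr ?_
    filter_upwards [ae_restrict_mem hmeas] with x (hx : 0 < x.2)
    rw [ENNReal.toReal_ofReal (by positivity)]
  · rw [Aleph.integral_measure_coords]
    rw [hset] at hI ⊢
    rw [Measure.volume_eq_prod, ← Measure.prod_restrict, Measure.restrict_univ,
      integral_prod_symm _ (by
        rwa [IntegrableOn, Measure.volume_eq_prod, ← Measure.prod_restrict,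
          Measure.restrict_univ] at hI)]
    refine setIntegral_eq_zero_of_forall_eq_zero fun r (hr : 0 < r) => ?_
    calc ∫ z : ℂ, (r ^ 3)⁻¹ • G (z, r)
        = ∫ z : ℂ, P.indicator (fun z => ((r ^ 3)⁻¹ • (W * (Real.exp (-(K / r ^ 2)) : ℂ))) *
            A (Pt.mk emb ⟨z, r, hr⟩ j)) z := by
          refine integral_congr_ae (Eventually.of_forall fun z => ?_)
          have h : B (z, r) = A (Pt.mk emb ⟨z, r, hr⟩ j) := hBc ⟨z, r, hr⟩
          by_cases hz : z ∈ P
          · simp only [G, Set.indicator_of_mem hz, h, Complex.real_smul]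
            ring
          · simp [G, Set.indicator_of_notMem hz]
      _ = 0 := by
          rw [integral_indicator hP, integral_const_mul,
            setIntegral_perPar_slice E hι hAi hAc hAb hAz r hr j, mul_zero]

include hAi hAc hAb hAz in
theorem integrable_nullFold {a : ℤ} (ha : a ≠ 0) :
    Measurable (nullFold E hι φ τ A a) ∧
      Integrable (nullFold E hι φ τ A a) (ptMeasure emb M) ∧
      ∫ x, nullFold E hι φ τ A a x ∂ptMeasure emb M = 0 := by
  have := finite_red E M
  have := Fintype.ofFinite (Red O M)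
  have hs := fun j => integrable_nullFold_slice E hι hAi hAc hAb hAz φ τ ha j
  have hm : Measurable (nullFold E hι φ τ A a) :=
    ((measurable_const.indicator (measurableSet_perPar E hι)).comp
      (HSpace.continuous_z.measurable.comp Pt.measurable_pt)).mul
      ((measurable_of_slices fun k => (hAc k).measurable).mul (measurable_latTerm E φ τ _))
  have hi : Integrable (nullFold E hι φ τ A a) (ptMeasure emb M) :=
    (integrable_pt_iff hm).mpr fun j => (hs j).1
  exact ⟨hm, hi, by rw [integral_pt hi]; exact Finset.sum_eq_zero fun j _ => (hs j).2⟩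

variable {wt : Pt emb M → ℝ≥0∞} (hwt : Geom.IsWeight (GL (Fin 2) O) (ptMeasure emb M) wt)
  (hfin : ∑' k : IVec, ∫⁻ x, ‖A x * latTerm E φ τ k x‖ₑ
    ∂Spectral.quotMeasure (ptMeasure emb M) wt ≠ ⊤)

include hι hAi hAc hAb hAz hwt hfin in
/-- The translates of `(0, a, 0, 0)` contribute nothing. -/
theorem tsum_orbit_null_eq_zero [IsDomain O] {a : ℤ} (ha : a ≠ 0) :
    ∑' o : Set.range (fun g : GL (Fin 2) O =>
        actK E ((g⁻¹ : GL (Fin 2) O) : Matrix (Fin 2) (Fin 2) O) (nullVec a)),
      ∫ x, A x * latTerm E φ τ (o : IVec) x ∂Spectral.quotMeasure (ptMeasure emb M) wt = 0 := by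
  classical
  have := countable_of_eisData E
  have := countable_gl (O := O)
  have := finite_red E M
  have := smulInvariantMeasure_pt (emb := emb) (M := M)
  set ν := Spectral.quotMeasure (ptMeasure emb M) wt
  set v := nullVec a
  set π' : GL (Fin 2) O → IVec := fun g =>
    actK E ((g⁻¹ : GL (Fin 2) O) : Matrix (Fin 2) (Fin 2) O) v
  let St : Subgroup (GL (Fin 2) O) :=
    { carrier := {g | actK E g v = v}
      one_mem' := by simp
      mul_mem' := fun {g h} hg hh => by
        simp only [Set.mem_ofPred_eq, Units.val_mul, Theta.actK_mul] at *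
        rw [hh, hg]
      inv_mem' := fun {g} hg => by
        simp only [Set.mem_ofPred_eq] at *
        conv_lhs => rw [← hg]
        rw [← Theta.actK_mul, Units.inv_mul, Theta.actK_one] }
  let red : St → Red O M := fun h => redHom O M h
  set c : ℕ := Nat.card (Set.range red)
  have : Nonempty (Set.range red) := ⟨⟨red 1, Set.mem_range_self _⟩⟩
  have hc0 : c ≠ 0 := Nat.card_ne_zero.mpr ⟨inferInstance, inferInstance⟩
  set ρ : Pt emb M → ℂ := fun x =>
    (perPar E hι (M := M)).indicator (fun _ => (1 : ℂ)) x.pt.z with hρ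
  -- the translates of a point under the stabiliser which lie in the parallelogram
  have hcount : ∀ y : Pt emb M, (∑' h : St, ρ ((h : GL (Fin 2) O) • y) = c) ∧
      Summable fun h : St => ‖ρ ((h : GL (Fin 2) O) • y)‖ := by
    intro y
    set S : Set St := {h | ((h : GL (Fin 2) O) • y).pt.z ∈ perPar E hι (M := M)}
    have htr : ∀ (b : O) (h : St),
        (((translGL b * h : GL (Fin 2) O)) • y).pt.z = ((h : GL (Fin 2) O) • y).pt.z + emb b := by
      intro b h
      rw [mul_smul, Pt.pt_smul, map_translGL_smul]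
    have hbij : Function.Bijective fun h : S => (⟨red h, h, rfl⟩ : Set.range red) := by
      constructor
      · rintro ⟨h, hh⟩ ⟨h', hh'⟩ e
        have e' : redHom O M h = redHom O M h' := congrArg Subtype.val e
        obtain ⟨b, hb, hb'⟩ := exists_eq_translGL E ha (h := ((h' * h⁻¹ : St) : GL (Fin 2) O))
          (h' * h⁻¹).2 (by rw [Subgroup.coe_mul, Subgroup.coe_inv, map_mul, map_inv, e', mul_inv_cancel])
        have hh'e : (h' : GL (Fin 2) O) = translGL b * h := by
          rw [← hb', Subgroup.coe_mul, Subgroup.coe_inv, inv_mul_cancel_right]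
        have h0 : b = 0 := by
          obtain ⟨b₀, -, huniq⟩ :=
            existsUnique_perPar E hι (M := M) ((h : GL (Fin 2) O) • y).pt.z
          have h1 := huniq b ⟨hb, by rw [← htr b h, ← hh'e]; exact hh'⟩
          have h2 := huniq 0 ⟨zero_mem _, by rw [map_zero, add_zero]; exact hh⟩
          rw [h1, ← h2]
        refine Subtype.ext (Subtype.ext ?_)
        show (h : GL (Fin 2) O) = h'
        rw [hh'e, h0, show translGL (0 : O) = 1 from Units.ext (by simp [translGL, Matrix.one_fin_two]),
          one_mul]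
      · rintro ⟨_, h, rfl⟩
        obtain ⟨b, ⟨hb, hmem⟩, -⟩ :=
          existsUnique_perPar E hι (M := M) ((h : GL (Fin 2) O) • y).pt.z
        have hbS : translGL b * (h : GL (Fin 2) O) ∈ St := St.mul_mem (actK_translGL E b a) h.2
        refine ⟨⟨⟨translGL b * h, hbS⟩, show _ ∈ perPar E hι (M := M) from ?_⟩, Subtype.ext ?_⟩
        · show ((translGL b * h : GL (Fin 2) O) • y).pt.z ∈ _
          rw [htr]; exact hmem
        · show redHom O M (translGL b * h) = redHom O M h
          rw [map_mul, redHom_translGL hb, one_mul]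
    have hfinS : Finite S := Finite.of_injective _ hbij.1
    have hi : (fun h : St => ρ ((h : GL (Fin 2) O) • y)) = S.indicator fun _ => (1 : ℂ) := by
      funext h
      by_cases hh : h ∈ S
      · rw [Set.indicator_of_mem hh]; exact Set.indicator_of_mem (by exact hh) _
      · rw [Set.indicator_of_notMem hh]; exact Set.indicator_of_notMem (by exact hh) _
    refine ⟨?_, ?_⟩
    · rw [hi, ← tsum_subtype, tsum_const, Nat.card_eq_of_bijective _ hbij, nsmul_eq_mul, mul_one]
    · refine summable_of_hasFiniteSupport (Set.Finite.subset (Set.toFinite S) fun h hh => ?_)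
      by_contra hn
      exact hh (by
        show ‖ρ ((h : GL (Fin 2) O) • y)‖ = 0
        rw [congrFun hi h, Set.indicator_of_notMem hn, norm_zero])
  -- almost every point has an absolutely convergent kernel
  have hAm : Measurable A := measurable_of_slices fun k => (hAc k).measurable
  have hmT : ∀ k, Measurable fun x => A x * latTerm E φ τ k x := fun k =>
    hAm.mul (measurable_latTerm E φ τ k)
  have hsum : ∀ᵐ x ∂ν, Summable fun k : IVec => ‖A x * latTerm E φ τ k x‖ := by
    have h := hfin
    rw [← lintegral_tsum fun k => (hmT k).enorm.aemeasurable] at h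
    filter_upwards [ae_lt_top (Measurable.tsum fun k => (hmT k).enorm) h] with x hx
    exact (ENNReal.summable_toReal hx.ne).congr fun k => toReal_enorm _
  -- the periodisation
  let g₀ : Set.range π' → GL (Fin 2) O := Set.rangeSplitting π'
  have hg₀ : ∀ o, π' (g₀ o) = o := Set.apply_rangeSplitting π'
  have hπ : ∀ (h : St) o, π' (h * g₀ o) = o := fun h o => by
    rw [show π' (h * g₀ o) = actK E (((g₀ o)⁻¹ : GL (Fin 2) O) : Matrix (Fin 2) (Fin 2) O)
      (actK E (((h : GL (Fin 2) O)⁻¹ : GL (Fin 2) O) : Matrix (Fin 2) (Fin 2) O) v) by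
        simp only [π', mul_inv_rev, Units.val_mul, Theta.actK_mul],
      (inv_mem h.2 : ((h : GL (Fin 2) O))⁻¹ ∈ St)]
    exact hg₀ o
  let e : Set.range π' × St ≃ GL (Fin 2) O :=
    { toFun := fun p => p.2 * g₀ p.1
      invFun := fun g => (⟨π' g, g, rfl⟩, ⟨g * (g₀ ⟨π' g, g, rfl⟩)⁻¹, by
        show actK E _ v = v
        rw [Units.val_mul, Theta.actK_mul]
        have h1 : π' (g₀ ⟨π' g, g, rfl⟩) = π' g := hg₀ _
        simp only [π'] at h1
        rw [h1, ← Theta.actK_mul, Units.mul_inv, Theta.actK_one]⟩)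
      left_inv := fun p => by
        have h1 : (⟨π' (p.2 * g₀ p.1), _, rfl⟩ : Set.range π') = p.1 := Subtype.ext (hπ _ _)
        refine Prod.ext h1 (Subtype.ext ?_)
        show (p.2 : GL (Fin 2) O) * g₀ p.1 * (g₀ _)⁻¹ = _
        rw [h1, mul_inv_cancel_right]
      right_inv := fun g => by simp }
  have hfold : ∀ (g : GL (Fin 2) O) (x : Pt emb M),
      nullFold E hι φ τ A a (g • x) = ρ (g • x) * (A x * latTerm E φ τ (π' g) x) := by
    intro g x
    have h1 : actK E g (π' g) = v := by
      simp only [π', ← Theta.actK_mul, Units.mul_inv, Theta.actK_one]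
    have h2 := thetaTerm_smul E hι φ τ g x (π' g)
    rw [h1] at h2
    rw [nullFold, hAi, latTerm, h2]
    rfl
  have hper : ∀ᵐ x ∂ν, ∑' g : GL (Fin 2) O, nullFold E hι φ τ A a (g • x) =
      (c : ℂ) * ∑' o : Set.range π', A x * latTerm E φ τ (o : IVec) x := by
    filter_upwards [hsum] with x hx
    simp only [hfold]
    rw [← e.tsum_eq]
    have hterm : ∀ p : Set.range π' × St,
        ρ (e p • x) * (A x * latTerm E φ τ (π' (e p)) x) =
          (A x * latTerm E φ τ (p.1 : IVec) x) * ρ ((p.2 : GL (Fin 2) O) • g₀ p.1 • x) := by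
      intro p
      show ρ ((p.2 * g₀ p.1) • x) * (A x * latTerm E φ τ (π' (p.2 * g₀ p.1)) x) = _
      rw [hπ, mul_smul, mul_comm]
    simp only [hterm]
    have hco : ∀ y, ∑' h : St, ‖ρ ((h : GL (Fin 2) O) • y)‖ = c := fun y => by
      have h2 : ∀ h : St, (‖ρ ((h : GL (Fin 2) O) • y)‖ : ℂ) = ρ ((h : GL (Fin 2) O) • y) := by
        intro h
        simp only [hρ, Set.indicator_apply]
        split_ifs <;> simp
      have h1 := (hcount y).1
      rw [← tsum_congr h2, ← Complex.ofReal_tsum] at h1
      exact_mod_cast h1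
    have hS : Summable fun p : Set.range π' × St =>
        (A x * latTerm E φ τ (p.1 : IVec) x) * ρ ((p.2 : GL (Fin 2) O) • g₀ p.1 • x) := by
      refine Summable.of_norm ((summable_prod_of_nonneg fun _ => norm_nonneg _).mpr ⟨fun o => ?_, ?_⟩)
      · simp only [norm_mul]
        exact (hcount _).2.mul_left _
      · refine ((hx.subtype (Set.range π')).mul_right (c : ℝ)).congr fun o => ?_
        simp only [norm_mul, tsum_mul_left, hco, Function.comp_apply]
    rw [hS.tsum_prod, ← tsum_mul_left]
    refine tsum_congr fun o => ?_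
    simp only
    rw [tsum_mul_left, (hcount _).1, mul_comm]
  obtain ⟨hHm, hHi, hH0⟩ := integrable_nullFold E hι hAi hAc hAb hAz φ τ ha
  have key := Spectral.integral_tsum_comp_smul (G := GL (Fin 2) O) hwt hHm hHi
  rw [hH0, integral_congr_ae hper, integral_const_mul] at key
  rw [← integral_tsum (fun o => (hmT _).aestronglyMeasurable) (ne_top_of_le_ne_top hfin
    (ENNReal.tsum_comp_le_tsum_of_injective Subtype.val_injective _))]
  exact (mul_eq_zero.mp key).resolve_left (Nat.cast_ne_zero.mpr hc0)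

include hι hAi hAc hAb hAz hwt hfin in
/-- The null shell contributes nothing. -/
theorem tsum_integral_null_eq_zero [IsDomain O] [IsBezout O]
    (hA0 : ∫ x, A x ∂Spectral.quotMeasure (ptMeasure emb M) wt = 0) :
    ∑' k : {k : IVec // q3 k = 0},
      ∫ x, A x * latTerm E φ τ k x ∂Spectral.quotMeasure (ptMeasure emb M) wt = 0 := by
  classical
  have := finite_red E M
  set ν := Spectral.quotMeasure (ptMeasure emb M) wt
  set I : IVec → ℂ := fun k => ∫ x, A x * latTerm E φ τ k x ∂ν
  have hI0 : I 0 = 0 := by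
    simp only [I, latTerm_zero, integral_mul_const, hA0, zero_mul, ν]
  have hmT : ∀ k, Measurable fun x => A x * latTerm E φ τ k x := fun k =>
    (measurable_of_slices fun j => (hAc j).measurable).mul (measurable_latTerm E φ τ k)
  have hIs : Summable I := by
    refine Summable.of_norm_bounded (ENNReal.summable_toReal hfin) fun k => ?_
    rw [← toReal_enorm]
    exact ENNReal.toReal_mono (ENNReal.ne_top_of_tsum_ne_top hfin k)
      (enorm_integral_le_lintegral_enorm _)
  set J : IVec → ℂ := {k : IVec | q3 k = 0}.indicator I with hJ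
  have hJs : Summable J := hIs.indicator _
  rw [show (∑' k : {k : IVec // q3 k = 0}, ∫ x, A x * latTerm E φ τ k x ∂ν) = ∑' k, J k from
    tsum_subtype {k : IVec | q3 k = 0} I]
  let rel : Setoid IVec :=
    { r := fun k l => ∃ γ : GL (Fin 2) O, actK E γ k = l
      iseqv :=
        { refl := fun k => ⟨1, by simp⟩
          symm := fun {k l} ⟨γ, h⟩ => ⟨γ⁻¹, by
            rw [← h, ← Theta.actK_mul, Units.inv_mul, Theta.actK_one]⟩
          trans := fun {k l m} ⟨γ, h⟩ ⟨δ, h'⟩ => ⟨δ * γ, by
            rw [Units.val_mul, Theta.actK_mul, h, h']⟩ } }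
  let cl : IVec → Quotient rel := Quotient.mk rel
  rw [← (Equiv.sigmaFiberEquiv cl).tsum_eq J,
    Summable.tsum_sigma (f := fun p => J (Equiv.sigmaFiberEquiv cl p))
      ((Equiv.sigmaFiberEquiv cl).summable_iff.mpr hJs)]
  refine (tsum_congr fun q => ?_).trans tsum_zero
  obtain ⟨r, rfl⟩ := Quotient.exists_rep q
  show ∑' k : {k // cl k = cl r}, J k = 0
  have hq : ∀ k : {k // cl k = cl r}, q3 (k : IVec) = q3 r := fun k => by
    obtain ⟨γ, hγ⟩ : ∃ γ : GL (Fin 2) O, actK E γ (k : IVec) = r := Quotient.exact k.2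
    exact (q3_actK_unit E γ _).symm.trans (congrArg q3 hγ)
  by_cases hr : q3 r = 0
  swap
  · refine (tsum_congr fun k => ?_).trans tsum_zero
    exact Set.indicator_of_notMem (s := {l : IVec | q3 l = 0})
      (show ¬ q3 (k : IVec) = 0 by rw [hq k]; exact hr) I
  rw [tsum_congr fun k : {k // cl k = cl r} =>
    (Set.indicator_of_mem (s := {l : IVec | q3 l = 0})
      (show q3 (k : IVec) = 0 by rw [hq k]; exact hr) I : J (k : IVec) = I (k : IVec))]
  by_cases h0 : r = 0
  · refine (tsum_congr fun k => ?_).trans tsum_zero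
    obtain ⟨γ, hγ⟩ : ∃ γ : GL (Fin 2) O, actK E γ r = (k : IVec) := Quotient.exact k.2.symm
    rw [← hγ, h0, map_zero, hI0]
  obtain ⟨γ, a, ha, hγ⟩ := exists_actK_eq_nullVec E h0 hr
  have hset : {k | cl k = cl r} = Set.range (fun g : GL (Fin 2) O =>
      actK E ((g⁻¹ : GL (Fin 2) O) : Matrix (Fin 2) (Fin 2) O) (nullVec a)) := by
    ext k
    constructor
    · intro hk
      obtain ⟨δ, hδ⟩ : ∃ δ : GL (Fin 2) O, actK E δ r = k := Quotient.exact hk.symm
      refine ⟨γ * δ⁻¹, ?_⟩
      show actK E _ (nullVec a) = k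
      rw [mul_inv_rev, inv_inv, Units.val_mul, Theta.actK_mul, ← hγ,
        ← Theta.actK_mul E _ (γ : Matrix (Fin 2) (Fin 2) O), Units.inv_mul, Theta.actK_one, hδ]
    · rintro ⟨g, rfl⟩
      refine (Quotient.sound (s := rel) ⟨g⁻¹ * γ, ?_⟩).symm
      rw [Units.val_mul, Theta.actK_mul, hγ]
  exact (tsum_congr_set_coe I hset).trans
    (tsum_orbit_null_eq_zero E hι hAi hAc hAb hAz φ τ hwt hfin ha)

end Vanish

end Fermat.Agent.LT.Lift
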