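import Fermat.Agent.LT.Lift.ShellTerm
import Fermat.Agent.LT.Lift.Isotropic
import Fermat.Agent.LT.WeightOne.Xi

/-!
# The Fourier expansion of the theta lift

The shell `q3 = n > 0` gives `plusCoeff n · e(nτ/h)`, the shell `q3 = -n < 0` gives
`minusCoeff n · E₁(4πnv/h) e(-nτ/h)`, and the null shell gives nothing (`h = 3M²`).
-/

set_option autoImplicit false

noncomputable section

namespace Fermat.Agent.LT.WeightOne

open Complex
open scoped Real

variable {h : ℕ} [NeZero h]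

/-- A vanishing `q`-series has vanishing coefficients. -/
theorem IsCoeff.eq_zero_of_qSeries {c : ℕ → ℂ} (hc : IsCoeff c)
    (h0 : ∀ τ : UpperHalfPlane, qSeries h c τ = 0) (n : ℕ) : c n = 0 := by
  induction n using Nat.strong_induction_on with
  | _ n ih =>
  obtain ⟨h00, C, K, hC⟩ := id hc
  set d : ℕ → ℂ := fun m => if m = 0 then 0 else c (m + n) with hd
  have hdc : IsCoeff d := by
    refine ⟨by simp [hd], max C 0 * ((n : ℝ) + 1) ^ K, K, fun m => ?_⟩
    simp only [hd]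
    split_ifs
    · simp only [norm_zero]; positivity
    refine (hC _).trans ((mul_le_mul_of_nonneg_right (le_max_left C 0) (by positivity)).trans ?_)
    rw [mul_assoc, ← mul_pow]
    refine mul_le_mul_of_nonneg_left (pow_le_pow_left₀ (by positivity) ?_ K) (le_max_right _ _)
    push_cast
    nlinarith [mul_nonneg (Nat.cast_nonneg (α := ℝ) m) (Nat.cast_nonneg (α := ℝ) n)]
  have hval : ∀ τ : UpperHalfPlane, qSeries h d τ = -c n := by
    intro τ
    have hs : Summable fun m => c m * qTerm h m τ :=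
      .of_norm_bounded (hc.summable (h := h) τ.im_pos) fun m =>
        (by rw [norm_mul, norm_qTerm, UpperHalfPlane.coe_im])
    have hq : qTerm h n τ ≠ 0 := Complex.exp_ne_zero _
    have hmul : ∀ m, qTerm h (m + n) τ = qTerm h m τ * qTerm h n τ := fun m => by
      rw [qTerm, qTerm, qTerm, ← Complex.exp_add]
      push_cast
      ring_nf
    have h1 := h0 τ
    rw [qSeries, ← hs.sum_add_tsum_nat_add n,
      Finset.sum_eq_zero (fun m hm => by rw [ih m (Finset.mem_range.1 hm), zero_mul]), zero_add]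
      at h1
    simp only [hmul, ← mul_assoc, tsum_mul_right, mul_eq_zero, hq, or_false] at h1
    have hs' : Summable fun m => c (m + n) * qTerm h m τ := by
      refine (((summable_nat_add_iff n).2 hs).mul_right (qTerm h n τ)⁻¹).congr fun m => ?_
      rw [hmul]; field_simp
    rw [hs'.tsum_eq_zero_add] at h1
    have hsd : Summable fun m => d m * qTerm h m τ :=
      .of_norm_bounded (hdc.summable (h := h) τ.im_pos) fun m =>
        (by rw [norm_mul, norm_qTerm, UpperHalfPlane.coe_im])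
    rw [qSeries, hsd.tsum_eq_zero_add]
    simp only [hd, if_true, Nat.add_one_ne_zero, if_false, zero_mul, zero_add]
    have h2 : qTerm h 0 (τ : ℂ) = 1 := by simp [qTerm]
    rw [h2, mul_one, zero_add] at h1
    linear_combination h1
  by_contra hne
  obtain ⟨A, hA⟩ := tendsto_qSeries (h := h) hdc (half_pos (norm_pos_iff.2 hne))
  set τ : UpperHalfPlane := ⟨⟨0, max A 1⟩, lt_of_lt_of_le one_pos (le_max_right _ _)⟩
  have h3 := (hA τ (le_max_left A 1)).1
  rw [hval τ, norm_neg] at h3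
  linarith [norm_pos_iff.2 hne]

/-- The coefficients of a harmonic series are determined by it. -/
theorem eq_zero_of_harmSeries_eq_zero {cp cm : ℕ → ℂ} (hp : IsCoeff cp) (hm : IsCoeff cm)
    (h0 : harmSeries h cp cm = 0) : ∀ n, cp n = 0 ∧ cm n = 0 := by
  have hq : ∀ τ : UpperHalfPlane, qSeries h (xiCoeff cm) τ = 0 := fun τ => by
    rw [← congrFun (xi_harmSeries hp hm).2 τ, h0]
    simp [xi, antiPart, Function.comp_def]
  have hcm : ∀ n, cm n = 0 := fun n => by
    simpa [xiCoeff] using hm.xiCoeff.eq_zero_of_qSeries (h := h) hq n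
  refine fun n => ⟨hp.eq_zero_of_qSeries (h := h) (fun τ => ?_) n, hcm n⟩
  have h1 := congrFun h0 τ
  have h2 : eSeries h cm τ = 0 := by simp [eSeries, hcm]
  rwa [harmSeries, h2, add_zero] at h1

theorem expInt_pos {x : ℝ} (hx : 0 < x) : 0 < expInt x := by
  have hpos : ∀ t ∈ Set.Ioi x, (0 : ℝ) < Real.exp (-t) / t :=
    fun t (ht : x < t) => div_pos (Real.exp_pos _) (hx.trans ht)
  rw [expInt, MeasureTheory.setIntegral_pos_iff_support_of_nonneg_ae
    (Filter.eventually_of_mem (MeasureTheory.ae_restrict_mem measurableSet_Ioi)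
      fun t ht => (hpos t ht).le) (integrableOn_exp_neg_div hx)]
  rw [Set.inter_eq_right.2 (show Set.Ioi x ⊆ Function.support _ from fun t ht => (hpos t ht).ne'),
    Real.volume_Ioi]
  exact ENNReal.zero_lt_top

end Fermat.Agent.LT.WeightOne

namespace Fermat.Agent.LT.Lift

open MeasureTheory Filter Set
open Adelic (HSpace)
open Theta (RVec IVec Disc qR frame q3 dv gK dcls actK IsStdEmb)
open Orbit (EisData)
open WeightOne (expInt qTerm eTerm qSeries eSeries IsCoeff HasHarmExp harmSeries decay)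
open UpperHalfPlane hiding I
open scoped Real Topology ENNReal ComplexConjugate MatrixGroups

variable {O : Type*} [CommRing O] {emb : O →+* ℂ} {M : ℕ}

/-- The `n`-th holomorphic coefficient of the lift. -/
def plusCoeff (E : EisData O) (wt : Pt emb M → ℝ≥0∞) (A : Pt emb M → ℂ)
    (φ : Disc (M ^ 2) → ℂ) (n : ℕ) : ℂ :=
  shellInt E wt A φ n 1 / (√(4 * π * n / (3 * M ^ 2 : ℕ)) : ℝ)

/-- The `n`-th nonholomorphic coefficient of the lift. -/
def minusCoeff (E : EisData O) (wt : Pt emb M → ℝ≥0∞) (A : Pt emb M → ℂ)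
    (φ : Disc (M ^ 2) → ℂ) (n : ℕ) : ℂ :=
  shellInt E wt A φ (-(n : ℤ)) 1 /
    (√(4 * π * n / (3 * M ^ 2 : ℕ)) * Real.exp 1 * expInt 1 : ℝ)

section Expansion

variable (E : EisData O) [NeZero M] (hι : IsStdEmb E emb) {wt : Pt emb M → ℝ≥0∞}
  (hwt : IsGoodWeight wt) {A : Pt emb M → ℂ}
  (hAi : ∀ (γ : GL (Fin 2) O) (x : Pt emb M), A (γ • x) = A x)
  (hAc : ∀ k : Red O M, Continuous fun w => A (Pt.mk emb w k))
  (hAb : ∃ C : ℝ, ∀ x, ‖A x‖ ≤ C)
  (hAs : ∀ ker : ℝ → ℂ, Continuous ker → Arch.IsQuartic ker → ∀ (w : HSpace) (k : Red O M),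
    ∫ τ, ker (HSpace.coshDist w τ) * A (Pt.mk emb τ k) ∂HSpace.measure =
      Adelic.sphTransform ker 0 * A (Pt.mk emb w k))
  {C : ℝ} (hmaj : IsMajorant M C) (φ : Disc (M ^ 2) → ℂ)

/-- The growth of the lift in `v`. -/
def growth (v : ℝ) : ℝ := √v * (1 + 1 / v) ^ 2

theorem growth_div_le {h n : ℕ} (hh : h ≠ 0) (hn : n ≠ 0) :
    growth ((h : ℝ) / n) ≤ √(h : ℝ) * ((n : ℝ) + 1) ^ 2 := by
  have hn1 : (1 : ℝ) ≤ n := Nat.one_le_cast.2 (Nat.one_le_iff_ne_zero.2 hn)
  have hh1 : (1 : ℝ) ≤ h := Nat.one_le_cast.2 (Nat.one_le_iff_ne_zero.2 hh)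
  refine mul_le_mul (Real.sqrt_le_sqrt (div_le_self (by linarith) hn1))
    (pow_le_pow_left₀ (by positivity) ?_ 2) (by positivity) (Real.sqrt_nonneg _)
  rw [one_div_div, add_comm]
  linarith [div_le_self (a := (n : ℝ)) (by linarith) hh1]

include hwt hAc hAb hmaj in
/-- Summation over a family of vectors commutes with the integral, with a bound. -/
theorem exists_hasSum_integral_latTerm :
    ∃ B : ℝ, 0 ≤ B ∧ ∀ (τ : ℍ) {ι : Type} [Countable ι] (e : ι → IVec), Function.Injective e →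
      HasSum (fun i => ∫ x, A x * latTerm E φ τ (e i) x
          ∂Spectral.quotMeasure (ptMeasure emb M) wt)
        (∫ x, A x * ∑' i, latTerm E φ τ (e i) x ∂Spectral.quotMeasure (ptMeasure emb M) wt) ∧
      ‖∫ x, A x * ∑' i, latTerm E φ τ (e i) x ∂Spectral.quotMeasure (ptMeasure emb M) wt‖ ≤
        B * growth τ.im ∧
      ∑' i, ∫⁻ x, ‖A x * latTerm E φ τ (e i) x‖ₑ
          ∂Spectral.quotMeasure (ptMeasure emb M) wt ≠ ⊤ := by
  have := finite_red E M
  obtain ⟨CA, hCA⟩ := hAb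
  obtain ⟨Cφ, hCφ0, hCφ⟩ := exists_weight_bound E φ
  set q := Spectral.quotMeasure (ptMeasure emb M) wt
  have hAm : Measurable A := measurable_of_slices fun k => (hAc k).measurable
  set D := max CA 0 * Cφ
  have hD : 0 ≤ D := mul_nonneg (le_max_right _ _) hCφ0
  have hhint := integrable_height E hwt
  refine ⟨D * |C| * ∫ x : Pt emb M, x.pt.r ∂q, mul_nonneg (by positivity)
    (integral_nonneg fun x => x.pt.r_pos.le), fun τ ι _ e he => ?_⟩
  set g : Pt emb M → IVec → ℝ := fun x k => D * ‖gK τ x.pt ((M : ℝ)⁻¹ • dv k)‖ with hg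
  have hgs : ∀ x, Summable (g x) := fun x =>
    (summable_norm_gK (NeZero.ne M) τ x.pt).mul_left D
  have hg0 : ∀ x k, 0 ≤ g x k := fun x k => mul_nonneg hD (norm_nonneg _)
  have hmi : ∀ i, Measurable fun x => A x * latTerm E φ τ (e i) x :=
    fun i => hAm.mul (measurable_latTerm E φ τ (e i))
  have hle : ∀ x i, ‖A x * latTerm E φ τ (e i) x‖ ≤ g x (e i) := fun x i => by
    rw [latTerm, norm_mul, norm_mul, ← mul_assoc]
    exact mul_le_mul_of_nonneg_right (mul_le_mul ((hCA x).trans (le_max_left _ _)) (hCφ _ _)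
      (norm_nonneg _) (le_max_right _ _)) (norm_nonneg _)
  have hsum_le : ∀ᵐ x ∂q, ∑' i, g x (e i) ≤ D * |C| * growth τ.im * x.pt.r := by
    refine (ae_withDensity_iff hwt.isWeight.1).2 (Eventually.of_forall fun x hx => ?_)
    refine (tsum_comp_le_tsum_of_inj (hgs x) (hg0 x) he).trans ?_
    simp only [hg, tsum_mul_left, mul_assoc]
    refine mul_le_mul_of_nonneg_left ((hmaj τ x.pt (hwt.box x hx).1).trans ?_) hD
    rw [growth, mul_assoc, mul_assoc, mul_assoc]
    exact mul_le_mul_of_nonneg_right (le_abs_self C)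
      (mul_nonneg (Real.sqrt_nonneg _) (mul_nonneg (sq_nonneg _) x.pt.r_pos.le))
  have hsm : ∀ x, Summable fun i => g x (e i) := fun x => (hgs x).comp_injective he
  have hgm : Measurable fun x => ∑' i, g x (e i) := measurable_tsum_of_summable
    (fun i => (((continuous_gK_point τ _).measurable.comp Pt.measurable_pt).norm.const_mul D)) hsm
  have hgint : Integrable (fun x => ∑' i, g x (e i)) q :=
    (hhint.const_mul (D * |C| * growth τ.im)).mono' hgm.aestronglyMeasurable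
      (hsum_le.mono fun x hx => by
        rwa [Real.norm_of_nonneg (tsum_nonneg fun i => hg0 x (e i))])
  have hls : ∀ x : Pt emb M, Summable fun i => latTerm E φ τ (e i) x := fun x => by
    refine .of_norm_bounded (((summable_norm_gK (NeZero.ne M) τ x.pt).comp_injective he).mul_left
      Cφ) fun i => ?_
    rw [latTerm, norm_mul]
    exact mul_le_mul_of_nonneg_right (hCφ _ _) (norm_nonneg _)
  refine ⟨hasSum_integral_of_dominated_convergence (fun i x => g x (e i))
    (fun i => (hmi i).aestronglyMeasurable) (fun i => Eventually.of_forall fun x => hle x i)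
    (Eventually.of_forall hsm) hgint (Eventually.of_forall fun x => (hls x).hasSum.mul_left _),
    ?_, ?_⟩
  · refine (norm_integral_le_of_norm_le (hhint.const_mul (D * |C| * growth τ.im))
      (hsum_le.mono fun x hx => ?_)).trans_eq ?_
    · rw [← tsum_mul_left]
      exact (tsum_of_norm_bounded (hsm x).hasSum (hle x)).trans hx
    · rw [integral_const_mul]; ring
  · rw [← lintegral_tsum fun i => (hmi i).enorm.aemeasurable]
    refine ne_top_of_le_ne_top hgint.2.ne (lintegral_mono fun x => ?_)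
    calc ∑' i, ‖A x * latTerm E φ τ (e i) x‖ₑ ≤ ∑' i, ENNReal.ofReal (g x (e i)) := by
          refine ENNReal.tsum_le_tsum fun i => ?_
          rw [← ofReal_norm]
          exact ENNReal.ofReal_le_ofReal (hle x i)
      _ = ENNReal.ofReal (∑' i, g x (e i)) :=
          (ENNReal.ofReal_tsum_of_nonneg (fun i => hg0 x (e i)) (hsm x)).symm
      _ ≤ _ := Real.ofReal_le_enorm _

/-- The contribution of a shell, before scaling. -/
theorem integral_shell_eq (τ : ℍ) {j : ℤ} (hj : j ≠ 0) :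
    ∫ x, A x * ∑' v : Shell j, latTerm E φ τ v.1 x ∂Spectral.quotMeasure (ptMeasure emb M) wt =
      (√τ.im : ℂ) * Complex.exp (2 * π * Complex.I * τ * j / (3 * M ^ 2 : ℕ)) *
        (Real.exp (-(4 * π * τ.im * |(j : ℝ)| / (3 * M ^ 2 : ℕ) * if j < 0 then 1 else 0)) : ℂ) *
        shellInt E wt A φ j (4 * π * τ.im * |(j : ℝ)| / (3 * M ^ 2 : ℕ)) := by
  rw [shellInt, ← integral_const_mul]
  refine integral_congr_ae (Eventually.of_forall fun x => ?_)
  simp only [shellTerm, ← tsum_mul_left]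
  refine tsum_congr fun v => ?_
  rw [latTerm, gK_shell (NeZero.ne M) τ x.pt v.2 hj]
  ring

include hι hwt hAi hAc hAb hAs hmaj in
theorem shellInt_pos {j : ℤ} (hj : 0 < j) {a : ℝ} (ha : 0 < a) :
    shellInt E wt A φ j a = shellInt E wt A φ j 1 / (√a : ℝ) := by
  have h := shellInt_scale E hι hwt hAi hAc hAb hAs hmaj φ hj.ne' ha one_pos
  rw [sphTransform_shellKer_pos hj one_pos, sphTransform_shellKer_pos hj ha, div_one,
    Real.sqrt_div Real.pi_pos.le, Complex.ofReal_div] at h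
  have h1 : (√π : ℂ) ≠ 0 := Complex.ofReal_ne_zero.2 (Real.sqrt_pos.2 Real.pi_pos).ne'
  have h2 : (√a : ℂ) ≠ 0 := Complex.ofReal_ne_zero.2 (Real.sqrt_pos.2 ha).ne'
  refine mul_left_cancel₀ h1 (h.trans ?_)
  field_simp

include hι hwt hAi hAc hAb hAs hmaj in
theorem shellInt_neg {j : ℤ} (hj : j < 0) {a : ℝ} (ha : 0 < a) :
    shellInt E wt A φ j a =
      (Real.exp a * expInt a / (√a * Real.exp 1 * expInt 1) : ℝ) * shellInt E wt A φ j 1 := by
  have h := shellInt_scale E hι hwt hAi hAc hAb hAs hmaj φ hj.ne ha one_pos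
  rw [sphTransform_shellKer_neg hj one_pos, sphTransform_shellKer_neg hj ha, div_one] at h
  have he := WeightOne.expInt_pos one_pos
  have h1 : ((π * √π * Real.exp 1 * expInt 1 : ℝ) : ℂ) ≠ 0 :=
    Complex.ofReal_ne_zero.2 (by positivity)
  refine mul_left_cancel₀ h1 (h.trans ?_)
  rw [Real.sqrt_div Real.pi_pos.le, ← mul_assoc ((π * √π * Real.exp 1 * expInt 1 : ℝ) : ℂ),
    ← Complex.ofReal_mul]
  congr 2
  have := (Real.sqrt_pos.2 ha).ne'
  have := he.ne'
  field_simp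

include hι hwt hAi hAc hAb hAs hmaj in
theorem integral_shell_nat (τ : ℍ) {n : ℕ} (hn : n ≠ 0) :
    ∫ x, A x * ∑' v : Shell (n : ℤ), latTerm E φ τ v.1 x ∂Spectral.quotMeasure (ptMeasure emb M) wt =
      plusCoeff E wt A φ n * qTerm (3 * M ^ 2) n τ := by
  have hn0 : (0 : ℤ) < n := Int.natCast_pos.2 (Nat.pos_of_ne_zero hn)
  have hn' : (0 : ℝ) < n := Nat.cast_pos.2 (Nat.pos_of_ne_zero hn)
  have hh : (0 : ℝ) < (3 * M ^ 2 : ℕ) := Nat.cast_pos.2 (by have := NeZero.pos M; positivity)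
  rw [integral_shell_eq E φ τ hn0.ne', if_neg (not_lt.2 hn0.le), mul_zero, neg_zero, Real.exp_zero,
    Complex.ofReal_one, mul_one, Int.cast_natCast, Int.cast_natCast, abs_of_pos hn',
    shellInt_pos E hι hwt hAi hAc hAb hAs hmaj φ hn0 (by positivity), plusCoeff,
    show 4 * π * τ.im * n / (3 * M ^ 2 : ℕ) = τ.im * (4 * π * n / (3 * M ^ 2 : ℕ)) by ring,
    Real.sqrt_mul τ.im_pos.le, Complex.ofReal_mul, qTerm]
  have : (√τ.im : ℂ) ≠ 0 := Complex.ofReal_ne_zero.2 (Real.sqrt_pos.2 τ.im_pos).ne'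
  rw [show 2 * π * Complex.I * (n : ℂ) * (τ : ℂ) = 2 * π * Complex.I * τ * n by ring]
  field_simp

include hι hwt hAi hAc hAb hAs hmaj in
theorem integral_shell_neg_nat (τ : ℍ) {n : ℕ} (hn : n ≠ 0) :
    ∫ x, A x * ∑' v : Shell (-(n : ℤ)), latTerm E φ τ v.1 x
        ∂Spectral.quotMeasure (ptMeasure emb M) wt =
      minusCoeff E wt A φ n * eTerm (3 * M ^ 2) n τ := by
  have hn0 : -(n : ℤ) < 0 := neg_lt_zero.2 (Int.natCast_pos.2 (Nat.pos_of_ne_zero hn))
  have hn' : (0 : ℝ) < n := Nat.cast_pos.2 (Nat.pos_of_ne_zero hn)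
  have hh : (0 : ℝ) < (3 * M ^ 2 : ℕ) := Nat.cast_pos.2 (by have := NeZero.pos M; positivity)
  rw [integral_shell_eq E φ τ hn0.ne, if_pos hn0, mul_one, Int.cast_neg, Int.cast_natCast,
    Int.cast_neg, Int.cast_natCast, abs_neg, abs_of_pos hn',
    shellInt_neg E hι hwt hAi hAc hAb hAs hmaj φ hn0 (by positivity), minusCoeff, eTerm,
    UpperHalfPlane.coe_im,
    show 4 * π * τ.im * n / (3 * M ^ 2 : ℕ) = τ.im * (4 * π * n / (3 * M ^ 2 : ℕ)) by ring,
    Real.sqrt_mul τ.im_pos.le,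
    show 4 * π * (n : ℝ) / (3 * M ^ 2 : ℕ) * τ.im = τ.im * (4 * π * n / (3 * M ^ 2 : ℕ)) by ring,
    show 2 * π * Complex.I * (τ : ℂ) * -(n : ℂ) / ((3 * M ^ 2 : ℕ) : ℂ) =
      -(2 * π * Complex.I * n * τ / ((3 * M ^ 2 : ℕ) : ℂ)) by ring, Real.exp_neg]
  have : (√τ.im : ℂ) ≠ 0 := Complex.ofReal_ne_zero.2 (Real.sqrt_pos.2 τ.im_pos).ne'
  have : (Real.exp (τ.im * (4 * π * n / (3 * M ^ 2 : ℕ))) : ℂ) ≠ 0 :=
    Complex.ofReal_ne_zero.2 (Real.exp_pos _).ne'
  push_cast
  field_simp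

include hι hwt hAi hAc hAb hAs hmaj in
theorem isCoeff_plusCoeff : IsCoeff (plusCoeff E wt A φ) := by
  refine ⟨by simp [plusCoeff], ?_⟩
  obtain ⟨B, hB, hBτ⟩ := exists_hasSum_integral_latTerm E hwt hAc hAb hmaj φ
  set h : ℕ := 3 * M ^ 2
  have hh : h ≠ 0 := by have := NeZero.ne M; positivity
  refine ⟨Real.exp (2 * π) * (B * √(h : ℝ)), 2, fun n => ?_⟩
  rcases eq_or_ne n 0 with rfl | hn
  · simp only [plusCoeff, Nat.cast_zero, mul_zero, zero_div, Real.sqrt_zero, Complex.ofReal_zero,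
      div_zero, norm_zero]
    positivity
  have hv : 0 < (h : ℝ) / n := div_pos (Nat.cast_pos.2 (Nat.pos_of_ne_zero hh))
    (Nat.cast_pos.2 (Nat.pos_of_ne_zero hn))
  obtain ⟨-, hb, -⟩ := hBτ ⟨⟨0, (h : ℝ) / n⟩, hv⟩ (fun v : Shell (n : ℤ) => v.1)
    Subtype.val_injective
  rw [integral_shell_nat E hι hwt hAi hAc hAb hAs hmaj φ _ hn, norm_mul,
    WeightOne.norm_qTerm] at hb
  have hd : decay h ((h : ℝ) / n) n = (Real.exp (2 * π))⁻¹ := by
    rw [decay, ← Real.exp_neg]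
    congr 1
    field_simp
  rw [show decay (3 * M ^ 2) _ n = (Real.exp (2 * π))⁻¹ from hd, ← div_eq_mul_inv,
    div_le_iff₀ (Real.exp_pos _)] at hb
  refine (hb.trans (mul_le_mul_of_nonneg_right (mul_le_mul_of_nonneg_left
    (growth_div_le hh hn) hB) (Real.exp_pos _).le)).trans_eq ?_
  ring

include hι hwt hAi hAc hAb hAs hmaj in
theorem isCoeff_minusCoeff : IsCoeff (minusCoeff E wt A φ) := by
  refine ⟨by simp [minusCoeff], ?_⟩
  obtain ⟨B, hB, hBτ⟩ := exists_hasSum_integral_latTerm E hwt hAc hAb hmaj φ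
  set h : ℕ := 3 * M ^ 2
  have hh : h ≠ 0 := by have := NeZero.ne M; positivity
  set K := expInt (4 * π) * Real.exp (2 * π)
  have hK : 0 < K := mul_pos (WeightOne.expInt_pos (by positivity)) (Real.exp_pos _)
  refine ⟨B * √(h : ℝ) / K, 2, fun n => ?_⟩
  rcases eq_or_ne n 0 with rfl | hn
  · simp only [minusCoeff, Nat.cast_zero, mul_zero, zero_div, Real.sqrt_zero, zero_mul,
      Complex.ofReal_zero, div_zero, norm_zero]
    positivity
  have hn' : (0 : ℝ) < n := Nat.cast_pos.2 (Nat.pos_of_ne_zero hn)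
  have hv : 0 < (h : ℝ) / n := div_pos (Nat.cast_pos.2 (Nat.pos_of_ne_zero hh)) hn'
  obtain ⟨-, hb, -⟩ := hBτ ⟨⟨0, (h : ℝ) / n⟩, hv⟩ (fun v : Shell (-(n : ℤ)) => v.1)
    Subtype.val_injective
  rw [integral_shell_neg_nat E hι hwt hAi hAc hAb hAs hmaj φ _ hn, norm_mul] at hb
  have he : ‖eTerm h n (⟨0, (h : ℝ) / n⟩ : ℂ)‖ = K := by
    have hh' : (0 : ℝ) < h := Nat.cast_pos.2 (Nat.pos_of_ne_zero hh)
    rw [eTerm, norm_mul, WeightOne.norm_exp_neg, Complex.norm_real,
      Real.norm_of_nonneg (WeightOne.expInt_nonneg (by positivity))]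
    simp only [K]
    congr 2 <;> field_simp
  rw [show ‖eTerm (3 * M ^ 2) n _‖ = K from he, ← le_div_iff₀ hK] at hb
  refine (hb.trans (div_le_div_of_nonneg_right (mul_le_mul_of_nonneg_left
    (growth_div_le hh hn) hB) hK.le)).trans_eq ?_
  ring

include hι hwt hAi hAc hAb hAs hmaj in
/-- The lift is the harmonic series of its coefficients. -/
theorem liftF_eq_harmSeries [IsDomain O] [IsBezout O]
    (hAz : ∀ (r : ℝ) (hr : 0 < r) (k : Red O M), Tendsto
      (fun R : ℝ => ⨍ z in Metric.closedBall (0 : ℂ) R, A (Pt.mk emb ⟨z, r, hr⟩ k) ∂volume)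
      atTop (𝓝 0))
    (hA0 : ∫ x, A x ∂Spectral.quotMeasure (ptMeasure emb M) wt = 0) :
    liftF E wt A φ =
      harmSeries (3 * M ^ 2) (plusCoeff E wt A φ) (minusCoeff E wt A φ) := by
  funext τ
  have : NeZero (3 * M ^ 2) := ⟨by have := NeZero.ne M; positivity⟩
  obtain ⟨B, -, hB⟩ := exists_hasSum_integral_latTerm E hwt hAc hAb hmaj φ
  set q := Spectral.quotMeasure (ptMeasure emb M) wt
  set I : IVec → ℂ := fun k => ∫ x, A x * latTerm E φ τ k x ∂q with hI
  obtain ⟨hI1, -, hfin⟩ := hB τ (id : IVec → IVec) Function.injective_id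
  have hF : liftF E wt A φ τ = ∑' k, I k := hI1.tsum_eq.symm
  set e : (Σ j : ℤ, Shell j) ≃ IVec := Equiv.sigmaFiberEquiv q3
  set S : ℤ → ℂ := fun j => ∑' v : Shell j, I v.1 with hSdef
  have hsig : Summable fun p : Σ j : ℤ, Shell j => I p.2.1 :=
    (e.summable_iff (f := I)).2 hI1.summable
  have hFS : liftF E wt A φ τ = ∑' j, S j := by
    rw [hF, ← e.tsum_eq I]
    exact hsig.tsum_sigma
  have hS : Summable S := hsig.sigma
  have hj : ∀ j : ℤ, S j = ∫ x, A x * ∑' v : Shell j, latTerm E φ τ v.1 x ∂q := fun j =>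
    (hB τ (fun v : Shell j => v.1) Subtype.val_injective).1.tsum_eq
  have hp := isCoeff_plusCoeff E hι hwt hAi hAc hAb hAs hmaj φ
  have hm := isCoeff_minusCoeff E hι hwt hAi hAc hAb hAs hmaj φ
  have hSp : ∀ n : ℕ, S n = plusCoeff E wt A φ n * qTerm (3 * M ^ 2) n τ := fun n => by
    rcases eq_or_ne n 0 with rfl | hn
    · rw [hp.1, zero_mul, Nat.cast_zero]
      exact tsum_integral_null_eq_zero E hι hAi hAc hAb hAz φ τ hwt.isWeight hfin hA0
    · rw [hj, integral_shell_nat E hι hwt hAi hAc hAb hAs hmaj φ τ hn]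
  have hSm : ∀ n : ℕ, S (-((n : ℤ) + 1)) =
      minusCoeff E wt A φ (n + 1) * eTerm (3 * M ^ 2) (n + 1) τ := fun n => by
    have := integral_shell_neg_nat E hι hwt hAi hAc hAb hAs hmaj φ τ n.succ_ne_zero
    rw [← hj] at this
    exact_mod_cast this
  have hcp : Summable fun n : ℕ => plusCoeff E wt A φ n * qTerm (3 * M ^ 2) n τ :=
    .of_norm_bounded (hp.summable (h := 3 * M ^ 2) τ.im_pos) fun n =>
      (by rw [norm_mul, WeightOne.norm_qTerm, UpperHalfPlane.coe_im])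
  have hcm := WeightOne.summable_eTerm (h := 3 * M ^ 2) hm (z := (τ : ℂ)) τ.im_pos
  rw [hFS, ← tsum_nat_add_neg_add_one hS, harmSeries, qSeries, eSeries,
    hcm.tsum_eq_zero_add, hm.1, zero_mul, zero_add]
  simp only [hSp, hSm]
  exact hcp.tsum_add ((summable_nat_add_iff 1).2 hcm)

include hι hwt hAi hAc hAb hAs hmaj in
/-- The lift is harmonic at `∞`. -/
theorem hasHarmExp_liftF [IsDomain O] [IsBezout O]
    (hAz : ∀ (r : ℝ) (hr : 0 < r) (k : Red O M), Tendsto
      (fun R : ℝ => ⨍ z in Metric.closedBall (0 : ℂ) R, A (Pt.mk emb ⟨z, r, hr⟩ k) ∂volume)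
      atTop (𝓝 0))
    (hA0 : ∫ x, A x ∂Spectral.quotMeasure (ptMeasure emb M) wt = 0) :
    HasHarmExp (3 * M ^ 2) (liftF E wt A φ) :=
  ⟨_, _, isCoeff_plusCoeff E hι hwt hAi hAc hAb hAs hmaj φ,
    isCoeff_minusCoeff E hι hwt hAi hAc hAb hAs hmaj φ,
    liftF_eq_harmSeries E hι hwt hAi hAc hAb hAs hmaj φ hAz hA0⟩

include hι hwt hAi hAc hAb hAs hmaj in
/-- A nonzero coefficient makes the lift nonzero. -/
theorem liftF_ne_zero [IsDomain O] [IsBezout O]
    (hAz : ∀ (r : ℝ) (hr : 0 < r) (k : Red O M), Tendsto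
      (fun R : ℝ => ⨍ z in Metric.closedBall (0 : ℂ) R, A (Pt.mk emb ⟨z, r, hr⟩ k) ∂volume)
      atTop (𝓝 0))
    (hA0 : ∫ x, A x ∂Spectral.quotMeasure (ptMeasure emb M) wt = 0) {n : ℕ} (hn : n ≠ 0)
    (hne : shellInt E wt A φ n 1 ≠ 0) : liftF E wt A φ ≠ 0 := by
  intro h0
  have : NeZero (3 * M ^ 2) := ⟨by have := NeZero.ne M; positivity⟩
  have h := (WeightOne.eq_zero_of_harmSeries_eq_zero
    (isCoeff_plusCoeff E hι hwt hAi hAc hAb hAs hmaj φ)
    (isCoeff_minusCoeff E hι hwt hAi hAc hAb hAs hmaj φ)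
    ((liftF_eq_harmSeries E hι hwt hAi hAc hAb hAs hmaj φ hAz hA0).symm.trans h0) n).1
  rw [plusCoeff, div_eq_zero_iff, Complex.ofReal_eq_zero, Real.sqrt_eq_zero (by positivity)] at h
  have hn' : (0 : ℝ) < n := Nat.cast_pos.2 (Nat.pos_of_ne_zero hn)
  have hh : (0 : ℝ) < (3 * M ^ 2 : ℕ) := Nat.cast_pos.2 (NeZero.pos _)
  exact h.elim hne (fun h' => absurd h' (by positivity))

end Expansion

end Fermat.Agent.LT.Lift
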