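import Fermat.Agent.LT.Lift.ShellPair
import Fermat.Agent.LT.Arch.Plane
import Fermat.Agent.LT.Theta.Identity

/-!
# The kernel of a shell

A vector `x` with `Q(x) ≠ 0` fixes a plane (`Q > 0`) or a point (`Q < 0`) of `ℍ₃`, and
`l_w(x)² / |Q(x)|` is `sinh²` resp. `cosh²` of the distance from `w`.  The Gaussian in this
quantity is the image of a point-pair kernel, so two of them can be exchanged under convolution.
-/

set_option autoImplicit false

noncomputable section

namespace Fermat.Agent.LT.Lift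

open MeasureTheory Filter Set
open Adelic (HSpace)
open Theta (RVec IVec qR frame q3 dv hermC)
open scoped Real ComplexConjugate

/-- Convolution of two point-pair kernels is commutative. -/
theorem integral_ker_comm (R K : ℝ → ℂ) (w q : HSpace) :
    ∫ y, R (HSpace.coshDist w y) * K (HSpace.coshDist y q) ∂HSpace.measure =
      ∫ y, K (HSpace.coshDist w y) * R (HSpace.coshDist y q) ∂HSpace.measure := by
  obtain ⟨g, h1, h2⟩ := HSpace.exists_swap w q
  rw [← (HSpace.measurePreserving_const_smul g).integral_comp (measurableEmbedding_const_smul g)]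
  refine integral_congr_ae (Eventually.of_forall fun y => ?_)
  have e1 := HSpace.coshDist_smul g q y
  have e2 := HSpace.coshDist_smul g y w
  rw [h2] at e1
  rw [h1] at e2
  simp only [e1, e2]
  rw [HSpace.coshDist_comm q y, HSpace.coshDist_comm y w, mul_comm]

/-! ### Integrals over a plane -/

/-- The set of parameters of the plane. -/
abbrev planeSet : Set (ℝ × ℝ) := (univ : Set ℝ) ×ˢ Ioi 0

/-- The integral of a kernel over the plane `Im z = 0`. -/
def planeInt (K : ℝ → ℂ) (q : HSpace) : ℂ :=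
  ∫ x in planeSet, (x.2 ^ 2)⁻¹ • K (Arch.planeArg q x.1 x.2)

theorem measurable_planeArg {α : Type*} [MeasurableSpace α] {f : α → HSpace} (hf : Measurable f) :
    Measurable fun p : α × (ℝ × ℝ) => Arch.planeArg (f p.1) p.2.1 p.2.2 := by
  have hz : Measurable fun p : α × (ℝ × ℝ) => (f p.1).z :=
    HSpace.continuous_z.measurable.comp (hf.comp measurable_fst)
  have hr : Measurable fun p : α × (ℝ × ℝ) => (f p.1).r :=
    HSpace.continuous_r.measurable.comp (hf.comp measurable_fst)
  have hre : Measurable fun p : α × (ℝ × ℝ) => (f p.1).z.re := Complex.measurable_re.comp hz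
  have him : Measurable fun p : α × (ℝ × ℝ) => (f p.1).z.im := Complex.measurable_im.comp hz
  unfold Arch.planeArg Arch.argU
  fun_prop

theorem exists_integral_norm_plane_le {K : ℝ → ℂ} (hK : Continuous K) (hq : Arch.IsQuartic K) :
    ∃ B : ℝ, ∀ q : HSpace,
      IntegrableOn (fun x : ℝ × ℝ => (x.2 ^ 2)⁻¹ • K (Arch.planeArg q x.1 x.2)) planeSet ∧
        ∫ x in planeSet, ‖(x.2 ^ 2)⁻¹ • K (Arch.planeArg q x.1 x.2)‖ ≤ B := by
  obtain ⟨C, hC, hKC⟩ := hq
  set k0 : ℝ → ℝ := fun u => ((1 + u ^ 2) ^ 2)⁻¹ with hk0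
  have hk0c : Continuous k0 := (by fun_prop : Continuous fun u : ℝ => (1 + u ^ 2) ^ 2).inv₀
    fun u => by positivity
  have hk0q : Arch.IsQuartic fun u => (k0 u : ℂ) := ⟨1, zero_le_one, fun u hu => by
    rw [Complex.norm_real, Real.norm_of_nonneg (by positivity), hk0, one_div]
    exact inv_anti₀ (by positivity) (by nlinarith [sq_nonneg u])⟩
  have hk0c' : Continuous fun u => (k0 u : ℂ) := Complex.continuous_ofReal.comp hk0c
  have hI : IntegrableOn k0 (Ioi 1) := by
    refine (integrable_inv_one_add_sq.integrableOn).mono' hk0c.aestronglyMeasurable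
      (Eventually.of_forall fun u => ?_)
    rw [Real.norm_of_nonneg (by positivity), hk0]
    exact inv_anti₀ (by positivity) (le_self_pow₀ (by nlinarith [sq_nonneg u]) two_ne_zero)
  refine ⟨4 * C * (2 * π * ∫ u in Ioi (1 : ℝ), k0 u), fun q => ⟨Arch.integrableOn_plane hK
    ⟨C, hC, hKC⟩ q, ?_⟩⟩
  set c := √(q.z.im ^ 2 + q.r ^ 2) / q.r with hc
  have hqR : q.r ≤ √(q.z.im ^ 2 + q.r ^ 2) :=
    Real.le_sqrt_of_sq_le (by nlinarith [sq_nonneg q.z.im])
  have hc1 : 1 ≤ c := (one_le_div q.r_pos).2 hqR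
  have h0 := Arch.integral_plane hk0c' hk0q q
  have hint := Arch.integrableOn_plane hk0c' hk0q q
  have e : ∫ x in planeSet, (x.2 ^ 2)⁻¹ * k0 (Arch.planeArg q x.1 x.2) =
      2 * π * ∫ u in Ioi (1 : ℝ), k0 (c * u) := by
    simp only [Complex.real_smul, ← Complex.ofReal_mul] at h0
    rw [integral_complex_ofReal, integral_complex_ofReal] at h0
    exact_mod_cast h0
  have hint' : IntegrableOn (fun x : ℝ × ℝ => (x.2 ^ 2)⁻¹ * k0 (Arch.planeArg q x.1 x.2))
      planeSet := by
    have h1 : IntegrableOn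
        (fun x : ℝ × ℝ => ((((x.2 ^ 2)⁻¹ * k0 (Arch.planeArg q x.1 x.2) : ℝ)) : ℂ)) planeSet :=
      hint.congr (Eventually.of_forall fun x => by
        simp [Complex.real_smul])
    exact h1.re.congr (Eventually.of_forall fun x => RCLike.ofReal_re (K := ℂ) _)
  calc ∫ x in planeSet, ‖(x.2 ^ 2)⁻¹ • K (Arch.planeArg q x.1 x.2)‖
      ≤ ∫ x in planeSet, 4 * C * ((x.2 ^ 2)⁻¹ * k0 (Arch.planeArg q x.1 x.2)) := by
        refine integral_mono_of_nonneg (Eventually.of_forall fun x => norm_nonneg _)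
          (hint'.const_mul _) ?_
        filter_upwards [ae_restrict_mem (MeasurableSet.univ.prod measurableSet_Ioi)] with x hx
        have hr : 0 < x.2 := by simpa using hx
        have hu : 1 ≤ Arch.planeArg q x.1 x.2 := Arch.one_le_argU (sq_nonneg _) q.r_pos hqR hr
        rw [norm_smul, Real.norm_of_nonneg (by positivity), mul_left_comm (4 * C)]
        refine mul_le_mul_of_nonneg_left ((hKC _ hu).trans ?_) (by positivity)
        generalize Arch.planeArg q x.1 x.2 = u at hu ⊢
        rw [hk0]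
        simp only
        rw [← div_eq_mul_inv, div_le_div_iff₀ (by positivity) (by positivity), mul_comm (4 * C),
          mul_comm C]
        calc (1 + u ^ 2) ^ 2 * C ≤ (2 * u ^ 2) ^ 2 * C :=
              mul_le_mul_of_nonneg_right (pow_le_pow_left₀ (by positivity) (by nlinarith) 2) hC
          _ = u ^ 4 * (4 * C) := by ring
    _ = 4 * C * (2 * π * ∫ u in Ioi (1 : ℝ), k0 (c * u)) := by rw [integral_const_mul, e]
    _ ≤ _ := by
        refine mul_le_mul_of_nonneg_left (mul_le_mul_of_nonneg_left ?_ (by positivity))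
          (by positivity)
        refine setIntegral_mono_on ?_ hI measurableSet_Ioi fun u (hu : 1 < u) => ?_
        · refine hI.mono' (hk0c.comp (by fun_prop)).aestronglyMeasurable ?_
          filter_upwards [ae_restrict_mem measurableSet_Ioi] with u (hu : 1 < u)
          rw [Real.norm_of_nonneg (by positivity), hk0]
          refine inv_anti₀ (by positivity) ?_
          gcongr
          exact le_mul_of_one_le_left (by linarith) hc1
        · refine inv_anti₀ (by positivity) ?_
          gcongr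
          exact le_mul_of_one_le_left (by linarith) hc1

/-- Convolution exchanges the kernels through a plane. -/
theorem integral_ker_planeInt_comm {R K : ℝ → ℂ} (hR : Continuous R) (hRq : Arch.IsQuartic R)
    (hK : Continuous K) (hKq : Arch.IsQuartic K) (g : GL (Fin 2) ℂ) (w : HSpace) :
    ∫ y, R (HSpace.coshDist w y) * planeInt K (g⁻¹ • y) ∂HSpace.measure =
      ∫ y, K (HSpace.coshDist w y) * planeInt R (g⁻¹ • y) ∂HSpace.measure := by
  have key : ∀ {R K : ℝ → ℂ}, Continuous R → Arch.IsQuartic R → Continuous K →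
      Arch.IsQuartic K →
      ∫ y, R (HSpace.coshDist w y) * planeInt K (g⁻¹ • y) ∂HSpace.measure =
        ∫ x in planeSet, (x.2 ^ 2)⁻¹ • ∫ y, R (HSpace.coshDist w y) *
          K (Arch.planeArg (g⁻¹ • y) x.1 x.2) ∂HSpace.measure := by
    intro R K hR hRq hK hKq
    obtain ⟨B, hB⟩ := exists_integral_norm_plane_le hK hKq
    simp only [planeInt, ← integral_const_mul, mul_smul_comm, ← integral_smul]
    refine integral_integral_swap ?_
    have hm : Measurable fun p : HSpace × (ℝ × ℝ) =>
        (p.2.2 ^ 2)⁻¹ • (R (HSpace.coshDist w p.1) * K (Arch.planeArg (g⁻¹ • p.1) p.2.1 p.2.2)) :=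
      ((measurable_snd.comp measurable_snd).pow_const 2).inv.smul
        (((hR.comp (HSpace.continuous_coshDist.comp
          (Continuous.prodMk_right w))).measurable.comp measurable_fst).mul
          (hK.measurable.comp (measurable_planeArg (measurable_const_smul g⁻¹))))
    refine (integrable_prod_iff hm.aestronglyMeasurable).2
      ⟨Eventually.of_forall fun y => ?_, ?_⟩
    · refine ((hB (g⁻¹ • y)).1.const_mul (R (HSpace.coshDist w y))).congr
        (Eventually.of_forall fun x => ?_)
      simp only [mul_smul_comm]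
    · refine ((integrable_ker hR hRq w).norm.mul_const B).mono'
        hm.norm.aestronglyMeasurable.integral_prod_right' (Eventually.of_forall fun y => ?_)
      rw [Real.norm_of_nonneg (integral_nonneg fun x => norm_nonneg _)]
      simp only [← mul_smul_comm, norm_mul, integral_const_mul]
      exact mul_le_mul_of_nonneg_left (hB _).2 (norm_nonneg _)
  rw [key hR hRq hK hKq, key hK hKq hR hRq]
  refine setIntegral_congr_fun (MeasurableSet.univ.prod measurableSet_Ioi) fun x hx => ?_
  have hr : 0 < x.2 := by simpa using hx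
  simp only [Arch.planeArg_eq _ _ _ hr]
  have e : ∀ y : HSpace, HSpace.coshDist (g⁻¹ • y) ⟨(x.1 : ℂ), x.2, hr⟩ =
      HSpace.coshDist y (g • ⟨(x.1 : ℂ), x.2, hr⟩) := fun y => by
    have := HSpace.coshDist_smul g (g⁻¹ • y) ⟨(x.1 : ℂ), x.2, hr⟩
    rw [smul_inv_smul] at this
    exact this.symm
  simp only [e, integral_ker_comm R K]

/-! ### The plane and the point of a vector -/

/-- A vector of the plane `Im z = 0`. -/
def planeVec : RVec := ![0, 0, 1 / √3, 2 / √3]

theorem hermC_planeVec : hermC planeVec = !![0, Complex.I; -Complex.I, 0] := by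
  have h3 : (√3 : ℝ) ≠ 0 := by positivity
  have e1 : (1 / √3 - 2 / √3 / 2 : ℝ) = 0 := by field_simp; ring
  have e2 : (√3 / 2 * (2 / √3) : ℝ) = 1 := by field_simp
  ext i j
  fin_cases i <;> fin_cases j <;> simp [hermC, planeVec, e2] <;> ring

theorem frame_planeVec (w : HSpace) : frame w planeVec 3 = -(w.z.im / w.r) := by
  have h3 : (√3 : ℝ) ≠ 0 := by positivity
  have := w.r_pos.ne'
  simp [Theta.frame_apply, Theta.frameFun, planeVec]
  field_simp
  ring

/-- A vector with `Q > 0` is a multiple of a translate of `planeVec`. -/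
theorem exists_plane_param {x : RVec} (hx : 0 < qR x) :
    ∃ g : GL (Fin 2) ℂ, ∀ w : HSpace,
      frame (g • w) x 3 ^ 2 = qR x * (w.z.im / w.r) ^ 2 := by
  suffices h : ∃ (g : GL (Fin 2) ℂ) (k : ℝ), k ^ 2 = qR x ∧
      hermC x = (HSpace.absDet g : ℂ)⁻¹ • ((g : Matrix (Fin 2) (Fin 2) ℂ) *
        hermC (k • planeVec) * (g : Matrix (Fin 2) (Fin 2) ℂ).conjTranspose) by
    obtain ⟨g, k, hk, hg⟩ := h
    refine ⟨g, fun w => ?_⟩
    have h1 : frame (g • w) x 3 = frame w (k • planeVec) 3 := by
      exact_mod_cast Theta.frame_three_equivariant g hg w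
    rw [h1, map_smul, Pi.smul_apply, smul_eq_mul, frame_planeVec, mul_pow, neg_sq, hk]
  obtain ⟨b, hb⟩ : ∃ b : ℂ, b = ((x 2 - x 3 / 2 : ℝ) : ℂ) + ((√3 / 2 * x 3 : ℝ) : ℂ) * Complex.I :=
    ⟨_, rfl⟩
  have hQ : qR x = Complex.normSq b - x 0 * x 1 := by
    have h3 : (√3 : ℝ) ^ 2 = 3 := Real.sq_sqrt (by norm_num)
    simp only [qR, hb, Complex.normSq_add_mul_I]
    linear_combination (-(x 3 ^ 2) / 4) * h3
  have hh : hermC x = !![(x 0 : ℂ), b; conj b, (x 1 : ℂ)] := by
    ext i j
    fin_cases i <;> fin_cases j <;> simp [hermC, hb, sub_eq_add_neg, map_ofNat]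
  rw [hh]
  by_cases h1 : x 1 = 0
  · have hbQ : Complex.normSq b = qR x := by rw [hQ, h1]; ring
    have hb0 : b ≠ 0 := fun e => by rw [e, map_zero] at hbQ; linarith
    have hdet : (!![-(Complex.I * b), b * ((x 0 / (2 * qR x) : ℝ) : ℂ); 0, 1] :
        Matrix (Fin 2) (Fin 2) ℂ).det ≠ 0 := by simp [hb0]
    refine ⟨Matrix.GeneralLinearGroup.mkOfDetNeZero _ hdet, √(qR x), Real.sq_sqrt hx.le, ?_⟩
    have habs : HSpace.absDet (Matrix.GeneralLinearGroup.mkOfDetNeZero _ hdet) = √(qR x) := by
      rw [HSpace.absDet]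
      simp [Matrix.GeneralLinearGroup.mkOfDetNeZero, Complex.norm_def, hbQ]
    have hs : (√(qR x) : ℂ) ≠ 0 := Complex.ofReal_ne_zero.2 (Real.sqrt_pos.2 hx).ne'
    have hqc : (qR x : ℂ) = b * conj b := by rw [Complex.mul_conj, hbQ]
    have hq0 : (qR x : ℂ) ≠ 0 := Complex.ofReal_ne_zero.2 hx.ne'
    rw [habs, Theta.hermC_smul, hermC_planeVec]
    ext i j
    fin_cases i <;> fin_cases j <;>
      simp [Matrix.GeneralLinearGroup.mkOfDetNeZero, Matrix.vecMul, dotProduct, Fin.sum_univ_two, h1, map_ofNat] <;>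
      field_simp
    · linear_combination (2 * (x 0 : ℂ)) * hqc + (2 * (x 0 : ℂ) * b * conj b) * Complex.I_sq
    all_goals simp [Complex.I_sq]
  · have hx1 : (x 1 : ℂ) ≠ 0 := Complex.ofReal_ne_zero.2 h1
    set e : ℝ := √(qR x) / |x 1| with he
    have he0 : 0 < e := div_pos (Real.sqrt_pos.2 hx) (abs_pos.2 h1)
    have hec : (e : ℂ) ≠ 0 := Complex.ofReal_ne_zero.2 he0.ne'
    have he2 : (x 1 * e) ^ 2 = qR x := by
      rw [he, mul_pow, div_pow, sq_abs, Real.sq_sqrt hx.le]
      field_simp
    have hdet : (!![(e : ℂ) + Complex.I * (b / x 1), Complex.I * e + b / x 1; Complex.I, 1] :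
        Matrix (Fin 2) (Fin 2) ℂ).det = ((2 * e : ℝ) : ℂ) := by
      simp [Matrix.det_fin_two]
      linear_combination (-(e : ℂ)) * Complex.I_sq
    have hdet' : (!![(e : ℂ) + Complex.I * (b / x 1), Complex.I * e + b / x 1; Complex.I, 1] :
        Matrix (Fin 2) (Fin 2) ℂ).det ≠ 0 := by
      rw [hdet, Complex.ofReal_ne_zero]; positivity
    refine ⟨Matrix.GeneralLinearGroup.mkOfDetNeZero _ hdet', -(x 1 * e),
      by rw [neg_sq, he2], ?_⟩
    have habs : HSpace.absDet (Matrix.GeneralLinearGroup.mkOfDetNeZero _ hdet') = 2 * e := by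
      rw [HSpace.absDet]
      show ‖(!![(e : ℂ) + Complex.I * (b / x 1), Complex.I * e + b / x 1; Complex.I, 1] :
        Matrix (Fin 2) (Fin 2) ℂ).det‖ = _
      rw [hdet, Complex.norm_real, Real.norm_of_nonneg (by positivity)]
    have hqc : ((x 1 : ℂ) * e) ^ 2 = b * conj b - (x 0 : ℂ) * x 1 := by
      rw [Complex.mul_conj, ← Complex.ofReal_mul, ← Complex.ofReal_mul, ← Complex.ofReal_pow, he2,
        hQ]
      push_cast
      ring
    rw [habs, Theta.hermC_smul, hermC_planeVec]
    ext i j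
    fin_cases i <;> fin_cases j <;>
      simp [Matrix.GeneralLinearGroup.mkOfDetNeZero, Matrix.vecMul, dotProduct, Fin.sum_univ_two,
        Complex.conj_I, map_div₀, Complex.conj_ofReal] <;>
      field_simp
    · linear_combination 2 * hqc + (-(2 * ((e : ℂ) ^ 2 * (x 1 : ℂ) ^ 2 - b * conj b) +
        Complex.I * e * x 1 * (b - conj b))) * Complex.I_sq
    · linear_combination (2 * b + Complex.I * e * x 1) * Complex.I_sq
    · linear_combination (2 * conj b - Complex.I * e * x 1) * Complex.I_sq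
    · rw [Complex.I_sq]; norm_num

/-- A vector with `Q < 0` fixes a point. -/
theorem exists_point_param {x : RVec} (hx : qR x < 0) :
    ∃ p : HSpace, ∀ w : HSpace,
      frame w x 3 ^ 2 = -qR x * HSpace.coshDist w p ^ 2 := by
  have h3 : (√3 : ℝ) ^ 2 = 3 := Real.sq_sqrt (by norm_num)
  have h1 : x 1 ≠ 0 := fun h => by
    have : qR x = (x 2 - x 3 / 2) ^ 2 + 3 / 4 * x 3 ^ 2 := by simp [qR, h]; ring
    nlinarith [sq_nonneg (x 2 - x 3 / 2), sq_nonneg (x 3)]
  obtain ⟨R, hR⟩ : ∃ R, R = √(-qR x) / |x 1| := ⟨_, rfl⟩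
  have hR0 : 0 < R := hR ▸ div_pos (Real.sqrt_pos.2 (by linarith)) (abs_pos.2 h1)
  have hR2 : (x 1 * R) ^ 2 = -qR x := by
    rw [hR, mul_pow, div_pow, sq_abs, Real.sq_sqrt (by linarith)]
    field_simp
  refine ⟨⟨⟨(x 2 - x 3 / 2) / x 1, √3 / 2 * x 3 / x 1⟩, R, hR0⟩, fun w => ?_⟩
  have h2 : frame w x 3 =
      x 1 * R * HSpace.coshDist w ⟨⟨(x 2 - x 3 / 2) / x 1, √3 / 2 * x 3 / x 1⟩, R, hR0⟩ := by
    have hr := w.r_pos.ne'
    have hR0' := hR0.ne'
    have hq : x 0 * x 1 = (x 2 - x 3 / 2) ^ 2 + (√3 / 2 * x 3) ^ 2 + (x 1 * R) ^ 2 := by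
      rw [hR2, qR]; linear_combination (-(x 3 ^ 2) / 4) * h3
    simp [Theta.frame_apply, Theta.frameFun, HSpace.coshDist, Complex.normSq_apply]
    field_simp
    linear_combination 4 * hq
  rw [h2, mul_pow, hR2]

/-! ### The shell -/

/-- `sinh²` of the distance to the plane, resp. to the point, of a dual vector. -/
def shellEx (w : HSpace) (v : IVec) : ℝ :=
  3 * frame w (dv v) 3 ^ 2 / |(q3 v : ℝ)| - if q3 v < 0 then 1 else 0

/-- The kernel of the shell `q3 = j`. -/
def shellKer (j : ℤ) (a u : ℝ) : ℂ :=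
  ((if j < 0 then Arch.gaussKer a u else Arch.planeKer a u : ℝ) : ℂ)

theorem continuous_shellKer (j : ℤ) (a : ℝ) : Continuous (shellKer j a) := by
  refine Complex.continuous_ofReal.comp ?_
  by_cases h : j < 0 <;> simp only [h, if_true, if_false]
  exacts [Arch.continuous_gaussKer a, Arch.continuous_planeKer a]

theorem isQuartic_shellKer (j : ℤ) {a : ℝ} (ha : 0 < a) : Arch.IsQuartic (shellKer j a) := by
  unfold shellKer
  by_cases h : j < 0 <;> simp only [h, if_true, if_false]
  exacts [Arch.isQuartic_gaussKer ha, Arch.isQuartic_planeKer ha]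

theorem sphTransform_shellKer_neg {j : ℤ} (hj : j < 0) {a : ℝ} (ha : 0 < a) :
    Adelic.sphTransform (shellKer j a) 0 =
      (π * √(π / a) * Real.exp a * WeightOne.expInt a : ℝ) := by
  unfold shellKer
  simp only [hj, if_true]
  exact Arch.sphTransform_gaussKer ha

theorem sphTransform_shellKer_pos {j : ℤ} (hj : 0 < j) {a : ℝ} (ha : 0 < a) :
    Adelic.sphTransform (shellKer j a) 0 = (√(π / a) : ℂ) := by
  unfold shellKer
  simp only [not_lt.2 hj.le, if_false]
  exact Arch.sphTransform_planeKer ha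

theorem continuous_shellEx (v : IVec) : Continuous fun w : HSpace => shellEx w v := by
  unfold shellEx
  refine Continuous.sub ((continuous_const.mul ?_).div_const _) continuous_const
  simp only [Theta.frame_apply, Theta.frameFun, Matrix.cons_val]
  have := HSpace.continuous_r
  have hre : Continuous fun w : HSpace => w.z.re :=
    Complex.continuous_re.comp HSpace.continuous_z
  have him : Continuous fun w : HSpace => w.z.im :=
    Complex.continuous_im.comp HSpace.continuous_z
  refine (((Continuous.div (by fun_prop) (by fun_prop) fun w => w.r_pos.ne').add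
    (by fun_prop)).div_const 2).pow 2

theorem qR_dv_pos {v : IVec} (h : 0 < q3 v) : 0 < qR (dv v) := by
  rw [Theta.qR_dv]
  have : (0 : ℝ) < (q3 v : ℝ) := Int.cast_pos.2 h
  positivity

theorem qR_dv_neg {v : IVec} (h : q3 v < 0) : qR (dv v) < 0 := by
  rw [Theta.qR_dv]
  have : (q3 v : ℝ) < 0 := Int.cast_lt_zero.2 h
  linarith

/-- Two shell Gaussians are exchanged by convolution. -/
theorem integral_shellKer_exp {v : IVec} {j : ℤ} (hv : q3 v = j) (hj : j ≠ 0) {a b : ℝ}
    (ha : 0 < a) (hb : 0 < b) (w : HSpace) :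
    ∫ y, shellKer j b (HSpace.coshDist w y) * (Real.exp (-(a * shellEx y v)) : ℂ)
        ∂HSpace.measure =
      ∫ y, shellKer j a (HSpace.coshDist w y) * (Real.exp (-(b * shellEx y v)) : ℂ)
        ∂HSpace.measure := by
  subst hv
  rcases lt_or_gt_of_ne hj with hneg | hpos
  · obtain ⟨p, hp⟩ := exists_point_param (qR_dv_neg hneg)
    have e : ∀ (c : ℝ) (y : HSpace), (Real.exp (-(c * shellEx y v)) : ℂ) =
        shellKer (q3 v) c (HSpace.coshDist y p) := fun c y => by
      rw [shellKer, if_pos hneg, shellEx, if_pos hneg, hp y, Theta.qR_dv, abs_of_neg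
        (Int.cast_lt_zero.2 hneg), Arch.gaussKer]
      have : (q3 v : ℝ) ≠ 0 := Int.cast_ne_zero.2 hneg.ne
      congr 4
      field_simp
    simp only [e]
    exact integral_ker_comm _ _ w p
  · obtain ⟨g, hg⟩ := exists_plane_param (qR_dv_pos hpos)
    have hs : ∀ c, shellKer (q3 v) c = fun u => (Arch.planeKer c u : ℂ) := fun c => funext fun u => by
      rw [shellKer, if_neg (not_lt.2 hpos.le)]
    have e : ∀ (c : ℝ), 0 < c → ∀ y : HSpace, (Real.exp (-(c * shellEx y v)) : ℂ) =
        planeInt (shellKer (q3 v) c) (g⁻¹ • y) := fun c hc y => by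
      have h1 := hg (g⁻¹ • y)
      rw [smul_inv_smul] at h1
      rw [planeInt, hs, Arch.integral_plane_planeKer hc, shellEx, if_neg (not_lt.2 hpos.le), h1,
        Theta.qR_dv, abs_of_pos (Int.cast_pos.2 hpos), sub_zero]
      have : (q3 v : ℝ) ≠ 0 := Int.cast_ne_zero.2 hpos.ne'
      congr 4
      field_simp
    simp only [e a ha, e b hb]
    exact integral_ker_planeInt_comm (continuous_shellKer _ b) (isQuartic_shellKer _ hb)
      (continuous_shellKer _ a) (isQuartic_shellKer _ ha) g w

end Fermat.Agent.LT.Lift
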