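import Fermat.Agent.LT.Lift.Invariance
import Fermat.Agent.LT.Lift.ShellKernel

/-!
# The shells of the theta kernel on the quotient

`shellInt j a` is the integral of `A` against the shell `q3 = j` with Gaussian parameter `a`.
Applying a point-pair kernel on either side shows that it is proportional to the spherical
transform of the shell kernel, so it is known in terms of `shellInt j 1`.
-/

set_option autoImplicit false

noncomputable section

namespace Fermat.Agent.LT.Lift

open MeasureTheory Filter Set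
open Adelic (HSpace)
open Theta (RVec IVec Disc qR frame q3 dv gK dcls actK IsStdEmb)
open Orbit (EisData)
open UpperHalfPlane hiding I
open scoped Real ENNReal ComplexConjugate MatrixGroups

/-- The vectors of a shell. -/
abbrev Shell (j : ℤ) : Type := {v : IVec // q3 v = j}

/-! ### The Gaussian of a single vector -/

theorem neg_shift_le_shellEx (w : HSpace) (v : IVec) :
    -(if q3 v < 0 then (1 : ℝ) else 0) ≤ shellEx w v := by
  unfold shellEx
  have : 0 ≤ 3 * frame w (dv v) 3 ^ 2 / |(q3 v : ℝ)| := by positivity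
  linarith

theorem gK_shell {M : ℕ} (hM : M ≠ 0) (τ : ℍ) (w : HSpace) {v : IVec} {j : ℤ} (hv : q3 v = j)
    (hj : j ≠ 0) :
    gK τ w ((M : ℝ)⁻¹ • dv v) = (√τ.im : ℂ) *
      Complex.exp (2 * π * Complex.I * τ * j / (3 * M ^ 2 : ℕ)) *
      (Real.exp (-(4 * π * τ.im * |(j : ℝ)| / (3 * M ^ 2 : ℕ) * if j < 0 then 1 else 0)) : ℂ) *
      (Real.exp (-(4 * π * τ.im * |(j : ℝ)| / (3 * M ^ 2 : ℕ) * shellEx w v)) : ℂ) := by
  rw [Theta.gK_eq, Theta.qR_smul, Theta.qR_dv, map_smul, Pi.smul_apply, smul_eq_mul, hv]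
  simp only [Complex.ofReal_exp, mul_assoc (√τ.im : ℂ), ← Complex.exp_add]
  congr 2
  have hj' : |(j : ℝ)| ≠ 0 := abs_ne_zero.2 (Int.cast_ne_zero.2 hj)
  have hM' : (M : ℝ) ≠ 0 := Nat.cast_ne_zero.2 hM
  have e : -(4 * π * τ.im * |(j : ℝ)| / (3 * M ^ 2 : ℕ) * if j < 0 then 1 else 0) +
      -(4 * π * τ.im * |(j : ℝ)| / (3 * M ^ 2 : ℕ) * shellEx w v) =
        -(4 * π * τ.im * ((M : ℝ)⁻¹ * frame w (dv v) 3) ^ 2) := by
    rw [shellEx, hv]
    push_cast
    field_simp
    ring
  rw [add_assoc, ← Complex.ofReal_add, e]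
  push_cast
  have : (M : ℂ) ≠ 0 := Nat.cast_ne_zero.2 hM
  field_simp
  ring

theorem norm_gK_shell {M : ℕ} (hM : M ≠ 0) (τ : ℍ) (w : HSpace) {v : IVec} {j : ℤ} (hv : q3 v = j)
    (hj : j ≠ 0) :
    ‖gK τ w ((M : ℝ)⁻¹ • dv v)‖ = √τ.im *
      Real.exp (-(2 * π * τ.im * |(j : ℝ)| / (3 * M ^ 2 : ℕ))) *
      Real.exp (-(4 * π * τ.im * |(j : ℝ)| / (3 * M ^ 2 : ℕ) * shellEx w v)) := by
  rw [gK_shell hM τ w hv hj, norm_mul, norm_mul, norm_mul, Complex.norm_real, Complex.norm_real,
    Complex.norm_real, Real.norm_of_nonneg (Real.sqrt_nonneg _),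
    Real.norm_of_nonneg (Real.exp_pos _).le, Real.norm_of_nonneg (Real.exp_pos _).le,
    Complex.norm_exp, mul_assoc (√τ.im) (Real.exp _) (Real.exp _), ← Real.exp_add]
  congr 3
  rw [Complex.div_natCast_re]
  simp only [Complex.mul_re, Complex.mul_im, Complex.re_ofNat, Complex.im_ofNat, Complex.ofReal_re,
    Complex.ofReal_im, Complex.I_re, Complex.I_im, Complex.intCast_re, Complex.intCast_im,
    UpperHalfPlane.coe_re, UpperHalfPlane.coe_im]
  rcases lt_or_gt_of_ne hj with h | h
  · rw [if_pos h, abs_of_neg (Int.cast_lt_zero.2 h)]; ring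
  · rw [if_neg (not_lt.2 h.le), abs_of_pos (Int.cast_pos.2 h)]; ring

/-- The point `i a (3 M²) / (4π |j|)`, at which the shell `j` has parameter `a`. -/
def shellTau (M : ℕ) (j : ℤ) (a : ℝ) : ℝ := a * (3 * M ^ 2 : ℕ) / (4 * π * |(j : ℝ)|)

theorem shellTau_pos {M : ℕ} (hM : M ≠ 0) {j : ℤ} (hj : j ≠ 0) {a : ℝ} (ha : 0 < a) :
    0 < shellTau M j a := by
  have : 0 < |(j : ℝ)| := abs_pos.2 (Int.cast_ne_zero.2 hj)
  have : (0 : ℝ) < (3 * M ^ 2 : ℕ) := by
    have := Nat.pos_of_ne_zero hM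
    positivity
  unfold shellTau
  positivity

theorem exp_shellEx_eq {M : ℕ} (hM : M ≠ 0) {j : ℤ} (hj : j ≠ 0) {a : ℝ} (ha : 0 < a) (w : HSpace)
    (v : Shell j) :
    Real.exp (-(a * shellEx w v)) = Real.exp (a / 2) / √(shellTau M j a) *
      ‖gK ⟨⟨0, shellTau M j a⟩, shellTau_pos hM hj ha⟩ w ((M : ℝ)⁻¹ • dv v.1)‖ := by
  have hv := shellTau_pos hM hj ha
  rw [norm_gK_shell hM _ w v.2 hj]
  show _ = Real.exp (a / 2) / √(shellTau M j a) * (√(shellTau M j a) *
    Real.exp (-(2 * π * shellTau M j a * |(j : ℝ)| / (3 * M ^ 2 : ℕ))) * _)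
  have hs : √(shellTau M j a) ≠ 0 := (Real.sqrt_pos.2 hv).ne'
  have hj' : |(j : ℝ)| ≠ 0 := abs_ne_zero.2 (Int.cast_ne_zero.2 hj)
  have hh : ((3 * M ^ 2 : ℕ) : ℝ) ≠ 0 := Nat.cast_ne_zero.2 (by simp [hM])
  have e1 : 4 * π * shellTau M j a * |(j : ℝ)| / (3 * M ^ 2 : ℕ) = a := by
    rw [shellTau]; field_simp
  have e2 : 2 * π * shellTau M j a * |(j : ℝ)| / (3 * M ^ 2 : ℕ) = a / 2 := by
    rw [shellTau]; field_simp; norm_num
  rw [UpperHalfPlane.im, e1, e2, ← mul_assoc, ← mul_assoc, div_mul_cancel₀ _ hs, ← Real.exp_add,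
    add_neg_cancel, Real.exp_zero, one_mul]

theorem summable_norm_gK {M : ℕ} (hM : M ≠ 0) (τ : ℍ) (w : HSpace) :
    Summable fun k : IVec => ‖gK τ w ((M : ℝ)⁻¹ • dv k)‖ :=
  (Theta.summable_dual (Theta.vdecay_gK τ w) (inv_ne_zero (Nat.cast_ne_zero.2 hM))).norm

theorem summable_exp_shellEx {j : ℤ} (hj : j ≠ 0) {a : ℝ} (ha : 0 < a) (w : HSpace) :
    Summable fun v : Shell j => Real.exp (-(a * shellEx w v)) :=
  (((summable_norm_gK (M := 1) one_ne_zero _ w).subtype _).mul_left _).congr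
    fun v => (exp_shellEx_eq (M := 1) one_ne_zero hj ha w v).symm

/-- The unweighted shell. -/
def shellSum (j : ℤ) (a : ℝ) (w : HSpace) : ℝ :=
  ∑' v : Shell j, Real.exp (-(a * shellEx w v))

theorem shellSum_nonneg (j : ℤ) (a : ℝ) (w : HSpace) : 0 ≤ shellSum j a w :=
  tsum_nonneg fun _ => (Real.exp_pos _).le

theorem shellSum_le {M : ℕ} (hM : M ≠ 0) {j : ℤ} (hj : j ≠ 0) {a : ℝ} (ha : 0 < a) (w : HSpace) :
    shellSum j a w ≤ Real.exp (a / 2) / √(shellTau M j a) *
      ∑' k : IVec, ‖gK ⟨⟨0, shellTau M j a⟩, shellTau_pos hM hj ha⟩ w ((M : ℝ)⁻¹ • dv k)‖ := by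
  rw [shellSum, tsum_congr fun v => exp_shellEx_eq hM hj ha w v, tsum_mul_left]
  exact mul_le_mul_of_nonneg_left
    ((summable_norm_gK hM _ w).tsum_subtype_le _ _ fun _ => norm_nonneg _) (by positivity)

theorem measurable_tsum_of_summable {ι α E : Type*} [Countable ι] [MeasurableSpace α]
    [NormedAddCommGroup E] [MeasurableSpace E] [BorelSpace E] [SecondCountableTopology E]
    {f : ι → α → E} (hm : ∀ i, Measurable (f i)) (hs : ∀ x, Summable fun i => f i x) :
    Measurable fun x => ∑' i, f i x := by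
  classical
  exact measurable_of_tendsto_metrizable' (atTop : Filter (Finset ι))
    (f := fun s x => ∑ i ∈ s, f i x) (fun s => Finset.measurable_sum s fun i _ => hm i)
    (tendsto_pi_nhds.mpr fun x => (hs x).hasSum)

theorem measurable_shellSum {j : ℤ} (hj : j ≠ 0) {a : ℝ} (ha : 0 < a) :
    Measurable (shellSum j a) :=
  measurable_tsum_of_summable
    (fun v => Real.measurable_exp.comp ((continuous_shellEx v.1).measurable.const_mul a).neg)
    (summable_exp_shellEx hj ha)

/-! ### On the space -/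

variable {O : Type*} [CommRing O] (E : EisData O) {emb : O →+* ℂ} {M : ℕ}

/-- The weighted shell. -/
def shellTerm (φ : Disc (M ^ 2) → ℂ) (j : ℤ) (a : ℝ) (x : Pt emb M) : ℂ :=
  ∑' v : Shell j, rotW E x.fin⁻¹ φ (dcls (M ^ 2) v.1) * (Real.exp (-(a * shellEx x.pt v)) : ℂ)

/-- The integral of `A` against a shell. -/
def shellInt (wt : Pt emb M → ℝ≥0∞) (A : Pt emb M → ℂ) (φ : Disc (M ^ 2) → ℂ) (j : ℤ)
    (a : ℝ) : ℂ :=
  ∫ x, A x * shellTerm E φ j a x ∂Spectral.quotMeasure (ptMeasure emb M) wt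

/-- `v ↦ γ v` on a shell. -/
def shellEquiv (γ : GL (Fin 2) O) (j : ℤ) : Shell j ≃ Shell j where
  toFun v := ⟨actK E γ v.1, (q3_actK_unit E γ v.1).trans v.2⟩
  invFun v := ⟨actK E ((γ⁻¹ : GL (Fin 2) O) : Matrix (Fin 2) (Fin 2) O) v.1,
    (q3_actK_unit E γ⁻¹ v.1).trans v.2⟩
  left_inv v := Subtype.ext (by simp only [← Theta.actK_mul, Units.inv_mul, Theta.actK_one])
  right_inv v := Subtype.ext (by simp only [← Theta.actK_mul, Units.mul_inv, Theta.actK_one])

theorem shellEx_smul_actK (hι : IsStdEmb E emb) (γ : GL (Fin 2) O) (w : HSpace) (v : IVec) :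
    shellEx (Matrix.GeneralLinearGroup.map emb γ • w) (actK E γ v) = shellEx w v := by
  rw [shellEx, shellEx, frame_smul_actK E hι, q3_actK_unit]

theorem shellSum_smul (hι : IsStdEmb E emb) (γ : GL (Fin 2) O) (j : ℤ) (a : ℝ) (w : HSpace) :
    shellSum j a (Matrix.GeneralLinearGroup.map emb γ • w) = shellSum j a w := by
  rw [shellSum, shellSum, ← (shellEquiv E γ j).tsum_eq]
  exact tsum_congr fun v => by
    show Real.exp (-(a * shellEx _ (actK E γ v.1))) = _
    rw [shellEx_smul_actK E hι]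

theorem shellTerm_smul (hι : IsStdEmb E emb) (φ : Disc (M ^ 2) → ℂ) (γ : GL (Fin 2) O) (j : ℤ)
    (a : ℝ) (x : Pt emb M) : shellTerm E φ j a (γ • x) = shellTerm E φ j a x := by
  rw [shellTerm, shellTerm, ← (shellEquiv E γ j).tsum_eq]
  exact tsum_congr fun v => by
    show rotW E (γ • x).fin⁻¹ φ (dcls (M ^ 2) (actK E γ v.1)) *
      (Real.exp (-(a * shellEx (γ • x).pt (actK E γ v.1))) : ℂ) = _
    rw [rotW_fin_smul, Pt.pt_smul, shellEx_smul_actK E hι]

variable [NeZero M]

theorem exists_weight_bound (φ : Disc (M ^ 2) → ℂ) :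
    ∃ C : ℝ, 0 ≤ C ∧ ∀ (k : Red O M) r, ‖rotW E k φ r‖ ≤ C := by
  obtain ⟨C, hC⟩ := Finite.exists_le fun r => ‖φ r‖
  exact ⟨C, (norm_nonneg _).trans (hC 0), fun k r => hC _⟩

theorem summable_shellTerm (φ : Disc (M ^ 2) → ℂ) {j : ℤ} (hj : j ≠ 0) {a : ℝ} (ha : 0 < a)
    (x : Pt emb M) :
    Summable (fun v : Shell j =>
      rotW E x.fin⁻¹ φ (dcls (M ^ 2) v.1) * (Real.exp (-(a * shellEx x.pt v)) : ℂ)) := by
  obtain ⟨C, -, hC⟩ := exists_weight_bound E φ
  refine .of_norm_bounded ((summable_exp_shellEx hj ha x.pt).mul_left C) fun v => ?_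
  rw [norm_mul, Complex.norm_real, Real.norm_of_nonneg (Real.exp_pos _).le]
  exact mul_le_mul_of_nonneg_right (hC _ _) (Real.exp_pos _).le

theorem measurable_shellTerm (φ : Disc (M ^ 2) → ℂ) {j : ℤ} (hj : j ≠ 0) {a : ℝ} (ha : 0 < a) :
    Measurable (shellTerm E φ j a : Pt emb M → ℂ) :=
  measurable_tsum_of_summable
    (fun v => ((Measurable.of_discrete
        (f := fun k : Red O M => rotW E k⁻¹ φ (dcls (M ^ 2) v.1))).comp Pt.measurable_fin).mul
      (Complex.measurable_ofReal.comp (Real.measurable_exp.comp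
        (((continuous_shellEx v.1).measurable.comp Pt.measurable_pt).const_mul a).neg)))
    (summable_shellTerm E φ hj ha)

omit [NeZero M] in
theorem norm_shellTerm_le {φ : Disc (M ^ 2) → ℂ} {C : ℝ}
    (hC : ∀ (k : Red O M) r, ‖rotW E k φ r‖ ≤ C) {j : ℤ} (hj : j ≠ 0) {a : ℝ} (ha : 0 < a)
    (x : Pt emb M) : ‖shellTerm E φ j a x‖ ≤ C * shellSum j a x.pt := by
  rw [shellSum, ← tsum_mul_left]
  refine tsum_of_norm_bounded ((summable_exp_shellEx hj ha x.pt).mul_left C).hasSum fun v => ?_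
  rw [norm_mul, Complex.norm_real, Real.norm_of_nonneg (Real.exp_pos _).le]
  exact mul_le_mul_of_nonneg_right (hC _ _) (Real.exp_pos _).le

/-! ### Integrability -/

include E in
/-- The height is integrable on the quotient. -/
theorem integrable_height {wt : Pt emb M → ℝ≥0∞} (hwt : IsGoodWeight wt) :
    Integrable (fun x : Pt emb M => x.pt.r) (Spectral.quotMeasure (ptMeasure emb M) wt) := by
  have := finite_red E M
  have hrm : Measurable fun x : Pt emb M => x.pt.r :=
    HSpace.continuous_r.measurable.comp Pt.measurable_pt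
  have hlt : ∀ᵐ x ∂ptMeasure emb M, wt x < ⊤ :=
    Eventually.of_forall fun x => (hwt.le_one x).trans_lt ENNReal.one_lt_top
  rw [integrable_withDensity_iff_integrable_smul' hwt.isWeight.1 hlt]
  set B : Set (ℂ × ℝ) := Metric.closedBall 0 1 ×ˢ Ici (1 / 2)
  have hB : MeasurableSet B := measurableSet_closedBall.prod measurableSet_Ici
  have hbox : Integrable (fun p : HSpace => B.indicator (fun y => (y.2 : ℂ)) p.coords)
      HSpace.measure := by
    refine Arch.integrable_hspace (G := fun y => B.indicator (fun y => (y.2 : ℂ)) y) ?_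
    have h1 : IntegrableOn (fun y : ℂ × ℝ => ((y.2 ^ 2)⁻¹ : ℂ)) B := by
      have h2 : IntegrableOn (fun r : ℝ => ((r : ℂ) ^ 2)⁻¹) (Ici (1 / 2)) := by
        rw [integrableOn_Ici_iff_integrableOn_Ioi]
        refine ((integrableOn_Ioi_rpow_of_lt (by norm_num : (-2 : ℝ) < -1)
          (by norm_num : (0 : ℝ) < 1 / 2))).ofReal.congr ?_
        filter_upwards [ae_restrict_mem measurableSet_Ioi] with r (hr : 1 / 2 < r)
        rw [show (-2 : ℝ) = -((2 : ℕ) : ℝ) by norm_num, Real.rpow_neg (by linarith),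
          Real.rpow_natCast]
        push_cast
        rfl
      rw [IntegrableOn, Measure.volume_eq_prod, ← Measure.prod_restrict]
      have h3 : Integrable (fun _ : ℂ => (1 : ℂ))
          ((volume : Measure ℂ).restrict (Metric.closedBall 0 1)) :=
        integrableOn_const (measure_closedBall_lt_top.ne)
      simpa using h3.mul_prod h2
    refine (((integrable_indicator_iff hB).2 h1).integrableOn).congr_fun ?_
      (isOpen_lt continuous_const continuous_snd).measurableSet
    intro y (hy : 0 < y.2)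
    by_cases hyB : y ∈ B
    · simp only [Set.indicator_of_mem hyB, Complex.real_smul]
      have : (y.2 : ℂ) ≠ 0 := Complex.ofReal_ne_zero.2 hy.ne'
      push_cast
      field_simp
    · simp [Set.indicator_of_notMem hyB]
  have hwm : Measurable fun x => (wt x).toReal • x.pt.r :=
    hwt.isWeight.1.ennreal_toReal.smul hrm
  have hc : Integrable (fun x => (((wt x).toReal • x.pt.r : ℝ) : ℂ)) (ptMeasure emb M) := by
    refine (integrable_pt_iff (Complex.measurable_ofReal.comp hwm)).2 fun k => ?_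
    refine hbox.norm.mono' (Complex.measurable_ofReal.comp
      (hwm.comp (Pt.measurable_mk k))).aestronglyMeasurable (Eventually.of_forall fun w => ?_)
    simp only [Function.comp_apply]
    rw [Complex.norm_real, smul_eq_mul, norm_mul, Real.norm_of_nonneg ENNReal.toReal_nonneg,
      Real.norm_of_nonneg (Pt.mk emb w k).pt.r_pos.le, Pt.pt_mk]
    by_cases h0 : wt (Pt.mk emb w k) = 0
    · simp [h0]
    · have hb := hwt.box _ h0
      rw [Pt.pt_mk] at hb
      have hmem : w.coords ∈ B := ⟨mem_closedBall_zero_iff.2 hb.2, hb.1⟩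
      rw [Set.indicator_of_mem hmem, Complex.norm_real]
      refine mul_le_of_le_one_left w.r_pos.le ?_ |>.trans (Real.le_norm_self _)
      exact ENNReal.toReal_le_of_le_ofReal zero_le_one (by simpa using hwt.le_one _)
  exact hc.re.congr (Eventually.of_forall fun x => RCLike.ofReal_re (K := ℂ) _)

/-- The majorant of the theta kernel. -/
def IsMajorant (M : ℕ) (C : ℝ) : Prop :=
  ∀ (τ : ℍ) (w : HSpace), 1 / 2 ≤ w.r →
    ∑' k : IVec, ‖gK τ w ((M : ℝ)⁻¹ • dv k)‖ ≤ C * √τ.im * (1 + 1 / τ.im) ^ 2 * w.r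

include E in
theorem integrable_shellSum {wt : Pt emb M → ℝ≥0∞} (hwt : IsGoodWeight wt) {C : ℝ}
    (hmaj : IsMajorant M C) {j : ℤ} (hj : j ≠ 0) {a : ℝ} (ha : 0 < a) :
    Integrable (fun x : Pt emb M => (shellSum j a x.pt : ℂ))
      (Spectral.quotMeasure (ptMeasure emb M) wt) := by
  set v := shellTau M j a
  refine ((integrable_height E hwt).const_mul
    (Real.exp (a / 2) / √v * (C * √v * (1 + 1 / v) ^ 2))).mono'
    (Complex.measurable_ofReal.comp ((measurable_shellSum hj ha).comp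
      Pt.measurable_pt)).aestronglyMeasurable ((ae_withDensity_iff hwt.isWeight.1).2
        (Eventually.of_forall fun x hx => ?_))
  rw [Complex.norm_real, Real.norm_of_nonneg (shellSum_nonneg _ _ _),
    mul_assoc (Real.exp (a / 2) / √v)]
  refine (shellSum_le (NeZero.ne M) hj ha x.pt).trans ?_
  exact mul_le_mul_of_nonneg_left (hmaj _ _ (hwt.box x hx).1) (by positivity)

theorem integrable_shellTerm (φ : Disc (M ^ 2) → ℂ) {wt : Pt emb M → ℝ≥0∞} (hwt : IsGoodWeight wt)
    {C : ℝ} (hmaj : IsMajorant M C) {j : ℤ} (hj : j ≠ 0) {a : ℝ} (ha : 0 < a) :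
    Integrable (shellTerm E φ j a : Pt emb M → ℂ) (Spectral.quotMeasure (ptMeasure emb M) wt) := by
  obtain ⟨Cφ, -, hCφ⟩ := exists_weight_bound E φ
  refine ((integrable_shellSum E hwt hmaj hj ha).norm.const_mul Cφ).mono'
    (measurable_shellTerm E φ hj ha).aestronglyMeasurable (Eventually.of_forall fun x => ?_)
  rw [Complex.norm_real, Real.norm_of_nonneg (shellSum_nonneg _ _ _)]
  exact norm_shellTerm_le E hCφ hj ha x

/-! ### Scaling -/

theorem kerOp_shellTerm (φ : Disc (M ^ 2) → ℂ) {j : ℤ} (hj : j ≠ 0) {a b : ℝ} (ha : 0 < a)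
    (x : Pt emb M)
    (hint : Integrable (fun y => shellKer j b (HSpace.coshDist x.pt y) * (shellSum j a y : ℂ))
      HSpace.measure) :
    HasSum (fun v : Shell j => rotW E x.fin⁻¹ φ (dcls (M ^ 2) v.1) *
      ∫ y, shellKer j b (HSpace.coshDist x.pt y) * (Real.exp (-(a * shellEx y v)) : ℂ)
        ∂HSpace.measure) (kerOp (shellKer j b) (shellTerm E φ j a) x) := by
  obtain ⟨C, -, hC⟩ := exists_weight_bound E φ
  simp only [← integral_const_mul, kerOp]
  have hKm : Measurable fun y => shellKer j b (HSpace.coshDist x.pt y) :=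
    ((continuous_shellKer j b).comp
      (HSpace.continuous_coshDist.comp (Continuous.prodMk_right x.pt))).measurable
  refine hasSum_integral_of_dominated_convergence
    (fun (v : Shell j) y => C * ‖shellKer j b (HSpace.coshDist x.pt y)‖ *
      Real.exp (-(a * shellEx y v))) (fun v => ?_) (fun v => Eventually.of_forall fun y => ?_)
    (Eventually.of_forall fun y => (summable_exp_shellEx hj ha y).mul_left _) ?_
    (Eventually.of_forall fun y => ?_)
  · exact ((hKm.mul (Complex.measurable_ofReal.comp (Real.measurable_exp.comp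
      ((continuous_shellEx v.1).measurable.const_mul a).neg))).const_mul _).aestronglyMeasurable
  · rw [norm_mul, norm_mul, Complex.norm_real, Real.norm_of_nonneg (Real.exp_pos _).le,
      mul_assoc C]
    exact mul_le_mul_of_nonneg_right (hC _ _) (by positivity)
  · refine (hint.norm.const_mul C).congr (Eventually.of_forall fun y => ?_)
    simp only [tsum_mul_left]
    rw [norm_mul, Complex.norm_real, Real.norm_of_nonneg (shellSum_nonneg _ _ _), shellSum]
    ring
  · simp only [shellTerm, Pt.pt_mk, Pt.fin_mk]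
    refine ((summable_shellTerm E φ hj ha (Pt.mk emb y x.fin)).hasSum.mul_left
      (shellKer j b (HSpace.coshDist x.pt y))).congr_fun fun v => ?_
    simp only [Pt.pt_mk, Pt.fin_mk]
    ring

/-- The shell integrals are proportional to the transforms of the shell kernels. -/
theorem shellInt_scale (hι : IsStdEmb E emb) {wt : Pt emb M → ℝ≥0∞} (hwt : IsGoodWeight wt)
    {A : Pt emb M → ℂ} (hinv : ∀ (γ : GL (Fin 2) O) (x : Pt emb M), A (γ • x) = A x)
    (hcont : ∀ k : Red O M, Continuous fun w => A (Pt.mk emb w k))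
    (hbdd : ∃ C : ℝ, ∀ x, ‖A x‖ ≤ C)
    (hsph : ∀ ker : ℝ → ℂ, Continuous ker → Arch.IsQuartic ker → ∀ (w : HSpace) (k : Red O M),
      ∫ τ, ker (HSpace.coshDist w τ) * A (Pt.mk emb τ k) ∂HSpace.measure =
        Adelic.sphTransform ker 0 * A (Pt.mk emb w k))
    {C : ℝ} (hmaj : IsMajorant M C) (φ : Disc (M ^ 2) → ℂ) {j : ℤ} (hj : j ≠ 0) {a b : ℝ}
    (ha : 0 < a) (hb : 0 < b) :
    Adelic.sphTransform (shellKer j b) 0 * shellInt E wt A φ j a =
      Adelic.sphTransform (shellKer j a) 0 * shellInt E wt A φ j b := by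
  have := countable_of_eisData E
  have := countable_gl (O := O)
  have := finite_red E M
  set q := Spectral.quotMeasure (ptMeasure emb M) wt
  have hAm : Measurable A := measurable_of_slices fun k => (hcont k).measurable
  have key : ∀ {a b : ℝ}, 0 < a → 0 < b →
      Adelic.sphTransform (shellKer j b) 0 * shellInt E wt A φ j a =
        ∫ x, kerOp (shellKer j b) (shellTerm E φ j a) x * A x ∂q := by
    intro a b ha hb
    rw [(integral_kerOp_mul E hwt (continuous_shellKer j b) (isQuartic_shellKer j hb)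
      (measurable_shellTerm E φ hj ha) hAm (fun γ x => shellTerm_smul E hι φ γ j a x) hinv
      (integrable_shellTerm E φ hwt hmaj hj ha) hbdd).2, shellInt, ← integral_const_mul]
    refine integral_congr_ae (Eventually.of_forall fun x => ?_)
    simp only [kerOp, hsph _ (continuous_shellKer j b) (isQuartic_shellKer j hb), Pt.mk_pt_fin]
    ring
  have hae : ∀ {a b : ℝ}, 0 < a → 0 < b → ∀ᵐ x ∂q, Integrable (fun y =>
      shellKer j b (HSpace.coshDist x.pt y) * (shellSum j a y : ℂ)) HSpace.measure := by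
    intro a b ha hb
    have := sigmaFinite_pt (emb := emb) (M := M)
    have h := (integral_kerOp_mul E hwt (continuous_shellKer j b) (isQuartic_shellKer j hb)
      (F := fun x => (shellSum j a x.pt : ℂ)) (G := fun _ => 1)
      (Complex.measurable_ofReal.comp ((measurable_shellSum hj ha).comp Pt.measurable_pt))
      measurable_const (fun γ x => by simp only [Pt.pt_smul, shellSum_smul E hι])
      (fun _ _ => rfl) (integrable_shellSum E hwt hmaj hj ha) ⟨1, fun _ => by simp⟩).1
    simpa using h.prod_right_ae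
  rw [key ha hb, key hb ha]
  refine integral_congr_ae ?_
  filter_upwards [hae ha hb, hae hb ha] with x hab hba
  congr 1
  refine (kerOp_shellTerm E φ hj ha x hab).unique
    ((kerOp_shellTerm E φ hj hb x hba).congr_fun fun v => ?_)
  rw [integral_shellKer_exp v.2 hj ha hb]

end Fermat.Agent.LT.Lift
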