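import Fermat.Agent.LT.Lift.Adjoint
import Fermat.Agent.LT.Lift.Isotropic
import Fermat.Agent.LT.Lift.ShellTerm

/-!
# Integrability of the theta kernel, and the Hecke adjoint for the lift
-/

set_option autoImplicit false

noncomputable section

namespace Fermat.Agent.LT.Lift

open MeasureTheory Filter
open Adelic (HSpace)
open Theta (IVec Disc dv gK dcls IsStdEmb)
open Orbit (EisData)
open UpperHalfPlane hiding I
open scoped ENNReal

variable {O : Type*} [CommRing O] {emb : O →+* ℂ} {M : ℕ} [NeZero M] (E : EisData O)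

include E in
/-- The theta kernel is measurable. -/
theorem measurable_thetaKer (φ : Disc (M ^ 2) → ℂ) (τ : ℍ) :
    Measurable fun x : Pt emb M => thetaKer E φ τ x := by
  have := finite_red E M
  obtain ⟨C, -, hC⟩ := exists_weight_bound E φ
  refine measurable_tsum_of_summable (measurable_latTerm E φ τ) fun x =>
    .of_norm_bounded ((summable_norm_gK (NeZero.ne M) τ x.pt).mul_left C) fun k => ?_
  show ‖rotW E x.fin⁻¹ φ (dcls (M ^ 2) k) * gK τ x.pt ((M : ℝ)⁻¹ • dv k)‖ ≤ _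
  rw [norm_mul]
  exact mul_le_mul_of_nonneg_right (hC _ _) (norm_nonneg _)

/-- The theta kernel is integrable on the quotient. -/
theorem integrable_thetaKer {wt : Pt emb M → ℝ≥0∞} (hwt : IsGoodWeight wt) {C : ℝ}
    (hmaj : IsMajorant M C) (φ : Disc (M ^ 2) → ℂ) (τ : ℍ) :
    Integrable (fun x : Pt emb M => thetaKer E φ τ x)
      (Spectral.quotMeasure (ptMeasure emb M) wt) := by
  obtain ⟨D, hD0, hD⟩ := exists_weight_bound E φ
  refine ((integrable_height E hwt).const_mul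
    (D * (C * √τ.im * (1 + 1 / τ.im) ^ 2))).mono'
    (measurable_thetaKer E φ τ).aestronglyMeasurable ((ae_withDensity_iff hwt.isWeight.1).2
      (Eventually.of_forall fun x hx => ?_))
  refine (tsum_of_norm_bounded ((summable_norm_gK (NeZero.ne M) τ x.pt).mul_left D).hasSum
    fun k => ?_).trans ?_
  · rw [norm_mul]
    exact mul_le_mul_of_nonneg_right (hD _ _) (norm_nonneg _)
  · rw [tsum_mul_left, mul_assoc D]
    exact mul_le_mul_of_nonneg_left (hmaj τ x.pt (hwt.box x hx).1) hD0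

variable {A : Pt emb M → ℂ} {S : Set ℕ} {a : ℕ → ℂ} {wt : Pt emb M → ℝ≥0∞} {E}

/-- `hadj`, given the majorant. -/
theorem LiftInput.exists_hecke_adjoint (hA : LiftInput E emb M A S a) (hcen : IsCentral A)
    (hwt : IsGoodWeight wt) {C : ℝ} (hmaj : IsMajorant M C) {p : ℕ} (hp : p.Prime) (hpS : p ∈ S) :
    ∃ (ϖ : O) (r : O →+* ZMod p) (h : Fin (p + 1) → Matrix (Fin 2) (Fin 2) O),
      (haveI : Fact p.Prime := ⟨hp⟩; Theta.IsNeighbours E p ϖ r h) ∧
      ∀ (φ : Disc (M ^ 2) → ℂ) (τ : ℍ),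
        ∫ x, A x * ∑ j, thetaKer E φ τ (Pt.mk emb ((matC emb (h j))⁻¹ • x.pt)
            ((matRed M (h j))⁻¹ * x.fin)) ∂Spectral.quotMeasure (ptMeasure emb M) wt =
          (Real.sqrt p : ℂ) * a p * liftF E wt A φ τ := by
  obtain ⟨hpM, -, -, -, ϖ, r, h, hn, hT⟩ := hA.hecke p hpS hp
  have : Fact p.Prime := ⟨hp⟩
  exact ⟨ϖ, r, h, hn, fun φ τ => hA.integral_mul_sum_thetaKer hcen hwt φ τ
    (measurable_thetaKer E φ τ) (integrable_thetaKer E hwt hmaj φ τ) hn hpM hT⟩

end Fermat.Agent.LT.Lift
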