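import Fermat.Agent.LT.Lift.Basic
import Mathlib.RingTheory.Ideal.Norm.AbsNorm
import Mathlib.FieldTheory.Finite.Basic
import Mathlib.Data.ZMod.QuotientRing

/-!
# Neighbour matrices at the primes of `ℤ[ω]` of degree one
-/

set_option autoImplicit false

noncomputable section

namespace Fermat.Agent.LT.Lift

open IsDedekindDomain NumberField Matrix
open Orbit (EisData)

variable {K : Type*} [Field K] [NumberField K]

local notation "𝕆" => 𝓞 K

/-- Prime ideals of norm `p ≡ 1 (mod 3)` exist. -/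
theorem exists_place_norm_eq (E : EisData 𝕆) {p : ℕ} (hp : p.Prime) (hp1 : p % 3 = 1) :
    ∃ v : HeightOneSpectrum 𝕆, Ideal.absNorm v.asIdeal = p := by
  have := Fact.mk hp
  obtain ⟨t, ht⟩ : ∃ t : ZMod p, t ^ 2 + t + 1 = 0 := by
    have h3 : 3 ∣ Fintype.card (ZMod p)ˣ := by
      rw [ZMod.card_units p]
      omega
    obtain ⟨u, hu⟩ := exists_prime_orderOf_dvd_card 3 h3
    refine ⟨(u : ZMod p), ?_⟩
    have hne : (u : ZMod p) ≠ 1 := fun h => by
      rw [Units.val_eq_one.mp h, orderOf_one] at hu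
      omega
    have hu3 : (u : ZMod p) ^ 3 = 1 := by
      rw [← Units.val_pow_eq_pow_val, ← hu, pow_orderOf_eq_one, Units.val_one]
    have : ((u : ZMod p) - 1) * ((u : ZMod p) ^ 2 + u + 1) = 0 := by linear_combination hu3
    exact (mul_eq_zero.mp this).resolve_left (sub_ne_zero.mpr hne)
  choose ca cb hc using E.repr
  have hval : ∀ (a b : ℤ) (x : 𝕆), x = (a : 𝕆) + (b : 𝕆) * E.w →
      ((ca x : ZMod p) + (cb x : ZMod p) * t) = (a : ZMod p) + (b : ZMod p) * t := by
    intro a b x hx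
    obtain ⟨h1, h2⟩ := E.ext_coords ((hc x).symm.trans hx)
    rw [h1, h2]
  let r : 𝕆 →+* ZMod p :=
    { toFun := fun x => (ca x : ZMod p) + (cb x : ZMod p) * t
      map_one' := by rw [hval 1 0 1 (by simp)]; simp
      map_zero' := by rw [hval 0 0 0 (by simp)]; simp
      map_add' := fun x y => by
        rw [hval (ca x + ca y) (cb x + cb y) (x + y) (by
          conv_lhs => rw [hc x, hc y]
          push_cast; ring)]
        push_cast; ring
      map_mul' := fun x y => by
        rw [hval (ca x * ca y - cb x * cb y) (ca x * cb y + cb x * ca y - cb x * cb y) (x * y) (by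
          conv_lhs => rw [hc x, hc y]
          push_cast
          linear_combination (cb x : 𝕆) * (cb y : 𝕆) * E.w_eq)]
        push_cast
        linear_combination -(cb x : ZMod p) * (cb y : ZMod p) * ht }
  have hsurj : Function.Surjective r := ZMod.ringHom_surjective r
  have hmax : (RingHom.ker r).IsMaximal := RingHom.ker_isMaximal_of_surjective r hsurj
  have hne : RingHom.ker r ≠ ⊥ := fun h => by
    have h0 : r (p : 𝕆) = 0 := by simp
    rw [← RingHom.mem_ker, h, Ideal.mem_bot, Nat.cast_eq_zero] at h0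
    exact hp.ne_zero h0
  refine ⟨⟨RingHom.ker r, hmax.isPrime, hne⟩, ?_⟩
  rw [Ideal.absNorm_apply, Submodule.cardQuot_apply,
    Nat.card_congr (RingHom.quotientKerEquivOfSurjective hsurj).toEquiv, Nat.card_zmod]

/-- The neighbour matrix attached to a residue class or to `∞`. -/
def nbrOf {I : Ideal 𝕆} (ϖ : 𝕆) : Option (𝕆 ⧸ I) → Matrix (Fin 2) (Fin 2) 𝕆
  | some q => !![ϖ, Quotient.out q; 0, 1]
  | none => !![1, 0; 0, ϖ]

/-- A place of norm `p` gives neighbour matrices. -/
theorem exists_neighbours (E : EisData 𝕆) [IsPrincipalIdealRing 𝕆] {p : ℕ} [Fact p.Prime]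
    (hp3 : p ≠ 3) {v : HeightOneSpectrum 𝕆} (hv : Ideal.absNorm v.asIdeal = p) :
    ∃ (ϖ : 𝕆) (r : 𝕆 →+* ZMod p) (e : Fin (p + 1) ≃ Option (𝕆 ⧸ v.asIdeal)),
      v.asIdeal = Ideal.span {ϖ} ∧
      Theta.IsNeighbours E p ϖ r (fun j => nbrOf ϖ (e j)) := by
  classical
  have hp : p.Prime := Fact.out
  have hcard : Nat.card (𝕆 ⧸ v.asIdeal) = p := by
    rw [← hv, Ideal.absNorm_apply, Submodule.cardQuot_apply]
  have : Finite (𝕆 ⧸ v.asIdeal) := Nat.finite_of_card_ne_zero (by rw [hcard]; exact hp.ne_zero)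
  have := Fintype.ofFinite (𝕆 ⧸ v.asIdeal)
  have hfc : Fintype.card (𝕆 ⧸ v.asIdeal) = p := by rw [← Nat.card_eq_fintype_card, hcard]
  let e₀ : ZMod p ≃+* 𝕆 ⧸ v.asIdeal := ZMod.ringEquivOfPrime _ hp hfc
  let r : 𝕆 →+* ZMod p := e₀.symm.toRingHom.comp (Ideal.Quotient.mk v.asIdeal)
  have hr : ∀ x, r x = 0 ↔ x ∈ v.asIdeal := fun x => by
    show e₀.symm (Ideal.Quotient.mk v.asIdeal x) = 0 ↔ _
    rw [map_eq_zero_iff _ e₀.symm.injective, Ideal.Quotient.eq_zero_iff_mem]
  have hrout : ∀ q : 𝕆 ⧸ v.asIdeal, r (Quotient.out q) = e₀.symm q := fun q => by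
    show e₀.symm (Ideal.Quotient.mk v.asIdeal (Quotient.out q)) = _
    rw [Ideal.Quotient.mk_out]
  let ϖ : 𝕆 := Submodule.IsPrincipal.generator v.asIdeal
  have hgen : v.asIdeal = Ideal.span {ϖ} :=
    (Submodule.IsPrincipal.span_singleton_generator v.asIdeal).symm
  have hϖ : r ϖ = 0 := (hr ϖ).mpr (Submodule.IsPrincipal.generator_mem _)
  -- the norm of the generator is `p`
  have hnorm : ϖ * E.conj ϖ = (p : 𝕆) := by
    obtain ⟨a, b, hab⟩ := E.repr ϖ
    have hN : ∀ a b : ℤ, ((a : 𝕆) + (b : 𝕆) * E.w) * E.conj ((a : 𝕆) + (b : 𝕆) * E.w) =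
        ((a ^ 2 - a * b + b ^ 2 : ℤ) : 𝕆) := fun a b => by
      rw [map_add, map_mul, map_intCast, map_intCast, E.conj_w]
      push_cast
      linear_combination -(b : 𝕆) ^ 2 * E.w_eq
    rw [hab, hN]
    set N := a ^ 2 - a * b + b ^ 2 with hNdef
    suffices N = p by rw [this]; simp
    have hpv : (p : 𝕆) ∈ v.asIdeal := (hr _).mp (by simp)
    rw [hgen, Ideal.mem_span_singleton] at hpv
    obtain ⟨c, hc⟩ := hpv
    obtain ⟨a', b', hab'⟩ := E.repr c
    set N' := a' ^ 2 - a' * b' + b' ^ 2 with hN'def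
    have hmul : N * N' = (p : ℤ) ^ 2 := by
      refine E.intCast_inj ?_
      have h2 := congrArg (fun x => x * E.conj x) hc
      simp only [map_natCast, map_mul] at h2
      rw [Int.cast_mul, ← hN a b, ← hN a' b', ← hab, ← hab']
      push_cast
      linear_combination -h2
    have hN0 : 0 ≤ N := by nlinarith [sq_nonneg (a - b)]
    have hdvd : N.natAbs ∣ p ^ 2 := by
      have h : N ∣ ((p : ℤ) ^ 2) := ⟨N', hmul.symm⟩
      exact_mod_cast Int.natAbs_dvd_natAbs.mpr h
    obtain ⟨i, hi, hNi⟩ := (Nat.dvd_prime_pow hp).mp hdvd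
    have hNeq : N = ((p ^ i : ℕ) : ℤ) := by rw [← hNi, Int.natAbs_of_nonneg hN0]
    interval_cases i
    · exfalso
      have hu : IsUnit ϖ := IsUnit.of_mul_eq_one (E.conj ϖ)
        (by rw [hab, hN, ← hNdef, hNeq]; simp)
      exact v.isPrime.ne_top (by rw [hgen]; exact Ideal.span_singleton_eq_top.mpr hu)
    · simpa using hNeq
    · exfalso
      have hN'1 : N' = 1 := by
        have hp2 : ((p : ℤ) ^ 2) ≠ 0 := pow_ne_zero _ (by exact_mod_cast hp.ne_zero)
        rw [hNeq] at hmul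
        push_cast at hmul
        exact mul_left_cancel₀ hp2 (by rw [hmul, mul_one])
      have hu : IsUnit c := IsUnit.of_mul_eq_one (E.conj c)
        (by rw [hab', hN, ← hN'def, hN'1]; simp)
      obtain ⟨u, rfl⟩ := hu
      set t : ℕ := (r E.w).val
      have hmem : E.w - (t : 𝕆) ∈ v.asIdeal := (hr _).mp (by simp [t])
      rw [hgen, Ideal.mem_span_singleton] at hmem
      have hd : ((p : ℤ) : 𝕆) ∣ ((-(t : ℤ) : ℤ) : 𝕆) + ((1 : ℤ) : 𝕆) * E.w := by
        have : ((p : ℤ) : 𝕆) ∣ ϖ := ⟨((u⁻¹ : 𝕆ˣ) : 𝕆), by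
          push_cast; rw [hc, mul_assoc, Units.mul_inv, mul_one]⟩
        exact this.trans (by push_cast; convert hmem using 1; ring)
      have := (E.dvd_iff.mp hd).2
      exact hp.ne_one (by exact_mod_cast Int.eq_one_of_dvd_one (Int.natCast_nonneg p) this)
  let e : Fin (p + 1) ≃ Option (𝕆 ⧸ v.asIdeal) :=
    (Fintype.equivFinOfCardEq (by rw [Fintype.card_option, hfc])).symm
  refine ⟨ϖ, r, e, hgen, ⟨Fintype.card_fin _, fun j => ?_, hnorm, hϖ, hp3, fun j => ?_,
    fun x hx => ?_⟩⟩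
  · cases h : e j <;> simp [nbrOf, Matrix.det_fin_two_of]
  · cases h : e j with
    | none => intro h0; simpa [h, nbrOf] using congrFun (congrFun h0 0) 0
    | some q => intro h0; simpa [h, nbrOf] using congrFun (congrFun h0 1) 1
  · have hsome : ∀ q : 𝕆 ⧸ v.asIdeal,
        ((!![ϖ, Quotient.out q; 0, 1] : Matrix (Fin 2) (Fin 2) 𝕆).map r).adjugate *ᵥ x = 0 ↔
          x 0 = e₀.symm q * x 1 := fun q => by
      have hm : ((!![ϖ, Quotient.out q; 0, 1] : Matrix (Fin 2) (Fin 2) 𝕆).map r) =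
          !![0, e₀.symm q; 0, 1] := by
        ext i j; fin_cases i <;> fin_cases j <;> simp [hϖ, hrout]
      rw [hm, Matrix.adjugate_fin_two_of]
      simp [funext_iff, Fin.forall_fin_two, dotProduct, Fin.sum_univ_two,
        ← sub_eq_add_neg, sub_eq_zero]
    have hnone : ((!![1, 0; 0, ϖ] : Matrix (Fin 2) (Fin 2) 𝕆).map r).adjugate *ᵥ x = 0 ↔
        x 1 = 0 := by
      have hm : ((!![1, 0; 0, ϖ] : Matrix (Fin 2) (Fin 2) 𝕆).map r) = !![1, 0; 0, 0] := by
        ext i j; fin_cases i <;> fin_cases j <;> simp [hϖ]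
      rw [hm, Matrix.adjugate_fin_two_of]
      simp [funext_iff, Fin.forall_fin_two, dotProduct, Fin.sum_univ_two]
    by_cases h1 : x 1 = 0
    · refine ⟨e.symm none, by simp only [Equiv.apply_symm_apply, nbrOf]; exact hnone.mpr h1,
        fun j hj => ?_⟩
      rcases h : e j with _ | q
      · rw [← h, e.symm_apply_apply]
      · simp only [h, nbrOf, hsome, h1, mul_zero] at hj
        exact absurd (funext fun i => by fin_cases i <;> simp [hj, h1]) hx
    · refine ⟨e.symm (some (e₀ (x 0 / x 1))), by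
          simp only [Equiv.apply_symm_apply, nbrOf]
          rw [hsome, RingEquiv.symm_apply_apply, div_mul_cancel₀ _ h1],
        fun j hj => ?_⟩
      rcases h : e j with _ | q
      · simp only [h, nbrOf, hnone] at hj; exact absurd hj h1
      · simp only [h, nbrOf, hsome] at hj
        rw [hj, mul_div_cancel_right₀ _ h1, RingEquiv.apply_symm_apply, ← h, e.symm_apply_apply]

end Fermat.Agent.LT.Lift
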