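import Fermat.Agent.LT.Lift.KHat
import Fermat.Agent.LT.Lift.SplitPlaces
import Fermat.Agent.LT.Arch.Eigen
import Fermat.Agent.LT.Boundary.Defs
import Fermat.Agent.LT.Descent.KirillovModel

/-!
# From an adelic cusp eigenfunction to the input of the lift

`liftA Φ M h₀ φ (w, k) = φ (w, [k̂ h₀])`; it satisfies `LiftInput`, is invariant under the scalar
matrices and only depends on `k` modulo `M`.
-/

set_option autoImplicit false

noncomputable section

namespace Fermat.Agent.LT.Lift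

open MeasureTheory IsDedekindDomain IsDedekindDomain.HeightOneSpectrum NumberField Matrix
open Adelic (HSpace Frame Space Gf GfK Yf principalLevel toGf heckeMatrix diag2 unipotent MemMul
  MatMemMul levelZ)
open Aleph (localGL evalAt IsIntLocal UnifAt cosetRep)
open Orbit (EisData)
open scoped MatrixGroups Topology

variable {K : Type*} [Field K] [NumberField K]

local notation "𝕆" => 𝓞 K
local notation "𝔸" => FiniteAdeleRing (𝓞 K) K

variable {M : ℕ}

variable {Φ : Frame K Unit} {U : Subgroup (GfK K)}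

/-- The embedding of `𝓞 K` given by a frame. -/
def frameEmb (Φ : Frame K Unit) : 𝕆 →+* ℂ := (Φ.emb ()).comp (algebraMap 𝕆 K)

/-- The function on the space of the lift attached to `φ` moved by `h₀`. -/
def liftA (Φ : Frame K Unit) (M : ℕ) (h₀ : GfK K) (φ : Space Φ U → ℂ) :
    Pt (frameEmb Φ) M → ℂ :=
  fun x => φ (Space.mk (fun _ => x.pt) ((khat x.fin * h₀ : GfK K) : Yf U))

theorem class_eq_of_conj {h₀ : GfK K}
    (hconj : ∀ g ∈ principalLevel K (lvl K M), h₀⁻¹ * g * h₀ ∈ U) {g g' : GfK K}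
    (h : g⁻¹ * g' ∈ principalLevel K (lvl K M)) :
    ((g * h₀ : GfK K) : Yf U) = ((g' * h₀ : GfK K) : Yf U) := by
  refine QuotientGroup.eq.mpr (Adelic.le_levelZ U ?_)
  have e : (g * h₀)⁻¹ * (g' * h₀) = h₀⁻¹ * (g⁻¹ * g') * h₀ := by group
  rw [e]
  exact hconj _ h

/-- Any element of `GL₂(Ô)` reducing to `k` computes `liftA`. -/
theorem liftA_mk_of_isRed {h₀ : GfK K}
    (hconj : ∀ g ∈ principalLevel K (lvl K M), h₀⁻¹ * g * h₀ ∈ U) (φ : Space Φ U → ℂ)
    {g : GfK K} {k : Red 𝕆 M} (hg : IsRed g k) (w : HSpace) :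
    liftA Φ M h₀ φ (Pt.mk _ w k) = φ (Space.mk (fun _ => w) ((g * h₀ : GfK K) : Yf U)) := by
  show φ (Space.mk _ ((khat k * h₀ : GfK K) : Yf U)) = _
  rw [class_eq_of_conj hconj ((isRed_khat k).inv_mul_mem hg)]
  rfl

/-- One neighbour of the adelic Hecke operator is one term of the Hecke relation of the lift. -/
theorem liftA_neighbour {h₀ : GfK K}
    (hconj : ∀ g ∈ principalLevel K (lvl K M), h₀⁻¹ * g * h₀ ∈ U) {φ : Space Φ U → ℂ}
    (hφ : Adelic.IsInvariant φ) {v : HeightOneSpectrum 𝕆} (hvn : v.intValuation (lvl K M) = 1)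
    (hh₀ : localGL K v h₀ = 1) {R : GfK K} (hR : ∀ w ≠ v, localGL K w R = 1)
    {h : Matrix (Fin 2) (Fin 2) 𝕆} (hdet : h.det ≠ 0)
    (hunit : ∀ w ≠ v, w.intValuation h.det = 1)
    (hRh : ∀ δ : GL (Fin 2) (v.adicCompletion K),
      (δ : Matrix (Fin 2) (Fin 2) (v.adicCompletion K)) = h.map (toLoc v) →
        IsIntLocal ((localGL K v R)⁻¹ * δ))
    (w : HSpace) (k : Red 𝕆 M) :
    liftA Φ M h₀ φ (Pt.mk _ ((matC (frameEmb Φ) h)⁻¹ • w) ((matRed M h)⁻¹ * k)) =
      φ (Space.mk (fun _ => w) ((khat k * h₀ * R : GfK K) : Yf U)) := by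
  classical
  have hdetK : (h.map (algebraMap 𝕆 K)).det ≠ 0 := by
    rw [← RingHom.mapMatrix_apply, ← RingHom.map_det]
    exact (map_ne_zero_iff _ (FaithfulSMul.algebraMap_injective _ _)).mpr hdet
  set hK : GL (Fin 2) K := Matrix.GeneralLinearGroup.mkOfDetNeZero _ hdetK with hhK
  have hKval : (hK : Matrix (Fin 2) (Fin 2) K) = h.map (algebraMap 𝕆 K) := by
    rw [hhK, coe_mkOfDetNeZero]
  have hinf : Φ.toInf () hK = matC (frameEmb Φ) h := by
    have hne : (h.map (frameEmb Φ)).det ≠ 0 := by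
      rw [← RingHom.mapMatrix_apply, ← RingHom.map_det, frameEmb, RingHom.comp_apply]
      exact (map_ne_zero_iff _ (Φ.emb ()).injective).mpr
        ((map_ne_zero_iff _ (FaithfulSMul.algebraMap_injective _ _)).mpr hdet)
    refine Units.ext ?_
    rw [matC, dif_pos hne]
    refine Matrix.ext fun i j => ?_
    show Φ.emb () ((hK : Matrix (Fin 2) (Fin 2) K) i j) = _
    rw [hKval]
    rfl
  set k' : Red 𝕆 M := (matRed M h)⁻¹ * k with hk'
  have hstep : liftA Φ M h₀ φ (Pt.mk _ ((matC (frameEmb Φ) h)⁻¹ • w) k') =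
      φ (Space.mk (fun _ => w) ((toGf K hK * khat k' * h₀ : GfK K) : Yf U)) := by
    rw [liftA_mk_of_isRed hconj φ (isRed_khat k'), ← hφ hK, Space.smul_mk,
      show (fun i => Φ.toInf i hK • (matC (frameEmb Φ) h)⁻¹ • w) = fun _ : Unit => w from
        funext fun i => by rw [Subsingleton.elim i (), hinf, smul_inv_smul],
      mul_assoc (toGf K hK)]
    rfl
  rw [hstep]
  -- it is the same class
  have hcomm : khat k * h₀ * R = R * khat k * h₀ := by
    refine Aleph.gf_ext fun u => ?_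
    simp only [map_mul]
    by_cases hu : u = v
    · subst hu; rw [localGL_khat_of_unit hvn k, hh₀]; simp
    · rw [hR u hu]; simp
  rw [hcomm]
  symm
  congr 2
  refine class_eq_of_conj hconj ?_
  set e := (R * khat k)⁻¹ * (toGf K hK * khat k') with he
  have hloc : ∀ u, ((localGL K u (toGf K hK)) : Matrix (Fin 2) (Fin 2) (u.adicCompletion K)) =
      h.map (toLoc u) := fun u => Matrix.ext fun i j => by
    show (algebraMap K 𝔸 ((hK : Matrix (Fin 2) (Fin 2) K) i j)) u = _
    rw [hKval]; rfl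
  have hkh : ∀ (k : Red 𝕆 M) u, IsIntLocal (localGL K u (khat k)) := fun k u => by
    rw [khat, Aleph.localGL_gfOfLocal]; exact isIntLocal_khatLoc k u
  have hint : ∀ u, u ≠ v → IsIntLocal (localGL K u (toGf K hK)) := fun u hu => by
    refine Aleph.isIntLocal_of_det (fun i j => by rw [hloc]; exact valued_toLoc_le u _) ?_
    rw [hloc, ← RingHom.mapMatrix_apply, ← RingHom.map_det, valued_toLoc, hunit u hu]
  have he1 : e ∈ principalLevel K (1 : 𝕆) := Aleph.mem_principalLevel_one_iff.mpr fun u => by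
    rw [he, map_mul, map_inv, map_mul, map_mul, _root_.mul_inv_rev]
    by_cases hu : u = v
    · subst hu
      rw [localGL_khat_of_unit hvn k, localGL_khat_of_unit hvn k', inv_one, one_mul, mul_one]
      exact hRh _ (hloc u)
    · rw [hR u hu, inv_one, mul_one]
      exact ((hkh k u).inv).mul ((hint u hu).mul (hkh k' u))
  have hmod : MatMemMul (lvl K M) ((e : Matrix (Fin 2) (Fin 2) 𝔸) - 1) := by
    intro i j u
    rw [Matrix.sub_apply, Adelic.coe_apply_sub, ← Aleph.localGL_apply]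
    have h1 : ((1 : Matrix (Fin 2) (Fin 2) 𝔸) i j) u =
        (1 : Matrix (Fin 2) (Fin 2) (u.adicCompletion K)) i j := by
      rw [Matrix.one_apply, Matrix.one_apply]
      split
      · exact Adelic.coe_apply_one u
      · exact Adelic.coe_apply_zero u
    rw [h1]
    by_cases hu : u.intValuation (lvl K M) < 1
    · have huv : u ≠ v := fun h' => by rw [h', hvn] at hu; exact lt_irrefl _ hu
      have hL : localGL K u e =
          (localGL K u (khat k))⁻¹ * (localGL K u (toGf K hK) * localGL K u (khat k')) := by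
        rw [he, map_mul, map_inv, map_mul, map_mul, hR u huv, one_mul]
      have hkv : ∀ k : Red 𝕆 M,
          ((localGL K u (khat k)) : Matrix (Fin 2) (Fin 2) (u.adicCompletion K)) =
            (redLift k).map (toLoc u) := fun k => by
        rw [khat, Aleph.localGL_gfOfLocal, khatLoc, dif_pos hu, coe_mkOfDetNeZero]
      set X := ((localGL K u (khat k))⁻¹ : GL (Fin 2) (u.adicCompletion K)).1 with hX
      have hmat : ((localGL K u e : GL (Fin 2) (u.adicCompletion K)) :
          Matrix (Fin 2) (Fin 2) (u.adicCompletion K)) - 1 =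
          X * (h * redLift k' - redLift k).map (toLoc u) := by
        rw [Matrix.map_sub _ (map_sub (toLoc u)), Matrix.map_mul, Matrix.mul_sub, ← hkv k, hX,
          Units.inv_mul, ← hloc, ← hkv k', hL, Units.val_mul, Units.val_mul]
      have hnred : IsUnit (h.map (Ideal.Quotient.mk (modIdeal 𝕆 M))) := by
        rw [Matrix.isUnit_iff_isUnit_det, ← RingHom.mapMatrix_apply, ← RingHom.map_det]
        exact isUnit_mk_of_intValuation hvn hdet hunit
      have hcong : ∀ i j, (h * redLift k' - redLift k) i j ∈ Ideal.span {lvl K M} := fun i j => by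
        refine Ideal.Quotient.eq_zero_iff_mem.mp ?_
        show ((h * redLift k' - redLift k).map (Ideal.Quotient.mk (modIdeal 𝕆 M))) i j = 0
        have hout : ∀ k : Red 𝕆 M, (redLift k).map (Ideal.Quotient.mk (modIdeal 𝕆 M)) =
            (k : Matrix (Fin 2) (Fin 2) (𝕆 ⧸ modIdeal 𝕆 M)) :=
          fun k => Matrix.ext fun i j => Ideal.Quotient.mk_out _
        rw [Matrix.map_sub _ (map_sub _), Matrix.map_mul, hout, hout, hk', matRed, dif_pos hnred,
          Units.val_mul, ← Matrix.mul_assoc]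
        rw [show h.map (Ideal.Quotient.mk (modIdeal 𝕆 M)) *
            ((hnred.unit⁻¹ : Red 𝕆 M) : Matrix (Fin 2) (Fin 2) (𝕆 ⧸ modIdeal 𝕆 M)) = 1 from
          hnred.mul_val_inv, Matrix.one_mul, sub_self, Matrix.zero_apply]
      rw [← Matrix.sub_apply, hmat, Matrix.mul_apply]
      refine Valuation.map_sum_le _ fun l _ => ?_
      rw [map_mul, Matrix.map_apply, valued_toLoc]
      obtain ⟨c, hc⟩ := Ideal.mem_span_singleton'.mp (hcong l j)
      rw [← hc, map_mul]
      exact (mul_le_mul_of_nonneg_right (((hkh k u) i l).2) zero_le).trans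
        (by rw [one_mul]; exact mul_le_of_le_one_left' (intValuation_le_one _ _))
    · rw [show u.intValuation (lvl K M) = 1 from
        le_antisymm (intValuation_le_one _ _) (not_lt.mp hu)]
      exact (Valuation.map_sub _ _ _).trans
        (max_le (Aleph.mem_principalLevel_one_iff.mp he1 u i j).1 (Aleph.isIntLocal_one i j).1)
  have hfin := Adelic.inv_mul_mem_of_congr (one_mem (principalLevel K (1 : 𝕆))) he1
    (n := lvl K M) (by simpa using hmod)
  simpa [he] using hfin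

theorem liftA_invariant {h₀ : GfK K}
    (hconj : ∀ g ∈ principalLevel K (lvl K M), h₀⁻¹ * g * h₀ ∈ U) {φ : Space Φ U → ℂ}
    (hφ : Adelic.IsInvariant φ) (γ : GL (Fin 2) 𝕆) (x : Pt (frameEmb Φ) M) :
    liftA Φ M h₀ φ (γ • x) = liftA Φ M h₀ φ x := by
  have h1 : IsRed (toGf K (Matrix.GeneralLinearGroup.map (algebraMap 𝕆 K) γ) * khat x.fin)
      (redHom 𝕆 M γ * x.fin) := (isRed_toGf γ).mul (isRed_khat x.fin)
  have hinf : Φ.toInf () (Matrix.GeneralLinearGroup.map (algebraMap 𝕆 K) γ) =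
      Matrix.GeneralLinearGroup.map (frameEmb Φ) γ := Units.ext (Matrix.ext fun _ _ => rfl)
  show liftA Φ M h₀ φ (Pt.mk _ (Matrix.GeneralLinearGroup.map (frameEmb Φ) γ • x.pt)
    (redHom 𝕆 M γ * x.fin)) = _
  rw [liftA_mk_of_isRed hconj φ h1]
  show _ = φ (Space.mk (fun _ => x.pt) ((khat x.fin * h₀ : GfK K) : Yf U))
  rw [← hφ (Matrix.GeneralLinearGroup.map (algebraMap 𝕆 K) γ)
      (Space.mk (fun _ => x.pt) ((khat x.fin * h₀ : GfK K) : Yf U)), Space.smul_mk,
    show (fun i => Φ.toInf i (Matrix.GeneralLinearGroup.map (algebraMap 𝕆 K) γ) • x.pt) =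
        fun _ : Unit => Matrix.GeneralLinearGroup.map (frameEmb Φ) γ • x.pt from
      funext fun i => by rw [Subsingleton.elim i (), hinf],
    mul_assoc]
  rfl

theorem liftA_hecke (E : EisData 𝕆) [IsPrincipalIdealRing 𝕆] {h₀ : GfK K}
    (hconj : ∀ g ∈ principalLevel K (lvl K M), h₀⁻¹ * g * h₀ ∈ U)
    (hh₀ : ∀ v : HeightOneSpectrum 𝕆, v.intValuation (lvl K M) = 1 → localGL K v h₀ = 1)
    {φ : Space Φ U → ℂ} (hφ : Adelic.IsInvariant φ) {m : 𝕆} (hmU : principalLevel K m ≤ U)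
    (hmn : m ∣ lvl K M) (hU1 : U ≤ principalLevel K (1 : 𝕆)) {p : ℕ} [Fact p.Prime] (hp3 : p ≠ 3)
    {v : HeightOneSpectrum 𝕆} (hv : Ideal.absNorm v.asIdeal = p)
    (hvn : v.intValuation (lvl K M) = 1) {c : ℂ} (hT : IsHeckeEigenAt φ v c) :
    ∃ (ϖ : 𝕆) (r : 𝕆 →+* ZMod p) (h : Fin (p + 1) → Matrix (Fin 2) (Fin 2) 𝕆),
      Theta.IsNeighbours E p ϖ r h ∧
      ∀ (w : HSpace) (k : Red 𝕆 M),
        ∑ j, liftA Φ M h₀ φ (Pt.mk _ ((matC (frameEmb Φ) (h j))⁻¹ • w) ((matRed M (h j))⁻¹ * k)) =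
          (Real.sqrt p : ℂ) * c * liftA Φ M h₀ φ (Pt.mk _ w k) := by
  classical
  obtain ⟨ϖ, r, e, hgen, hnb⟩ := exists_neighbours E hp3 hv
  obtain ⟨πA, hπA⟩ := Descent.exists_uniformiser v
  have hU' : UnifAt v πA := ⟨hπA.1, hπA.2⟩
  refine ⟨ϖ, r, _, hnb, fun w k => ?_⟩
  have hvm : v.intValuation m = 1 := by
    obtain ⟨b, hb⟩ := hmn
    refine intValuation_eq_one_of_notMem fun hmem => ?_
    have := (intValuation_lt_one_iff_mem v _).mpr (hb ▸ Ideal.mul_mem_right b _ hmem)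
    rw [hvn] at this
    exact lt_irrefl _ this
  have hϖ0 : ϖ ≠ 0 := fun h0 => v.ne_bot (by rw [hgen, h0]; simp)
  have hval : Valued.v (toLoc v ϖ) = WithZero.exp (-1 : ℤ) := by
    rw [valued_toLoc, v.intValuation_singleton hϖ0 hgen]
  have hunit : ∀ u ≠ v, u.intValuation ϖ = 1 := fun u hu =>
    intValuation_eq_one_of_notMem fun hmem => hu (HeightOneSpectrum.ext
      (v.isMaximal.eq_of_le u.isPrime.ne_top
        (by rw [hgen]; exact (Ideal.span_singleton_le_iff_mem _).mpr hmem)).symm)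
  have hterm : ∀ j, liftA Φ M h₀ φ (Pt.mk _
      ((matC (frameEmb Φ) (nbrOf ϖ (e j)))⁻¹ • w)
      ((matRed M (nbrOf ϖ (e j)))⁻¹ * k)) =
      φ (Space.mk (fun _ => w) ((khat k * h₀ * cosetRep πA (e j) : GfK K) : Yf U)) := by
    intro j
    refine liftA_neighbour hconj hφ hvn (hh₀ v hvn) (fun u hu => hU'.localGL_cosetRep _ hu)
      ?_ (fun u hu => ?_) (fun δ hδ => ?_) w k
    · rw [hnb.det_eq j]; exact hϖ0
    · rw [hnb.det_eq j]; exact hunit u hu
    · have hdiv := hU'.valued_div (x := toLoc v ϖ) hval.le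
      have hdet1 : Valued.v (((πA : 𝔸) v)⁻¹ * toLoc v ϖ) = 1 := by
        rw [map_mul, map_inv₀, hU'.val, hval, inv_mul_cancel₀ WithZero.exp_ne_zero]
      rcases he : e j with _ | q
      · have hM : ((localGL K v (cosetRep (v := v) πA none))⁻¹ * δ : GL (Fin 2) _).1 =
            !![1, 0; 0, ((πA : 𝔸) v)⁻¹ * toLoc v ϖ] := by
          rw [Units.val_mul, cosetRep, Aleph.coe_local_diagB_inv, hδ, he, nbrOf]
          ext i j
          fin_cases i <;> fin_cases j <;> simp [Matrix.mul_apply, Fin.sum_univ_two]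
        refine Aleph.isIntLocal_of_det (fun i j => ?_) ?_
        · rw [hM]; fin_cases i <;> fin_cases j <;> simp [hdet1]
        · rw [hM, Matrix.det_fin_two_of]; simp [hdet1]
      · have hM : ((localGL K v (cosetRep πA (some q)))⁻¹ * δ : GL (Fin 2) _).1 =
            !![((πA : 𝔸) v)⁻¹ * toLoc v ϖ, 0; 0, 1] := by
          rw [Units.val_mul, Aleph.coe_local_rep_inv, hδ, he, nbrOf]
          ext i j
          fin_cases i <;> fin_cases j <;>
            simp [Matrix.mul_apply, Fin.sum_univ_two, Aleph.repParam, toLoc]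
        refine Aleph.isIntLocal_of_det (fun i j => ?_) ?_
        · rw [hM]; fin_cases i <;> fin_cases j <;> simp [hdet1]
        · rw [hM, Matrix.det_fin_two_of]; simp [hdet1]
  have : Finite (Option (𝕆 ⧸ v.asIdeal)) := Finite.of_equiv _ e
  have : Finite (𝕆 ⧸ v.asIdeal) := Finite.of_injective some (Option.some_injective _)
  have := Fintype.ofFinite (𝕆 ⧸ v.asIdeal)
  rw [Finset.sum_congr rfl fun j _ => hterm j,
    e.sum_comp fun o => φ (Space.mk (fun _ => w) ((khat k * h₀ * cosetRep πA o : GfK K) : Yf U))]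
  have hT' := congrFun (hT πA hπA) (Space.mk (fun _ => w) ((khat k * h₀ : GfK K) : Yf U))
  rw [Adelic.heckeOp_mk, show heckeMatrix K πA = diag2 πA 1 from rfl, ← mul_one (khat k * h₀),
    hU'.nbrs_eq_range hmU hU1 hvm _ (one_mem _),
    finsum_mem_range (hU'.injective_class hU1 _ (one_mem _)), finsum_eq_sum_of_fintype] at hT'
  simp only [mul_one] at hT'
  rw [hT', hv]
  rfl

/-- **The input of the lift** from a cusp eigenfunction. -/
theorem liftInput_of [NeZero M] [IsPrincipalIdealRing 𝕆] (E : EisData 𝕆)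
    (hw : frameEmb Φ E.w = -(1 / 2) + (Real.sqrt 3 : ℂ) / 2 * Complex.I) {h₀ : GfK K}
    (hconj : ∀ g ∈ principalLevel K (lvl K M), h₀⁻¹ * g * h₀ ∈ U)
    (hh₀ : ∀ v : HeightOneSpectrum 𝕆, v.intValuation (lvl K M) = 1 → localGL K v h₀ = 1)
    {φ : Space Φ U → ℂ} (hφ : IsCuspEigen φ) {m₀ : ℕ} (hmU : principalLevel K (m₀ : 𝕆) ≤ U)
    (hdvd : m₀ ∣ 3 * M ^ 2) (hU1 : U ≤ principalLevel K (1 : 𝕆))
    {a : HeightOneSpectrum 𝕆 → ℂ}
    (heigen : ∀ v, PrimeTo m₀ v → IsHeckeEigenAt φ v (a v) ∧ ‖a v‖ ≤ 2 ∧ (a v).im = 0)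
    {S : Set ℕ} {aP : ℕ → ℂ} (hSne : S.Nonempty)
    (hS : ∀ p ∈ S, p.Prime ∧ ¬ p ∣ 3 * M ∧ p % 3 = 1 ∧
      ∃ v : HeightOneSpectrum 𝕆, Ideal.absNorm v.asIdeal = p ∧ a v = aP p) :
    LiftInput E (frameEmb Φ) M (liftA Φ M h₀ φ) S aP where
  emb_w := hw
  invariant := liftA_invariant hconj hφ.invariant
  continuous := fun k => by
    exact (hφ.continuous ((khat k * h₀ : GfK K) : Yf U)).comp
      (continuous_pi fun _ => continuous_id)
  bounded := by
    obtain ⟨C, hC⟩ := hφ.bounded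
    exact ⟨C, fun x => hC _⟩
  spherical := fun ker hc hq w k => by
    obtain ⟨h1, h2⟩ := Arch.pointPairOp_eq_of_isQuartic hφ.spherical hφ.bounded hφ.continuous hc hq
      () (Space.mk (fun _ => w) ((khat k * h₀ : GfK K) : Yf U))
    have hup : ∀ τ : HSpace, (Space.mk (Φ := Φ) (fun _ : Unit => w)
        ((khat k * h₀ : GfK K) : Yf U)).update () τ =
          Space.mk (fun _ => τ) ((khat k * h₀ : GfK K) : Yf U) := fun τ => by
      unfold Space.update
      congr 1
    simp only [hup, Space.pt_mk] at h1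
    simp only [Adelic.pointPairOp, hup, Space.pt_mk] at h2
    exact ⟨h1, h2⟩
  zero_mean := fun r hr k => by
    refine (hφ.cuspidal ((khat k * h₀ : GfK K) : Yf U) (fun _ => r) (fun _ => hr)).congr fun R => ?_
    have hmp := volume_preserving_funUnique Unit ℂ
    have hset : Set.univ.pi (fun _ : Unit => Metric.closedBall (0 : ℂ) R) =
        MeasurableEquiv.funUnique Unit ℂ ⁻¹' Metric.closedBall (0 : ℂ) R := by
      ext z
      simp [MeasurableEquiv.funUnique]
      exact ⟨fun h => h _, fun h i => h⟩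
    rw [setAverage_eq, setAverage_eq, hset, measureReal_def, measureReal_def,
      hmp.measure_preimage_emb (MeasurableEquiv.measurableEmbedding _),
      ← hmp.setIntegral_preimage_emb (MeasurableEquiv.measurableEmbedding _)]
    congr 1
  set_nonempty := hSne
  hecke := fun p hpS hp => by
    obtain ⟨-, hndvd, hp1, v, hv, hav⟩ := hS p hpS
    have := Fact.mk hp
    have hvn : v.intValuation (lvl K M) = 1 := by
      refine intValuation_eq_one_of_notMem fun hmem => ?_
      have hpv : (p : 𝕆) ∈ v.asIdeal := hv ▸ Ideal.absNorm_mem _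
      obtain ⟨x, y, hxy⟩ : IsCoprime (p : ℤ) (3 * (M ^ 2 : ℕ) : ℤ) := by
        rw [← Nat.cast_ofNat, ← Nat.cast_mul, Nat.isCoprime_iff_coprime, hp.coprime_iff_not_dvd]
        intro h
        rcases hp.dvd_mul.mp h with h | h
        · exact hndvd (dvd_mul_of_dvd_left h M)
        · exact hndvd (dvd_mul_of_dvd_right (hp.dvd_of_dvd_pow h) 3)
      refine v.isPrime.ne_top ((Ideal.eq_top_iff_one _).mpr ?_)
      have h1 := congrArg (fun z : ℤ => (z : 𝕆)) hxy
      simp only [Int.cast_add, Int.cast_mul, Int.cast_natCast, Int.cast_one] at h1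
      rw [← h1]
      refine add_mem (Ideal.mul_mem_left _ _ hpv) (Ideal.mul_mem_left _ _ ?_)
      simpa [lvl] using hmem
    have hm₀ : (m₀ : 𝕆) ∣ lvl K M := by
      obtain ⟨b, hb⟩ := hdvd
      refine ⟨(b : 𝕆), ?_⟩
      rw [lvl, ← Nat.cast_mul, ← hb]
      simp
    obtain ⟨hT, hbd, him⟩ := heigen v (fun h => by
      obtain ⟨b, hb⟩ := hm₀
      have := (intValuation_lt_one_iff_mem v _).mpr (hb ▸ Ideal.mul_mem_right b _ h)
      rw [hvn] at this
      exact lt_irrefl _ this)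
    rw [hav] at hT hbd him
    exact ⟨hndvd, hp1, hbd, Complex.conj_eq_iff_im.mpr him,
      liftA_hecke E hconj hh₀ hφ.invariant hmU hm₀ hU1 (by omega) hv hvn hT⟩

/-- The scalar matrices over `O / 3M²` act trivially. -/
theorem liftA_central {h₀ : GfK K}
    (hconj : ∀ g ∈ principalLevel K (lvl K M), h₀⁻¹ * g * h₀ ∈ U) (φ : Space Φ U → ℂ)
    (c : (𝕆 ⧸ modIdeal 𝕆 M)ˣ) (w : HSpace) (k : Red 𝕆 M) :
    liftA Φ M h₀ φ (Pt.mk _ w (Matrix.GeneralLinearGroup.scalar (Fin 2) c * k)) =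
      liftA Φ M h₀ φ (Pt.mk _ w k) := by
  classical
  obtain ⟨c₀, hc₀⟩ := Ideal.Quotient.mk_surjective (c : 𝕆 ⧸ modIdeal 𝕆 M)
  obtain ⟨d₀, hd₀⟩ := Ideal.Quotient.mk_surjective ((c⁻¹ : (𝕆 ⧸ modIdeal 𝕆 M)ˣ) : 𝕆 ⧸ modIdeal 𝕆 M)
  have hone : ∀ v : HeightOneSpectrum 𝕆, v.intValuation (lvl K M) < 1 → v.intValuation c₀ = 1 := by
    intro v hv
    refine intValuation_eq_one_of_notMem fun hmem => v.isPrime.ne_top ((Ideal.eq_top_iff_one _).mpr ?_)
    have h1 : c₀ * d₀ - 1 ∈ modIdeal 𝕆 M := Ideal.Quotient.eq.mp (by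
      rw [map_mul, map_one, hc₀, hd₀, Units.mul_inv])
    have h2 : c₀ * d₀ - 1 ∈ v.asIdeal := (Ideal.span_singleton_le_iff_mem _).mpr
      ((intValuation_lt_one_iff_mem v _).mp hv) h1
    simpa using sub_mem (Ideal.mul_mem_right d₀ _ hmem) h2
  let x : ∀ v : HeightOneSpectrum 𝕆, v.adicCompletion K := fun v =>
    if v.intValuation (lvl K M) < 1 then toLoc v c₀ else 1
  have hx1 : ∀ v, Valued.v (x v) = 1 := fun v => by
    simp only [x]
    split_ifs with h
    · rw [valued_toLoc, hone v h]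
    · exact map_one _
  have hxi : ∀ v, Valued.v (x v)⁻¹ ≤ 1 := fun v => by rw [map_inv₀, hx1, inv_one]
  have hne : ∀ v, x v ≠ 0 := fun v h => by have := hx1 v; rw [h, map_zero] at this; exact zero_ne_one this
  let u : 𝔸ˣ :=
    { val := Aleph.intMk K x fun v => (hx1 v).le
      inv := Aleph.intMk K (fun v => (x v)⁻¹) hxi
      val_inv := FiniteAdeleRing.ext K fun v => by
        rw [Adelic.coe_apply_mul, Aleph.intMk_apply, Aleph.intMk_apply, Adelic.coe_apply_one,
          mul_inv_cancel₀ (hne v)]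
      inv_val := FiniteAdeleRing.ext K fun v => by
        rw [Adelic.coe_apply_mul, Aleph.intMk_apply, Aleph.intMk_apply, Adelic.coe_apply_one,
          inv_mul_cancel₀ (hne v)] }
  set g := Adelic.scalarHom 𝕆 K u with hg
  have hgv : ∀ (v : HeightOneSpectrum 𝕆) (i j : Fin 2),
      ((g : Matrix (Fin 2) (Fin 2) 𝔸) i j) v = if i = j then x v else 0 := fun v i j => by
    rw [hg]
    show (Matrix.scalar (Fin 2) (u : 𝔸) i j) v = _
    rw [Matrix.scalar_apply, Matrix.diagonal_apply]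
    split_ifs
    · rfl
    · exact Adelic.coe_apply_zero v
  have hloc : ∀ v, IsIntLocal (localGL K v g) := fun v => by
    refine Aleph.isIntLocal_of_det (fun i j => ?_) ?_
    · rw [Aleph.localGL_apply, hgv]
      split_ifs
      · exact (hx1 v).le
      · rw [map_zero]; exact zero_le
    · rw [Matrix.det_fin_two, Aleph.localGL_apply, Aleph.localGL_apply, Aleph.localGL_apply,
        Aleph.localGL_apply, hgv, hgv, hgv, hgv]
      simp [hx1]
  have hred : IsRed g (Matrix.GeneralLinearGroup.scalar (Fin 2) c) := by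
    refine ⟨Aleph.mem_principalLevel_one_iff.mpr hloc, Matrix.scalar (Fin 2) c₀, ?_, fun i j v => ?_⟩
    · ext i j
      fin_cases i <;> fin_cases j <;> simp [hc₀]
    · rw [Matrix.sub_apply, Adelic.coe_apply_sub, hgv, Matrix.map_apply, adele_algebraMap_apply,
        Matrix.scalar_apply, Matrix.diagonal_apply]
      split_ifs with hij
      · simp only [x]
        by_cases hv : v.intValuation (lvl K M) < 1
        · rw [if_pos hv, sub_self, map_zero]; exact zero_le
        · rw [if_neg hv, show v.intValuation (lvl K M) = 1 from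
            le_antisymm (intValuation_le_one _ _) (not_lt.mp hv)]
          exact (Valuation.map_sub _ _ _).trans (max_le (map_one _).le (valued_toLoc_le v _))
      · rw [map_zero, sub_self, map_zero]; exact zero_le
  rw [liftA_mk_of_isRed hconj φ (hred.mul (isRed_khat k)), liftA_mk_of_isRed hconj φ (isRed_khat k)]
  congr 2
  refine QuotientGroup.eq.mpr ?_
  have hz : g ∈ Adelic.centerGf 𝕆 K := ⟨u, rfl⟩
  have : (g * khat k * h₀)⁻¹ * (khat k * h₀) = g⁻¹ := by
    rw [show g * khat k * h₀ = khat k * h₀ * g by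
      rw [mul_assoc, Adelic.centerGf_comm hz], _root_.mul_inv_rev, mul_assoc, inv_mul_cancel,
      mul_one]
  rw [this]
  exact (le_sup_right : Adelic.centerGf 𝕆 K ≤ Adelic.levelZ U) (inv_mem hz)

/-- `liftA` only depends on the finite coordinate modulo `M`. -/
theorem liftA_factor {h₀ : GfK K}
    (hconjM : ∀ g ∈ principalLevel K (M : 𝕆), h₀⁻¹ * g * h₀ ∈ U) (φ : Space Φ U → ℂ)
    (w : HSpace) (k u : Red 𝕆 M)
    (hu : ∀ i j, (M : 𝕆 ⧸ modIdeal 𝕆 M) ∣
      ((u : Matrix (Fin 2) (Fin 2) (𝕆 ⧸ modIdeal 𝕆 M)) - 1) i j) :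
    liftA Φ M h₀ φ (Pt.mk _ w (k * u)) = liftA Φ M h₀ φ (Pt.mk _ w k) := by
  have hdvdM : (M : 𝕆) ∣ lvl K M := ⟨((3 * M : ℕ) : 𝕆), by simp [lvl]; ring⟩
  have hconj : ∀ g ∈ principalLevel K (lvl K M), h₀⁻¹ * g * h₀ ∈ U := fun g hg =>
    hconjM g (Adelic.principalLevel_mono hdvdM hg)
  rw [liftA_mk_of_isRed hconj φ ((isRed_khat k).mul (isRed_khat u)),
    liftA_mk_of_isRed hconj φ (isRed_khat k)]
  congr 2
  symm
  refine QuotientGroup.eq.mpr (Adelic.le_levelZ U ?_)
  have e : (khat k * h₀)⁻¹ * (khat k * khat u * h₀) = h₀⁻¹ * khat u * h₀ := by group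
  rw [e]
  refine hconjM _ ?_
  obtain ⟨hu1, L, hL, hgL⟩ := isRed_khat (K := K) u
  have := Adelic.inv_mul_mem_of_congr (one_mem (principalLevel K (1 : 𝕆))) hu1 (n := (M : 𝕆)) ?_
  · simpa using this
  · intro i j
    have hLd : (M : 𝕆) ∣ (L - 1) i j := by
      have hmem : (M : 𝕆 ⧸ modIdeal 𝕆 M) ∣ Ideal.Quotient.mk (modIdeal 𝕆 M) ((L - 1) i j) := by
        have := hu i j
        rw [← hL] at this
        by_cases hij : i = j <;>
          simpa [Matrix.sub_apply, hij] using this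
      obtain ⟨y, hy⟩ := hmem
      obtain ⟨y, rfl⟩ := Ideal.Quotient.mk_surjective y
      rw [← map_natCast (Ideal.Quotient.mk (modIdeal 𝕆 M)), ← map_mul, Ideal.Quotient.eq] at hy
      obtain ⟨c, hc⟩ := Ideal.mem_span_singleton'.mp hy
      obtain ⟨d, hd⟩ := hdvdM
      change c * lvl K M = _ at hc
      exact ⟨y + c * d, by linear_combination -hc + c * hd⟩
    obtain ⟨d, hd⟩ := hLd
    have h1 : ((khat u : GfK K) : Matrix (Fin 2) (Fin 2) 𝔸) i j - (1 : Matrix (Fin 2) (Fin 2) 𝔸) i j =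
        (((khat u : GfK K) : Matrix (Fin 2) (Fin 2) 𝔸) - L.map (algebraMap 𝕆 𝔸)) i j +
          algebraMap 𝕆 𝔸 ((M : 𝕆) * d) := by
      rw [← hd, Matrix.sub_apply, Matrix.sub_apply, Matrix.map_apply, map_sub]
      by_cases hij : i = j <;> simp [Matrix.one_apply, hij]
    rw [Units.val_one, Matrix.sub_apply, h1]
    refine ((hgL i j).of_dvd hdvdM).add ?_
    rw [mul_comm (M : 𝕆), map_mul]
    exact MemMul.int_mul (Adelic.algebraMap_mem_intAdele d) (Adelic.memMul_algebraMap _)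

end Fermat.Agent.LT.Lift
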