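import Fermat.Agent.LT.Lift.Basic
import Fermat.Agent.LT.Aleph.HeckeCoset

/-!
# Lifts of elements of `GL₂(O / 3M²)` to `GL₂(Ô)`

`khat k` is a fixed lift of `k` at the primes dividing `3M²` and trivial elsewhere.
-/

set_option autoImplicit false

noncomputable section

namespace Fermat.Agent.LT.Lift

open MeasureTheory IsDedekindDomain IsDedekindDomain.HeightOneSpectrum NumberField Matrix
open Adelic (HSpace Frame Space Gf GfK Yf principalLevel toGf heckeMatrix diag2 unipotent MemMul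
  MatMemMul levelZ)
open Aleph (localGL evalAt IsIntLocal UnifAt cosetRep)
open Orbit (EisData)
open scoped MatrixGroups Topology

variable {K : Type*} [Field K] [NumberField K]

local notation "𝕆" => 𝓞 K
local notation "𝔸" => FiniteAdeleRing (𝓞 K) K

/-- The modulus as an element of `𝓞 K`. -/
def lvl (K : Type*) [Field K] [NumberField K] (M : ℕ) : 𝓞 K := ((3 * (M ^ 2 : ℕ) : ℤ) : 𝓞 K)

variable {M : ℕ}

/-- `𝓞 K` in the completion at `v`. -/
def toLoc (v : HeightOneSpectrum 𝕆) : 𝕆 →+* v.adicCompletion K :=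
  (algebraMap K (v.adicCompletion K)).comp (algebraMap 𝕆 K)

theorem valued_toLoc (v : HeightOneSpectrum 𝕆) (r : 𝕆) :
    Valued.v (toLoc v r) = v.intValuation r :=
  Aleph.valued_intMap v r

theorem valued_toLoc_le (v : HeightOneSpectrum 𝕆) (r : 𝕆) : Valued.v (toLoc v r) ≤ 1 := by
  rw [valued_toLoc]; exact intValuation_le_one _ _

theorem adele_algebraMap_apply (v : HeightOneSpectrum 𝕆) (r : 𝕆) :
    (algebraMap 𝕆 𝔸 r) v = toLoc v r := by
  rw [IsScalarTower.algebraMap_apply 𝕆 K 𝔸]; rfl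

theorem coe_mkOfDetNeZero {F : Type*} [Field F] (A : Matrix (Fin 2) (Fin 2) F) (h : A.det ≠ 0) :
    ((Matrix.GeneralLinearGroup.mkOfDetNeZero A h : GL (Fin 2) F) : Matrix (Fin 2) (Fin 2) F) =
      A := rfl

theorem intValuation_eq_one_of_notMem {v : HeightOneSpectrum 𝕆} {r : 𝕆} (h : r ∉ v.asIdeal) :
    v.intValuation r = 1 :=
  le_antisymm (intValuation_le_one v r)
    (not_lt.mp fun hlt => h ((intValuation_lt_one_iff_mem v r).mp hlt))

/-- `g ∈ GL₂(Ô)` reduces to `k`. -/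
def IsRed (g : GfK K) (k : Red 𝕆 M) : Prop :=
  g ∈ principalLevel K (1 : 𝕆) ∧ ∃ L : Matrix (Fin 2) (Fin 2) 𝕆,
    L.map (Ideal.Quotient.mk (modIdeal 𝕆 M)) = (k : Matrix (Fin 2) (Fin 2) (𝕆 ⧸ modIdeal 𝕆 M)) ∧
    MatMemMul (lvl K M) ((g : Matrix (Fin 2) (Fin 2) 𝔸) - L.map (algebraMap 𝕆 𝔸))

theorem matMemMul_map_sub {L L' : Matrix (Fin 2) (Fin 2) 𝕆}
    (h : L.map (Ideal.Quotient.mk (modIdeal 𝕆 M)) = L'.map (Ideal.Quotient.mk (modIdeal 𝕆 M))) :
    MatMemMul (lvl K M) (L.map (algebraMap 𝕆 𝔸) - L'.map (algebraMap 𝕆 𝔸)) := by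
  intro i j
  have h1 : L i j - L' i j ∈ Ideal.span {lvl K M} :=
    Ideal.Quotient.eq.mp (congrFun (congrFun h i) j)
  obtain ⟨c, hc⟩ := Ideal.mem_span_singleton'.mp h1
  rw [Matrix.sub_apply, Matrix.map_apply, Matrix.map_apply, ← map_sub, ← hc, map_mul]
  exact MemMul.int_mul (Adelic.algebraMap_mem_intAdele c) (Adelic.memMul_algebraMap _)

/-- Two elements with the same reduction differ by an element of the principal level. -/
theorem IsRed.inv_mul_mem {g g' : GfK K} {k : Red 𝕆 M} (hg : IsRed g k) (hg' : IsRed g' k) :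
    g⁻¹ * g' ∈ principalLevel K (lvl K M) := by
  obtain ⟨hg1, L, hL, hgL⟩ := hg
  obtain ⟨hg1', L', hL', hgL'⟩ := hg'
  refine Adelic.inv_mul_mem_of_congr hg1 hg1' ?_
  have := (hgL'.sub hgL).add (matMemMul_map_sub (hL'.trans hL.symm))
  convert this using 1
  abel

theorem IsRed.mul {g g' : GfK K} {k k' : Red 𝕆 M} (hg : IsRed g k) (hg' : IsRed g' k') :
    IsRed (g * g') (k * k') := by
  obtain ⟨hg1, L, hL, hgL⟩ := hg
  obtain ⟨hg1', L', hL', hgL'⟩ := hg'
  refine ⟨mul_mem hg1 hg1', L * L', by rw [Matrix.map_mul, hL, hL']; rfl, ?_⟩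
  have hLint : MatMemMul (1 : 𝕆) (L.map (algebraMap 𝕆 𝔸)) :=
    (Adelic.matMemMul_one _).mpr fun i j => Adelic.algebraMap_mem_intAdele (L i j)
  have e1 := hgL.mul (Adelic.mem_principalLevel_one.mp hg1').1
  have e2 := hLint.mul hgL'
  rw [mul_one] at e1
  rw [one_mul] at e2
  convert e1.add e2 using 1
  rw [Units.val_mul, Matrix.map_mul, Matrix.sub_mul, Matrix.mul_sub]
  abel

theorem isRed_toGf (γ : GL (Fin 2) 𝕆) :
    IsRed (toGf K (Matrix.GeneralLinearGroup.map (algebraMap 𝕆 K) γ)) (redHom 𝕆 M γ) := by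
  have he : ∀ (δ : GL (Fin 2) 𝕆) (i j : Fin 2),
      ((toGf K (Matrix.GeneralLinearGroup.map (algebraMap 𝕆 K) δ) : GfK K) :
        Matrix (Fin 2) (Fin 2) 𝔸) i j = algebraMap 𝕆 𝔸 (δ i j) := fun δ i j =>
    (IsScalarTower.algebraMap_apply 𝕆 K 𝔸 _).symm
  refine ⟨Adelic.mem_principalLevel_one.mpr ⟨?_, ?_⟩, (γ : Matrix (Fin 2) (Fin 2) 𝕆), rfl, ?_⟩
  · refine (Adelic.matMemMul_one _).mpr fun i j => ?_
    rw [he]; exact Adelic.algebraMap_mem_intAdele _
  · refine (Adelic.matMemMul_one _).mpr fun i j => ?_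
    rw [← map_inv, ← map_inv, he]; exact Adelic.algebraMap_mem_intAdele _
  · intro i j
    rw [Matrix.sub_apply, he, Matrix.map_apply, sub_self]
    exact Adelic.memMul_zero_right _

theorem intValuation_det_redLift {v : HeightOneSpectrum 𝕆} (hv : v.intValuation (lvl K M) < 1)
    (k : Red 𝕆 M) : v.intValuation (redLift k).det = 1 := by
  refine intValuation_eq_one_of_notMem fun hmem => ?_
  obtain ⟨c, hc⟩ : ∃ c : 𝕆, (redLift k).det * c - 1 ∈ modIdeal 𝕆 M := by
    obtain ⟨c, hc⟩ := Ideal.Quotient.mk_surjective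
      (I := modIdeal 𝕆 M) ((k⁻¹ : Red 𝕆 M) : Matrix (Fin 2) (Fin 2) (𝕆 ⧸ modIdeal 𝕆 M)).det
    refine ⟨c, Ideal.Quotient.eq.mp ?_⟩
    have hk : (redLift k).map (Ideal.Quotient.mk (modIdeal 𝕆 M)) =
        (k : Matrix (Fin 2) (Fin 2) (𝕆 ⧸ modIdeal 𝕆 M)) :=
      Matrix.ext fun i j => Ideal.Quotient.mk_out _
    rw [map_mul, map_one, hc, RingHom.map_det, RingHom.mapMatrix_apply, hk, ← Matrix.det_mul,
      Units.mul_inv, Matrix.det_one]
  have hn : lvl K M ∈ v.asIdeal := (intValuation_lt_one_iff_mem v _).mp hv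
  have h1 : (redLift k).det * c - 1 ∈ v.asIdeal :=
    (Ideal.span_singleton_le_iff_mem _).mpr hn hc
  have : (1 : 𝕆) ∈ v.asIdeal := by
    have := sub_mem (Ideal.mul_mem_right c _ hmem) h1
    simpa using this
  exact v.isPrime.ne_top ((Ideal.eq_top_iff_one _).mpr this)

open scoped Classical in
/-- The component at `v` of the lift of `k`. -/
def khatLoc (k : Red 𝕆 M) (v : HeightOneSpectrum 𝕆) : GL (Fin 2) (v.adicCompletion K) :=
  if h : v.intValuation (lvl K M) < 1 then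
    Matrix.GeneralLinearGroup.mkOfDetNeZero ((redLift k).map (toLoc v)) (by
      rw [← RingHom.mapMatrix_apply, ← RingHom.map_det]
      intro h0
      have := congrArg Valued.v h0
      rw [valued_toLoc, intValuation_det_redLift h, map_zero] at this
      exact one_ne_zero this)
  else 1

theorem isIntLocal_khatLoc (k : Red 𝕆 M) (v : HeightOneSpectrum 𝕆) :
    IsIntLocal (khatLoc k v) := by
  unfold khatLoc
  split_ifs with h
  · refine Aleph.isIntLocal_of_det (fun i j => valued_toLoc_le v _) ?_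
    show Valued.v ((redLift k).map (toLoc v)).det = 1
    rw [← RingHom.mapMatrix_apply, ← RingHom.map_det, valued_toLoc, intValuation_det_redLift h]
  · exact Aleph.isIntLocal_one

/-- The lift of `k` to `GL₂(Ô)`. -/
def khat (k : Red 𝕆 M) : GfK K := Aleph.gfOfLocal K (khatLoc k) (isIntLocal_khatLoc k)

theorem localGL_khat_of_unit {v : HeightOneSpectrum 𝕆} (hv : v.intValuation (lvl K M) = 1)
    (k : Red 𝕆 M) : localGL K v (khat k) = 1 := by
  rw [khat, Aleph.localGL_gfOfLocal, khatLoc, dif_neg (by rw [hv]; exact lt_irrefl _)]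

theorem isRed_khat (k : Red 𝕆 M) : IsRed (khat k) k := by
  refine ⟨Aleph.gfOfLocal_mem _ _, redLift k, Matrix.ext fun i j => Ideal.Quotient.mk_out _,
    fun i j v => ?_⟩
  rw [Matrix.sub_apply, Adelic.coe_apply_sub, Matrix.map_apply, adele_algebraMap_apply,
    ← Aleph.localGL_apply, khat, Aleph.localGL_gfOfLocal]
  by_cases h : v.intValuation (lvl K M) < 1
  · rw [khatLoc, dif_pos h]
    rw [coe_mkOfDetNeZero, Matrix.map_apply, sub_self, map_zero]
    exact zero_le
  · rw [show v.intValuation (lvl K M) = 1 from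
      le_antisymm (intValuation_le_one _ _) (not_lt.mp h)]
    exact (Valuation.map_sub _ _ _).trans
      (max_le (isIntLocal_khatLoc k v i j).1 (valued_toLoc_le v _))

/-- An element which is a unit at every place dividing the modulus is a unit modulo it. -/
theorem isUnit_mk_of_intValuation {v : HeightOneSpectrum 𝕆} (hvn : v.intValuation (lvl K M) = 1)
    {d : 𝕆} (_hd : d ≠ 0) (hunit : ∀ w ≠ v, w.intValuation d = 1) :
    IsUnit (Ideal.Quotient.mk (modIdeal 𝕆 M) d) := by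
  have htop : Ideal.span {d} ⊔ modIdeal 𝕆 M = ⊤ := by
    by_contra hne
    obtain ⟨P, hP, hle⟩ := Ideal.exists_le_maximal _ hne
    have hd : d ∈ P := hle (Ideal.mem_sup_left (Ideal.mem_span_singleton_self d))
    have hn : lvl K M ∈ P := hle (Ideal.mem_sup_right (Ideal.mem_span_singleton_self _))
    have hP0 : P ≠ ⊥ := fun h0 => by rw [h0, Ideal.mem_bot] at hd; exact _hd hd
    let w : HeightOneSpectrum 𝕆 := ⟨P, hP.isPrime, hP0⟩
    have hw : w ≠ v := fun h' => by
      have := (intValuation_lt_one_iff_mem w _).mpr hn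
      rw [h', hvn] at this
      exact lt_irrefl _ this
    have := (intValuation_lt_one_iff_mem w _).mpr hd
    rw [hunit w hw] at this
    exact lt_irrefl _ this
  obtain ⟨x, hx, y, hy, hxy⟩ := Submodule.mem_sup.mp ((Ideal.eq_top_iff_one _).mp htop)
  obtain ⟨c, rfl⟩ := Ideal.mem_span_singleton'.mp hx
  refine IsUnit.of_mul_eq_one (Ideal.Quotient.mk _ c) ?_
  rw [← map_mul, ← map_one (Ideal.Quotient.mk (modIdeal 𝕆 M)), Ideal.Quotient.eq, ← hxy]
  rw [show d * c - (c * d + y) = -y by ring]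
  exact neg_mem hy

end Fermat.Agent.LT.Lift
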