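import Fermat.Agent.LT.Lift.HeckeAdjoint
import Fermat.Agent.LT.Lift.Diamond
import Fermat.Agent.LT.Lift.Expansion

/-!
# The lift at its level: invariance and the Hecke eigenvalues

At `L = liftLevel M` the lift is invariant under `Γ₁(3) ∩ Γ(L)`, and `T_p` acts on it by `a p`.
For `3 ∤ M` the weight has to be trivial at `3`.
-/

set_option autoImplicit false

noncomputable section

namespace Fermat.Agent.LT.Lift

open MeasureTheory Filter
open Adelic (HSpace)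
open Theta (Disc IVec q3 dcls dv gK actD theta thetaFun IsTrivialAtThree IsStdEmb)
open Orbit (EisData)
open UpperHalfPlane hiding I
open scoped Real ENNReal MatrixGroups ModularForm

variable {O : Type*} [CommRing O] {emb : O →+* ℂ} {M : ℕ} [NeZero M]

omit [NeZero M] in
theorem zsmul_disc_congr {d e : ℤ} (h : ((3 * M ^ 2 : ℕ) : ℤ) ∣ d - e) (r : Disc (M ^ 2)) :
    d • r = e • r := by
  obtain ⟨k, rfl⟩ := Theta.dcls_surjective (M ^ 2) r
  rw [← sub_eq_zero, ← map_zsmul, ← map_zsmul, ← map_sub, ← sub_smul, dcls,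
    QuotientAddGroup.mk'_apply, QuotientAddGroup.eq_zero_iff]
  obtain ⟨t, ht⟩ := h
  rw [ht, show ((3 * M ^ 2 : ℕ) : ℤ) = 3 * ((M ^ 2 : ℕ) : ℤ) by push_cast; ring, mul_smul]
  exact Theta.three_mul_smul_mem_perLat _ _

/-- Elements near the diagonal modulo the level act on the weights by `r ↦ e r`. -/
theorem thetaFun_slash_liftLevel {φ : Disc (M ^ 2) → ℂ} (hφ : ¬ 3 ∣ M → IsTrivialAtThree M φ)
    (γ : SL(2, ℤ)) (hb : ((liftLevel M : ℕ) : ℤ) ∣ γ 0 1) (hc : ((liftLevel M : ℕ) : ℤ) ∣ γ 1 0)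
    (hc3 : (3 : ℤ) ∣ γ 1 0) (hd3 : (3 : ℤ) ∣ γ 1 1 - 1) (e : ℤ)
    (hd : ((3 * M ^ 2 : ℕ) : ℤ) ∣ γ 1 1 - e) (w : HSpace) :
    thetaFun M φ w ∣[(1 : ℤ)] γ = thetaFun M (fun r => φ (e • r)) w := by
  have hcast : (3 * (M ^ 2 : ℕ) : ℤ) = ((3 * M ^ 2 : ℕ) : ℤ) := by push_cast; ring
  have hcN : (3 * (M ^ 2 : ℕ) : ℤ) ∣ γ 1 0 := hcast ▸ three_mul_sq_dvd hc3 hc
  have key : thetaFun M φ w ∣[(1 : ℤ)] γ =
      ((1 : ℤ) : ℂ) • thetaFun M (fun r => φ (γ 1 1 • r)) w := by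
    by_cases h3 : 3 ∣ M
    · rw [liftLevel, if_pos h3] at hb
      exact Theta.thetaFun_slash_of_dvd M φ γ (hcast ▸ hb) hcN 1 (Or.inl rfl) hd3 w
    · rw [liftLevel, if_neg h3] at hb
      exact Theta.thetaFun_slash_of_trivialAtThree M (hφ h3) γ hb hcN 1 (Or.inl rfl) hd3 w
  rw [key, Int.cast_one, one_smul]
  simp only [fun r => zsmul_disc_congr (M := M) hd r]

variable (E : EisData O) {wt : Pt emb M → ℝ≥0∞} {A : Pt emb M → ℂ} {φ : Disc (M ^ 2) → ℂ}
  (hφ : ¬ 3 ∣ M → IsTrivialAtThree M φ)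

/-- An element of `SL₂(ℤ)` acting on the kernel acts on the lift. -/
theorem liftF_slash_of_thetaKer {ψ : Disc (M ^ 2) → ℂ} (γ : SL(2, ℤ))
    (h : ∀ x : Pt emb M, thetaFun M (rotW E x.fin⁻¹ φ) x.pt ∣[(1 : ℤ)] γ =
      thetaFun M (rotW E x.fin⁻¹ ψ) x.pt) :
    liftF E wt A φ ∣[(1 : ℤ)] γ = liftF E wt A ψ := by
  funext τ
  simp only [ModularForm.SL_slash_apply, liftF]
  rw [← integral_mul_const]
  refine integral_congr_ae (Eventually.of_forall fun x => ?_)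
  have h1 := congrFun (h x) τ
  simp only [ModularForm.SL_slash_apply] at h1
  simp only [mul_assoc]
  exact congrArg (A x * ·) h1

include hφ in
/-- The lift is invariant under `Γ₁(3) ∩ Γ(L)`. -/
theorem liftF_slash_inMixed {γ : SL(2, ℤ)} (hγ : WeightOne.InMixed (liftLevel M) γ) :
    liftF E wt A φ ∣[(1 : ℤ)] γ = liftF E wt A φ := by
  refine liftF_slash_of_thetaKer E γ fun x => ?_
  rw [thetaFun_slash_liftLevel (fun h3 => isTrivialAtThree_rotW E (hφ h3)) γ hγ.b hγ.c hγ.c3 hγ.d3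
    1 (three_mul_sq_dvd hγ.d3 hγ.d)]
  simp only [one_smul]

omit [NeZero M] in
theorem rotW_zsmul (k : Red O M) (ψ : Disc (M ^ 2) → ℂ) (e : ℤ) :
    (fun r => rotW E k ψ (e • r)) = rotW E k fun r => ψ (e • r) := by
  funext r
  rw [rotW, rotW, map_zsmul]

include hφ in
/-- The theta kernel at the neighbours is `√p T_p` of the kernel. -/
theorem sum_thetaKer_heckeMove (hι : IsStdEmb E emb) {p : ℕ} [Fact p.Prime] {J : Type*}
    [Fintype J] {ϖ : O} {r : O →+* ZMod p} {h : J → Matrix (Fin 2) (Fin 2) O}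
    (hn : Theta.IsNeighbours E p ϖ r h) (hpM : ¬ p ∣ 3 * M) (τ : ℍ) (τj : ℕ → ℍ)
    (hτj : ∀ j, (τj j : ℂ) = ((τ : ℂ) + (liftLevel M : ℂ) * j) / p) (τp : ℍ)
    (hτp : (τp : ℂ) = (p : ℂ) * τ) (x : Pt emb M) :
    ∑ j, thetaKer E φ τ (heckeMove emb (h j) x) = (Real.sqrt p : ℂ) *
      ((p : ℂ)⁻¹ * (∑ j ∈ Finset.range p, thetaKer E φ (τj j) x) +
        thetaKer E (fun u => φ ((p : ℤ) • u)) τp x) := by
  have hp : p.Prime := Fact.out
  have hd : ∀ j, emb (h j).det ≠ 0 := fun j => by rw [hn.det_eq]; exact emb_pi_ne_zero E hn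
  have hu : ∀ j, IsUnit (Ideal.Quotient.mk (modIdeal O M) (h j).det) := fun j => by
    rw [hn.det_eq]; exact isUnit_mk_pi E hn hpM
  set ψ := rotW E x.fin⁻¹ φ with hψ
  have hl : ∀ j, thetaKer E φ τ (heckeMove emb (h j) x) =
      theta M (fun u => ψ (actD E (M ^ 2) (h j) u)) τ ((matC emb (h j))⁻¹ • x.pt) := fun j => by
    simp only [thetaKer, heckeMove, Pt.pt_mk, Pt.fin_mk, _root_.mul_inv_rev, inv_inv, rotW_mul]
    congr 1
    funext u
    rw [rotW, actD_eq_of_map_eq E ((map_redLift _).trans (coe_matRed (hu j)))]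
  have ht : ∀ k : IVec, ψ (dcls (M ^ 2) k) ≠ 0 →
      ∃ n : ℤ, (liftLevel M : ℤ) * q3 k = 3 * (M : ℤ) ^ 2 * n ∧
        ((p : ℤ) ∣ n ↔ (p : ℤ) ∣ q3 k) := by
    intro k hk
    by_cases h3 : 3 ∣ M
    · exact ⟨q3 k, by rw [liftLevel, if_pos h3]; push_cast; ring, Iff.rfl⟩
    · obtain ⟨u, hu'⟩ := isTrivialAtThree_rotW E (hφ h3) k hk
      have hp3 : ¬ (p : ℤ) ∣ 3 := fun hh =>
        hpM ((Int.natCast_dvd_natCast.mp hh).mul_right M)
      refine ⟨u, by rw [liftLevel, if_neg h3, hu']; push_cast; ring, ?_⟩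
      rw [hu']
      exact ⟨fun hh => hh.mul_left 3,
        fun hh => ((Nat.prime_iff_prime_int.mp hp).dvd_or_dvd hh).resolve_left hp3⟩
  rw [Finset.sum_congr rfl fun j _ => hl j,
    Theta.sum_theta_comp_actD_eq_hecke M hι hn (fun j => matC emb (h j))
      (fun j => coe_matC (hd j)) ψ (liftLevel M : ℤ) ht τ τj (fun j => by
        rw [hτj j, Int.cast_natCast]) τp hτp x.pt,
    show (fun u => ψ ((p : ℤ) • u)) = rotW E x.fin⁻¹ (fun u => φ ((p : ℤ) • u)) from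
      rotW_zsmul E x.fin⁻¹ φ p]
  rfl

include hφ in
/-- The Hecke eigenvalues of the lift, in the form of `WeightOne.exists_eigenform_of_mixed`. -/
theorem liftF_hecke_mixed (hwt : IsGoodWeight wt) {S : Set ℕ} {a : ℕ → ℂ}
    (hA : LiftInput E emb M A S a) (hcen : IsCentral A) {C : ℝ} (hmaj : IsMajorant M C) :
    ∀ p : ℕ, p ∈ S → ∀ hp : p.Prime, ¬ p ∣ 3 * liftLevel M ^ 2 ∧
      ∃ γ : SL(2, ℤ), ((liftLevel M : ℕ) : ℤ) ∣ γ 0 1 ∧ ((liftLevel M : ℕ) : ℤ) ∣ γ 1 0 ∧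
        (3 : ℤ) ∣ γ 1 0 ∧ (3 * (liftLevel M : ℕ) : ℤ) ∣ γ 1 1 - p ∧
        (haveI : Fact p.Prime := ⟨hp⟩
         (∑ j ∈ Finset.range p, liftF E wt A φ ∣[(1 : ℤ)] WeightOne.upperM (liftLevel M) p j) +
           (liftF E wt A φ ∣[(1 : ℤ)] γ) ∣[(1 : ℤ)] ModularForm.heckeDiagMatrix p =
          a p • liftF E wt A φ) := by
  intro p hpS hp
  have : Fact p.Prime := ⟨hp⟩
  obtain ⟨hpM, hp3, -, -, ϖ, r, h, hn, hT⟩ := hA.hecke p hpS hp
  have hpL := not_dvd_liftLevel hp hpM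
  refine ⟨fun hh => (hp.dvd_mul.mp hh).elim (fun h3 => hpL (h3.mul_right _))
    (fun hL => hpL ((hp.dvd_of_dvd_pow hL).mul_left 3)), ?_⟩
  obtain ⟨γ, hb, hc, hc3, -, -, hd⟩ := exists_diamond (liftLevel_ne_zero (NeZero.ne M)) hp hpL
  refine ⟨γ, hb, hc, hc3, hd, ?_⟩
  have hd3 : (3 : ℤ) ∣ γ 1 1 - p := (dvd_mul_right _ _).trans hd
  have hd31 : (3 : ℤ) ∣ γ 1 1 - 1 := by omega
  have hslash : liftF E wt A φ ∣[(1 : ℤ)] γ = liftF E wt A (fun u => φ ((p : ℤ) • u)) :=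
    liftF_slash_of_thetaKer E γ fun x => by
      rw [thetaFun_slash_liftLevel (fun h3 => isTrivialAtThree_rotW E (hφ h3)) γ hb hc hc3 hd31
        p (three_mul_sq_dvd hd3 ((dvd_mul_left _ _).trans hd)), rotW_zsmul]
  rw [hslash]
  obtain ⟨CA, hCA⟩ := hA.bounded
  have := finite_red E M
  have hAm : Measurable A := measurable_of_continuous_slices hA.continuous
  have hint : ∀ (ψ : Disc (M ^ 2) → ℂ) (τ : ℍ), Integrable (fun x => A x * thetaKer E ψ τ x)
      (Spectral.quotMeasure (ptMeasure emb M) wt) := fun ψ τ =>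
    (integrable_thetaKer E hwt hmaj ψ τ).bdd_mul hAm.aestronglyMeasurable
      (Eventually.of_forall hCA)
  funext τ
  have him : ∀ j : ℕ, 0 < (((τ : ℂ) + (liftLevel M : ℂ) * j) / p).im := fun j => by
    rw [Complex.div_natCast_im]
    refine div_pos ?_ (Nat.cast_pos.2 hp.pos)
    simp [τ.im_pos]
  have himp : 0 < ((p : ℂ) * τ).im := by
    simp [τ.im_pos, hp.pos]
  set τj : ℕ → ℍ := fun j => ⟨_, him j⟩
  set τp : ℍ := ⟨_, himp⟩
  have hU : ∀ j, (liftF E wt A φ ∣[(1 : ℤ)] WeightOne.upperM (liftLevel M) p j) τ =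
      (p : ℂ)⁻¹ * liftF E wt A φ (τj j) := fun j => by
    set g := WeightOne.upperM (liftLevel M) p j
    have hg : (g : Matrix (Fin 2) (Fin 2) ℝ) = !![(1 : ℝ), (liftLevel M : ℝ) * j; 0, (p : ℝ)] :=
      ModularForm.val_upperTriangularGL _ _ _ _
    have hdet : 0 < g.det.val := by
      rw [Matrix.GeneralLinearGroup.val_det_apply, hg, Matrix.det_fin_two_of]
      simp [hp.pos]
    have hden : UpperHalfPlane.denom g τ = (p : ℂ) := by simp [UpperHalfPlane.denom, hg]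
    have hz : g • τ = τj j := by
      refine UpperHalfPlane.ext ?_
      rw [coe_smul_of_det_pos hdet, hden]
      simp [UpperHalfPlane.num, hg, τj]
    rw [ModularForm.slash_apply, UpperHalfPlane.σ, if_pos hdet, hden, hz]
    simp [mul_comm]
  have hD : ∀ F : ℍ → ℂ, (F ∣[(1 : ℤ)] ModularForm.heckeDiagMatrix p) τ = F τp := fun F => by
    set g := ModularForm.heckeDiagMatrix p
    have hg : (g : Matrix (Fin 2) (Fin 2) ℝ) = !![(p : ℝ), 0; 0, 1] :=
      ModularForm.val_heckeDiagMatrix hp.ne_zero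
    have hdet : 0 < g.det.val := by
      rw [Matrix.GeneralLinearGroup.val_det_apply, hg, Matrix.det_fin_two_of]
      simp [hp.pos]
    have hden : UpperHalfPlane.denom g τ = 1 := by simp [UpperHalfPlane.denom, hg]
    have hz : g • τ = τp := by
      refine UpperHalfPlane.ext ?_
      rw [coe_smul_of_det_pos hdet, hden]
      simp [UpperHalfPlane.num, hg, τp]
    rw [ModularForm.slash_apply, UpperHalfPlane.σ, if_pos hdet, hden, hz]
    simp
  simp only [Pi.add_apply, Finset.sum_apply, hU, hD, Pi.smul_apply, smul_eq_mul, ← Finset.mul_sum]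
  have hsum : (p : ℂ)⁻¹ * (∑ j ∈ Finset.range p, liftF E wt A φ (τj j)) +
      liftF E wt A (fun u => φ ((p : ℤ) • u)) τp =
      ∫ x, (Real.sqrt p : ℂ)⁻¹ * (A x * ∑ j, thetaKer E φ τ (heckeMove emb (h j) x))
        ∂Spectral.quotMeasure (ptMeasure emb M) wt := by
    simp only [liftF]
    rw [← integral_finsetSum _ fun j _ => hint φ (τj j), ← integral_const_mul,
      ← integral_add ((integrable_finsetSum _ fun j _ => hint φ (τj j)).const_mul _) (hint _ τp)]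
    refine integral_congr_ae (Eventually.of_forall fun x => ?_)
    have hs : (Real.sqrt p : ℂ) ≠ 0 :=
      Complex.ofReal_ne_zero.2 (Real.sqrt_pos.2 (Nat.cast_pos.2 hp.pos)).ne'
    simp only
    rw [sum_thetaKer_heckeMove E hφ hA.emb_w hn hpM τ τj (fun j => rfl) τp rfl x,
      ← Finset.mul_sum]
    field_simp
  rw [hsum, integral_const_mul,
    integral_mul_sum_heckeMove E hn hpM hwt hAm hCA hA.invariant hcen
      (c := (Real.sqrt p : ℂ) * a p) (fun x => hT x.pt x.fin)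
      (measurable_thetaKer E φ τ)
      (fun γ x => thetaKer_smul E hA.emb_w φ τ γ x)
      (integrable_thetaKer E hwt hmaj φ τ)]
  have hs : (Real.sqrt p : ℂ) ≠ 0 :=
    Complex.ofReal_ne_zero.2 (Real.sqrt_pos.2 (Nat.cast_pos.2 hp.pos)).ne'
  simp only [liftF]
  field_simp

end Fermat.Agent.LT.Lift
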