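import Fermat.Agent.LT.Lift.ShellTerm

/-!
# The majorant of the theta kernel

`∑_k |gK τ w (k/M)| ≤ majC M · √v (1 + 1/v)² · r` for `r ≥ 1/2`, `v = Im τ`.
-/

set_option autoImplicit false

noncomputable section

namespace Fermat.Agent.LT.Lift

open MeasureTheory Filter
open Adelic (HSpace)
open Theta
open Orbit (EisData)
open UpperHalfPlane hiding I
open scoped Real ENNReal

/-! ### Gaussian sums -/

/-- The one-dimensional Gaussian term. -/
def gauss1 (c y : ℝ) : ℝ≥0∞ := ENNReal.ofReal (Real.exp (-(c * y ^ 2)))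

theorem tsum_gauss1_nat_le {c : ℝ} (hc : 0 < c) {F : ℕ → ℝ} (hF : ∀ n : ℕ, (n : ℝ) ≤ |F n|) :
    ∑' n : ℕ, gauss1 c (F n) ≤ ENNReal.ofReal (3 * (1 + 1 / Real.sqrt c)) := by
  set q := Real.sqrt c with hq
  have hq0 : 0 < q := Real.sqrt_pos.mpr hc
  set t := Real.exp (-(2 * q)) with ht
  have ht0 : 0 < t := Real.exp_pos _
  have ht1 : t < 1 := Real.exp_lt_one_iff.mpr (by linarith)
  have hsum : Summable fun n : ℕ => Real.exp 1 * t ^ n :=
    (summable_geometric_of_lt_one ht0.le ht1).mul_left _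
  calc ∑' n : ℕ, gauss1 c (F n) ≤ ∑' n : ℕ, ENNReal.ofReal (Real.exp 1 * t ^ n) := by
        refine ENNReal.tsum_le_tsum fun n => ENNReal.ofReal_le_ofReal ?_
        rw [ht, ← Real.exp_nat_mul, ← Real.exp_add, Real.exp_le_exp]
        have h1 : c * (n : ℝ) ^ 2 ≤ c * (F n) ^ 2 := by
          refine mul_le_mul_of_nonneg_left ?_ hc.le
          rw [← sq_abs (F n)]
          exact pow_le_pow_left₀ (Nat.cast_nonneg n) (hF n) 2
        have h2 := sq_nonneg (q * n - 1)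
        have h3 : q ^ 2 = c := Real.sq_sqrt hc.le
        nlinarith
    _ = ENNReal.ofReal (Real.exp 1 * (1 - t)⁻¹) := by
        rw [← ENNReal.ofReal_tsum_of_nonneg (fun n => by positivity) hsum, tsum_mul_left,
          tsum_geometric_of_lt_one ht0.le ht1]
    _ ≤ _ := by
        refine ENNReal.ofReal_le_ofReal ?_
        have he : Real.exp 1 ≤ 3 := by linarith [Real.exp_one_lt_d9]
        have h1 : t ≤ 1 / (1 + 2 * q) := by
          rw [ht, Real.exp_neg, one_div]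
          exact inv_anti₀ (by linarith) (by linarith [Real.add_one_le_exp (2 * q)])
        have h2 : (1 - t)⁻¹ ≤ 1 + 1 / q := by
          rw [inv_le_iff_one_le_mul₀ (by linarith)]
          have h3 : (1 + 1 / q) * (1 - 1 / (1 + 2 * q)) ≤ (1 + 1 / q) * (1 - t) :=
            mul_le_mul_of_nonneg_left (by linarith) (by positivity)
          refine le_trans ?_ h3
          field_simp
          nlinarith
        exact mul_le_mul he h2 (inv_nonneg.mpr (by linarith)) (by norm_num)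

theorem tsum_gauss1_le {c : ℝ} (hc : 0 < c) (s : ℝ) :
    ∑' n : ℤ, gauss1 c ((n : ℝ) + s) ≤ ENNReal.ofReal (6 * (1 + 1 / Real.sqrt c)) := by
  rw [← (Equiv.subRight ⌊s⌋).tsum_eq,
    tsum_of_nat_of_neg_add_one ENNReal.summable ENNReal.summable,
    show 6 * (1 + 1 / Real.sqrt c) = 3 * (1 + 1 / Real.sqrt c) + 3 * (1 + 1 / Real.sqrt c) by ring,
    ENNReal.ofReal_add (by positivity) (by positivity)]
  have hf0 := Int.floor_le s
  have hf1 := Int.lt_floor_add_one s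
  refine add_le_add (tsum_gauss1_nat_le hc fun n => ?_) (tsum_gauss1_nat_le hc fun n => ?_)
  · simp only [Equiv.subRight_apply]
    push_cast
    exact le_abs.mpr (Or.inl (by linarith))
  · simp only [Equiv.subRight_apply]
    push_cast
    exact le_abs.mpr (Or.inr (by linarith))

/-- Four nested Gaussian sums. -/
theorem tsum_nested_le {ca cb cc cd : ℝ} (ha : 0 < ca) (hb : 0 < cb) (hc : 0 < cc) (hd : 0 < cd)
    (sb : ℤ → ℝ) (sc : ℤ → ℤ → ℝ) (sd : ℤ → ℤ → ℤ → ℝ) :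
    ∑' a : ℤ, ∑' b : ℤ, ∑' c : ℤ, ∑' d : ℤ, gauss1 ca (a : ℝ) * (gauss1 cb (b + sb a) *
        (gauss1 cc (c + sc a b) * gauss1 cd (d + sd a b c))) ≤
      ENNReal.ofReal (6 * (1 + 1 / Real.sqrt ca)) * (ENNReal.ofReal (6 * (1 + 1 / Real.sqrt cb)) *
        (ENNReal.ofReal (6 * (1 + 1 / Real.sqrt cc)) *
          ENNReal.ofReal (6 * (1 + 1 / Real.sqrt cd)))) := by
  simp only [ENNReal.tsum_mul_left]
  set D := ENNReal.ofReal (6 * (1 + 1 / Real.sqrt cd))
  set C := ENNReal.ofReal (6 * (1 + 1 / Real.sqrt cc))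
  set B := ENNReal.ofReal (6 * (1 + 1 / Real.sqrt cb))
  calc _ ≤ ∑' a : ℤ, gauss1 ca (a : ℝ) *
        ∑' b : ℤ, gauss1 cb (b + sb a) * ((∑' c : ℤ, gauss1 cc (c + sc a b)) * D) := by
        refine ENNReal.tsum_le_tsum fun a => mul_le_mul' le_rfl (ENNReal.tsum_le_tsum fun b =>
          mul_le_mul' le_rfl ?_)
        rw [← ENNReal.tsum_mul_right]
        exact ENNReal.tsum_le_tsum fun c => mul_le_mul' le_rfl (tsum_gauss1_le hd _)
    _ ≤ ∑' a : ℤ, gauss1 ca (a : ℝ) * ((∑' b : ℤ, gauss1 cb (b + sb a)) * (C * D)) := by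
        refine ENNReal.tsum_le_tsum fun a => mul_le_mul' le_rfl ?_
        rw [← ENNReal.tsum_mul_right]
        exact ENNReal.tsum_le_tsum fun b =>
          mul_le_mul' le_rfl (mul_le_mul' (tsum_gauss1_le hc _) le_rfl)
    _ ≤ ∑' a : ℤ, gauss1 ca (a : ℝ) * (B * (C * D)) := ENNReal.tsum_le_tsum fun a =>
          mul_le_mul' le_rfl (mul_le_mul' (tsum_gauss1_le hb _) le_rfl)
    _ ≤ _ := by
        rw [ENNReal.tsum_mul_right]
        refine mul_le_mul' ?_ le_rfl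
        simpa using tsum_gauss1_le ha 0

/-- Index order `(k₀, k₂, k₃, k₁)`. -/
def nestEquiv : ℤ × ℤ × ℤ × ℤ ≃ IVec where
  toFun p := ![p.1, p.2.2.2, p.2.1, p.2.2.1]
  invFun k := (k 0, k 2, k 3, k 1)
  left_inv p := rfl
  right_inv k := by funext i; fin_cases i <;> rfl

/-- The constant of the majorant. -/
def majC (M : ℕ) : ℝ := 10368 * (1 + 2 * M) ^ 4

theorem majC_nonneg (M : ℕ) : 0 ≤ majC M := by unfold majC; positivity

variable {M : ℕ} [NeZero M]

/-- **The majorant.** -/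
theorem tsum_norm_gK_le (τ : ℍ) (w : HSpace) (hw : 1 / 2 ≤ w.r) :
    ∑' k : IVec, ‖gK τ w ((M : ℝ)⁻¹ • dv k)‖ ≤
      majC M * Real.sqrt τ.im * (1 + 1 / τ.im) ^ 2 * w.r := by
  have hv := τ.im_pos
  have hr := w.r_pos
  have hπ := Real.pi_pos
  have hM : (0 : ℝ) < M := Nat.cast_pos.mpr (NeZero.pos M)
  set v := τ.im with hvdef
  set Q := π * v / (M : ℝ) ^ 2 with hQ
  have hQ0 : 0 < Q := by positivity
  set zr := w.z.re
  set zi := w.z.im
  have hterm : ∀ p : ℤ × ℤ × ℤ × ℤ,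
      ENNReal.ofReal ‖gK τ w ((M : ℝ)⁻¹ • dv (nestEquiv p))‖ = ENNReal.ofReal (Real.sqrt v) *
      (gauss1 (Q * w.r ^ 2) (p.1 : ℝ) * (gauss1 (Q / 2) (p.2.1 + 2 * zr * p.1) *
        (gauss1 (2 * Q / 3) (p.2.2.1 + (p.2.1 / 2 + Real.sqrt 3 * zi * p.1)) *
          gauss1 (Q / w.r ^ 2) (p.2.2.2 + (zr * p.2.1 +
            Real.sqrt 3 / 3 * zi * (p.2.1 + 2 * p.2.2.1) +
            (zr ^ 2 + zi ^ 2) * p.1))))) := by
    rintro ⟨a, b, c, d⟩
    simp only [gauss1]
    rw [← ENNReal.ofReal_mul (Real.exp_pos _).le, ← ENNReal.ofReal_mul (Real.exp_pos _).le,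
      ← ENNReal.ofReal_mul (Real.exp_pos _).le, ← ENNReal.ofReal_mul (Real.sqrt_nonneg _),
      ← Real.exp_add, ← Real.exp_add, ← Real.exp_add, gK, norm_gStd]
    congr 3
    simp [frame_apply, frameFun, dv, dvecR, nestEquiv, Fin.sum_univ_four, hQ, ← hvdef]
    field_simp
    ring_nf
    rw [sqrt3_sq]
    ring
  have hsum := summable_norm_gK (M := M) (NeZero.ne M) τ w
  rw [← ENNReal.ofReal_le_ofReal_iff (by have := majC_nonneg M; positivity),
    ENNReal.ofReal_tsum_of_nonneg (fun _ => norm_nonneg _) hsum, ← nestEquiv.tsum_eq]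
  rw [tsum_congr hterm, ENNReal.tsum_mul_left, ENNReal.tsum_prod']
  simp only [ENNReal.tsum_prod']
  refine (mul_le_mul' le_rfl (tsum_nested_le (by positivity) (by positivity) (by positivity)
    (by positivity) (fun a => 2 * zr * a) (fun a b => b / 2 + Real.sqrt 3 * zi * a)
    (fun a b c => zr * b + Real.sqrt 3 / 3 * zi * (b + 2 * c) + (zr ^ 2 + zi ^ 2) * a))).trans ?_
  rw [← ENNReal.ofReal_mul (by positivity), ← ENNReal.ofReal_mul (by positivity),
    ← ENNReal.ofReal_mul (by positivity), ← ENNReal.ofReal_mul (Real.sqrt_nonneg _)]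
  refine ENNReal.ofReal_le_ofReal ?_
  set K := Real.sqrt Q with hK
  have hK0 : 0 < K := Real.sqrt_pos.mpr hQ0
  have hsq : ∀ t : ℝ, 0 < t → t ≤ 4 → ∀ u : ℝ, u = Q / t →
      1 + 1 / Real.sqrt u ≤ 1 + 2 / K := by
    intro t ht ht4 u hu
    have h2 : K / 2 ≤ Real.sqrt u := by
      rw [Real.le_sqrt (by positivity) (by rw [hu]; positivity), div_pow, Real.sq_sqrt hQ0.le, hu]
      exact div_le_div_of_nonneg_left hQ0.le ht (by linarith)
    have := one_div_le_one_div_of_le (by positivity : (0 : ℝ) < K / 2) h2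
    rw [one_div_div] at this
    linarith
  have hA : 1 + 1 / Real.sqrt (Q * w.r ^ 2) ≤ 1 + 2 / K := by
    rw [Real.sqrt_mul hQ0.le, Real.sqrt_sq hr.le, ← hK, add_le_add_iff_left,
      div_le_div_iff₀ (by positivity) hK0]
    nlinarith
  have hB := hsq 2 two_pos (by norm_num) (Q / 2) rfl
  have hC := hsq (3 / 2) (by norm_num) (by norm_num) (2 * Q / 3) (by ring)
  have hD : 1 + 1 / Real.sqrt (Q / w.r ^ 2) ≤ 2 * w.r * (1 + 2 / K) := by
    rw [Real.sqrt_div' Q (sq_nonneg _), Real.sqrt_sq hr.le, ← hK, one_div_div]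
    have : (0 : ℝ) < 1 / K := by positivity
    have e : w.r / K = w.r * (1 / K) := by ring
    have e2 : (2 : ℝ) / K = 2 * (1 / K) := by ring
    rw [e, e2]
    nlinarith
  have hK2 : 1 + 2 / K ≤ (1 + 2 * M) * (1 + 1 / Real.sqrt v) := by
    have h1 : Real.sqrt v / M ≤ K := by
      rw [hK, Real.le_sqrt (by positivity) hQ0.le, div_pow, Real.sq_sqrt hv.le, hQ]
      gcongr
      nlinarith [Real.two_le_pi]
    have h2 : 2 / K ≤ 2 * M * (1 / Real.sqrt v) :=
      calc 2 / K ≤ 2 / (Real.sqrt v / M) :=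
            div_le_div_of_nonneg_left (by norm_num) (by positivity) h1
        _ = _ := by field_simp
    have : (0 : ℝ) < 1 / Real.sqrt v := by positivity
    nlinarith
  have hy : (1 + 1 / Real.sqrt v) ^ 4 ≤ 4 * (1 + 1 / v) ^ 2 := by
    have h1 : (1 / Real.sqrt v) ^ 2 = 1 / v := by rw [div_pow, one_pow, Real.sq_sqrt hv.le]
    have h2 : (1 + 1 / Real.sqrt v) ^ 2 ≤ 2 * (1 + 1 / v) := by
      nlinarith [sq_nonneg (1 - 1 / Real.sqrt v)]
    calc (1 + 1 / Real.sqrt v) ^ 4 = ((1 + 1 / Real.sqrt v) ^ 2) ^ 2 := by ring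
      _ ≤ (2 * (1 + 1 / v)) ^ 2 := pow_le_pow_left₀ (sq_nonneg _) h2 2
      _ = _ := by ring
  calc Real.sqrt v * (6 * (1 + 1 / Real.sqrt (Q * w.r ^ 2)) * (6 * (1 + 1 / Real.sqrt (Q / 2)) *
          (6 * (1 + 1 / Real.sqrt (2 * Q / 3)) * (6 * (1 + 1 / Real.sqrt (Q / w.r ^ 2))))))
      ≤ Real.sqrt v * (6 * (1 + 2 / K) * (6 * (1 + 2 / K) * (6 * (1 + 2 / K) *
          (6 * (2 * w.r * (1 + 2 / K)))))) := by gcongr
    _ = 2592 * Real.sqrt v * w.r * (1 + 2 / K) ^ 4 := by ring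
    _ ≤ 2592 * Real.sqrt v * w.r * ((1 + 2 * M) * (1 + 1 / Real.sqrt v)) ^ 4 := by gcongr
    _ ≤ 2592 * Real.sqrt v * w.r * ((1 + 2 * M) ^ 4 * (4 * (1 + 1 / v) ^ 2)) := by
        rw [mul_pow]; gcongr
    _ = _ := by rw [majC]; ring

/-- The majorant exists, in the form used downstream. -/
theorem exists_isMajorant (M : ℕ) [NeZero M] : ∃ C, IsMajorant M C :=
  ⟨majC M, fun τ w hw => tsum_norm_gK_le τ w hw⟩

end Fermat.Agent.LT.Lift
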