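import Fermat.Agent.LT.Lift.Basic
import Fermat.Agent.LT.Lift.Invariance
import Fermat.Agent.LT.WeightOne.Xi

/-!
# Slashing the lift: finitely many lifts of twists by functions of `ν`
-/

set_option autoImplicit false

noncomputable section

namespace Fermat.Agent.LT.Lift

open MeasureTheory
open Theta (Disc)
open Orbit (EisData)
open WeightOne (IsCoeff HasHarmExp harmSeries qSeries eSeries qTerm eTerm)
open UpperHalfPlane hiding I
open scoped Real ENNReal MatrixGroups ModularForm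

variable {h : ℕ} [NeZero h]

theorem isCoeff_zero : IsCoeff 0 := ⟨rfl, 0, 0, fun n => by simp⟩

theorem isCoeff_add {c c' : ℕ → ℂ} (hc : IsCoeff c) (hc' : IsCoeff c') : IsCoeff (c + c') := by
  obtain ⟨h0, C, K, hC⟩ := hc
  obtain ⟨h0', C', K', hC'⟩ := hc'
  refine ⟨by simp [h0, h0'], |C| + |C'|, max K K', fun n => (norm_add_le _ _).trans ?_⟩
  have h1 : (1 : ℝ) ≤ (n : ℝ) + 1 := le_add_of_nonneg_left (Nat.cast_nonneg n)
  rw [add_mul]
  refine add_le_add ((hC n).trans ?_) ((hC' n).trans ?_)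
  · exact mul_le_mul (le_abs_self _) (pow_le_pow_right₀ h1 (le_max_left _ _)) (by positivity)
      (abs_nonneg _)
  · exact mul_le_mul (le_abs_self _) (pow_le_pow_right₀ h1 (le_max_right _ _)) (by positivity)
      (abs_nonneg _)

theorem hasHarmExp_zero : HasHarmExp h (0 : ℍ → ℂ) :=
  ⟨0, 0, isCoeff_zero, isCoeff_zero, funext fun τ => by simp [harmSeries, qSeries, eSeries]⟩

theorem summable_qTerm {c : ℕ → ℂ} (hc : IsCoeff c) (τ : ℍ) :
    Summable fun n => c n * qTerm h n (τ : ℂ) :=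
  .of_norm_bounded (hc.summable (h := h) τ.im_pos) fun n => by
    rw [norm_mul, WeightOne.norm_qTerm]; exact le_rfl

theorem hasHarmExp_add {F G : ℍ → ℂ} (hF : HasHarmExp h F) (hG : HasHarmExp h G) :
    HasHarmExp h (F + G) := by
  obtain ⟨cp, cm, hp, hm, rfl⟩ := hF
  obtain ⟨dp, dm, hp', hm', rfl⟩ := hG
  refine ⟨cp + dp, cm + dm, isCoeff_add hp hp', isCoeff_add hm hm', funext fun τ => ?_⟩
  simp only [Pi.add_apply, harmSeries, qSeries, eSeries, add_mul]
  rw [(summable_qTerm hp τ).tsum_add (summable_qTerm hp' τ),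
    (WeightOne.summable_eTerm hm τ.im_pos).tsum_add (WeightOne.summable_eTerm hm' τ.im_pos)]
  ring

theorem hasHarmExp_sum {ι : Type*} (s : Finset ι) {F : ι → ℍ → ℂ}
    (hF : ∀ i ∈ s, HasHarmExp h (F i)) : HasHarmExp h (∑ i ∈ s, F i) :=
  Finset.sum_induction F (HasHarmExp h) (fun _ _ => hasHarmExp_add) hasHarmExp_zero hF

variable {O : Type*} [CommRing O] (E : EisData O) {emb : O →+* ℂ} {M : ℕ} [NeZero M]

/-- The indicator of one value of `ν`. -/
def deltaNu (d : ZMod (3 * M ^ 2)) : ZMod (3 * M ^ 2) → ℂ := fun e => if e = d then 1 else 0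

/-- A slash of the lift is the sum over `d` of lifts of `A · 1_{ν = d}`. -/
theorem exists_liftF_slash [Finite (Red O M)] (wt : Pt emb M → ℝ≥0∞) (A : Pt emb M → ℂ)
    (hint : ∀ (ψ : Disc (M ^ 2) → ℂ) (τ : ℍ), Integrable (fun x => A x * thetaKer E ψ τ x)
      (Spectral.quotMeasure (ptMeasure emb M) wt))
    (φ : Disc (M ^ 2) → ℂ) (γ : SL(2, ℤ)) :
    haveI : NeZero (3 * M ^ 2) := ⟨by simp [NeZero.ne M]⟩
    ∃ ψ : ZMod (3 * M ^ 2) → Disc (M ^ 2) → ℂ, liftF E wt A φ ∣[(1 : ℤ)] γ =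
      ∑ d, liftF E wt (fun x => deltaNu d (nu E x.fin) * A x) (ψ d) := by
  have : NeZero (3 * M ^ 2) := ⟨by simp [NeZero.ne M]⟩
  obtain ⟨ψ, hψ⟩ := exists_slash_thetaKer (emb := emb) E φ γ
  refine ⟨ψ, funext fun τ => ?_⟩
  have hm : ∀ d : ZMod (3 * M ^ 2), MeasurableSet {x : Pt emb M | nu E x.fin = d} := fun d =>
    Pt.measurable_fin (MeasurableSet.of_discrete (s := {k : Red O M | nu E k = d}))
  have hint' : ∀ d, Integrable (fun x => deltaNu d (nu E x.fin) * A x * thetaKer E (ψ d) τ x)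
      (Spectral.quotMeasure (ptMeasure emb M) wt) := fun d => by
    refine ((hint (ψ d) τ).indicator (hm d)).congr (Filter.Eventually.of_forall fun x => ?_)
    by_cases hx : nu E x.fin = d <;> simp [deltaNu, hx, mul_assoc]
  simp only [ModularForm.SL_slash_apply, liftF, Finset.sum_apply]
  rw [← integral_mul_const, ← integral_finsetSum _ fun d _ => hint' d]
  refine integral_congr_ae (Filter.Eventually.of_forall fun x => ?_)
  have h1 := congrFun (hψ x) τ
  simp only [ModularForm.SL_slash_apply] at h1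
  simp only [mul_assoc]
  rw [h1, Finset.sum_eq_single_of_mem (nu E x.fin) (Finset.mem_univ _) fun d _ hd => by
    simp [deltaNu, Ne.symm hd]]
  simp [deltaNu]

/-- Every slash of the lift has a harmonic expansion if the lifts of the twists have one. -/
theorem hasHarmExp_liftF_slash [Finite (Red O M)] (wt : Pt emb M → ℝ≥0∞) (A : Pt emb M → ℂ)
    (hint : ∀ (ψ : Disc (M ^ 2) → ℂ) (τ : ℍ), Integrable (fun x => A x * thetaKer E ψ τ x)
      (Spectral.quotMeasure (ptMeasure emb M) wt))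
    (hexp : ∀ (ev : ZMod (3 * M ^ 2) → ℂ) (ψ : Disc (M ^ 2) → ℂ),
      HasHarmExp h (liftF E wt (fun x => ev (nu E x.fin) * A x) ψ))
    (φ : Disc (M ^ 2) → ℂ) (γ : SL(2, ℤ)) :
    HasHarmExp h (liftF E wt A φ ∣[(1 : ℤ)] γ) := by
  obtain ⟨ψ, hψ⟩ := exists_liftF_slash E wt A hint φ γ
  rw [hψ]
  exact hasHarmExp_sum _ fun d _ => hexp _ _

end Fermat.Agent.LT.Lift
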