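import Fermat.Agent.LT.Lift.Adjoint
import Fermat.Agent.LT.Lift.Expansion
import Fermat.Agent.LT.Lift.Slash

/-!
# The twists of the eigenfunction by functions of `ν`, and the expansions of all slashes of the lift
-/

set_option autoImplicit false

noncomputable section

namespace Fermat.Agent.LT.Lift

open MeasureTheory Filter
open Adelic (HSpace)
open Theta (Disc)
open Orbit (EisData)
open WeightOne (HasHarmExp)
open UpperHalfPlane hiding I
open scoped Topology ENNReal MatrixGroups ModularForm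

variable {O : Type*} [CommRing O] [IsDomain O] [IsBezout O] {E : EisData O} {emb : O →+* ℂ}
  {M : ℕ} [NeZero M] {A : Pt emb M → ℂ} {S : Set ℕ} {a : ℕ → ℂ} {wt : Pt emb M → ℝ≥0∞}

/-- The lift of every twist has a harmonic expansion. -/
theorem LiftInput.hasHarmExp_twist (hA : LiftInput E emb M A S a) (hcen : IsCentral A)
    (hwt : IsGoodWeight wt) {C : ℝ} (hmaj : IsMajorant M C) {p : ℕ} (hp : p.Prime) (hpS : p ∈ S)
    (ev : ZMod (3 * M ^ 2) → ℂ) (ψ : Disc (M ^ 2) → ℂ) :
    HasHarmExp (3 * M ^ 2) (liftF E wt (fun x => ev (nu E x.fin) * A x) ψ) := by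
  have : NeZero (3 * M ^ 2) := ⟨by simp [NeZero.ne M]⟩
  obtain ⟨B, hB⟩ := hA.bounded
  obtain ⟨D, hD⟩ := Finite.exists_le fun e : ZMod (3 * M ^ 2) => ‖ev e‖
  have hD0 : 0 ≤ D := (norm_nonneg (ev 0)).trans (hD 0)
  refine hasHarmExp_liftF E hA.emb_w hwt ?_ (fun k => ?_) ⟨D * B, fun x => ?_⟩ ?_ hmaj ψ ?_ ?_
  · intro γ x
    rw [Pt.fin_smul, nu_mul, nu_redHom, one_mul, hA.invariant γ x]
  · simpa using (hA.continuous k).const_mul (ev (nu E k))
  · rw [norm_mul]
    exact mul_le_mul (hD _) (hB x) (norm_nonneg _) hD0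
  · intro ker hk hq w k
    simp only [Pt.fin_mk, mul_left_comm (ker _)]
    rw [integral_const_mul, (hA.spherical ker hk hq w k).2]
    ring
  · intro r hr k
    simp only [Pt.fin_mk]
    have h := (hA.zero_mean r hr k).const_mul (ev (nu E k))
    rw [mul_zero] at h
    refine h.congr fun R => ?_
    simp only [setAverage_eq, integral_const_mul, Complex.real_smul]
    ring
  · simp only [mul_comm (ev _)]
    exact hA.integral_mul_nu_eq_zero hcen hwt hp hpS ev

/-- Every slash of the lift has a harmonic expansion. -/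
theorem LiftInput.hasHarmExp_slash (hA : LiftInput E emb M A S a) (hcen : IsCentral A)
    (hwt : IsGoodWeight wt) {C : ℝ} (hmaj : IsMajorant M C) {p : ℕ} (hp : p.Prime) (hpS : p ∈ S)
    (hint : ∀ (ψ : Disc (M ^ 2) → ℂ) (τ : ℍ), Integrable (fun x => A x * thetaKer E ψ τ x)
      (Spectral.quotMeasure (ptMeasure emb M) wt))
    (φ : Disc (M ^ 2) → ℂ) (γ : SL(2, ℤ)) :
    HasHarmExp (3 * M ^ 2) (liftF E wt A φ ∣[(1 : ℤ)] γ) := by
  have := finite_red E M
  have : NeZero (3 * M ^ 2) := ⟨by simp [NeZero.ne M]⟩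
  exact hasHarmExp_liftF_slash E wt A hint (hA.hasHarmExp_twist hcen hwt hmaj hp hpS) φ γ

end Fermat.Agent.LT.Lift
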