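import Fermat.Agent.LT.Lift.Assembly
import Fermat.Agent.LT.Lift.Diamond
import Fermat.Agent.LT.Lift.HeckeAdjoint
import Fermat.Agent.LT.Lift.Twist

/-!
# The mixed form given by one nonzero lift
-/

set_option autoImplicit false

open Fermat.Agent.Galois WeierstrassCurve CongruenceSubgroup MeasureTheory
open scoped MatrixGroups ModularForm ComplexConjugate ENNReal

noncomputable section

namespace Fermat.Agent.LT.Lift

open Theta (Disc)
open Orbit (EisData)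

variable {O : Type*} [CommRing O] [IsDomain O] [IsBezout O] {E : EisData O} {emb : O →+* ℂ}
  {M : ℕ} [NeZero M] {A : Pt emb M → ℂ} {S : Set ℕ} {a : ℕ → ℂ} {wt : Pt emb M → ℝ≥0∞}

theorem hasMixedForm_of_lift {W : WeierstrassCurve ℤ} {ρ : GalQ →* GL (Fin 2) (ZMod 3)}
    (h3 : (3 : ℤ) ∣ W.Δ → ¬ 3 ∣ M) (hA : LiftInput E emb M A S a) (hcen : IsCentral A)
    (hwt : IsGoodWeight wt) {C : ℝ} (hmaj : IsMajorant M C) (φ : Disc (M ^ 2) → ℂ)
    (hprime : ∀ p ∈ S, p.Prime)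
    (hinv : ∀ γ, WeightOne.InMixed (liftLevel M) γ →
      liftF E wt A φ ∣[(1 : ℤ)] γ = liftF E wt A φ)
    (hne : liftF E wt A φ ≠ 0)
    (hT : ∀ p : ℕ, p ∈ S → ∀ hp : p.Prime, ¬ p ∣ 3 * (liftLevel M) ^ 2 ∧
      ∃ γ : SL(2, ℤ), (liftLevel M : ℤ) ∣ γ 0 1 ∧ (liftLevel M : ℤ) ∣ γ 1 0 ∧ (3 : ℤ) ∣ γ 1 0 ∧
        (3 * liftLevel M : ℤ) ∣ γ 1 1 - p ∧
        (haveI : Fact p.Prime := ⟨hp⟩
         (∑ j ∈ Finset.range p, liftF E wt A φ ∣[(1 : ℤ)] WeightOne.upperM (liftLevel M) p j) +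
           (liftF E wt A φ ∣[(1 : ℤ)] γ) ∣[(1 : ℤ)] ModularForm.heckeDiagMatrix p =
             a p • liftF E wt A φ))
    {X : Set ℕ} (hX : DS.PrimeDensityLE X 0)
    (hexact : ∀ p, p.Prime → ¬ p ∣ 3 * M → p % 3 = 1 → p ∉ X →
      p ∈ S ∧ ∀ B : ValuationSubring Qbar, B.LiesOverPrime p →
        ∀ σ, B.IsFrobeniusAt σ p → a p = octTrace ρ σ) :
    HasMixedForm W ρ := by
  obtain ⟨B, hB⟩ := hA.bounded
  have := finite_red E M
  have hint : ∀ (ψ : Disc (M ^ 2) → ℂ) (τ : UpperHalfPlane),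
      Integrable (fun x => A x * thetaKer E ψ τ x) (Spectral.quotMeasure (ptMeasure emb M) wt) :=
    fun ψ τ => (integrable_thetaKer E hwt hmaj ψ τ).bdd_mul
      (measurable_of_continuous_slices hA.continuous).aestronglyMeasurable
      (Filter.Eventually.of_forall hB)
  obtain ⟨p₀, hp₀⟩ := hA.set_nonempty
  refine ⟨liftLevel M, ⟨liftLevel_ne_zero (NeZero.ne M)⟩, 3 * M ^ 2,
    ⟨by simp [NeZero.ne M]⟩, liftF E wt A φ, S, a, X,
    fun h => three_not_dvd_liftLevel (h3 h), hinv,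
    fun γ => hA.hasHarmExp_slash hcen hwt hmaj (hprime _ hp₀) hp₀ hint φ γ, hne,
    fun p hp => (hA.hecke p hp (hprime p hp)).2.2.2.1, hT, hX,
    fun p hp hpN hp3 hpX => hexact p hp (fun h => hpN (dvd_three_mul_of_dvd_level hp h)) hp3 hpX⟩

end Fermat.Agent.LT.Lift
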