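import Fermat.Agent.LT.Lift.PlaneOrbit

/-!
# The weight which sees the periods

The indicator of the unit multiples of the class of `M X₀`.
-/

set_option autoImplicit false

noncomputable section

namespace Fermat.Agent.LT.Lift

open Theta (Disc dcls IVec)

/-- `d • cls (M X₀)` for `d` prime to `3M`. -/
def IsUnitMultiple (M : ℕ) (r : Disc (M ^ 2)) : Prop :=
  ∃ d : ℤ, IsCoprime d (3 * (M : ℤ)) ∧ r = d • dcls (M ^ 2) ((M : ℤ) • baseVec)

open scoped Classical in
/-- The indicator of the unit multiples of the class of `M X₀`. -/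
def periodWeight (M : ℕ) (r : Disc (M ^ 2)) : ℂ := if IsUnitMultiple M r then 1 else 0

theorem periodWeight_of {M : ℕ} {r : Disc (M ^ 2)} (h : IsUnitMultiple M r) :
    periodWeight M r = 1 := if_pos h

theorem periodWeight_of_not {M : ℕ} {r : Disc (M ^ 2)} (h : ¬ IsUnitMultiple M r) :
    periodWeight M r = 0 := if_neg h

theorem dvd_of_periodWeight_ne_zero {M : ℕ} {v : IVec}
    (hv : periodWeight M (dcls (M ^ 2) v) ≠ 0) (i : Fin 4) : (M : ℤ) ∣ v i := by
  obtain ⟨d, -, hd⟩ : IsUnitMultiple M (dcls (M ^ 2) v) := by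
    by_contra h; exact hv (periodWeight_of_not h)
  rw [← map_zsmul, eq_comm, Theta.dcls_eq_iff] at hd
  obtain ⟨z, hz⟩ := hd
  rw [← hz]
  refine ⟨d * baseVec i + (M : ℤ) * Theta.gmap z i, ?_⟩
  simp only [Pi.add_apply, Pi.smul_apply, smul_eq_mul]
  push_cast
  ring

end Fermat.Agent.LT.Lift
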