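import Fermat.Agent.LT.Lift.PeriodEval
import Fermat.Agent.LT.Lift.PeriodWeight
import Fermat.Agent.LT.Lift.Expansion

/-!
# A nonzero coefficient from a nonzero period

The rotations which send the class of `M X₀` to a unit multiple form a group; modulo matrices
`≡ 1 (mod M)` and scalars they are the rational ones, so the coefficient of `periodWeight` at
`q3 = M²` is a positive multiple of the sum of the periods.
-/

set_option autoImplicit false

noncomputable section

namespace Fermat.Agent.LT.Lift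

open MeasureTheory Filter Set Matrix
open Adelic (HSpace)
open Theta (Disc dcls actD actK IVec q3 IsStdEmb)
open Orbit (EisData)
open UpperHalfPlane hiding I
open scoped Real ENNReal MatrixGroups Topology

variable {O : Type*} [CommRing O] (E : EisData O) {M : ℕ}

theorem isCoprime_of_forall_prime {a b : ℤ}
    (h : ∀ p : ℕ, p.Prime → (p : ℤ) ∣ b → ¬ (p : ℤ) ∣ a) : IsCoprime a b := by
  rw [Int.isCoprime_iff_gcd_eq_one]
  refine Nat.coprime_of_dvd fun p hp h1 h2 => ?_
  exact h p hp (Int.natCast_dvd.mpr h2) (Int.natCast_dvd.mpr h1)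

theorem isCoprime_lvl {a : ℤ} (h : IsCoprime a (3 * (M : ℤ))) :
    IsCoprime a ((3 * M ^ 2 : ℕ) : ℤ) := by
  have h' := h.mul_right h.of_mul_right_right
  rwa [show (3 * (M : ℤ)) * (M : ℤ) = ((3 * M ^ 2 : ℕ) : ℤ) by push_cast; ring] at h'

include E in
/-- An element of norm prime to `3M` is a unit modulo `3M²`. -/
theorem isUnit_mk_of_isCoprime {x : O} (h : IsCoprime (normO E x) (3 * (M : ℤ))) :
    IsUnit (Ideal.Quotient.mk (modIdeal O M) x) := by
  obtain ⟨a, b, hab⟩ := isCoprime_lvl h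
  refine IsUnit.of_mul_eq_one (Ideal.Quotient.mk (modIdeal O M) ((a : O) * E.conj x)) ?_
  have h0 : ((((3 * M ^ 2 : ℕ) : ℤ)) : O ⧸ modIdeal O M) = 0 := by
    rw [Int.cast_natCast]; exact natCast_lvl_eq_zero O M
  calc Ideal.Quotient.mk (modIdeal O M) x * Ideal.Quotient.mk (modIdeal O M) ((a : O) * E.conj x)
      = Ideal.Quotient.mk (modIdeal O M) ((a * normO E x : ℤ) : O) := by
        rw [← map_mul, Int.cast_mul, ← normO_spec E x]; ring_nf
    _ = 1 := by
        rw [map_intCast, show a * normO E x = 1 - b * ((3 * M ^ 2 : ℕ) : ℤ) by linarith,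
          Int.cast_sub, Int.cast_mul, h0, mul_zero, sub_zero, Int.cast_one]

include E in
/-- The norm of a determinant in `GL₂(O/3M²)` is prime to `3M`. -/
theorem isCoprime_normO_det (k : Red O M) :
    IsCoprime (normO E (redLift k).det) (3 * (M : ℤ)) := by
  have h : IsUnit (nu E k) := IsUnit.of_mul_eq_one_right _ (nu_inv_mul E k)
  rw [nu] at h
  obtain ⟨b, hb⟩ := h.exists_left_inv
  obtain ⟨b, rfl⟩ := ZMod.intCast_surjective b
  rw [← Int.cast_mul, ← Int.cast_one, ZMod.intCast_eq_intCast_iff_dvd_sub] at hb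
  obtain ⟨t, ht⟩ := hb
  refine ⟨b, (M : ℤ) * t, ?_⟩
  push_cast at ht
  linarith

/-! ### The group -/

theorem three_M_zsmul_base (E : EisData O) :
    (3 * (M : ℤ)) • dcls (M ^ 2) ((M : ℤ) • baseVec) = 0 := by
  have := E.w
  rw [← map_zsmul]
  refine (QuotientAddGroup.eq_zero_iff _).mpr ?_
  have h := Theta.three_mul_smul_mem_perLat (M ^ 2) baseVec
  convert h using 1
  rw [smul_smul]
  congr 1
  push_cast
  ring

theorem isUnitMultiple_zsmul {r : Disc (M ^ 2)} (h : IsUnitMultiple M r) {d : ℤ}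
    (hd : IsCoprime d (3 * (M : ℤ))) : IsUnitMultiple M (d • r) := by
  obtain ⟨d', hd', rfl⟩ := h
  exact ⟨d * d', hd.mul_left hd', by rw [smul_smul]⟩

theorem actD_redLift_inv (k : Red O M) (r : Disc (M ^ 2)) :
    actD E (M ^ 2) (redLift k⁻¹) (actD E (M ^ 2) (redLift k) r) = r :=
  (rotEquiv E k).symm_apply_apply r

theorem actD_redLift_mul (a b : Red O M) (r : Disc (M ^ 2)) :
    actD E (M ^ 2) (redLift (a * b)) r =
      actD E (M ^ 2) (redLift a) (actD E (M ^ 2) (redLift b) r) := by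
  rw [← Theta.actD_mul, actD_eq_of_map_eq E (map_redLift_mul a b)]

/-- The rotations sending `cls (M X₀)` to a unit multiple. -/
def periodGroup : Subgroup (Red O M) where
  carrier := {k | IsUnitMultiple M (actD E (M ^ 2) (redLift k) (dcls (M ^ 2) ((M : ℤ) • baseVec)))}
  one_mem' := by
    show IsUnitMultiple M _
    rw [actD_eq_of_map_eq E map_redLift_one, Theta.actD_dcls, Theta.actK_one]
    exact ⟨1, isCoprime_one_left, (one_zsmul _).symm⟩
  mul_mem' := fun {a b} ha hb => by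
    obtain ⟨d, hd, hbd⟩ := hb
    show IsUnitMultiple M _
    rw [actD_redLift_mul, hbd, map_zsmul]
    exact isUnitMultiple_zsmul ha hd
  inv_mem' := fun {a} ha => by
    obtain ⟨d, hd, had⟩ := ha
    obtain ⟨u, v, huv⟩ := id hd
    refine ⟨u, ⟨d, v, by linarith⟩, ?_⟩
    set c := dcls (M ^ 2) ((M : ℤ) • baseVec)
    set c' := actD E (M ^ 2) (redLift a⁻¹) c
    have h : c = d • c' := by
      have h0 := congrArg (actD E (M ^ 2) (redLift a⁻¹)) had
      rwa [actD_redLift_inv, map_zsmul (actD E (M ^ 2) (redLift a⁻¹)) d c] at h0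
    have h3 : (3 * (M : ℤ)) • c' = 0 := by
      rw [← map_zsmul, three_M_zsmul_base E, map_zero]
    calc c' = (u * d + v * (3 * (M : ℤ))) • c' := by rw [huv, one_zsmul]
      _ = u • c := by rw [add_zsmul, mul_zsmul, mul_zsmul, ← h, h3, zsmul_zero, add_zero]

theorem mem_periodGroup {k : Red O M} : k ∈ periodGroup E ↔
    IsUnitMultiple M (actD E (M ^ 2) (redLift k) (dcls (M ^ 2) ((M : ℤ) • baseVec))) := Iff.rfl

theorem ratRed_mem_periodGroup [NeZero M] (g : GL (Fin 2) (ZMod (3 * M ^ 2))) :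
    ratRed O M g ∈ periodGroup E := by
  have : NeZero (3 * M ^ 2) := ⟨by simp [NeZero.ne M]⟩
  set G : Matrix (Fin 2) (Fin 2) ℤ := fun i j => ((g i j).val : ℤ) with hG
  have hcast : ∀ i j, ((G i j : ℤ) : ZMod (3 * M ^ 2)) = g i j := fun i j => by
    rw [hG, Int.cast_natCast, ZMod.natCast_zmod_val]
  have hmap : (redLift (ratRed O M g)).map (Ideal.Quotient.mk (modIdeal O M)) =
      (G.map (Int.cast : ℤ → O)).map (Ideal.Quotient.mk (modIdeal O M)) := by
    rw [map_redLift]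
    ext i j
    simp [ratRed, Matrix.GeneralLinearGroup.map_apply, ← hcast i j]
  have hc : IsCoprime G.det (3 * (M : ℤ)) := by
    have hu : IsUnit ((G.det : ℤ) : ZMod (3 * M ^ 2)) := by
      have he : ((G.det : ℤ) : ZMod (3 * M ^ 2)) = (g : Matrix (Fin 2) (Fin 2) _).det := by
        rw [Matrix.det_fin_two, Matrix.det_fin_two]; push_cast; simp only [hcast]
      rw [he]; exact Matrix.isUnits_det_units g
    obtain ⟨b, hb⟩ := hu.exists_left_inv
    obtain ⟨b, rfl⟩ := ZMod.intCast_surjective b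
    rw [← Int.cast_mul, ← Int.cast_one, ZMod.intCast_eq_intCast_iff_dvd_sub] at hb
    obtain ⟨t, ht⟩ := hb
    refine ⟨b, (M : ℤ) * t, ?_⟩
    push_cast at ht
    linarith
  refine ⟨G.det, hc, ?_⟩
  rw [actD_eq_of_map_eq E hmap, Theta.actD_dcls, ← map_zsmul]
  congr 1
  rw [map_zsmul, smul_comm G.det]
  congr 1
  refine Theta.skewMat_injective E ?_
  rw [Theta.skewMat_actK, map_zsmul, skewMat_baseVec]
  ext i j
  fin_cases i <;> fin_cases j <;>
    simp [Matrix.mul_apply, Fin.sum_univ_two, Theta.adjT, Matrix.det_fin_two] <;> ring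

/-- Matrices congruent to `1` modulo `M`. -/
def nearOne (O : Type*) [CommRing O] (M : ℕ) : Subgroup (Red O M) where
  carrier := {u | ∀ i j, (M : O ⧸ modIdeal O M) ∣
    ((u : Matrix (Fin 2) (Fin 2) (O ⧸ modIdeal O M)) - 1) i j}
  one_mem' := fun i j => by simp
  mul_mem' := fun {a b} ha hb i j => by
    rw [show ((a * b : Red O M) : Matrix (Fin 2) (Fin 2) (O ⧸ modIdeal O M)) - 1 =
      ((a : Matrix (Fin 2) (Fin 2) (O ⧸ modIdeal O M)) - 1) * (b : Matrix (Fin 2) (Fin 2) _) +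
        ((b : Matrix (Fin 2) (Fin 2) (O ⧸ modIdeal O M)) - 1) by
        rw [Units.val_mul, Matrix.sub_mul, Matrix.one_mul]; abel, Matrix.add_apply,
      Matrix.mul_apply]
    exact dvd_add (Finset.dvd_sum fun l _ => (ha i l).mul_right _) (hb i j)
  inv_mem' := fun {a} ha i j => by
    rw [show ((a⁻¹ : Red O M) : Matrix (Fin 2) (Fin 2) (O ⧸ modIdeal O M)) - 1 =
      (-((a : Matrix (Fin 2) (Fin 2) (O ⧸ modIdeal O M)) - 1)) *
        ((a⁻¹ : Red O M) : Matrix (Fin 2) (Fin 2) _) by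
        rw [neg_sub, Matrix.sub_mul, Matrix.one_mul, Units.mul_inv], Matrix.mul_apply]
    exact Finset.dvd_sum fun l _ => (((ha i l).neg_right)).mul_right _

theorem scalar_comm {R : Type*} [CommRing R] (c : Rˣ) (g : GL (Fin 2) R) :
    Matrix.GeneralLinearGroup.scalar (Fin 2) c * g =
      g * Matrix.GeneralLinearGroup.scalar (Fin 2) c :=
  Units.ext (by
    show Matrix.scalar (Fin 2) (c : R) * _ = _ * Matrix.scalar (Fin 2) (c : R)
    exact (Matrix.scalar_commute (c : R) (fun r => mul_comm _ _) _).eq)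

/-- Scalars times matrices congruent to `1` modulo `M`. -/
def scalarNearOne (O : Type*) [CommRing O] (M : ℕ) : Subgroup (Red O M) where
  carrier := {u | ∃ c : (O ⧸ modIdeal O M)ˣ, ∃ v ∈ nearOne O M,
    u = Matrix.GeneralLinearGroup.scalar (Fin 2) c * v}
  one_mem' := ⟨1, 1, one_mem _, by simp⟩
  mul_mem' := by
    rintro _ _ ⟨c, v, hv, rfl⟩ ⟨c', v', hv', rfl⟩
    refine ⟨c * c', v * v', mul_mem hv hv', ?_⟩
    rw [map_mul, mul_assoc, ← mul_assoc v, ← scalar_comm c' v]
    simp only [mul_assoc]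
  inv_mem' := by
    rintro _ ⟨c, v, hv, rfl⟩
    refine ⟨c⁻¹, v⁻¹, inv_mem hv, ?_⟩
    rw [_root_.mul_inv_rev, ← map_inv, ← scalar_comm]

include E in
/-- The key congruence: a matrix moving `J` to a multiple is a scalar times a rational matrix. -/
theorem exists_scalar_rat [NeZero M] {g : Matrix (Fin 2) (Fin 2) O}
    (hg : IsCoprime (normO E g.det) (3 * (M : ℤ))) {d : ℤ} (hd : IsCoprime d (M : ℤ))
    (h : ∀ i j, ((M : ℤ) : O) ∣
      (g * (!![0, 1; -1, 0] : Matrix (Fin 2) (Fin 2) O) * Theta.adjT E g : Matrix (Fin 2) (Fin 2) O) i j -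
        (d : O) * (!![0, 1; -1, 0] : Matrix (Fin 2) (Fin 2) O) i j) :
    ∃ (l : O) (G : Matrix (Fin 2) (Fin 2) ℤ), IsCoprime (normO E l) (3 * (M : ℤ)) ∧
      IsCoprime G.det (3 * (M : ℤ)) ∧ ∀ i j, ((M : ℤ) : O) ∣ g i j - l * (G i j : O) := by
  classical
  set D := g.det with hDdef
  -- `D ḡ ≡ d g`
  have hconj : ∀ i j, ((M : ℤ) : O) ∣ D * E.conj (g i j) - (d : O) * g i j := by
    have h00 := h 0 0
    have h01 := h 0 1
    have h10 := h 1 0
    have h11 := h 1 1
    simp [Matrix.mul_apply, Fin.sum_univ_two, Theta.adjT] at h00 h01 h10 h11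
    obtain ⟨u00, e00⟩ := h00
    obtain ⟨u01, e01⟩ := h01
    obtain ⟨u10, e10⟩ := h10
    obtain ⟨u11, e11⟩ := h11
    intro i j
    rw [hDdef, Matrix.det_fin_two]
    push_cast at e00 e01 e10 e11 ⊢
    fin_cases i <;> fin_cases j <;> simp only [Fin.zero_eta, Fin.mk_one, Fin.isValue]
    · exact ⟨g 1 0 * u00 - g 0 0 * u10, by linear_combination g 1 0 * e00 - g 0 0 * e10⟩
    · exact ⟨g 1 1 * u00 - g 0 1 * u10, by linear_combination g 1 1 * e00 - g 0 1 * e10⟩
    · exact ⟨g 1 0 * u01 - g 0 0 * u11, by linear_combination g 1 0 * e01 - g 0 0 * e11⟩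
    · exact ⟨g 1 1 * u01 - g 0 1 * u11, by linear_combination g 1 1 * e01 - g 0 1 * e11⟩
  -- some entry has norm prime to each `p ∣ M`
  have hentry : ∀ p : ℕ, p.Prime → p ∣ M →
      ∃ ij : Fin 2 × Fin 2, ¬ (p : ℤ) ∣ normO E (g ij.1 ij.2) := by
    intro p hp hpM
    by_contra hcon
    push Not at hcon
    have hpMO : ((p : ℤ) : O) ∣ ((M : ℤ) : O) := by
      rw [E.intCast_dvd_intCast]; exact_mod_cast hpM
    obtain ⟨e, f, hef⟩ := hd.of_isCoprime_of_dvd_right (show (p : ℤ) ∣ (M : ℤ) by exact_mod_cast hpM)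
    have hsq : ∀ i j, ((p : ℤ) : O) ∣ g i j * g i j := by
      intro i j
      have h1 : ((p : ℤ) : O) ∣ g i j * E.conj (g i j) := by
        rw [normO_spec, E.intCast_dvd_intCast]; exact hcon (i, j)
      obtain ⟨t, ht⟩ := h1
      obtain ⟨t', ht'⟩ := hpMO.trans (hconj i j)
      have hef' : (e : O) * (d : O) + (f : O) * ((p : ℤ) : O) = 1 := by
        have := congrArg (fun n : ℤ => (n : O)) hef
        push_cast at this ⊢
        linear_combination this
      refine ⟨(e : O) * (D * t - g i j * t') + (f : O) * (g i j * g i j), ?_⟩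
      linear_combination (-(g i j * g i j)) * hef' + (e : O) * D * ht - (e : O) * g i j * ht'
    have hD3 : ((p : ℤ) : O) ∣ D ^ 3 := by
      rw [hDdef, Matrix.det_fin_two, show (g 0 0 * g 1 1 - g 0 1 * g 1 0) ^ 3 =
        g 0 0 * g 0 0 * (g 1 1 * g 1 1 * (g 0 0 * g 1 1 - 3 * (g 0 1 * g 1 0))) +
          g 0 1 * g 0 1 * (g 1 0 * g 1 0 * (3 * (g 0 0 * g 1 1) - g 0 1 * g 1 0)) by ring]
      exact dvd_add (dvd_mul_of_dvd_left (hsq 0 0) _) (dvd_mul_of_dvd_left (hsq 0 1) _)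
    have h3 := normO_congr E (x := D ^ 3) (y := 0) (by rwa [sub_zero])
    rw [show normO E (0 : O) = 0 from normO_eq E (by simp), sub_zero, pow_three, normO_mul,
      normO_mul] at h3
    have hpZ : Prime (p : ℤ) := Nat.prime_iff_prime_int.mp hp
    have hDp : (p : ℤ) ∣ normO E D := by
      rcases hpZ.dvd_or_dvd h3 with h4 | h4
      · exact h4
      · exact (hpZ.dvd_or_dvd h4).elim id id
    exact hpZ.not_isUnit (hg.isUnit_of_dvd' hDp
      (dvd_mul_of_dvd_right (by exact_mod_cast hpM) _))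
  choose sel hsel using hentry
  let cf : Fin 2 × Fin 2 → ℕ := fun ij => ∏ p ∈ M.primeFactors.attach,
    if sel p.1 (Nat.prime_of_mem_primeFactors p.2) (Nat.dvd_of_mem_primeFactors p.2) = ij then 1
    else (p.1 : ℕ)
  let lam : O := ∑ ij : Fin 2 × Fin 2, (cf ij : O) * g ij.1 ij.2
  have hlam : ((M : ℤ) : O) ∣ D * E.conj lam - (d : O) * lam := by
    rw [show D * E.conj lam - (d : O) * lam = ∑ ij : Fin 2 × Fin 2,
      (cf ij : O) * (D * E.conj (g ij.1 ij.2) - (d : O) * g ij.1 ij.2) by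
        simp only [lam, map_sum, map_mul, map_natCast, Finset.mul_sum, ← Finset.sum_sub_distrib]
        exact Finset.sum_congr rfl fun ij _ => by ring]
    exact Finset.dvd_sum fun ij _ => (hconj _ _).mul_left _
  have hlamp : ∀ p : ℕ, p.Prime → p ∣ M → ¬ (p : ℤ) ∣ normO E lam := by
    intro p hp hpM hdiv
    have hmem : p ∈ M.primeFactors := Nat.mem_primeFactors.mpr ⟨hp, hpM, NeZero.ne M⟩
    set s := sel p hp hpM
    have hc : ∀ ij, (p ∣ cf ij ↔ ij ≠ s) := by
      intro ij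
      constructor
      · intro hd' he
        obtain ⟨q, -, hq⟩ := (Nat.Prime.prime hp).exists_mem_finset_dvd hd'
        have hqp : Nat.Prime q.1 := Nat.prime_of_mem_primeFactors q.2
        by_cases hs : sel q.1 hqp (Nat.dvd_of_mem_primeFactors q.2) = ij
        · rw [if_pos hs] at hq; exact hp.not_dvd_one hq
        · rw [if_neg hs] at hq
          have : q.1 = p := ((Nat.prime_dvd_prime_iff_eq hp hqp).mp hq).symm
          subst this
          exact hs he.symm
      · intro hne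
        refine dvd_trans ?_ (Finset.dvd_prod_of_mem _ (Finset.mem_attach _ ⟨p, hmem⟩))
        rw [if_neg (fun h => hne h.symm)]
    have hsub : ((p : ℤ) : O) ∣ lam - (cf s : O) * g s.1 s.2 := by
      rw [show lam - (cf s : O) * g s.1 s.2 =
        ∑ ij ∈ Finset.univ.erase s, (cf ij : O) * g ij.1 ij.2 from
          sub_eq_of_eq_add (Finset.sum_erase_add _ _ (Finset.mem_univ s)).symm]
      refine Finset.dvd_sum fun ij hij => dvd_mul_of_dvd_left ?_ _
      obtain ⟨t, ht⟩ := (hc ij).mpr (Finset.ne_of_mem_erase hij)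
      exact ⟨(t : O), by rw [ht]; push_cast; ring⟩
    have h1 := normO_congr E hsub
    rw [normO_mul, show normO E ((cf s : ℕ) : O) = (cf s : ℤ) * (cf s : ℤ) from
      (by simpa using normO_intCast E (cf s : ℤ))] at h1
    have h2 : (p : ℤ) ∣ (cf s : ℤ) * (cf s : ℤ) * normO E (g s.1 s.2) :=
      (dvd_sub_right hdiv).mp h1
    have hpZ : Prime (p : ℤ) := Nat.prime_iff_prime_int.mp hp
    rcases hpZ.dvd_or_dvd h2 with h3 | h3
    · have h4 : (p : ℤ) ∣ (cf s : ℤ) := (hpZ.dvd_or_dvd h3).elim id id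
      exact (hc s).mp (Int.natCast_dvd_natCast.mp h4) rfl
    · exact hsel p hp hpM h3
  -- adjust at `3`
  set e : ℤ := if (3 : ℕ) ∣ M then 0 else (M : ℤ) * (M : ℤ) with hedef
  have heM : (M : ℤ) ∣ e := by
    rw [hedef]; split_ifs
    · exact dvd_zero _
    · exact dvd_mul_right _ _
  have he3 : ¬ (3 : ℕ) ∣ M → (3 : ℤ) ∣ e - 1 := by
    intro h3
    rw [hedef, if_neg h3]
    have : (M : ℤ) % 3 = 1 ∨ (M : ℤ) % 3 = 2 := by omega
    have hm := Int.emod_add_mul_ediv (M : ℤ) 3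
    rcases this with h1 | h1 <;> rw [h1] at hm
    · exact ⟨((M : ℤ) / 3) * (((M : ℤ) / 3) * 3 + 2), by linear_combination (-((M : ℤ) + 1 + 3 * ((M : ℤ) / 3))) * hm⟩
    · exact ⟨((M : ℤ) / 3) * (((M : ℤ) / 3) * 3 + 4) + 1, by linear_combination (-((M : ℤ) + 2 + 3 * ((M : ℤ) / 3))) * hm⟩
  set l : O := lam + (e : O) * (1 - lam) with hldef
  have heO : ((M : ℤ) : O) ∣ (e : O) := by rw [E.intCast_dvd_intCast]; exact heM
  have hl : ((M : ℤ) : O) ∣ l - lam := ⟨_, (show l - lam = _ from by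
    rw [hldef, add_sub_cancel_left]
    exact (dvd_mul_of_dvd_left heO (1 - lam)).choose_spec)⟩
  have hdiv3 : ∀ p : ℕ, p.Prime → (p : ℤ) ∣ 3 * (M : ℤ) → p ∣ M ∨ (p = 3 ∧ ¬ (3 : ℕ) ∣ M) := by
    intro p hp hdv
    have h' : p ∣ 3 * M := by exact_mod_cast hdv
    rcases hp.dvd_mul.mp h' with h1 | h1
    · have : p = 3 := (Nat.prime_dvd_prime_iff_eq hp Nat.prime_three).mp h1
      subst this
      by_cases h2 : 3 ∣ M
      · exact Or.inl h2
      · exact Or.inr ⟨rfl, h2⟩
    · exact Or.inl h1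
  have hlc : IsCoprime (normO E l) (3 * (M : ℤ)) := by
    refine isCoprime_of_forall_prime fun p hp hdv hcon => ?_
    rcases hdiv3 p hp hdv with hpM | ⟨rfl, h3⟩
    · refine hlamp p hp hpM ?_
      have h1 := dvd_trans (show (p : ℤ) ∣ (M : ℤ) by exact_mod_cast hpM) (normO_congr E hl)
      exact (dvd_sub_right hcon).mp h1
    · have h1 : ((3 : ℤ) : O) ∣ l - 1 := by
        rw [show l - 1 = ((e - 1 : ℤ) : O) * (1 - lam) by rw [hldef]; push_cast; ring]
        exact dvd_mul_of_dvd_left (E.intCast_dvd_intCast.mpr (he3 h3)) _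
      have h2 := normO_congr E h1
      rw [normO_one] at h2
      have h4 : (3 : ℤ) ∣ 1 := (dvd_sub_right (by exact_mod_cast hcon)).mp h2
      omega
  obtain ⟨a, b, hab⟩ := isCoprime_lvl hlc
  set μ : O := (a : O) * E.conj l
  have hμ : ((M : ℤ) : O) ∣ l * μ - 1 := by
    refine ⟨-((b * (3 * (M : ℤ)) : ℤ) : O), ?_⟩
    have h1 := congrArg (fun n : ℤ => (n : O)) hab
    simp only [Int.cast_add, Int.cast_mul, ← normO_spec, Int.cast_one] at h1
    push_cast at h1 ⊢
    linear_combination h1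
  have hlD : ((M : ℤ) : O) ∣ D * E.conj l - (d : O) * l := by
    obtain ⟨t, ht⟩ := hl
    obtain ⟨t', ht'⟩ := hlam
    refine ⟨t' + D * E.conj t - (d : O) * t, ?_⟩
    have hc : E.conj l = E.conj lam + ((M : ℤ) : O) * E.conj t := by
      rw [show l = lam + ((M : ℤ) : O) * t from eq_add_of_sub_eq' ht, map_add, map_mul, map_intCast]
    rw [hc]
    linear_combination ht' - (d : O) * ht
  -- the rational matrix
  have hrat : ∀ i j, ∃ n : ℤ, ((M : ℤ) : O) ∣ μ * g i j - (n : O) := by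
    intro i j
    obtain ⟨p, q, hpq⟩ := E.repr (μ * g i j)
    refine ⟨p, ?_⟩
    obtain ⟨u, v, huv⟩ := hd
    have hfix : ((M : ℤ) : O) ∣ (μ * g i j) - E.conj (μ * g i j) := by
      obtain ⟨t1, ht1⟩ := hμ
      obtain ⟨t2, ht2⟩ := hlD
      obtain ⟨t3, ht3⟩ := hconj i j
      have ht1' := congrArg E.conj ht1
      simp only [map_sub, map_mul, map_one, map_intCast] at ht1'
      have huv' : (u : O) * (d : O) + (v : O) * ((M : ℤ) : O) = 1 := by
        have := congrArg (fun n : ℤ => (n : O)) huv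
        push_cast at this ⊢
        exact this
      have h4 : ((M : ℤ) : O) ∣ (d : O) * ((μ * g i j) - E.conj (μ * g i j)) := by
        refine ⟨μ * (E.conj μ * E.conj (g i j) * t2) - μ * t3 - D * (μ * E.conj (g i j)) * E.conj t1
          + (d : O) * (E.conj μ * E.conj (g i j)) * t1, ?_⟩
        rw [map_mul]
        linear_combination (-(D * (μ * E.conj (g i j)))) * ht1' - μ * ht3
          + ((d : O) * (E.conj μ * E.conj (g i j))) * ht1 + (μ * (E.conj μ * E.conj (g i j))) * ht2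
      rw [← one_mul ((μ * g i j) - E.conj (μ * g i j)), ← huv', add_mul, mul_assoc]
      exact dvd_add (h4.mul_left _) (dvd_mul_of_dvd_left (dvd_mul_left _ _) _)
    rw [hpq, add_sub_cancel_left]
    have hq : (M : ℤ) ∣ q := by
      rw [hpq, E.sub_conj, show (q : O) * E.s = ((q : ℤ) : O) + ((2 * q : ℤ) : O) * E.w by
        rw [EisData.s]; push_cast; ring, E.dvd_iff] at hfix
      exact hfix.1
    exact dvd_mul_of_dvd_left (E.intCast_dvd_intCast.mpr hq) _
  choose G₀ hG₀ using hrat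
  set G : Matrix (Fin 2) (Fin 2) ℤ :=
    fun i j => G₀ i j + e * ((1 : Matrix (Fin 2) (Fin 2) ℤ) i j - G₀ i j)
  have hGO : ∀ i j, ((M : ℤ) : O) ∣ g i j - l * (G i j : O) := by
    intro i j
    obtain ⟨t1, ht1⟩ := hμ
    obtain ⟨t2, ht2⟩ := hG₀ i j
    obtain ⟨t3, ht3⟩ := heO
    refine ⟨-(g i j * t1) + l * t2 -
      l * (t3 * (((1 : Matrix (Fin 2) (Fin 2) ℤ) i j - G₀ i j : ℤ) : O)), ?_⟩
    simp only [G]
    push_cast at ht1 ht2 ht3 ⊢
    linear_combination (-(g i j)) * ht1 + l * ht2 -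
      (l * ((((1 : Matrix (Fin 2) (Fin 2) ℤ) i j : ℤ) : O) - (G₀ i j : O))) * ht3
  refine ⟨l, G, hlc, isCoprime_of_forall_prime fun p hp hdv hcon => ?_, hGO⟩
  rcases hdiv3 p hp hdv with hpM | ⟨rfl, h3⟩
  · have hdet : ((M : ℤ) : O) ∣ D - l * l * (G.det : O) := by
      obtain ⟨t00, e00⟩ := hGO 0 0
      obtain ⟨t01, e01⟩ := hGO 0 1
      obtain ⟨t10, e10⟩ := hGO 1 0
      obtain ⟨t11, e11⟩ := hGO 1 1
      refine ⟨t00 * g 1 1 + l * (G 0 0 : O) * t11 - t01 * g 1 0 - l * (G 0 1 : O) * t10, ?_⟩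
      rw [hDdef, Matrix.det_fin_two, Matrix.det_fin_two]
      push_cast at e00 e01 e10 e11 ⊢
      linear_combination g 1 1 * e00 + l * (G 0 0 : O) * e11 - g 1 0 * e01 - l * (G 0 1 : O) * e10
    have h1 := dvd_trans (show (p : ℤ) ∣ (M : ℤ) by exact_mod_cast hpM) (normO_congr E hdet)
    rw [normO_mul, normO_intCast] at h1
    have h2 : (p : ℤ) ∣ normO E D := by
      have := dvd_add h1 (dvd_mul_of_dvd_right (dvd_mul_of_dvd_left hcon G.det) (normO E (l * l)))
      rwa [sub_add_cancel] at this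
    exact (Nat.prime_iff_prime_int.mp hp).not_isUnit (hg.isUnit_of_dvd' h2 hdv)
  · obtain ⟨t, ht⟩ := he3 h3
    have hGdet : (3 : ℤ) ∣ G.det - 1 := by
      rw [Matrix.det_fin_two]
      simp only [G, Matrix.one_apply_eq, ne_eq, zero_ne_one, one_ne_zero, not_false_eq_true,
        Matrix.one_apply_ne]
      refine ⟨t * (1 - G₀ 0 0) + t * (1 - G₀ 1 1) + 3 * t * t * (1 - G₀ 0 0) * (1 - G₀ 1 1)
        - 3 * t * t * G₀ 0 1 * G₀ 1 0, ?_⟩
      rw [show e = 1 + 3 * t by linarith]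
      ring
    have h4 : (3 : ℤ) ∣ 1 := by
      have := dvd_sub (show (3 : ℤ) ∣ G.det by exact_mod_cast hcon) hGdet
      simp at this
    omega

/-- Every element of the group is a scalar times a rational matrix, modulo `M`. -/
theorem exists_ratRed_mul [NeZero M] {k : Red O M} (hk : k ∈ periodGroup E) :
    ∃ g : GL (Fin 2) (ZMod (3 * M ^ 2)), (ratRed O M g)⁻¹ * k ∈ scalarNearOne O M := by
  obtain ⟨d, hd, hkd⟩ := hk
  set g := redLift k with hg
  have hdM : IsCoprime d (M : ℤ) := hd.of_mul_right_right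
  have hM : (M : ℤ) ≠ 0 := Int.natCast_ne_zero.mpr (NeZero.ne M)
  rw [Theta.actD_dcls, ← map_zsmul, Theta.dcls_eq_iff] at hkd
  obtain ⟨z, hz⟩ := hkd
  have hk0 : actK E g baseVec + (M : ℤ) • Theta.gmap z = d • baseVec := by
    refine smul_right_injective IVec hM ?_
    show (M : ℤ) • _ = (M : ℤ) • _
    rw [smul_add, ← map_zsmul, smul_smul, smul_comm (M : ℤ) d, ← hz]
    push_cast
    ring_nf
  have hY := congrArg (Theta.skewMat E) hk0
  rw [map_add, map_zsmul, map_zsmul, Theta.skewMat_actK, skewMat_baseVec] at hY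
  obtain ⟨l, G, hl, hG, hlG⟩ := exists_scalar_rat E (g := g) (isCoprime_normO_det E k) hdM
    (fun i j => ⟨-(Theta.skewMat E (Theta.gmap z) i j), by
      have h1 := congrFun (congrFun hY i) j
      rw [Matrix.add_apply, Matrix.smul_apply, Matrix.smul_apply, zsmul_eq_mul, zsmul_eq_mul] at h1
      linear_combination h1⟩)
  have : NeZero (3 * M ^ 2) := ⟨by simp [NeZero.ne M]⟩
  have hdet : IsUnit (G.map (Int.cast : ℤ → ZMod (3 * M ^ 2))).det := by
    rw [show (G.map (Int.cast : ℤ → ZMod (3 * M ^ 2))).det = ((G.det : ℤ) : ZMod (3 * M ^ 2)) from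
      ((Int.castRingHom (ZMod (3 * M ^ 2))).map_det G).symm]
    obtain ⟨a, b, hab⟩ := isCoprime_lvl hG
    refine IsUnit.of_mul_eq_one ((a : ℤ) : ZMod (3 * M ^ 2)) ?_
    have h1 := congrArg (fun n : ℤ => (n : ZMod (3 * M ^ 2))) hab
    simp only [Int.cast_add, Int.cast_mul, Int.cast_one, Int.cast_natCast, ZMod.natCast_self,
      mul_zero, add_zero] at h1
    linear_combination h1
  set gR : GL (Fin 2) (ZMod (3 * M ^ 2)) := Matrix.GeneralLinearGroup.mk'' _ hdet
  set c := (isUnit_mk_of_isCoprime E hl).unit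
  set P : Red O M := Matrix.GeneralLinearGroup.scalar (Fin 2) c * ratRed O M gR with hPdef
  refine ⟨gR, c, P⁻¹ * k, fun i j => ?_, ?_⟩
  · rw [show ((P⁻¹ * k : Red O M) : Matrix (Fin 2) (Fin 2) (O ⧸ modIdeal O M)) - 1 =
      ((P⁻¹ : Red O M) : Matrix (Fin 2) (Fin 2) (O ⧸ modIdeal O M)) *
        ((k : Matrix (Fin 2) (Fin 2) (O ⧸ modIdeal O M)) - (P : Matrix (Fin 2) (Fin 2) _)) by
      rw [Units.val_mul, Matrix.mul_sub, Units.inv_mul], Matrix.mul_apply]
    refine Finset.dvd_sum fun a _ => Dvd.dvd.mul_left ?_ _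
    have hP : (P : Matrix (Fin 2) (Fin 2) (O ⧸ modIdeal O M)) a j =
        Ideal.Quotient.mk (modIdeal O M) (l * (G a j : O)) := by
      rw [hPdef, Units.val_mul]
      show ((Matrix.diagonal fun _ : Fin 2 => (c : O ⧸ modIdeal O M)) *
        (ratRed O M gR : Matrix (Fin 2) (Fin 2) (O ⧸ modIdeal O M)) :
          Matrix (Fin 2) (Fin 2) (O ⧸ modIdeal O M)) a j = _
      rw [Matrix.diagonal_mul, map_mul, map_intCast]
      simp [c, gR, ratRed, Matrix.GeneralLinearGroup.map_apply]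
    obtain ⟨t, ht⟩ := hlG a j
    refine ⟨Ideal.Quotient.mk (modIdeal O M) t, ?_⟩
    rw [Matrix.sub_apply, hP, ← map_natCast (Ideal.Quotient.mk (modIdeal O M)) M, ← map_mul,
      ← Int.cast_natCast, ← ht, map_sub, hg]
    congr 1
    simp [redLift, Ideal.Quotient.mk_out]
  · calc (ratRed O M gR)⁻¹ * k
        = Matrix.GeneralLinearGroup.scalar (Fin 2) c *
            ((ratRed O M gR)⁻¹ * (Matrix.GeneralLinearGroup.scalar (Fin 2) c)⁻¹ * k) := by
          rw [← mul_assoc, ← mul_assoc, scalar_comm c, mul_assoc ((ratRed O M gR)⁻¹),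
            mul_inv_cancel, mul_one]
      _ = Matrix.GeneralLinearGroup.scalar (Fin 2) c * (P⁻¹ * k) := by
          rw [hPdef, _root_.mul_inv_rev]

/-! ### The sum of periods -/

section Sum

variable [NeZero M] [Fintype (Red O M)] {emb : O →+* ℂ} {A : Pt emb M → ℂ}
  (hcen : ∀ (c : (O ⧸ modIdeal O M)ˣ) (w : HSpace) (k : Red O M),
    A (Pt.mk emb w (Matrix.GeneralLinearGroup.scalar (Fin 2) c * k)) = A (Pt.mk emb w k))
  (hfac : ∀ (w : HSpace) (k u : Red O M), (∀ i j, (M : O ⧸ modIdeal O M) ∣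
    ((u : Matrix (Fin 2) (Fin 2) (O ⧸ modIdeal O M)) - 1) i j) →
      A (Pt.mk emb w (k * u)) = A (Pt.mk emb w k))

omit [NeZero M] [Fintype (Red O M)] in
include hcen hfac in
theorem planePer_mul {u : Red O M} (hu : u ∈ scalarNearOne O M) (k : Red O M) :
    planePer A (k * u) = planePer A k := by
  obtain ⟨c, v, hv, rfl⟩ := hu
  rw [← mul_assoc, ← scalar_comm, mul_assoc]
  unfold planePer
  congr 1
  funext q
  split_ifs
  · rw [hcen, hfac _ _ _ hv]
  · rfl

include hcen hfac in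
open scoped Classical in
theorem exists_sum_periodGroup : ∃ n m : ℕ, m ≠ 0 ∧
    (m : ℂ) * ∑ g : GL (Fin 2) (ZMod (3 * M ^ 2)), planePer A (ratRed O M g) =
      (n : ℂ) * ∑ k ∈ Finset.univ.filter (· ∈ periodGroup E), planePer A k := by
  have : NeZero (3 * M ^ 2) := ⟨by simp [NeZero.ne M]⟩
  set K : Subgroup (Red O M) := periodGroup E ⊓ scalarNearOne O M
  set Ks : Finset (Red O M) := Finset.univ.filter (· ∈ K)
  set F : Red O M → Finset (GL (Fin 2) (ZMod (3 * M ^ 2))) := fun k =>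
    Finset.univ.filter fun g => (ratRed O M g)⁻¹ * k ∈ K
  refine ⟨(F 1).card, Ks.card, ?_, ?_⟩
  · exact Finset.card_ne_zero.mpr ⟨1, by simp [Ks, one_mem]⟩
  have hF : ∀ k ∈ periodGroup E, (F k).card = (F 1).card := by
    intro k hk
    obtain ⟨g₀, hg₀⟩ := exists_ratRed_mul E hk
    have hu : (ratRed O M g₀)⁻¹ * k ∈ K :=
      ⟨(periodGroup E).mul_mem ((periodGroup E).inv_mem (ratRed_mem_periodGroup E g₀)) hk, hg₀⟩
    have key : ∀ g, (ratRed O M (g₀ * g))⁻¹ * k ∈ K ↔ (ratRed O M g)⁻¹ * 1 ∈ K := fun g => by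
      rw [map_mul, _root_.mul_inv_rev, mul_assoc, mul_one]
      exact K.mul_mem_cancel_right hu
    refine Finset.card_equiv (Equiv.mulLeft g₀⁻¹) fun g => ?_
    simp only [F, Finset.mem_filter, Finset.mem_univ, true_and, Equiv.coe_mulLeft]
    rw [← key, mul_inv_cancel_left]
  calc (Ks.card : ℂ) * ∑ g, planePer A (ratRed O M g)
      = ∑ g : GL (Fin 2) (ZMod (3 * M ^ 2)), ∑ u ∈ Ks, planePer A (ratRed O M g * u) := by
        rw [Finset.mul_sum]
        refine Finset.sum_congr rfl fun g _ => ?_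
        rw [← nsmul_eq_mul, ← Finset.sum_const]
        exact Finset.sum_congr rfl fun u hu =>
          (planePer_mul hcen hfac (Finset.mem_filter.mp hu).2.2 _).symm
    _ = ∑ g : GL (Fin 2) (ZMod (3 * M ^ 2)), ∑ k : Red O M,
          if (ratRed O M g)⁻¹ * k ∈ K then planePer A k else 0 := by
        refine Finset.sum_congr rfl fun g _ => ?_
        simp only [Ks, Finset.sum_filter]
        exact Fintype.sum_equiv (Equiv.mulLeft (ratRed O M g)) _ _ fun u => by simp
    _ = ∑ k : Red O M, ((F k).card : ℂ) * planePer A k := by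
        rw [Finset.sum_comm]
        refine Finset.sum_congr rfl fun k _ => ?_
        rw [← Finset.sum_filter, Finset.sum_const, nsmul_eq_mul]
    _ = _ := by
        rw [Finset.mul_sum, Finset.sum_filter]
        refine Finset.sum_congr rfl fun k _ => ?_
        by_cases hk : k ∈ periodGroup E
        · rw [if_pos hk, hF k hk]
        · rw [if_neg hk]
          refine mul_eq_zero_of_left (Nat.cast_eq_zero.mpr (Finset.card_eq_zero.mpr ?_)) _
          refine Finset.filter_eq_empty_iff.mpr fun g _ hg => hk ?_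
          have := mul_mem (ratRed_mem_periodGroup E g) hg.1
          rwa [mul_inv_cancel_left] at this

end Sum

variable {emb : O →+* ℂ}

include E in
/-- A nonzero period gives a nonzero lift. -/
theorem liftF_periodWeight_ne_zero [NeZero M] [IsDomain O] [IsBezout O] (hι : IsStdEmb E emb)
    {wt : Pt emb M → ℝ≥0∞} (hwt : IsGoodWeight wt) {A : Pt emb M → ℂ}
    (hAi : ∀ (γ : GL (Fin 2) O) (x : Pt emb M), A (γ • x) = A x)
    (hAc : ∀ k : Red O M, Continuous fun w => A (Pt.mk emb w k))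
    (hAb : ∃ C : ℝ, ∀ x, ‖A x‖ ≤ C)
    (hAs : ∀ ker : ℝ → ℂ, Continuous ker → Arch.IsQuartic ker → ∀ (w : HSpace) (k : Red O M),
      ∫ τ, ker (HSpace.coshDist w τ) * A (Pt.mk emb τ k) ∂HSpace.measure =
        Adelic.sphTransform ker 0 * A (Pt.mk emb w k))
    (hAz : ∀ (r : ℝ) (hr : 0 < r) (k : Red O M), Tendsto
      (fun R : ℝ => ⨍ z in Metric.closedBall (0 : ℂ) R, A (Pt.mk emb ⟨z, r, hr⟩ k) ∂volume)
      atTop (𝓝 0))
    (hA0 : ∫ x, A x ∂Spectral.quotMeasure (ptMeasure emb M) wt = 0)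
    {C : ℝ} (hmaj : IsMajorant M C)
    (hcen : ∀ (c : (O ⧸ modIdeal O M)ˣ) (w : HSpace) (k : Red O M),
      A (Pt.mk emb w (Matrix.GeneralLinearGroup.scalar (Fin 2) c * k)) = A (Pt.mk emb w k))
    (hfac : ∀ (w : HSpace) (k u : Red O M), (∀ i j, (M : O ⧸ modIdeal O M) ∣
      ((u : Matrix (Fin 2) (Fin 2) (O ⧸ modIdeal O M)) - 1) i j) →
        A (Pt.mk emb w (k * u)) = A (Pt.mk emb w k))
    (hper : HasNonzeroPeriod A) : liftF E wt A (periodWeight M) ≠ 0 := by
  classical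
  have := finite_red E M
  have := Fintype.ofFinite (Red O M)
  have h6 := shellInt_period E hι hAi hAc hAb hAs (periodWeight M) hwt.isWeight
    fun v hv => dvd_of_periodWeight_ne_zero hv
  have hW : ∀ k : Red O M, rotW E k⁻¹ (periodWeight M) (dcls (M ^ 2) ((M : ℤ) • baseVec)) =
      if k⁻¹ ∈ periodGroup E then 1 else 0 := fun k => rfl
  have hsum : ∑ k : Red O M, rotW E k⁻¹ (periodWeight M) (dcls (M ^ 2) ((M : ℤ) • baseVec)) *
      planePer A k = ∑ k ∈ Finset.univ.filter (· ∈ periodGroup E), planePer A k := by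
    rw [Finset.sum_filter]
    refine Finset.sum_congr rfl fun k _ => ?_
    rw [hW]
    simp only [inv_mem_iff]
    split_ifs <;> simp
  rw [hsum] at h6
  obtain ⟨n, m, hm, hnm⟩ := exists_sum_periodGroup E hcen hfac
  refine liftF_ne_zero E hι hwt hAi hAc hAb hAs hmaj (periodWeight M) hAz hA0
    (n := M ^ 2) (pow_ne_zero 2 (NeZero.ne M)) ?_
  push_cast
  intro h0
  rw [h0, mul_zero] at h6
  have hπ : (√π : ℂ) ≠ 0 := Complex.ofReal_ne_zero.2 (Real.sqrt_pos.2 Real.pi_pos).ne'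
  rw [(mul_eq_zero.mp h6.symm).resolve_left hπ, mul_zero] at hnm
  exact hper ((mul_eq_zero.mp hnm).resolve_left (Nat.cast_ne_zero.mpr hm))

end Fermat.Agent.LT.Lift
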