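import Fermat.Agent.LT.Lift.PeriodBridge
import Fermat.Agent.LT.Asai.Lifts
import Fermat.Agent.LT.Asai.PlanePeriod

/-!
# The period criterion in the form of the Asai period theorem
-/

set_option autoImplicit false

noncomputable section

namespace Fermat.Agent.LT.Lift

open IsDedekindDomain NumberField Matrix
open Adelic (Frame Space GfK Yf principalLevel MatMemMul MemMul)
open scoped MatrixGroups

variable {K : Type*} [Field K] [NumberField K] {M : ℕ} {Φ : Frame K Unit}
  {U : Subgroup (GfK K)}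

local notation "𝕆" => 𝓞 K
local notation "𝔸" => FiniteAdeleRing (𝓞 K) K

/-- An integer lift and the lift by least residues differ by a multiple of the level. -/
theorem matMemMul_sub_intLift {L : ℕ} [NeZero L] {G : GfK K} {g : GL (Fin 2) (ZMod L)}
    (h : Asai.IsModLift G g) :
    MatMemMul (L : 𝕆)
      ((G : Matrix (Fin 2) (Fin 2) 𝔸) - (intLift (K := K) g).map (algebraMap 𝕆 𝔸)) := by
  obtain ⟨-, Z, hZ, hG⟩ := h
  intro i j
  obtain ⟨t, ht⟩ : ((L : ℕ) : ℤ) ∣ Z i j - ((g i j).val : ℤ) := by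
    rw [← ZMod.intCast_zmod_eq_zero_iff_dvd]
    have hz : ((Z i j : ℤ) : ZMod L) = g i j := congrFun (congrFun hZ i) j
    push_cast
    rw [hz, ZMod.natCast_zmod_val, sub_self]
  have e : ((G : Matrix (Fin 2) (Fin 2) 𝔸) - (intLift (K := K) g).map (algebraMap 𝕆 𝔸)) i j =
      ((G : Matrix (Fin 2) (Fin 2) 𝔸) - Z.map fun z : ℤ => (z : 𝔸)) i j +
        algebraMap 𝕆 𝔸 ((t : 𝕆) * (L : 𝕆)) := by
    have h2 := congrArg (fun z : ℤ => (z : 𝔸)) ht
    push_cast at h2
    simp only [Matrix.sub_apply, Matrix.map_apply, intLift, map_natCast, map_mul, map_intCast]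
    linear_combination h2
  rw [e]
  refine (hG i j).add ?_
  rw [map_mul]
  exact MemMul.int_mul (Adelic.algebraMap_mem_intAdele _) (Adelic.memMul_algebraMap _)

/-- A nonzero sum of adelic periods at a level `L ∣ 3M²` is a nonzero period of `liftA`. -/
theorem hasNonzeroPeriod_of_planePeriod [NeZero M] {L : ℕ} [NeZero L] (hL : L ∣ 3 * M ^ 2)
    {h₀ : GfK K} (hconj : ∀ u ∈ principalLevel K (L : 𝕆), h₀⁻¹ * u * h₀ ∈ U)
    (φ : Space Φ U → ℂ)
    (hsum : ∑ g : GL (Fin 2) (ZMod L),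
      Asai.planePeriod φ ((Asai.ratLift K g * h₀ : GfK K) : Yf U) ≠ 0) :
    HasNonzeroPeriod (liftA Φ M h₀ φ) :=
  hasNonzeroPeriod_liftA φ hL hconj (Asai.ratLift K) (fun g => (Asai.isModLift_ratLift g).1)
    (fun g => matMemMul_sub_intLift (Asai.isModLift_ratLift g)) hsum

end Fermat.Agent.LT.Lift
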