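import Fermat.Agent.LT.Lift.Basic
import Fermat.Agent.LT.Lift.Invariance
import Fermat.Agent.LT.Lift.PeriodWeight
import Fermat.Agent.LT.Theta.Congruence

/-!
# From a weight supported off the lattice to a weight trivial at `3`

For `3 ∤ M`: if every lift of a weight trivial at `3` vanishes, so does the lift of the indicator
of the unit multiples of the base vector.  Indeed `S` turns a weight trivial at `3` into the
indicator of the multiples prime to `M`, which is invariant under the units and the class of order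
three, and differs from the former indicator by a weight trivial at `3`.
-/

set_option autoImplicit false

noncomputable section

namespace Fermat.Agent.LT.Lift

open MeasureTheory
open Theta (Disc IVec dcls q3 w3 ez translWeight fourierWeight thetaFun theta IsTrivialAtThree
  ez_eq_of_dvd ez_eq_one_iff dcls_surjective dcls_out)
open Orbit (EisData)
open UpperHalfPlane hiding I
open scoped ENNReal MatrixGroups ModularForm

variable (M : ℕ)

open scoped Classical in
/-- Indicator of the multiples `λ • M • baseVec` with `λ` prime to `M`. -/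
def levelWeight : Disc (M ^ 2) → ℂ := fun u =>
  if ∃ l : ℤ, IsCoprime l (M : ℤ) ∧ u = l • dcls (M ^ 2) ((M : ℤ) • baseVec) then 1 else 0

/-- The class of order three. -/
def threeClass : Disc (M ^ 2) := dcls (M ^ 2) (((M ^ 2 : ℕ) : ℤ) • baseVec)

variable {M}

theorem w3_add_left (a b c : IVec) : w3 (a + b) c = w3 a c + w3 b c := by
  rw [Theta.w3_comm, Theta.w3_add_right, Theta.w3_comm c, Theta.w3_comm c]

theorem w3_smul_left (n : ℤ) (a c : IVec) : w3 (n • a) c = n * w3 a c := by
  rw [Theta.w3_comm, Theta.w3_smul_right, Theta.w3_comm c]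

theorem w3_neg_left (a c : IVec) : w3 (-a) c = -w3 a c := by
  rw [show -a = (-1 : ℤ) • a by simp, w3_smul_left, neg_one_mul]

theorem threeClass_eq_smul :
    threeClass M = (M : ℤ) • dcls (M ^ 2) ((M : ℤ) • baseVec) := by
  rw [threeClass, ← map_zsmul, smul_smul]
  congr 2
  push_cast
  ring

theorem levelWeight_add_threeClass (u : Disc (M ^ 2)) :
    levelWeight M (u + threeClass M) = levelWeight M u := by
  classical
  unfold levelWeight
  refine if_congr ⟨?_, ?_⟩ rfl rfl
  · rintro ⟨l, hl, h⟩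
    refine ⟨l - M, ?_, ?_⟩
    · simpa [sub_eq_add_neg] using hl.add_mul_left_left (-1)
    · rw [sub_smul, ← threeClass_eq_smul, ← h, add_sub_cancel_right]
  · rintro ⟨l, hl, rfl⟩
    exact ⟨l + M, by simpa using hl.add_mul_left_left 1,
      by rw [threeClass_eq_smul, add_zsmul]⟩

theorem levelWeight_zsmul {d d' : ℤ} (h : (3 * (M ^ 2 : ℕ) : ℤ) ∣ d' * d - 1)
    (u : Disc (M ^ 2)) [NeZero M] : levelWeight M (d • u) = levelWeight M u := by
  classical
  obtain ⟨t, ht⟩ := h
  push_cast at ht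
  have hd : IsCoprime d (M : ℤ) := ⟨d', -(3 * M * t), by linear_combination ht⟩
  have hd' : IsCoprime d' (M : ℤ) := ⟨d, -(3 * M * t), by linear_combination ht⟩
  unfold levelWeight
  refine if_congr ⟨?_, ?_⟩ rfl rfl
  · rintro ⟨l, hl, h⟩
    refine ⟨d' * l, hd'.mul_left hl, ?_⟩
    rw [mul_smul, ← h, smul_smul, Theta.zsmul_disc_eq_self M
      (⟨t, by push_cast; linear_combination ht⟩ : (3 * (M ^ 2 : ℕ) : ℤ) ∣ d' * d - 1)]
  · rintro ⟨l, hl, rfl⟩
    exact ⟨d * l, hd.mul_left hl, by rw [mul_smul]⟩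

variable [NeZero M]

open scoped Classical in
theorem sum_ez_w3 (σ : IVec) :
    ∑ s : Disc (M ^ 2), ez (3 * M ^ 2) (w3 σ s.out) =
      if dcls (M ^ 2) σ = 0 then (Fintype.card (Disc (M ^ 2)) : ℂ) else 0 := by
  have : NeZero (3 * M ^ 2) := ⟨by simp [NeZero.ne M]⟩
  split_ifs with h0
  · rw [Finset.sum_congr rfl (g := fun _ => (1 : ℂ)) fun s _ => ?_]
    · simp
    · rw [Theta.w3_comm, Theta.ez_w3_congr s.out (h0.trans (map_zero _).symm)]
      simp [w3]
  · obtain ⟨i, hi⟩ : ∃ i : Fin 4, ¬ (3 * ((M ^ 2 : ℕ) : ℤ)) ∣ w3 σ (Pi.single i 1) :=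
      not_forall.mp fun hall => h0 (Theta.eq_zero_of_forall_dvd_w3 hall)
    set S := ∑ s : Disc (M ^ 2), ez (3 * M ^ 2) (w3 σ s.out) with hS
    have hshift : ez (3 * M ^ 2) (w3 σ (Pi.single i 1)) * S = S := by
      rw [hS, Finset.mul_sum]
      refine Fintype.sum_equiv (Equiv.addLeft (dcls (M ^ 2) (Pi.single i 1))) _ _ fun s => ?_
      rw [Equiv.coe_addLeft, ← Theta.ez_add, ← Theta.w3_add_right]
      refine Theta.ez_w3_congr σ ?_
      rw [map_add, dcls_out, dcls_out]
    have hne : ez (3 * M ^ 2) (w3 σ (Pi.single i 1)) ≠ 1 := fun h =>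
      hi (by have := ez_eq_one_iff.mp h; exact_mod_cast this)
    exact (mul_left_eq_self₀.mp hshift).resolve_left hne

/-- The weight trivial at `3` which `S` turns into a multiple of `levelWeight`. -/
def preWeight (M : ℕ) [NeZero M] : Disc (M ^ 2) → ℂ := fun s =>
  ∑ r, levelWeight M r * ez (3 * M ^ 2) (w3 (-r.out) s.out)

theorem preWeight_dcls (k : IVec) :
    preWeight M (dcls (M ^ 2) k) =
      ∑ r, levelWeight M r * ez (3 * M ^ 2) (w3 (-r.out) k) :=
  Finset.sum_congr rfl fun r _ => by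
    rw [Theta.ez_w3_congr (-r.out) (dcls_out (M ^ 2) (dcls (M ^ 2) k))]

theorem isTrivialAtThree_preWeight : IsTrivialAtThree M (preWeight M) := by
  intro k hk
  have : NeZero (3 * M ^ 2) := ⟨by simp [NeZero.ne M]⟩
  by_contra h3
  refine hk ?_
  set S := preWeight M (dcls (M ^ 2) k)
  set c := ez (3 * M ^ 2) (w3 (-(((M ^ 2 : ℕ) : ℤ) • baseVec)) k)
  have hshift : c * S = S := by
    simp only [S, preWeight_dcls, Finset.mul_sum]
    refine Fintype.sum_equiv (Equiv.addRight (threeClass M)) _ _ fun r => ?_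
    rw [Equiv.coe_addRight, levelWeight_add_threeClass, mul_left_comm]
    congr 1
    rw [← Theta.ez_add, ← w3_add_left, Theta.w3_comm, Theta.w3_comm _ k]
    refine Theta.ez_w3_congr k ?_
    rw [map_add, map_neg, map_neg, map_neg, dcls_out, dcls_out, threeClass, neg_add, add_comm]
  refine (mul_left_eq_self₀.mp hshift).resolve_left fun hc => h3 ?_
  obtain ⟨t, ht⟩ := ez_eq_one_iff.mp hc
  rw [w3_neg_left, w3_smul_left] at ht
  have hM : ((M ^ 2 : ℕ) : ℤ) ≠ 0 := by exact_mod_cast (pow_ne_zero 2 (NeZero.ne M))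
  have hb : w3 baseVec k = -(k 2 + 2 * k 3) := by
    simp [w3, baseVec]; ring
  rw [hb] at ht
  have h2 : k 2 + 2 * k 3 = 3 * t := mul_left_cancel₀ hM (by push_cast at ht ⊢; linear_combination ht)
  refine ⟨3 * t ^ 2 - 3 * t * k 3 + k 3 ^ 2 - k 0 * k 1, ?_⟩
  rw [q3, show k 2 = 3 * t - 2 * k 3 by linarith]
  ring

/-- The constant of the inversion. -/
def invConst (M : ℕ) [NeZero M] : ℂ :=
  -(Complex.I / (Real.sqrt 3 : ℂ)) / (M : ℂ) ^ 4 * (Fintype.card (Disc (M ^ 2)) : ℂ)

theorem invConst_ne_zero : invConst M ≠ 0 := by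
  refine mul_ne_zero (div_ne_zero (neg_ne_zero.mpr (div_ne_zero Complex.I_ne_zero ?_)) ?_) ?_
  · exact Complex.ofReal_ne_zero.mpr (by simp)
  · exact pow_ne_zero _ (Nat.cast_ne_zero.mpr (NeZero.ne M))
  · exact Nat.cast_ne_zero.mpr Fintype.card_ne_zero

theorem fourierWeight_preWeight (u : Disc (M ^ 2)) :
    fourierWeight M (preWeight M) u = invConst M * levelWeight M u := by
  classical
  unfold fourierWeight invConst
  rw [mul_assoc]
  congr 1
  simp only [preWeight, Finset.sum_mul]
  rw [Finset.sum_comm]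
  have h : ∀ r : Disc (M ^ 2), ∑ s : Disc (M ^ 2),
      levelWeight M r * ez (3 * M ^ 2) (w3 (-r.out) s.out) * ez (3 * M ^ 2) (w3 u.out s.out) =
        if r = u then (Fintype.card (Disc (M ^ 2)) : ℂ) * levelWeight M r else 0 := fun r => by
    simp only [mul_assoc, ← Theta.ez_add, ← w3_add_left, ← Finset.mul_sum]
    rw [sum_ez_w3]
    have hiff : dcls (M ^ 2) (-r.out + u.out) = 0 ↔ r = u := by
      rw [map_add, map_neg, dcls_out, dcls_out, neg_add_eq_zero]
    by_cases hru : r = u
    · rw [if_pos (hiff.mpr hru), if_pos hru]; ring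
    · rw [if_neg (mt hiff.mp hru), if_neg hru, mul_zero]
  rw [Finset.sum_congr rfl fun r _ => h r, Finset.sum_ite_eq' Finset.univ u,
    if_pos (Finset.mem_univ _)]

omit [NeZero M] in
/-- Off the lattice part `levelWeight` is `periodWeight`. -/
theorem isTrivialAtThree_levelWeight_sub :
    IsTrivialAtThree M (levelWeight M - periodWeight M) := by
  classical
  intro k hk
  by_cases hG : ∃ l : ℤ, IsCoprime l (M : ℤ) ∧
      dcls (M ^ 2) k = l • dcls (M ^ 2) ((M : ℤ) • baseVec)
  · obtain ⟨l, hl, hu⟩ := hG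
    by_cases hl3 : (3 : ℤ) ∣ l
    · obtain ⟨z, hz⟩ := Theta.dcls_eq_iff.mp ((map_zsmul _ _ _).trans hu.symm)
      obtain ⟨t, rfl⟩ := hl3
      rw [← hz, Theta.q3_add, Theta.q3_smul, Theta.q3_smul, q3_baseVec, Theta.q3_smul,
        Theta.w3_smul_right, Theta.w3_gmap, Theta.q3_gmap]
      exact ⟨3 * (t * M) ^ 2 + ((M ^ 2 : ℕ) : ℤ) * (∑ i, ((3 * t) • (M : ℤ) • baseVec) i * z i) +
        ((M ^ 2 : ℕ) : ℤ) ^ 2 * Theta.qL z, by ring⟩
    · refine absurd ?_ hk
      rw [Pi.sub_apply, periodWeight_of ⟨l, IsCoprime.mul_right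
        ((Int.prime_three.coprime_iff_not_dvd).mpr hl3).symm hl, hu⟩, levelWeight,
        if_pos ⟨l, hl, hu⟩, sub_self]
  · refine absurd ?_ hk
    rw [Pi.sub_apply, levelWeight, if_neg hG, periodWeight_of_not, sub_self]
    rintro ⟨d, hd, he⟩
    exact hG ⟨d, IsCoprime.of_mul_right_right hd, he⟩

variable {O : Type*} [CommRing O] (E : EisData O) {emb : O →+* ℂ}

/-- `S` turns `preWeight` into a multiple of `levelWeight`, whatever `ν` is. -/
theorem thetaKer_preWeight_slash_S (x : Pt emb M) :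
    (fun τ => thetaKer E (preWeight M) τ x) ∣[(1 : ℤ)] ModularGroup.S =
      fun τ => thetaKer E (invConst M • levelWeight M) τ x := by
  have : NeZero (3 * M ^ 2) := ⟨by simp [NeZero.ne M]⟩
  have hn : ((normO E (redLift x.fin⁻¹).det : ℤ) : ZMod (3 * M ^ 2)) *
      (((nu E x.fin).val : ℤ) : ZMod (3 * M ^ 2)) = 1 := by
    rw [Int.cast_natCast, ZMod.natCast_zmod_val]
    exact nu_inv_mul E x.fin
  have hk : nu E x.fin⁻¹ = ((normO E (redLift x.fin⁻¹).det : ℤ) : ZMod (3 * M ^ 2)) := rfl
  have hχ : (fun u => fourierWeight M (preWeight M) (((nu E x.fin).val : ℤ) • u)) =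
      invConst M • levelWeight M := funext fun u => by
    rw [fourierWeight_preWeight, Pi.smul_apply, smul_eq_mul]
    congr 1
    refine levelWeight_zsmul (d' := normO E (redLift x.fin⁻¹).det) ?_ u
    have h1 : (((normO E (redLift x.fin⁻¹).det * ((nu E x.fin).val : ℤ) - 1 : ℤ)) :
        ZMod (3 * M ^ 2)) = 0 := by
      rw [Int.cast_sub, Int.cast_mul, hn, Int.cast_one, sub_self]
    have := (ZMod.intCast_zmod_eq_zero_iff_dvd _ _).mp h1
    simpa using this
  have e1 : thetaFun M (rotW E x.fin⁻¹ (preWeight M)) x.pt ∣[(1 : ℤ)] ModularGroup.S =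
      thetaFun M (rotW E x.fin⁻¹ (invConst M • levelWeight M)) x.pt := by
    rw [Theta.thetaFun_slash_S, fourierWeight_rotW E hn hk, hχ]
  exact e1

variable (wt : Pt emb M → ℝ≥0∞) (A : Pt emb M → ℂ)

/-- If the lifts of the weights trivial at `3` vanish, so does the lift of `periodWeight`. -/
theorem liftF_periodWeight_eq_zero
    (hint : ∀ (ψ : Disc (M ^ 2) → ℂ) (τ : ℍ), Integrable (fun x => A x * thetaKer E ψ τ x)
      (Spectral.quotMeasure (ptMeasure emb M) wt))
    (hzero : ∀ φ, IsTrivialAtThree M φ → liftF E wt A φ = 0) :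
    liftF E wt A (periodWeight M) = 0 := by
  have hz : liftF E wt A (preWeight M) = 0 := hzero _ isTrivialAtThree_preWeight
  have hsl : ∀ (γ : SL(2, ℤ)) (χ : Disc (M ^ 2) → ℂ),
      (∀ x : Pt emb M, (fun τ => thetaKer E (preWeight M) τ x) ∣[(1 : ℤ)] γ =
        fun τ => thetaKer E χ τ x) → liftF E wt A χ = 0 := by
    intro γ χ hγ
    funext τ
    have h0 := congrFun (congrArg (fun f : ℍ → ℂ => f ∣[(1 : ℤ)] γ) hz) τ
    simp only [SlashAction.zero_slash, Pi.zero_apply] at h0
    rw [Pi.zero_apply, ← h0, ModularForm.SL_slash_apply]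
    simp only [liftF]
    rw [← integral_mul_const]
    refine integral_congr_ae (Filter.Eventually.of_forall fun x => ?_)
    have hx := congrFun (hγ x) τ
    rw [ModularForm.SL_slash_apply] at hx
    show A x * thetaKer E χ τ x = A x * thetaKer E (preWeight M) _ x * _
    rw [← hx]
    ring
  have hadd : ∀ φ φ', liftF E wt A (φ + φ') = liftF E wt A φ + liftF E wt A φ' := fun φ φ' => by
    funext τ
    simp only [liftF, Pi.add_apply]
    rw [← integral_add (hint φ τ) (hint φ' τ)]
    refine integral_congr_ae (Filter.Eventually.of_forall fun x => ?_)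
    show A x * theta M (rotW E x.fin⁻¹ φ + rotW E x.fin⁻¹ φ') τ x.pt = _
    rw [Theta.theta_add, mul_add]
    rfl
  have hsmul : ∀ (c : ℂ) φ, liftF E wt A (c • φ) = c • liftF E wt A φ := fun c φ => by
    funext τ
    simp only [liftF, Pi.smul_apply, smul_eq_mul]
    rw [← integral_const_mul]
    refine integral_congr_ae (Filter.Eventually.of_forall fun x => ?_)
    show A x * theta M (c • rotW E x.fin⁻¹ φ) τ x.pt = _
    rw [Theta.theta_smul]
    show _ = c * (A x * theta M (rotW E x.fin⁻¹ φ) τ x.pt)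
    ring
  have hc := invConst_ne_zero (M := M)
  have h1 : liftF E wt A (levelWeight M) = 0 := by
    have := hsl ModularGroup.S _ fun x => thetaKer_preWeight_slash_S E x
    rw [hsmul] at this
    exact (smul_eq_zero.mp this).resolve_left hc
  have h2 := hzero _ (isTrivialAtThree_levelWeight_sub (M := M))
  have e : levelWeight M - periodWeight M + periodWeight M = levelWeight M := sub_add_cancel _ _
  rw [← e, hadd, h2, zero_add] at h1
  exact h1

/-- A nonzero lift of `periodWeight` gives one of a weight trivial at `3`. -/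
theorem exists_isTrivialAtThree_liftF_ne_zero
    (hint : ∀ (ψ : Disc (M ^ 2) → ℂ) (τ : ℍ), Integrable (fun x => A x * thetaKer E ψ τ x)
      (Spectral.quotMeasure (ptMeasure emb M) wt))
    (hne : liftF E wt A (periodWeight M) ≠ 0) :
    ∃ φ, IsTrivialAtThree M φ ∧ liftF E wt A φ ≠ 0 := by
  by_contra h
  exact hne (liftF_periodWeight_eq_zero E wt A hint fun φ hφ =>
    by_contra fun hz => h ⟨φ, hφ, hz⟩)

end Fermat.Agent.LT.Lift
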