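import Fermat.Agent.LT.Lift.Basic
import Fermat.Agent.LT.Reduction.Returns
import Fermat.Agent.LT.Spectral.Siegel

/-!
# A weight for `GL₂(ℤ[ω])` living in a Siegel box

Every point of `ℍ₃` is moved by `GL₂(O)` into the box `r ≥ 1/2`, `|z| ≤ 1`, by finitely many
matrices, so the normalised indicator of the box is a good weight.
-/

set_option autoImplicit false

noncomputable section

namespace Fermat.Agent.LT.Lift

open MeasureTheory Set
open Adelic (HSpace)
open Orbit (EisData)
open Spectral (boxWeight tsum_indicator_smul_eq)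
open scoped ENNReal

variable {O : Type*} [CommRing O] {emb : O →+* ℂ}

/-- The norm form of `ℤ[ω]`. -/
theorem normSq_emb_eq (E : EisData O)
    (hw : emb E.w = -(1 / 2) + (Real.sqrt 3 : ℂ) / 2 * Complex.I) (a b : ℤ) :
    Complex.normSq (emb ((a : O) + (b : O) * E.w)) = ((a ^ 2 - a * b + b ^ 2 : ℤ) : ℝ) := by
  rw [map_add, map_mul, map_intCast, map_intCast, hw, Complex.normSq_apply]
  have h3 : Real.sqrt 3 * Real.sqrt 3 = 3 := Real.mul_self_sqrt (by norm_num)
  simp only [Complex.add_re, Complex.add_im, Complex.mul_re, Complex.mul_im, Complex.intCast_re,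
    Complex.intCast_im, Complex.ofReal_re, Complex.ofReal_im, Complex.I_re, Complex.I_im,
    Complex.neg_re, Complex.neg_im, Complex.div_ofNat_re, Complex.div_ofNat_im, Complex.one_re,
    Complex.one_im]
  push_cast
  linear_combination ((b : ℝ) ^ 2 / 4) * h3

theorem finite_normSq_emb_le (E : EisData O)
    (hw : emb E.w = -(1 / 2) + (Real.sqrt 3 : ℂ) / 2 * Complex.I) (B : ℝ) :
    {x : O | Complex.normSq (emb x) ≤ B}.Finite := by
  obtain ⟨N, hN⟩ := exists_nat_gt (2 * B + 1)
  refine ((Set.finite_Icc (-(N : ℤ)) N).image2 (fun a b : ℤ => (a : O) + (b : O) * E.w)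
    (Set.finite_Icc (-(N : ℤ)) N)).subset fun x hx => ?_
  obtain ⟨a, b, rfl⟩ := E.repr x
  rw [Set.mem_ofPred_eq, normSq_emb_eq E hw] at hx
  have h' : (a ^ 2 - a * b + b ^ 2) * 2 < (N : ℤ) := by
    have : ((a ^ 2 - a * b + b ^ 2 : ℤ) : ℝ) * 2 < (N : ℤ) := by push_cast at *; linarith
    exact_mod_cast this
  have ha : a ^ 2 < N := by nlinarith [sq_nonneg (a - b), sq_nonneg b]
  have hb : b ^ 2 < N := by nlinarith [sq_nonneg (a - b), sq_nonneg a]
  refine Set.mem_image2_of_mem ?_ ?_ <;> constructor <;> nlinarith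

theorem one_le_normSq_emb (E : EisData O)
    (hw : emb E.w = -(1 / 2) + (Real.sqrt 3 : ℂ) / 2 * Complex.I) {x : O} (hx : x ≠ 0) :
    1 ≤ Complex.normSq (emb x) := by
  obtain ⟨a, b, rfl⟩ := E.repr x
  rw [normSq_emb_eq E hw]
  have h0 : (0 : ℤ) < a ^ 2 - a * b + b ^ 2 := by
    by_contra h
    have h1 : a ^ 2 + b ^ 2 ≤ 0 := by nlinarith [sq_nonneg (a - b)]
    have ha : a = 0 := by nlinarith [sq_nonneg a, sq_nonneg b]
    have hb : b = 0 := by nlinarith [sq_nonneg a, sq_nonneg b]
    exact hx (by simp [ha, hb])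
  exact_mod_cast h0

theorem normSq_emb_unit (E : EisData O)
    (hw : emb E.w = -(1 / 2) + (Real.sqrt 3 : ℂ) / 2 * Complex.I) {x : O} (hx : IsUnit x) :
    Complex.normSq (emb x) = 1 := by
  obtain ⟨u, rfl⟩ := hx
  have : Nontrivial O := ⟨⟨E.w, 0, fun h => by
    have := E.indep 0 1 (by simp [h]); simp at this⟩⟩
  have h : Complex.normSq (emb (u : O)) * Complex.normSq (emb ((u⁻¹ : Oˣ) : O)) = 1 := by
    rw [← map_mul, ← map_mul, Units.mul_inv, map_one, map_one]
  have h1 := one_le_normSq_emb E hw (Units.ne_zero u)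
  have h2 := one_le_normSq_emb E hw (Units.ne_zero u⁻¹)
  nlinarith

/-- `ℤ[ω]` covers the plane with radius `√7/4`. -/
theorem exists_translate_emb (E : EisData O)
    (hw : emb E.w = -(1 / 2) + (Real.sqrt 3 : ℂ) / 2 * Complex.I) (z : ℂ) :
    ∃ t : O, Complex.normSq (z + emb t) ≤ 7 / 16 := by
  have h3 : Real.sqrt 3 * Real.sqrt 3 = 3 := Real.mul_self_sqrt (by norm_num)
  set b : ℤ := round (-(z.im * 2 / Real.sqrt 3)) with hb
  set a : ℤ := round (-(z.re) + (b : ℝ) / 2) with ha
  refine ⟨(a : O) + (b : O) * E.w, ?_⟩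
  have e1 := abs_sub_round (-(z.im * 2 / Real.sqrt 3))
  have e2 := abs_sub_round (-(z.re) + (b : ℝ) / 2)
  rw [← hb] at e1; rw [← ha] at e2
  have hi : (z + emb ((a : O) + (b : O) * E.w)).im = z.im + Real.sqrt 3 / 2 * b := by
    simp [hw]; ring
  have hr : (z + emb ((a : O) + (b : O) * E.w)).re = z.re + (a - (b : ℝ) / 2) := by
    simp [hw]; ring
  rw [Complex.normSq_apply, hi, hr]
  have hz : z.im = Real.sqrt 3 / 2 * (z.im * 2 / Real.sqrt 3) := by
    field_simp
  set u := z.im * 2 / Real.sqrt 3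
  rw [hz]
  have k1 := abs_le.mp e1
  have k2 := abs_le.mp e2
  nlinarith [mul_nonneg (sub_nonneg.mpr k1.1) (sub_nonneg.mpr k1.2),
    mul_nonneg (sub_nonneg.mpr k2.1) (sub_nonneg.mpr k2.2)]

/-- A matrix of `GL₂(O)` seen in `GL₂(ℂ)`. -/
local notation "ι" => Matrix.GeneralLinearGroup.map emb

theorem absDet_map_eq_one (E : EisData O)
    (hw : emb E.w = -(1 / 2) + (Real.sqrt 3 : ℂ) / 2 * Complex.I) (g : GL (Fin 2) O) :
    HSpace.absDet (ι g) = 1 := by
  have h : ((ι g : GL (Fin 2) ℂ) : Matrix (Fin 2) (Fin 2) ℂ).det =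
      emb (g : Matrix (Fin 2) (Fin 2) O).det := by
    rw [RingHom.map_det]; rfl
  rw [HSpace.absDet, h, Complex.norm_def, normSq_emb_unit E hw (Matrix.isUnits_det_units g),
    Real.sqrt_one]

theorem smul_r_map (E : EisData O)
    (hw : emb E.w = -(1 / 2) + (Real.sqrt 3 : ℂ) / 2 * Complex.I)
    (g : GL (Fin 2) O) (p : HSpace) :
    (ι g • p).r = p.r / (Complex.normSq (emb (g 1 0) * p.z + emb (g 1 1)) +
      Complex.normSq (emb (g 1 0)) * p.r ^ 2) := by
  rw [HSpace.smul_r, absDet_map_eq_one E hw, one_mul]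
  rfl

/-- Finitely many bottom rows make a point higher than a given height. -/
theorem finite_bottom_rows (E : EisData O)
    (hw : emb E.w = -(1 / 2) + (Real.sqrt 3 : ℂ) / 2 * Complex.I) (p : HSpace) (B : ℝ) :
    {cd : O × O | Complex.normSq (emb cd.1 * p.z + emb cd.2) +
      Complex.normSq (emb cd.1) * p.r ^ 2 ≤ B}.Finite := by
  have hr2 : 0 < p.r ^ 2 := pow_pos p.r_pos 2
  refine ((finite_normSq_emb_le E hw (B / p.r ^ 2)).prod
    (finite_normSq_emb_le E hw (2 * B + 2 * (B / p.r ^ 2 * Complex.normSq p.z)))).subset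
    fun cd hcd => ?_
  have h0 : Complex.normSq (emb cd.1 * p.z + emb cd.2) +
      Complex.normSq (emb cd.1) * p.r ^ 2 ≤ B := hcd
  have n1 := Complex.normSq_nonneg (emb cd.1 * p.z + emb cd.2)
  have n2 := Complex.normSq_nonneg (emb cd.1)
  have hc : Complex.normSq (emb cd.1) ≤ B / p.r ^ 2 := by
    rw [le_div_iff₀ hr2]; linarith
  refine ⟨hc, ?_⟩
  have hcz : Complex.normSq (emb cd.1 * p.z) ≤ B / p.r ^ 2 * Complex.normSq p.z := by
    rw [Complex.normSq_mul]; exact mul_le_mul_of_nonneg_right hc (Complex.normSq_nonneg _)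
  have hd : Complex.normSq (emb cd.2) ≤
      2 * Complex.normSq (emb cd.1 * p.z + emb cd.2) + 2 * Complex.normSq (emb cd.1 * p.z) := by
    simp only [Complex.normSq_apply, Complex.add_re, Complex.add_im]
    nlinarith [sq_nonneg ((emb cd.1 * p.z).re * 2 + (emb cd.2).re),
      sq_nonneg ((emb cd.1 * p.z).im * 2 + (emb cd.2).im)]
  have h4 : Complex.normSq (emb cd.1) * p.r ^ 2 ≥ 0 := by positivity
  show Complex.normSq (emb cd.2) ≤ _
  linarith

/-- Some translate of every point has maximal height in its orbit. -/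
theorem exists_max_height (E : EisData O)
    (hw : emb E.w = -(1 / 2) + (Real.sqrt 3 : ℂ) / 2 * Complex.I) (p : HSpace) :
    ∃ g : GL (Fin 2) O, ∀ h : GL (Fin 2) O, (ι h • p).r ≤ (ι g • p).r := by
  classical
  let D : O × O → ℝ := fun cd =>
    Complex.normSq (emb cd.1 * p.z + emb cd.2) + Complex.normSq (emb cd.1) * p.r ^ 2
  let S : Set (O × O) :=
    {cd | D cd ≤ 1} ∩ Set.range fun g : GL (Fin 2) O => (g 1 0, g 1 1)
  have hS : S.Finite := (finite_bottom_rows E hw p 1).subset Set.inter_subset_left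
  have h1 : ((0 : O), (1 : O)) ∈ S := ⟨by simp [D], 1, by simp⟩
  obtain ⟨cd, ⟨-, g, hg⟩, hmin⟩ := Set.exists_min_image S D hS ⟨_, h1⟩
  refine ⟨g, fun h => ?_⟩
  have hle : D (g 1 0, g 1 1) ≤ D (h 1 0, h 1 1) := by
    rw [show (g 1 0, g 1 1) = cd from hg]
    by_cases hh : D (h 1 0, h 1 1) ≤ 1
    · exact hmin _ ⟨hh, h, rfl⟩
    · exact ((hmin _ h1).trans (by simp [D])).trans (not_le.mp hh).le
  rw [smul_r_map E hw, smul_r_map E hw]
  refine div_le_div_of_nonneg_left p.r_pos.le ?_ hle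
  exact HSpace.denSq_pos (ι g) p

/-- The box. -/
def liftBox (emb : O →+* ℂ) (M : ℕ) : Set (Pt emb M) :=
  {x | 1 / 2 ≤ x.pt.r ∧ ‖x.pt.z‖ ≤ 1}

variable {M : ℕ}

theorem measurableSet_liftBox : MeasurableSet (liftBox emb M) :=
  (measurableSet_le measurable_const
      ((measurable_snd.comp HSpace.measurableEmbedding_coords.measurable).comp
        Pt.measurable_pt)).inter
    (measurableSet_le (((measurable_fst.comp HSpace.measurableEmbedding_coords.measurable).comp
      Pt.measurable_pt).norm) measurable_const)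

/-- Every orbit meets the box. -/
theorem exists_smul_mem_liftBox (E : EisData O)
    (hw : emb E.w = -(1 / 2) + (Real.sqrt 3 : ℂ) / 2 * Complex.I) (x : Pt emb M) :
    ∃ g : GL (Fin 2) O, g • x ∈ liftBox emb M := by
  obtain ⟨g, hg⟩ := exists_max_height E hw x.pt
  set q := ι g • x.pt with hq
  obtain ⟨t, ht⟩ := exists_translate_emb E hw q.z
  let T : GL (Fin 2) O := ⟨!![1, t; 0, 1], !![1, -t; 0, 1],
    by simp [Matrix.one_fin_two], by simp [Matrix.one_fin_two]⟩
  let W : GL (Fin 2) O := ⟨!![0, -1; 1, t], !![t, 1; -1, 0],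
    by simp [Matrix.one_fin_two], by simp [Matrix.one_fin_two]⟩
  refine ⟨T * g, ?_⟩
  have hz : (ι T • q).z = q.z + emb t := by
    rw [HSpace.smul_z]
    simp [T, HSpace.denSq]
  have hr : (ι T • q).r = q.r := by
    rw [smul_r_map E hw]
    simp [T]
  have h16 : 9 / 16 ≤ q.r ^ 2 := by
    have h := hg (W * g)
    rw [map_mul, mul_smul, smul_r_map E hw, ← hq] at h
    simp only [W, Matrix.of_apply, Matrix.cons_val', Matrix.cons_val_zero, Matrix.cons_val_one,
      Matrix.cons_val_fin_one, map_one, one_mul] at h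
    have hpos : 0 < Complex.normSq (q.z + emb t) + q.r ^ 2 :=
      add_pos_of_nonneg_of_pos (Complex.normSq_nonneg _) (pow_pos q.r_pos 2)
    rw [div_le_iff₀ hpos] at h
    have : 1 ≤ Complex.normSq (q.z + emb t) + q.r ^ 2 := by
      nlinarith [q.r_pos]
    linarith
  refine ⟨?_, ?_⟩
  · rw [Pt.pt_smul, map_mul, mul_smul, ← hq, hr]
    nlinarith [q.r_pos]
  · rw [Pt.pt_smul, map_mul, mul_smul, ← hq, hz, Complex.norm_def, Real.sqrt_le_one]
    linarith

/-- Finitely many matrices move a given point into the box. -/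
theorem finite_smul_mem_liftBox (E : EisData O)
    (hw : emb E.w = -(1 / 2) + (Real.sqrt 3 : ℂ) / 2 * Complex.I) (x : Pt emb M) :
    {g : GL (Fin 2) O | g • x ∈ liftBox emb M}.Finite := by
  classical
  set p := x.pt with hp
  set R := max 1 ‖p.z‖ with hR
  set Mx := max p.r p.r⁻¹ with hMx
  set L := max (2 * p.r) (Mx / p.r) with hL
  have hr0 := p.r_pos
  set B := ((1 + R + L + Mx) ^ 3 * (1 + p.r⁻¹)) * Real.sqrt L with hB
  have hfin : {y : O | ‖emb y‖ ≤ B}.Finite :=
    (finite_normSq_emb_le E hw (B ^ 2)).subset fun y hy => by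
      rw [Set.mem_ofPred_eq, Complex.normSq_eq_norm_sq]
      exact pow_le_pow_left₀ (norm_nonneg _) hy 2
  refine ((Set.Finite.pi fun _ : Fin 2 => Set.Finite.pi fun _ : Fin 2 => hfin).preimage
    (f := fun g : GL (Fin 2) O => fun i j => g i j) fun g _ g' _ e =>
      Units.ext (Matrix.ext fun i j => congrFun (congrFun e i) j)).subset fun g hg => ?_
  obtain ⟨hgr, hgz⟩ := hg
  rw [Pt.pt_smul, ← hp] at hgr hgz
  have hD := smul_r_map E hw g p
  have hs : (ι g • p).r ≤ Mx := by
    rw [hD]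
    by_cases hc : g 1 0 = 0
    · have hd : IsUnit (g 1 1) := by
        have := Matrix.isUnits_det_units g
        rw [Matrix.det_fin_two, hc, mul_zero, sub_zero] at this
        exact isUnit_of_mul_isUnit_right this
      simp [hc, normSq_emb_unit E hw hd, hMx]
    · refine le_trans ?_ (le_max_right _ _)
      have h1 := one_le_normSq_emb E hw hc
      have hpos : 0 < Complex.normSq (emb (g 1 0) * p.z + emb (g 1 1)) +
          Complex.normSq (emb (g 1 0)) * p.r ^ 2 := HSpace.denSq_pos (ι g) p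
      rw [div_le_iff₀ hpos]
      have h2 := Complex.normSq_nonneg (emb (g 1 0) * p.z + emb (g 1 1))
      calc p.r = p.r⁻¹ * (1 * p.r ^ 2) := by field_simp
        _ ≤ _ := by
          refine mul_le_mul_of_nonneg_left ?_ (inv_nonneg.mpr hr0.le)
          nlinarith
  have hL0 : 0 ≤ L := le_trans (by positivity) (le_max_left _ _)
  have he := fun j k => Reduction.entries_le (ι g) p hr0
    (le_trans zero_le_one (le_max_left _ _)) hL0
    (le_trans hr0.le (le_max_left _ _)) le_rfl (le_max_right _ _) (hgz.trans (le_max_left _ _))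
    (by
      calc p.r = (2 * p.r) * (1 / 2) := by ring
        _ ≤ L * (ι g • p).r := mul_le_mul (le_max_left _ _) hgr (by norm_num) hL0)
    (hs.trans (by
      calc Mx = (Mx / p.r) * p.r := by rw [div_mul_cancel₀ _ hr0.ne']
        _ ≤ L * p.r := mul_le_mul_of_nonneg_right (le_max_right _ _) hr0.le))
    (Or.inr hs) j k
  intro i _ j _
  have := he i j
  rw [absDet_map_eq_one E hw, Real.sqrt_one, mul_one] at this
  exact this

/-- **A good weight exists.** -/
theorem exists_isGoodWeight (E : EisData O)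
    (hw : emb E.w = -(1 / 2) + (Real.sqrt 3 : ℂ) / 2 * Complex.I) :
    ∃ wt : Pt emb M → ℝ≥0∞, IsGoodWeight wt := by
  have := countable_of_eisData E
  have := countable_gl (O := O)
  set S := liftBox emb M with hS
  have hSm : MeasurableSet S := measurableSet_liftBox
  refine ⟨boxWeight (GL (Fin 2) O) S, ⟨?_, ?_⟩, fun x => ?_, fun x hx => ?_⟩
  · exact (measurable_one.indicator hSm).div (Measurable.tsum fun g : GL (Fin 2) O =>
      (measurable_one.indicator hSm).comp (measurable_const_smul g))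
  · refine Filter.Eventually.of_forall fun x => ?_
    have hinv : ∀ g : GL (Fin 2) O, ∑' h : GL (Fin 2) O, S.indicator 1 (h • g • x)
        = ∑' h : GL (Fin 2) O, S.indicator (1 : Pt emb M → ℝ≥0∞) (h • x) := by
      intro g
      simp only [smul_smul]
      exact (Equiv.mulRight g).tsum_eq fun h => S.indicator (1 : Pt emb M → ℝ≥0∞) (h • x)
    simp only [boxWeight, hinv, div_eq_mul_inv, ENNReal.tsum_mul_right]
    rw [tsum_indicator_smul_eq S x (finite_smul_mem_liftBox E hw x)]
    refine ENNReal.mul_inv_cancel ?_ (ENNReal.natCast_ne_top _)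
    rw [Nat.cast_ne_zero, Ne, Set.ncard_eq_zero (finite_smul_mem_liftBox E hw x)]
    exact Set.nonempty_iff_ne_empty.mp (exists_smul_mem_liftBox E hw x)
  · refine ENNReal.div_le_of_le_mul ?_
    rw [one_mul]
    have h := ENNReal.le_tsum (f := fun g : GL (Fin 2) O =>
      S.indicator (1 : Pt emb M → ℝ≥0∞) (g • x)) 1
    simpa using h
  · by_contra hne
    exact hx (by simp [boxWeight, Set.indicator_of_notMem (show x ∉ S from hne)])

end Fermat.Agent.LT.Lift
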