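import Fermat.Agent.LT.Lift.Field
import Fermat.Agent.LT.Lift.Input
import Fermat.Agent.LT.Lift.Level
import Fermat.Agent.LT.Lift.Majorant
import Fermat.Agent.LT.Lift.Mixed
import Fermat.Agent.LT.Lift.PeriodAsai
import Fermat.Agent.LT.Lift.Period
import Fermat.Agent.LT.Lift.Places
import Fermat.Agent.LT.Lift.TrivialThree
import Fermat.Agent.LT.Lift.Weight

/-!
# C3: the theta lift to weight one
-/

set_option autoImplicit false

open Fermat.Agent.Galois WeierstrassCurve CongruenceSubgroup NumberField IsDedekindDomain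
open MeasureTheory
open scoped MatrixGroups ModularForm ComplexConjugate ENNReal

noncomputable section

namespace Fermat.Agent.LT.Lift

open Adelic
open Theta (Disc IsTrivialAtThree)
open Orbit (EisData)

local notation "𝕆" => 𝓞 fieldF
local notation "𝔸" => FiniteAdeleRing (𝓞 fieldF) fieldF

/-- A translate of the eigenfunction, of a level `m` with the same primes as `M`, with a nonzero
sum of plane periods (computed at a level `L ∣ 3 m²`). -/
def HasPeriodVector {Φ : Frame fieldF Unit} {U : Subgroup (GfK fieldF)} (M : ℕ)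
    (φ : Space Φ U → ℂ) : Prop :=
  ∃ (m : ℕ) (_ : NeZero m) (h₀ : GfK fieldF) (L : ℕ) (_ : NeZero L),
    M ∣ m ∧ (∀ p : ℕ, p.Prime → p ∣ m → p ∣ M) ∧
    (∀ v : HeightOneSpectrum 𝕆, v.intValuation (m : 𝕆) = 1 → Aleph.localGL fieldF v h₀ = 1) ∧
    (∀ g ∈ principalLevel fieldF (m : 𝕆), h₀⁻¹ * g * h₀ ∈ U) ∧
    L ∣ 3 * m ^ 2 ∧ (∀ g ∈ principalLevel fieldF (L : 𝕆), h₀⁻¹ * g * h₀ ∈ U) ∧
    ∑ g : GL (Fin 2) (ZMod L),
      Asai.planePeriod φ ((Asai.ratLift fieldF g * h₀ : GfK fieldF) : Yf U) ≠ 0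

theorem intValuation_eq_one_of_mul {v : HeightOneSpectrum 𝕆} {x y : 𝕆}
    (h : v.intValuation (x * y) = 1) : v.intValuation y = 1 := by
  refine le_antisymm (v.intValuation_le_one y) ?_
  rw [← h, map_mul]
  exact mul_le_of_le_one_left' (v.intValuation_le_one x)

theorem primeTo_of_dvd {n m : ℕ} (h : n ∣ m) {v : HeightOneSpectrum 𝕆} (hv : PrimeTo m v) :
    PrimeTo n v := fun hn => hv (Ideal.mem_of_dvd _ (Nat.cast_dvd_cast h) hn)

/-- A nonzero period gives a nonzero lift, of a weight trivial at `3` if `3 ∤ M`. -/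
theorem exists_liftF_ne_zero {O : Type*} [CommRing O] [IsDomain O] [IsBezout O] {E : EisData O}
    {emb : O →+* ℂ} {M : ℕ} [NeZero M] {A : Pt emb M → ℂ} {S : Set ℕ} {a : ℕ → ℂ}
    {wt : Pt emb M → ℝ≥0∞} {C : ℝ} (hA : LiftInput E emb M A S a) (hcen : IsCentral A)
    (hfac : ∀ (w : HSpace) (k u : Red O M),
      (∀ i j, (M : O ⧸ modIdeal O M) ∣
        ((u : Matrix (Fin 2) (Fin 2) (O ⧸ modIdeal O M)) - 1) i j) →
      A (Pt.mk emb w (k * u)) = A (Pt.mk emb w k))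
    (hwt : IsGoodWeight wt) (hmaj : IsMajorant M C) (hS : ∀ p ∈ S, p.Prime)
    (hper : HasNonzeroPeriod A) :
    ∃ φ : Disc (M ^ 2) → ℂ, (¬ 3 ∣ M → IsTrivialAtThree M φ) ∧ liftF E wt A φ ≠ 0 := by
  have := finite_red E M
  obtain ⟨p, hp⟩ := hA.set_nonempty
  obtain ⟨B, hB⟩ := hA.bounded
  have hne := liftF_periodWeight_ne_zero E hA.emb_w hwt hA.invariant hA.continuous hA.bounded
    (fun k hc hq w j => (hA.spherical k hc hq w j).2) hA.zero_mean
    (hA.integral_eq_zero hcen hwt (hS p hp) hp) hmaj hcen hfac hper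
  obtain ⟨φ, hφ, hφne⟩ := exists_isTrivialAtThree_liftF_ne_zero E wt A
    (fun ψ τ => (integrable_thetaKer E hwt hmaj ψ τ).bdd_mul
      (measurable_of_continuous_slices hA.continuous).aestronglyMeasurable
      (Filter.Eventually.of_forall hB)) hne
  exact ⟨φ, fun _ => hφ, hφne⟩

theorem stmtThetaLift_of_pieces
    (hperiod : ∀ (W : WeierstrassCurve ℤ) (ρ : GalQ →* GL (Fin 2) (ZMod 3)), IsThreeRep W ρ →
      ∀ (Φ : Frame fieldF Unit) (M : ℕ) (U : Subgroup (GfK fieldF)) (φ : Space Φ U → ℂ)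
        (a : HeightOneSpectrum 𝕆 → ℂ) (X : Set (HeightOneSpectrum 𝕆)),
        M ≠ 0 → principalLevel _ (M : 𝕆) ≤ U → U ≤ principalLevel _ 1 → HasFullDet U →
        IsCuspEigen φ →
        (∀ v, PrimeTo (3 * M) v → IsHeckeEigenAt φ v (a v) ∧ ‖a v‖ ≤ 2 ∧ (a v).im = 0) →
        SmallPlaceSet X →
        (∀ v, PrimeTo (3 * M) v → ∀ σ, IsFrobOver fieldF v.asIdeal σ →
          v ∉ X ∨ ρ σ ∈ quatSubgroup → a v = octTrace ρ σ) →
        ∃ ψ : Space Φ U → ℂ, IsCuspEigen ψ ∧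
          (∀ v, PrimeTo (3 * M) v → IsHeckeEigenAt ψ v (a v)) ∧ HasPeriodVector M ψ) :
    StmtThetaLift := by
  refine stmtThetaLift_of_hasMixedForm fun W ρ _ _ hρ hD => ?_
  obtain ⟨Φ, M, U, φ, a, X, hM, h3M, hMU, hU1, hdet, hφ, heigen, hX, hpin⟩ := hD
  obtain ⟨ψ, hψc, hψe, m, hm, h₀, L, hL, hMm, hmM, hh₀, hconjm, hL3, hconjL, hsum⟩ :=
    hperiod W ρ hρ Φ M U φ a X hM hMU hU1 hdet hφ heigen hX hpin
  have hdiv : 3 * M ∣ 3 * m := Nat.mul_dvd_mul_left 3 hMm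
  obtain ⟨S, aP, XQ, hXQ, hSne, hS, hexact⟩ :=
    exists_lift_primes hρ (M := 3 * m) (by simp [NeZero.ne m]) a
    (fun v hv => (heigen v (primeTo_of_dvd hdiv hv)).2.2) hX
    fun v hv => hpin v (primeTo_of_dvd hdiv hv)
  have hdvd3 : ∀ p : ℕ, p.Prime → (p ∣ 3 * (3 * m) ↔ p ∣ 3 * m) := fun p hp =>
    ⟨fun h => (hp.dvd_mul.mp h).elim (fun h' => h'.mul_right m) id, fun h => h.mul_left 3⟩
  have := isPrincipalIdealRing_fieldF
  have := isBezout_fieldF
  obtain ⟨E, hw⟩ := exists_eisData_fieldF (frameEmb Φ)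
  have hlvl : lvl fieldF m = ((3 * m : ℕ) : 𝕆) * (m : 𝕆) := by simp [lvl]; ring
  have hconj : ∀ g ∈ principalLevel fieldF (lvl fieldF m), h₀⁻¹ * g * h₀ ∈ U := fun g hg =>
    hconjm g (principalLevel_mono (hlvl ▸ dvd_mul_left (m : 𝕆) _) hg)
  have hA : LiftInput E (frameEmb Φ) m (liftA Φ m h₀ ψ) S aP :=
    liftInput_of E hw hconj
      (fun v hv => hh₀ v (intValuation_eq_one_of_mul (hlvl ▸ hv)))
      hψc (m₀ := 3 * M)
      ((principalLevel_mono (Nat.cast_dvd_cast (dvd_mul_left M 3))).trans hMU)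
      (hdiv.trans (Nat.mul_dvd_mul_left 3 (dvd_pow_self m two_ne_zero))) hU1
      (fun v hv => ⟨hψe v hv, (heigen v hv).2⟩) hSne
      fun p hp => ⟨(hS p hp).1, fun h => (hS p hp).2.1 ((hdvd3 p (hS p hp).1).mpr h),
        (hS p hp).2.2.1, (hS p hp).2.2.2.2.imp fun v hv => ⟨hv.1, hv.2.2⟩⟩
  have hcen : IsCentral (liftA Φ m h₀ ψ) := liftA_central hconj ψ
  obtain ⟨wt, hwt⟩ := exists_isGoodWeight (M := m) E hw
  obtain ⟨C, hC⟩ := exists_isMajorant m
  obtain ⟨χ, hχ, hχne⟩ := exists_liftF_ne_zero hA hcen (liftA_factor hconjm ψ) hwt hC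
    (fun p hp => (hS p hp).1) (hasNonzeroPeriod_of_planePeriod hL3 hconjL ψ hsum)
  exact hasMixedForm_of_lift (fun h3 h3m => h3M h3 (hmM 3 Nat.prime_three h3m)) hA hcen hwt hC χ
    (fun p hp => (hS p hp).1) (fun γ hγ => liftF_slash_inMixed E hχ hγ) hχne
    (liftF_hecke_mixed E hχ hwt hA hcen hC) hXQ
    fun p hp hpm => hexact p hp fun h => hpm ((hdvd3 p hp).mp h)

end Fermat.Agent.LT.Lift
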