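import Fermat.Agent.LT.Lift.Basic
import Fermat.Agent.LT.Lift.Invariance
import Fermat.Agent.LT.Adelic.Projective

/-!
# The neighbours as left cosets

Every integral matrix whose determinant is `ϖ` times a unit is `h j * γ` for exactly one `j` and
`γ ∈ GL₂(O)`.  Consequently `g ↦ ϖ g⁻¹` permutes the pairs `(j, γ)`, and this gives the twisted
inverse of the correspondence `x ↦ γ⁻¹ • (h j)⁻¹ • x` on the space of the lift.
-/

set_option autoImplicit false

noncomputable section

namespace Fermat.Agent.LT.Lift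

open MeasureTheory
open Adelic (HSpace)
open Theta (IsNeighbours IsStdEmb)
open Orbit (EisData)
open Matrix

variable {O : Type*} [CommRing O] (E : EisData O)

include E in
theorem natCast_mul_cancelO {n : ℕ} (hn : n ≠ 0) {x y : O} (h : (n : O) * x = (n : O) * y) :
    x = y := by
  obtain ⟨a, b, rfl⟩ := E.repr x
  obtain ⟨c, d, rfl⟩ := E.repr y
  obtain ⟨h1, h2⟩ := E.ext_coords (a := n * a) (b := n * b) (a' := n * c) (b' := n * d) (by
    push_cast; linear_combination h)
  rw [mul_left_cancel₀ (Int.natCast_ne_zero.mpr hn) h1,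
    mul_left_cancel₀ (Int.natCast_ne_zero.mpr hn) h2]

variable {p : ℕ} [Fact p.Prime] {J : Type*} [Fintype J] {ϖ : O} {r : O →+* ZMod p}
  {h : J → Matrix (Fin 2) (Fin 2) O} (hn : IsNeighbours E p ϖ r h)

include hn

theorem pi_mul_cancel {x y : O} (hxy : ϖ * x = ϖ * y) : x = y :=
  natCast_mul_cancelO E (Fact.out : p.Prime).ne_zero
    (by rw [← hn.norm_eq]; linear_combination E.conj ϖ * hxy)

theorem pi_smul_cancel {X Y : Matrix (Fin 2) (Fin 2) O} (hXY : ϖ • X = ϖ • Y) : X = Y :=
  Matrix.ext fun i j => pi_mul_cancel E hn (congrFun (congrFun hXY i) j)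

theorem dvd_of_map_eq_zero {x : O} (hx : r x = 0) : ϖ ∣ x := by
  set z := x * E.conj ϖ with hz
  have hz1 : r z = 0 := by rw [hz, map_mul, hx, zero_mul]
  have hz2 : r (E.conj z) = 0 := by rw [hz, map_mul, E.conj_conj, map_mul, hn.map_pi, mul_zero]
  obtain ⟨a, b, hab⟩ := E.repr z
  rw [hab] at hz1 hz2
  simp only [map_add, map_mul, map_intCast, E.conj_w, map_sub, map_neg, map_one] at hz1 hz2
  have hb : ((b : ℤ) : ZMod p) = 0 := by
    have e : r E.s * ((b : ℤ) : ZMod p) = 0 := by
      rw [EisData.s, map_add, map_mul, map_one, map_ofNat]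
      linear_combination hz1 - hz2
    exact (mul_eq_zero.mp e).resolve_left (Theta.s_red_ne_zero r hn.three_ne)
  have ha : ((a : ℤ) : ZMod p) = 0 := by rw [hb, zero_mul, add_zero] at hz1; exact hz1
  obtain ⟨a', rfl⟩ := (ZMod.intCast_zmod_eq_zero_iff_dvd _ _).mp ha
  obtain ⟨b', rfl⟩ := (ZMod.intCast_zmod_eq_zero_iff_dvd _ _).mp hb
  refine ⟨(a' : O) + (b' : O) * E.w, natCast_mul_cancelO E (Fact.out : p.Prime).ne_zero ?_⟩
  rw [← hn.norm_eq]
  push_cast at hab
  rw [← hn.norm_eq] at hab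
  linear_combination ϖ * hz.symm.trans hab

theorem mul_left_cancel_nbr {j : J} {X Y : Matrix (Fin 2) (Fin 2) O}
    (hXY : h j * X = h j * Y) : X = Y := by
  refine pi_smul_cancel E hn ?_
  have := congrArg ((h j).adjugate * ·) hXY
  simpa [← Matrix.mul_assoc, Matrix.adjugate_mul, hn.det_eq] using this

/-- Uniqueness of the factorisation. -/
theorem factor_unique {i i' : J × GL (Fin 2) O}
    (he : h i.1 * (i.2 : Matrix (Fin 2) (Fin 2) O) = h i'.1 * (i'.2 : Matrix (Fin 2) (Fin 2) O)) :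
    i = i' := by
  have h0 : ∀ j, ((h j).map r).adjugate * (h j).map r = 0 := fun j => by
    rw [Matrix.adjugate_mul, ← RingHom.mapMatrix_apply, ← RingHom.map_det, hn.det_eq, hn.map_pi,
      zero_smul]
  have hj : i.1 = i'.1 := by
    have h1 : ((h i.1).map r).adjugate * (h i'.1).map r = 0 := by
      have h2 := congrArg (fun g : Matrix (Fin 2) (Fin 2) O => ((h i.1).map r).adjugate * g.map r *
        ((i'.2⁻¹ : GL (Fin 2) O) : Matrix (Fin 2) (Fin 2) O).map r) he
      simp only [Matrix.map_mul, ← Matrix.mul_assoc, h0, Matrix.zero_mul] at h2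
      rwa [Matrix.mul_assoc (((h i.1).map r).adjugate * _), ← Matrix.map_mul, Units.mul_inv,
        Matrix.map_one _ (map_zero r) (map_one r), Matrix.mul_one, eq_comm] at h2
    obtain ⟨c, hc⟩ : ∃ c, (fun a => (h i'.1).map r a c) ≠ 0 := by
      by_contra hall
      push Not at hall
      exact hn.ne_zero i'.1 (Matrix.ext fun a b => congrFun (hall b) a)
    refine (hn.unique_line _ hc).unique (funext fun a => ?_) (funext fun a => ?_)
    · exact congrFun (congrFun h1 a) c
    · exact congrFun (congrFun (h0 i'.1) a) c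
  rcases i with ⟨j, γ⟩
  rcases i' with ⟨j', γ'⟩
  subst hj
  exact Prod.ext rfl (Units.ext (mul_left_cancel_nbr E hn he))

/-- Existence of the factorisation. -/
theorem factor_exists {g : Matrix (Fin 2) (Fin 2) O} {u : O} (hu : IsUnit u)
    (hg : g.det = ϖ * u) :
    ∃ i : J × GL (Fin 2) O, h i.1 * (i.2 : Matrix (Fin 2) (Fin 2) O) = g := by
  have hne : g.map r ≠ 0 := by
    intro h0
    have hd : ∀ a b, ϖ ∣ g a b := fun a b => dvd_of_map_eq_zero E hn (congrFun (congrFun h0 a) b)
    obtain ⟨g00, e00⟩ := hd 0 0; obtain ⟨g01, e01⟩ := hd 0 1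
    obtain ⟨g10, e10⟩ := hd 1 0; obtain ⟨g11, e11⟩ := hd 1 1
    rw [Matrix.det_fin_two, e00, e01, e10, e11] at hg
    have hu' : u = ϖ * (g00 * g11 - g01 * g10) :=
      (pi_mul_cancel E hn (by linear_combination hg)).symm
    have := (isUnit_of_mul_isUnit_left (hu' ▸ hu)).map r
    rw [hn.map_pi] at this
    exact not_isUnit_zero this
  obtain ⟨c, hc⟩ : ∃ c, (fun a => g.map r a c) ≠ 0 := by
    by_contra hall
    push Not at hall
    exact hne (Matrix.ext fun a b => congrFun (hall b) a)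
  obtain ⟨j, hj, -⟩ := hn.unique_line _ hc
  set A := ((h j).map r).adjugate with hA
  have hA0 : A * g.map r = 0 := by
    have hcA : ∀ a, A a 0 * g.map r 0 c + A a 1 * g.map r 1 c = 0 := fun a => by
      simpa [Matrix.mulVec, dotProduct, Fin.sum_univ_two] using congrFun hj a
    have hdet : g.map r 0 0 * g.map r 1 1 - g.map r 0 1 * g.map r 1 0 = 0 := by
      rw [← Matrix.det_fin_two, ← RingHom.mapMatrix_apply, ← RingHom.map_det, hg, map_mul,
        hn.map_pi, zero_mul]
    have hcne : g.map r 0 c ≠ 0 ∨ g.map r 1 c ≠ 0 := by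
      by_contra hh
      push Not at hh
      exact hc (funext fun a => by fin_cases a; exacts [hh.1, hh.2])
    ext a b
    rw [Matrix.mul_apply, Fin.sum_univ_two, Matrix.zero_apply]
    have ha := hcA a
    have hbc : g.map r 0 b * g.map r 1 c = g.map r 0 c * g.map r 1 b := by
      fin_cases b <;> fin_cases c <;> simp only [Fin.mk_one, Fin.zero_eta] <;>
        first | ring1 | linear_combination hdet | linear_combination -hdet
    rcases hcne with h1 | h1
    · exact mul_right_cancel₀ h1 (by linear_combination g.map r 0 b * ha - A a 1 * hbc)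
    · exact mul_right_cancel₀ h1 (by linear_combination g.map r 1 b * ha + A a 0 * hbc)
  have hdvd : ∀ a b, ϖ ∣ ((h j).adjugate * g) a b := fun a b => dvd_of_map_eq_zero E hn (by
    have := congrFun (congrFun hA0 a) b
    rwa [hA, Theta.map_adjugate_red, ← Matrix.map_mul] at this)
  choose γ hγ using hdvd
  have hγ' : (h j).adjugate * g = ϖ • Matrix.of γ :=
    Matrix.ext fun a b => by rw [hγ]; rfl
  have hfac : h j * Matrix.of γ = g := by
    refine pi_smul_cancel E hn ?_
    rw [← Matrix.mul_smul, ← hγ', ← Matrix.mul_assoc, Matrix.mul_adjugate, hn.det_eq,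
      Matrix.smul_mul, Matrix.one_mul]
  have hdetγ : (Matrix.of γ).det = u := pi_mul_cancel E hn (by
    rw [← hn.det_eq j, ← Matrix.det_mul, hfac, hg, hn.det_eq])
  exact ⟨(j, Matrix.GeneralLinearGroup.mk'' (Matrix.of γ) (hdetγ ▸ hu)), hfac⟩

theorem exists_star_factor (i : J × GL (Fin 2) O) : ∃ i' : J × GL (Fin 2) O,
    h i'.1 * (i'.2 : Matrix (Fin 2) (Fin 2) O) =
      ((i.2⁻¹ : GL (Fin 2) O) : Matrix (Fin 2) (Fin 2) O) * (h i.1).adjugate := by
  refine factor_exists E hn (Matrix.isUnits_det_units i.2⁻¹) ?_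
  rw [Matrix.det_mul, Matrix.det_adjugate, Fintype.card_fin, hn.det_eq]
  ring

theorem star_factor_involutive :
    Function.Involutive fun i : J × GL (Fin 2) O => (exists_star_factor E hn i).choose := by
  intro i
  simp only
  set i' := (exists_star_factor E hn i).choose with hi'
  have h1 := (exists_star_factor E hn i).choose_spec
  rw [← hi'] at h1
  refine factor_unique E hn ?_
  rw [(exists_star_factor E hn i').choose_spec]
  -- both sides times `h i' * γ'` are `ϖ`
  refine pi_smul_cancel E hn ?_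
  have e1 : ((i'.2⁻¹ : GL (Fin 2) O) : Matrix (Fin 2) (Fin 2) O) * (h i'.1).adjugate *
      (h i'.1 * (i'.2 : Matrix (Fin 2) (Fin 2) O)) = ϖ • 1 := by
    rw [Matrix.mul_assoc, ← Matrix.mul_assoc (h i'.1).adjugate, Matrix.adjugate_mul, hn.det_eq,
      Matrix.smul_mul, Matrix.one_mul, Matrix.mul_smul, Units.inv_mul]
  have e2 : (h i'.1 * (i'.2 : Matrix (Fin 2) (Fin 2) O)) *
      (h i.1 * (i.2 : Matrix (Fin 2) (Fin 2) O)) = ϖ • 1 := by
    rw [h1, Matrix.mul_assoc, ← Matrix.mul_assoc (h i.1).adjugate, Matrix.adjugate_mul, hn.det_eq,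
      Matrix.smul_mul, Matrix.one_mul, Matrix.mul_smul, Units.inv_mul]
  set X := ((i'.2⁻¹ : GL (Fin 2) O) : Matrix (Fin 2) (Fin 2) O) * (h i'.1).adjugate
  set Y := h i.1 * (i.2 : Matrix (Fin 2) (Fin 2) O)
  set Z := h i'.1 * (i'.2 : Matrix (Fin 2) (Fin 2) O)
  calc ϖ • X = X * (Z * Y) := by rw [e2, Matrix.mul_smul, Matrix.mul_one]
    _ = ϖ • Y := by rw [← Matrix.mul_assoc, e1, Matrix.smul_mul, Matrix.one_mul]

/-- The permutation `g ↦ ϖ g⁻¹` of the pairs `(j, γ)`. -/
def starPerm : J × GL (Fin 2) O ≃ J × GL (Fin 2) O :=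
  (star_factor_involutive E hn).toPerm _

theorem starPerm_spec (i : J × GL (Fin 2) O) :
    h (starPerm E hn i).1 * ((starPerm E hn i).2 : Matrix (Fin 2) (Fin 2) O) *
      (h i.1 * (i.2 : Matrix (Fin 2) (Fin 2) O)) = ϖ • 1 := by
  rw [starPerm, Function.Involutive.coe_toPerm, (exists_star_factor E hn i).choose_spec,
    Matrix.mul_assoc, ← Matrix.mul_assoc (h i.1).adjugate, Matrix.adjugate_mul, hn.det_eq,
    Matrix.smul_mul, Matrix.one_mul, Matrix.mul_smul, Units.inv_mul]

end Fermat.Agent.LT.Lift
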