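import Fermat.Agent.LT.Lift.Input
import Mathlib.Data.ZMod.Units

/-!
# Periods of `liftA` in adelic terms

The period of `liftA` at a rational matrix is the integral of `φ` over the fundamental domain at
any adelic lift, and the sum over `GL₂(ℤ/3M²)` may be computed at any level `m ∣ 3M²` which `h₀`
tolerates.
-/

set_option autoImplicit false

noncomputable section

namespace Fermat.Agent.LT.Lift

open MeasureTheory IsDedekindDomain NumberField Matrix
open Adelic (HSpace Frame Space GfK Yf principalLevel MemMul MatMemMul)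
open scoped MatrixGroups

/-- `GL₂(ℤ/n) → GL₂(ℤ/m)` is surjective. -/
theorem gl_map_castHom_surjective {m n : ℕ} [NeZero m] [NeZero n] (h : m ∣ n) :
    Function.Surjective
      (Matrix.GeneralLinearGroup.map (n := Fin 2) (ZMod.castHom h (ZMod m))) := by
  classical
  intro g
  set P : ℕ := ∏ p ∈ n.primeFactors.filter (fun p => ¬ p ∣ m), p with hP
  have hco : Nat.Coprime P m := Nat.Coprime.prod_left fun p hp => by
    rw [Finset.mem_filter, Nat.mem_primeFactors] at hp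
    exact (hp.1.1.coprime_iff_not_dvd).mpr hp.2
  obtain ⟨x, y, hxy⟩ := Nat.isCoprime_iff_coprime.mpr hco
  set e : ℤ := x * P with he
  let L : Matrix (Fin 2) (Fin 2) ℤ := Matrix.of fun i j =>
    e * ((g i j).val : ℤ) + (1 - e) * (if i = j then 1 else 0)
  have hem : ((e : ℤ) : ZMod m) = 1 := by
    have h1 := congrArg (fun z : ℤ => (z : ZMod m)) hxy
    simpa [he] using h1
  have hLm : L.map (Int.castRingHom (ZMod m)) = (g : Matrix (Fin 2) (Fin 2) (ZMod m)) := by
    ext i j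
    simp [L, hem]
  have hunit : IsUnit ((L.map (Int.castRingHom (ZMod n))).det) := by
    rw [← RingHom.mapMatrix_apply, ← RingHom.map_det]
    show IsUnit ((L.det : ℤ) : ZMod n)
    rw [ZMod.coe_int_isUnit_iff_isCoprime, Int.isCoprime_iff_nat_coprime, Int.natAbs_natCast]
    refine Nat.coprime_of_dvd fun p hp hpn hpd => ?_
    have hdvd : (p : ℤ) ∣ L.det := Int.natCast_dvd.mpr hpd
    have := Fact.mk hp
    have h0 : ((L.det : ℤ) : ZMod p) = 0 := (ZMod.intCast_zmod_eq_zero_iff_dvd _ _).mpr hdvd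
    have hdet : ((L.det : ℤ) : ZMod p) = (L.map (Int.castRingHom (ZMod p))).det :=
      RingHom.map_det (Int.castRingHom (ZMod p)) L
    rw [hdet] at h0
    by_cases hpm : p ∣ m
    · have e1 : L.map (Int.castRingHom (ZMod p)) =
          (L.map (Int.castRingHom (ZMod m))).map (ZMod.castHom hpm (ZMod p)) := by
        ext i j; simp
      rw [e1, hLm, ← RingHom.mapMatrix_apply, ← RingHom.map_det] at h0
      exact ((Matrix.isUnits_det_units g).map (ZMod.castHom hpm (ZMod p))).ne_zero h0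
    · have hPp : ((P : ℤ) : ZMod p) = 0 := by
        rw [ZMod.intCast_zmod_eq_zero_iff_dvd]
        exact_mod_cast Finset.dvd_prod_of_mem (fun q => q) (Finset.mem_filter.mpr
          ⟨Nat.mem_primeFactors.mpr ⟨hp, hpn, NeZero.ne n⟩, hpm⟩)
      have e1 : L.map (Int.castRingHom (ZMod p)) = 1 := by
        ext i j
        have hP0 : ((P : ℕ) : ZMod p) = 0 := by exact_mod_cast hPp
        simp [L, he, hP0, Matrix.one_apply]
      rw [e1, Matrix.det_one] at h0
      exact one_ne_zero h0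
  refine ⟨((Matrix.isUnit_iff_isUnit_det _).mpr hunit).unit, Units.ext ?_⟩
  show (L.map (Int.castRingHom (ZMod n))).map (ZMod.castHom h (ZMod m)) = _
  rw [← hLm]
  ext i j
  simp

/-- A sum over `GL₂(ℤ/n)` of a function factoring through `GL₂(ℤ/m)`. -/
theorem exists_sum_comp_castHom_eq {m n : ℕ} [NeZero m] [NeZero n] (h : m ∣ n)
    (F : GL (Fin 2) (ZMod m) → ℂ) :
    ∃ c : ℕ, c ≠ 0 ∧ ∑ g : GL (Fin 2) (ZMod n),
        F (Matrix.GeneralLinearGroup.map (ZMod.castHom h (ZMod m)) g) = c * ∑ g, F g := by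
  classical
  set f := Matrix.GeneralLinearGroup.map (n := Fin 2) (ZMod.castHom h (ZMod m))
  refine ⟨(Finset.univ.filter fun g => f g = 1).card,
    Finset.card_ne_zero.mpr ⟨1, by simp⟩, ?_⟩
  rw [← Finset.sum_fiberwise Finset.univ f (fun g => F (f g)), Finset.mul_sum]
  refine Finset.sum_congr rfl fun b _ => ?_
  rw [Finset.sum_congr rfl (g := fun _ => F b) fun g hg => by rw [(Finset.mem_filter.mp hg).2],
    Finset.sum_const, nsmul_eq_mul]
  congr 2
  obtain ⟨g₀, rfl⟩ := gl_map_castHom_surjective h b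
  refine Finset.card_equiv (Equiv.mulLeft g₀⁻¹) fun g => ?_
  simp only [Finset.mem_filter, Finset.mem_univ, true_and, Equiv.coe_mulLeft, map_mul, map_inv]
  rw [inv_mul_eq_one, eq_comm]

variable {K : Type*} [Field K] [NumberField K] {M : ℕ} {Φ : Frame K Unit}
  {U : Subgroup (GfK K)}

local notation "𝕆" => 𝓞 K
local notation "𝔸" => FiniteAdeleRing (𝓞 K) K

/-- The integral of `φ` over the fundamental domain of `SL₂(ℤ)` in the plane `Im z = 0`. -/
def fdInt (φ : Space Φ U → ℂ) (y : Yf U) : ℂ :=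
  ∫ q in {q : ℝ × ℝ | 1 ≤ q.1 ^ 2 + q.2 ^ 2 ∧ |q.1| ≤ 1 / 2 ∧ 0 < q.2},
    (if h : 0 < q.2 then (q.2 ^ 2)⁻¹ • φ (Space.mk (fun _ => ⟨(q.1 : ℂ), q.2, h⟩) y) else 0)

theorem planePer_liftA {h₀ : GfK K}
    (hconj : ∀ g ∈ principalLevel K (lvl K M), h₀⁻¹ * g * h₀ ∈ U) (φ : Space Φ U → ℂ)
    {g : GfK K} {k : Red 𝕆 M} (hg : IsRed g k) :
    planePer (liftA Φ M h₀ φ) k = fdInt φ ((g * h₀ : GfK K) : Yf U) := by
  unfold planePer fdInt
  congr 1
  funext q
  split_ifs with h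
  · rw [liftA_mk_of_isRed hconj φ hg]
  · rfl

/-- An integral matrix lifting a matrix over `ℤ/n`. -/
def intLift {n : ℕ} (g : GL (Fin 2) (ZMod n)) : Matrix (Fin 2) (Fin 2) 𝕆 :=
  (g : Matrix (Fin 2) (Fin 2) (ZMod n)).map fun a => ((a.val : ℕ) : 𝕆)

/-- **The period criterion at a smaller level.** -/
theorem hasNonzeroPeriod_liftA [NeZero M] {h₀ : GfK K} (φ : Space Φ U → ℂ) {m : ℕ} [NeZero m]
    (hm : m ∣ 3 * M ^ 2)
    (hconjm : ∀ g ∈ principalLevel K (m : 𝕆), h₀⁻¹ * g * h₀ ∈ U)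
    (f : GL (Fin 2) (ZMod m) → GfK K) (hf1 : ∀ g, f g ∈ principalLevel K (1 : 𝕆))
    (hf : ∀ g, MatMemMul (m : 𝕆)
      ((f g : Matrix (Fin 2) (Fin 2) 𝔸) - (intLift (K := K) g).map (algebraMap 𝕆 𝔸)))
    (hsum : ∑ g, fdInt φ ((f g * h₀ : GfK K) : Yf U) ≠ 0) :
    HasNonzeroPeriod (liftA Φ M h₀ φ) := by
  classical
  have : NeZero (3 * M ^ 2) := ⟨by simp [NeZero.ne M]⟩
  have hdvd : (m : 𝕆) ∣ lvl K M := by
    obtain ⟨b, hb⟩ := hm
    refine ⟨(b : 𝕆), ?_⟩
    rw [lvl, ← Nat.cast_mul, ← hb]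
    simp
  have hconj : ∀ g ∈ principalLevel K (lvl K M), h₀⁻¹ * g * h₀ ∈ U := fun g hg =>
    hconjm g (Adelic.principalLevel_mono hdvd hg)
  have key : ∀ g : GL (Fin 2) (ZMod (3 * M ^ 2)), planePer (liftA Φ M h₀ φ) (ratRed 𝕆 M g) =
      fdInt φ ((f (Matrix.GeneralLinearGroup.map (ZMod.castHom hm (ZMod m)) g) * h₀ : GfK K) :
        Yf U) := by
    intro g
    set k := ratRed 𝕆 M g
    set g' := Matrix.GeneralLinearGroup.map (ZMod.castHom hm (ZMod m)) g
    obtain ⟨hk1, L, hL, hgL⟩ := isRed_khat (K := K) k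
    rw [planePer_liftA hconj φ (isRed_khat k)]
    congr 1
    refine QuotientGroup.eq.mpr (Adelic.le_levelZ U ?_)
    have e : (khat k * h₀)⁻¹ * (f g' * h₀) = h₀⁻¹ * ((khat k)⁻¹ * f g') * h₀ := by group
    rw [e]
    refine hconjm _ (Adelic.inv_mul_mem_of_congr hk1 (hf1 g') fun i j => ?_)
    have hLg : (m : 𝕆) ∣ (intLift (K := K) g') i j - L i j := by
      have h1 : Ideal.Quotient.mk (modIdeal 𝕆 M) (L i j) =
          Ideal.Quotient.mk (modIdeal 𝕆 M) (((g i j).val : ℕ) : 𝕆) := by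
        have := congrFun (congrFun hL i) j
        rw [Matrix.map_apply] at this
        rw [this, map_natCast]
        show ratHom 𝕆 M (g i j) = _
        rw [← map_natCast (ratHom 𝕆 M), ZMod.natCast_zmod_val]
      obtain ⟨c, hc⟩ := Ideal.mem_span_singleton'.mp (Ideal.Quotient.eq.mp h1)
      obtain ⟨d, hd⟩ := hdvd
      have h2 : ((m : ℕ) : ℤ) ∣ ((g' i j).val : ℤ) - ((g i j).val : ℤ) := by
        rw [← ZMod.intCast_zmod_eq_zero_iff_dvd]
        push_cast
        rw [ZMod.natCast_zmod_val]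
        show (ZMod.castHom hm (ZMod m)) (g i j) - _ = 0
        rw [← map_natCast (ZMod.castHom hm (ZMod m)), ZMod.natCast_zmod_val, sub_self]
      obtain ⟨t, ht⟩ := h2
      have ht' := congrArg (fun z : ℤ => (z : 𝕆)) ht
      push_cast at ht'
      change c * lvl K M = _ at hc
      refine ⟨(t : 𝕆) - c * d, ?_⟩
      show (((g' i j).val : ℕ) : 𝕆) - L i j = _
      linear_combination ht' - (-hc + c * hd)
    obtain ⟨b, hb⟩ := hLg
    have h3 : ((f g' : Matrix (Fin 2) (Fin 2) 𝔸) - ((khat k : GfK K) : Matrix (Fin 2) (Fin 2) 𝔸)) i j =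
        ((f g' : Matrix (Fin 2) (Fin 2) 𝔸) - (intLift (K := K) g').map (algebraMap 𝕆 𝔸)) i j
          - (((khat k : GfK K) : Matrix (Fin 2) (Fin 2) 𝔸) - L.map (algebraMap 𝕆 𝔸)) i j
          + algebraMap 𝕆 𝔸 ((m : 𝕆) * b) := by
      rw [← hb, map_sub]
      simp only [Matrix.sub_apply, Matrix.map_apply]
      ring
    rw [h3]
    refine ((hf g' i j).sub ((hgL i j).of_dvd hdvd)).add ?_
    rw [mul_comm (m : 𝕆), map_mul]
    exact MemMul.int_mul (Adelic.algebraMap_mem_intAdele b) (Adelic.memMul_algebraMap _)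
  unfold HasNonzeroPeriod
  rw [Finset.sum_congr rfl fun g _ => key g]
  obtain ⟨c, hc, hsum'⟩ := exists_sum_comp_castHom_eq hm fun g => fdInt φ ((f g * h₀ : GfK K) : Yf U)
  rw [hsum']
  exact mul_ne_zero (Nat.cast_ne_zero.mpr hc) hsum

end Fermat.Agent.LT.Lift
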