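import Fermat.Agent.LT.Lift.PlaneOrbit
import Fermat.Agent.LT.Lift.ShellTerm
import Fermat.Agent.LT.Asai.HalfPlane

/-!
# The shell `q3 = M²` is a sum of periods

For a weight living on multiples of `M` the shell is the orbit of `M X₀`; writing its Gaussian as
an integral over the plane of `X₀` and unfolding leaves the periods over the modular fundamental
domain.
-/

set_option autoImplicit false

noncomputable section

namespace Fermat.Agent.LT.Lift

open MeasureTheory Filter Set
open Adelic (HSpace)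
open Theta (Disc dcls actK IVec q3 IsStdEmb)
open Orbit (EisData)
open UpperHalfPlane hiding I
open scoped Real ENNReal MatrixGroups Modular

/-- The kernel whose integral over a plane is the Gaussian. -/
def unitKer (u : ℝ) : ℂ := (Arch.planeKer 1 u : ℂ)

theorem continuous_unitKer : Continuous unitKer :=
  Complex.continuous_ofReal.comp (Arch.continuous_planeKer 1)

theorem isQuartic_unitKer : Arch.IsQuartic unitKer := Arch.isQuartic_planeKer one_pos

theorem integral_unitKer_planePt (w : HSpace) :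
    ∫ t : ℍ, unitKer (HSpace.coshDist w (planePt t)) = (Real.exp (-(w.z.im / w.r) ^ 2) : ℂ) :=
  integral_planeKer_planePt w

theorem integrable_unitKer_planePt (w : HSpace) :
    Integrable fun t : ℍ => unitKer (HSpace.coshDist w (planePt t)) :=
  Integrable.of_integral_ne_zero (by
    rw [integral_unitKer_planePt]
    exact Complex.ofReal_ne_zero.mpr (Real.exp_pos _).ne')

theorem measurable_unitKer_planePt {α : Type*} [MeasurableSpace α] {f : α → HSpace}
    (hf : Measurable f) :
    Measurable fun p : α × ℍ => unitKer (HSpace.coshDist (f p.1) (planePt p.2)) := by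
  have h : Measurable fun p : α × ℍ => (f p.1, planePt p.2) :=
    (hf.comp measurable_fst).prodMk (continuous_planePt.measurable.comp measurable_snd)
  have hK : Measurable fun z : HSpace × HSpace => unitKer (HSpace.coshDist z.1 z.2) :=
    measurable_pairKer continuous_unitKer
  exact (Measurable.comp hK h :)

/-- Translates of the fundamental domain cover the upper half plane twice. -/
theorem hasSum_setIntegral_fd {f : ℍ → ℂ} (hm : Measurable f) (hf : Integrable f) :
    HasSum (fun H : SL(2, ℤ) => ∫ t in (𝒟 : Set ℍ), f (H • t)) (2 * ∫ t, f t) := by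
  have hw := Asai.isWeight_fdWeight
  have hq : Spectral.quotMeasure (volume : Measure ℍ) Asai.fdWeight =
      (2⁻¹ : ℝ≥0∞) • (volume : Measure ℍ).restrict 𝒟 := by
    show (volume : Measure ℍ).withDensity ((𝒟 : Set ℍ).indicator fun _ => 2⁻¹) = _
    rw [withDensity_indicator Asai.isClosed_fd.measurableSet, withDensity_const]
  have hfm : ∀ H : SL(2, ℤ), Measurable fun t => f (H • t) := fun H =>
    hm.comp (measurable_const_smul H)
  have hfin : ∑' H : SL(2, ℤ), ∫⁻ t in (𝒟 : Set ℍ), ‖f (H • t)‖ₑ ≠ ⊤ := by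
    have key := Geom.lintegral_weight_mul_tsum (G := SL(2, ℤ)) hw hm.enorm
    have hmt : Measurable fun t => ∑' H : SL(2, ℤ), ‖f (H • t)‖ₑ :=
      Measurable.tsum fun H => (hfm H).enorm
    have e : ∫⁻ t, Asai.fdWeight t * ∑' H : SL(2, ℤ), ‖f (H • t)‖ₑ =
        ∫⁻ t, ∑' H : SL(2, ℤ), ‖f (H • t)‖ₑ ∂Spectral.quotMeasure volume Asai.fdWeight :=
      (lintegral_withDensity_eq_lintegral_mul _ hw.1 hmt).symm
    rw [e, hq, lintegral_smul_measure, lintegral_tsum fun H => (hfm H).enorm.aemeasurable,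
      smul_eq_mul] at key
    intro htop
    rw [htop, ENNReal.mul_top (ENNReal.inv_ne_zero.mpr ENNReal.ofNat_ne_top)] at key
    exact hf.2.ne key.symm
  have hs : Summable fun H : SL(2, ℤ) => ∫ t in (𝒟 : Set ℍ), f (H • t) := by
    refine Summable.of_norm_bounded (ENNReal.summable_toReal hfin) fun H => ?_
    rw [← toReal_enorm]
    exact ENNReal.toReal_mono (ENNReal.ne_top_of_tsum_ne_top hfin H)
      (enorm_integral_le_lintegral_enorm _)
  have h := Spectral.integral_tsum_comp_smul (G := SL(2, ℤ)) hw hm hf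
  rw [hq, integral_smul_measure, integral_tsum (fun H => (hfm H).aestronglyMeasurable) hfin,
    ENNReal.toReal_inv, Complex.real_smul] at h
  rw [ENNReal.toReal_ofNat, Complex.ofReal_inv, Complex.ofReal_ofNat] at h
  have h2 : ∑' H : SL(2, ℤ), ∫ t in (𝒟 : Set ℍ), f (H • t) = 2 * ∫ t, f t := by
    rw [← h, ← mul_assoc, mul_inv_cancel₀ (two_ne_zero : (2 : ℂ) ≠ 0), one_mul]
  exact h2 ▸ hs.hasSum

variable {O : Type*} [CommRing O] {emb : O →+* ℂ} {M : ℕ}

theorem planePer_eq_setIntegral (A : Pt emb M → ℂ) (k : Red O M) :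
    planePer A k = ∫ t in (𝒟 : Set ℍ), A (Pt.mk emb (planePt t) k) := by
  classical
  set g : ℂ → ℂ := fun z =>
    if h : 0 < z.im then A (Pt.mk emb ⟨(z.re : ℂ), z.im, h⟩ k) else 0 with hg
  have h1 : (fun t : ℍ => A (Pt.mk emb (planePt t) k)) = fun t : ℍ => g (t : ℂ) := by
    funext t
    have ht : (0 : ℝ) < (t : ℂ).im := t.im_pos
    simp only [hg, dif_pos ht]
    rfl
  rw [h1, Asai.integral_fd_eq g, planePer]
  refine integral_congr_ae (Eventually.of_forall fun q => ?_)
  by_cases hq : 0 < q.2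
  · simp [hg, hq, Asai.coordDens]
  · simp [hg, hq]

/-- The integrand of the folded shell. -/
def periodFold (E : EisData O) (φ : Disc (M ^ 2) → ℂ) (A : Pt emb M → ℂ) (x : Pt emb M) : ℂ :=
  rotW E x.fin⁻¹ φ (dcls (M ^ 2) ((M : ℤ) • baseVec)) * A x *
    ∫ t in (𝒟 : Set ℍ), unitKer (HSpace.coshDist x.pt (planePt t))

section Period

variable (E : EisData O) (hι : IsStdEmb E emb) [NeZero M] {A : Pt emb M → ℂ}
  (hAi : ∀ (γ : GL (Fin 2) O) (x : Pt emb M), A (γ • x) = A x)
  (hAc : ∀ k : Red O M, Continuous fun w => A (Pt.mk emb w k))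
  (hAb : ∃ C : ℝ, ∀ x, ‖A x‖ ≤ C)
  (hAs : ∀ ker : ℝ → ℂ, Continuous ker → Arch.IsQuartic ker → ∀ (w : HSpace) (k : Red O M),
    ∫ τ, ker (HSpace.coshDist w τ) * A (Pt.mk emb τ k) ∂HSpace.measure =
      Adelic.sphTransform ker 0 * A (Pt.mk emb w k))
  (φ : Disc (M ^ 2) → ℂ)

omit [NeZero M] in
include hAc hAb hAs in
theorem periodFold_slice (j : Red O M) :
    Integrable (fun w => periodFold E φ A (Pt.mk emb w j)) HSpace.measure ∧
      ∫ w, periodFold E φ A (Pt.mk emb w j) ∂HSpace.measure =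
        (√π : ℂ) * (rotW E j⁻¹ φ (dcls (M ^ 2) ((M : ℤ) • baseVec)) * planePer A j) := by
  obtain ⟨C, hC⟩ := hAb
  have : IsFiniteMeasure ((volume : Measure ℍ).restrict (𝒟 : Set ℍ)) :=
    ⟨by rw [Measure.restrict_apply_univ]; exact Asai.volume_fd_lt_top⟩
  set F : ℍ × HSpace → ℂ := fun p =>
    unitKer (HSpace.coshDist p.2 (planePt p.1)) * A (Pt.mk emb p.2 j)
  have hFm : Measurable F :=
    (((measurable_unitKer_planePt (f := fun w : HSpace => w) measurable_id).comp
      measurable_swap :) : Measurable fun p : ℍ × HSpace =>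
        unitKer (HSpace.coshDist p.2 (planePt p.1))).mul
      ((hAc j).measurable.comp measurable_snd)
  set L := ∫ y, ‖unitKer (HSpace.coshDist HSpace.base y)‖ ∂HSpace.measure
  have hnum : ∀ (t : ℍ) (w : HSpace), ‖F (t, w)‖ ≤
      ‖unitKer (HSpace.coshDist (planePt t) w)‖ * C := fun t w => by
    rw [norm_mul, HSpace.coshDist_comm]
    exact mul_le_mul_of_nonneg_left (hC _) (norm_nonneg _)
  have hrow : ∀ t : ℍ, Integrable (fun w => F (t, w)) HSpace.measure := fun t =>
    ((integrable_ker continuous_unitKer isQuartic_unitKer (planePt t)).norm.mul_const C).mono'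
      (hFm.comp measurable_prodMk_left).aestronglyMeasurable (Eventually.of_forall (hnum t))
  have hF : Integrable F
      (((volume : Measure ℍ).restrict (𝒟 : Set ℍ)).prod HSpace.measure) := by
    refine (integrable_prod_iff hFm.aestronglyMeasurable).2 ⟨Eventually.of_forall hrow, ?_⟩
    refine (integrable_const (L * C)).mono'
      hFm.norm.aestronglyMeasurable.integral_prod_right' (Eventually.of_forall fun t => ?_)
    rw [Real.norm_of_nonneg (integral_nonneg fun w => norm_nonneg _)]
    refine (integral_mono_of_nonneg (Eventually.of_forall fun w => norm_nonneg _)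
      ((integrable_ker continuous_unitKer isQuartic_unitKer (planePt t)).norm.mul_const C)
      (Eventually.of_forall (hnum t))).trans_eq ?_
    rw [integral_mul_const, integral_norm_ker]
  set W := rotW E j⁻¹ φ (dcls (M ^ 2) ((M : ℤ) • baseVec))
  have hG : ∀ w, periodFold E φ A (Pt.mk emb w j) = W * ∫ t in (𝒟 : Set ℍ), F (t, w) := fun w => by
    rw [periodFold, Pt.pt_mk, Pt.fin_mk, mul_assoc, mul_comm (A _)]
    congr 1
    exact (integral_mul_const (A (Pt.mk emb w j)) fun t : ℍ =>
      unitKer (HSpace.coshDist w (planePt t))).symm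
  simp only [hG]
  refine ⟨hF.integral_prod_right.const_mul W, ?_⟩
  rw [integral_const_mul, planePer_eq_setIntegral, ← integral_integral_swap (f := fun t w => F (t, w))
    hF, mul_left_comm (√π : ℂ)]
  congr 1
  rw [← integral_const_mul]
  refine integral_congr_ae (Eventually.of_forall fun t => ?_)
  have h := hAs unitKer continuous_unitKer isQuartic_unitKer (planePt t) j
  have hT : Adelic.sphTransform unitKer 0 = (√π : ℂ) :=
    (Arch.sphTransform_planeKer one_pos).trans (by rw [div_one])
  rw [hT] at h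
  show _ = (√π : ℂ) * A (Pt.mk emb (planePt t) j)
  rw [← h]
  refine integral_congr_ae (Eventually.of_forall fun w => ?_)
  simp only [F, HSpace.coshDist_comm]

include hAc hAb hAs in
theorem periodFold_total :
    Measurable (periodFold E φ A) ∧ Integrable (periodFold E φ A) (ptMeasure emb M) ∧
      ∀ [Fintype (Red O M)], ∫ x, periodFold E φ A x ∂ptMeasure emb M =
        (√π : ℂ) * ∑ k : Red O M,
          rotW E k⁻¹ φ (dcls (M ^ 2) ((M : ℤ) • baseVec)) * planePer A k := by
  have := finite_red E M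
  have hm : Measurable (periodFold E φ A) := measurable_of_slices fun j => by
    have hI : Measurable fun w : HSpace =>
        ∫ t in (𝒟 : Set ℍ), unitKer (HSpace.coshDist w (planePt t)) := by
      have h1 := ((measurable_unitKer_planePt (f := fun w : HSpace => w)
        measurable_id).stronglyMeasurable.integral_prod_right'
          (ν := (volume : Measure ℍ).restrict (𝒟 : Set ℍ))).measurable
      exact (h1 :)
    simp only [periodFold, Pt.pt_mk, Pt.fin_mk]
    exact (((hAc j).measurable.const_mul _).mul hI :)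
  have hi : Integrable (periodFold E φ A) (ptMeasure emb M) :=
    (integrable_pt_iff hm).mpr fun j => (periodFold_slice E hAc hAb hAs φ j).1
  refine ⟨hm, hi, ?_⟩
  intro
  rw [integral_pt hi, Finset.mul_sum]
  exact Finset.sum_congr rfl fun j _ => (periodFold_slice E hAc hAb hAs φ j).2

omit [NeZero M] in
theorem dvd_of_mem_perLat {k : IVec} (hk : k ∈ Theta.perLat (M ^ 2)) (i : Fin 4) : (M : ℤ) ∣ k i := by
  obtain ⟨z, rfl⟩ := Theta.mem_perLat.mp hk
  refine ⟨(M : ℤ) * Theta.gmap z i, ?_⟩
  simp only [Pi.smul_apply, smul_eq_mul]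
  push_cast
  ring

omit [NeZero M] in
/-- Vectors at which a rotated weight living on multiples of `M` does not vanish. -/
theorem dvd_of_rotW_ne_zero (hsup : ∀ v, φ (dcls (M ^ 2) v) ≠ 0 → ∀ i, (M : ℤ) ∣ v i)
    (k : Red O M) {v : IVec} (hv : rotW E k⁻¹ φ (dcls (M ^ 2) v) ≠ 0) (i : Fin 4) :
    (M : ℤ) ∣ v i := by
  set u := actK E (redLift k⁻¹) v
  have hu : ∀ i, (M : ℤ) ∣ u i := hsup u (by rwa [rotW, Theta.actD_dcls] at hv)
  choose u' hu' using hu
  have e : v - actK E (redLift k) u ∈ Theta.perLat (M ^ 2) := by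
    have h : (rotEquiv E k⁻¹).symm ((rotEquiv E k⁻¹) (dcls (M ^ 2) v)) = dcls (M ^ 2) v :=
      Equiv.symm_apply_apply _ _
    simp only [rotEquiv, Equiv.coe_fn_symm_mk, Equiv.coe_fn_mk, inv_inv, Theta.actD_dcls] at h
    rw [Theta.dcls_eq_iff] at h
    obtain ⟨z, hz⟩ := h
    exact ⟨z, by rw [← hz, add_sub_cancel_left]; rfl⟩
  have h1 : u = (M : ℤ) • u' := funext fun i => by rw [hu' i]; simp
  obtain ⟨c, hc⟩ := dvd_of_mem_perLat e i
  refine ⟨c + actK E (redLift k) u' i, ?_⟩
  simp only [h1, map_zsmul, Pi.sub_apply, Pi.smul_apply, smul_eq_mul] at hc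
  linear_combination hc

variable {wt : Pt emb M → ℝ≥0∞} (hwt : Geom.IsWeight (GL (Fin 2) O) (ptMeasure emb M) wt)

include hι hAi hAc hAb hAs hwt in
/-- The shell `q3 = M²` against `A` is a sum of periods. -/
theorem shellInt_period [IsDomain O] [IsBezout O] [Fintype (Red O M)]
    (hsup : ∀ v, φ (dcls (M ^ 2) v) ≠ 0 → ∀ i, (M : ℤ) ∣ v i) :
    6 * shellInt E wt A φ ((M : ℤ) ^ 2) 1 =
      (√π : ℂ) * ∑ k : Red O M,
        rotW E k⁻¹ φ (dcls (M ^ 2) ((M : ℤ) • baseVec)) * planePer A k := by
  classical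
  have := countable_of_eisData E
  have := countable_gl (O := O)
  have := smulInvariantMeasure_pt (emb := emb) (M := M)
  set v₀ : IVec := (M : ℤ) • baseVec with hv₀
  set ν := Spectral.quotMeasure (ptMeasure emb M) wt
  have hM : (M : ℤ) ≠ 0 := Int.natCast_ne_zero.mpr (NeZero.ne M)
  obtain ⟨hm, hi, htot⟩ := periodFold_total E hAc hAb hAs φ
  have key := Spectral.integral_tsum_comp_smul (G := GL (Fin 2) O) hwt hm hi
  rw [htot] at key
  rw [← key, shellInt, ← integral_const_mul]
  have hsum : ∀ᵐ x ∂ν, Summable fun g : GL (Fin 2) O => periodFold E φ A (g • x) := by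
    have hmg : ∀ g : GL (Fin 2) O, Measurable fun x => periodFold E φ A (g • x) := fun g =>
      hm.comp (measurable_const_smul g)
    have hmt : Measurable fun x => ∑' g : GL (Fin 2) O, ‖periodFold E φ A (g • x)‖ₑ :=
      Measurable.tsum fun g => (hmg g).enorm
    have h := Geom.lintegral_weight_mul_tsum (G := GL (Fin 2) O) hwt hm.enorm
    have e : ∫⁻ x, wt x * ∑' g : GL (Fin 2) O, ‖periodFold E φ A (g • x)‖ₑ ∂ptMeasure emb M =
        ∫⁻ x, ∑' g : GL (Fin 2) O, ‖periodFold E φ A (g • x)‖ₑ ∂ν :=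
      (lintegral_withDensity_eq_lintegral_mul _ hwt.1 hmt).symm
    rw [e] at h
    filter_upwards [ae_lt_top hmt (h ▸ hi.2.ne)] with x hx
    exact Summable.of_norm ((ENNReal.summable_toReal hx.ne).congr fun g => toReal_enorm _)
  refine integral_congr_ae ?_
  filter_upwards [hsum] with x hx
  -- decompose the group along the orbit of `M X₀`
  set π' : GL (Fin 2) O → IVec := fun g =>
    actK E ((g⁻¹ : GL (Fin 2) O) : Matrix (Fin 2) (Fin 2) O) v₀
  have hfix : ∀ p, actK E (stabElt E p) v₀ = v₀ := fun p => by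
    rw [hv₀, map_zsmul, actK_stabElt]
  let g₀ : Set.range π' → GL (Fin 2) O := Set.rangeSplitting π'
  have hg₀ : ∀ o, π' (g₀ o) = o := Set.apply_rangeSplitting π'
  have hπ : ∀ p o, π' (stabElt E p * g₀ o) = o := fun p o => by
    have h1 : actK E (((stabElt E p)⁻¹ : GL (Fin 2) O) : Matrix (Fin 2) (Fin 2) O) v₀ = v₀ := by
      conv_lhs => rw [← hfix p]
      rw [← Theta.actK_mul, Units.inv_mul, Theta.actK_one]
    simp only [π', mul_inv_rev, Units.val_mul, Theta.actK_mul, h1]
    exact hg₀ o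
  have hbij : Function.Bijective
      fun q : Set.range π' × (Fin 3 × SL(2, ℤ)) => stabElt E q.2 * g₀ q.1 := by
    constructor
    · rintro ⟨o, p⟩ ⟨o', p'⟩ e
      simp only at e
      have h1 : o = o' := Subtype.ext (by rw [← hπ p o, ← hπ p' o', e])
      subst h1
      rw [stabElt_injective E (mul_right_cancel e)]
    · intro g
      set o : Set.range π' := ⟨π' g, g, rfl⟩
      have h1 : actK E ((g * (g₀ o)⁻¹ : GL (Fin 2) O) : Matrix (Fin 2) (Fin 2) O) v₀ = v₀ := by
        have h2 : π' (g₀ o) = π' g := hg₀ o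
        simp only [π'] at h2
        rw [Units.val_mul, Theta.actK_mul, h2, ← Theta.actK_mul, Units.mul_inv, Theta.actK_one]
      rw [hv₀, map_zsmul] at h1
      obtain ⟨p, hp⟩ := exists_stabElt_eq E (smul_right_injective IVec hM h1)
      exact ⟨(o, p), by simp only; rw [hp, inv_mul_cancel_right]⟩
  set e := Equiv.ofBijective _ hbij
  rw [← e.tsum_eq]
  have hS : Summable fun q => periodFold E φ A (e q • x) :=
    (e.summable_iff (f := fun g => periodFold E φ A (g • x))).mpr hx
  rw [hS.tsum_prod]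
  have horb : ∀ o : Set.range π', ∑' p : Fin 3 × SL(2, ℤ), periodFold E φ A (e (o, p) • x) =
      6 * (A x * (rotW E x.fin⁻¹ φ (dcls (M ^ 2) (o : IVec)) *
        (Real.exp (-(1 * shellEx x.pt (o : IVec))) : ℂ))) := by
    intro o
    set y := g₀ o • x
    have hterm : ∀ (p : Fin 3 × SL(2, ℤ)), periodFold E φ A (e (o, p) • x) =
        rotW E y.fin⁻¹ φ (dcls (M ^ 2) v₀) * A x *
          ∫ t in (𝒟 : Set ℍ), unitKer (HSpace.coshDist y.pt (planePt (p.2⁻¹ • t))) := by
      intro p
      show periodFold E φ A ((stabElt E p * g₀ o) • x) = _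
      rw [mul_smul, periodFold, ← hv₀]
      conv_lhs => rw [← hfix p, rotW_fin_smul, hAi, hAi]
      congr 1
      refine integral_congr_ae (Eventually.of_forall fun t => ?_)
      simp only [y, Pt.pt_smul, stabElt, mul_smul, map_scalar_smul]
      congr 1
      rw [← HSpace.coshDist_smul (Matrix.GeneralLinearGroup.map emb (zGL O p.2)) _
        (planePt (p.2⁻¹ • t)), map_zGL_smul_planePt, smul_inv_smul]
    simp only [hterm]
    set J : SL(2, ℤ) → ℂ := fun H =>
      ∫ t in (𝒟 : Set ℍ), unitKer (HSpace.coshDist y.pt (planePt (H • t)))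
    have hJ : HasSum J (2 * (Real.exp (-(y.pt.z.im / y.pt.r) ^ 2) : ℂ)) := by
      have hm0 : Measurable fun t : ℍ => (y.pt, t) := measurable_const.prodMk measurable_id
      have hm1 : Measurable fun t : ℍ => unitKer (HSpace.coshDist y.pt (planePt t)) :=
        ((measurable_unitKer_planePt (f := fun w : HSpace => w) measurable_id).comp hm0 :)
      have h := hasSum_setIntegral_fd (f := fun t => unitKer (HSpace.coshDist y.pt (planePt t)))
        hm1 (integrable_unitKer_planePt y.pt)
      rw [integral_unitKer_planePt] at h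
      exact h
    have hJ' : HasSum (fun H : SL(2, ℤ) => J H⁻¹) (2 * (Real.exp (-(y.pt.z.im / y.pt.r) ^ 2) : ℂ)) :=
      ((Equiv.inv SL(2, ℤ)).hasSum_iff (f := J)).mpr hJ
    have hsum3 : ∑' p : Fin 3 × SL(2, ℤ), rotW E y.fin⁻¹ φ (dcls (M ^ 2) v₀) * A x * J p.2⁻¹ =
        3 * (rotW E y.fin⁻¹ φ (dcls (M ^ 2) v₀) * A x *
          (2 * (Real.exp (-(y.pt.z.im / y.pt.r) ^ 2) : ℂ))) := by
      have hs : Summable fun p : Fin 3 × SL(2, ℤ) =>
          rotW E y.fin⁻¹ φ (dcls (M ^ 2) v₀) * A x * J p.2⁻¹ := by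
        refine (hS.prod_factor o).congr fun p => ?_
        exact hterm p
      rw [hs.tsum_prod, tsum_fintype]
      simp only [tsum_mul_left, hJ'.tsum_eq, Finset.sum_const, Finset.card_univ, Fintype.card_fin,
        nsmul_eq_mul]
      norm_num
    refine hsum3.trans ?_
    have hv : actK E (g₀ o) (o : IVec) = v₀ := by
      have h2 := hg₀ o
      simp only [π'] at h2
      rw [← h2, ← Theta.actK_mul, Units.mul_inv, Theta.actK_one]
    have h3 : (y.pt.z.im / y.pt.r) ^ 2 = shellEx x.pt (o : IVec) := by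
      rw [← shellEx_base (M := M) y.pt, ← hv₀, ← hv]
      exact shellEx_smul_actK E hι (g₀ o) x.pt o
    have h4 : rotW E y.fin⁻¹ φ (dcls (M ^ 2) v₀) = rotW E x.fin⁻¹ φ (dcls (M ^ 2) (o : IVec)) := by
      rw [← hv]; exact rotW_fin_smul E φ (g₀ o) x o
    rw [h3, h4, one_mul]
    ring
  simp only [horb, tsum_mul_left, shellTerm]
  congr 2
  -- the shell is the orbit, up to vectors where the weight vanishes
  set T : IVec → ℂ := fun v =>
    rotW E x.fin⁻¹ φ (dcls (M ^ 2) v) * (Real.exp (-(1 * shellEx x.pt v)) : ℂ)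
  show ∑' v : Shell ((M : ℤ) ^ 2), T v = ∑' o : Set.range π', T o
  rw [show (∑' v : Shell ((M : ℤ) ^ 2), T v) = ∑' v : IVec,
      {v : IVec | q3 v = (M : ℤ) ^ 2}.indicator T v from
    tsum_subtype {v : IVec | q3 v = (M : ℤ) ^ 2} T, tsum_subtype (Set.range π') T]
  refine tsum_congr fun v => ?_
  by_cases hT : T v = 0
  · simp [Set.indicator_apply, hT]
  by_cases hq : q3 v = (M : ℤ) ^ 2
  · rw [Set.indicator_of_mem (s := {v : IVec | q3 v = (M : ℤ) ^ 2}) hq,
      Set.indicator_of_mem]
    choose v' hv' using fun i => dvd_of_rotW_ne_zero E φ hsup x.fin (left_ne_zero_of_mul hT) i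
    have h1 : v = (M : ℤ) • v' := funext fun i => by rw [hv' i]; simp
    have h2 : q3 v' = 1 := by
      rw [h1, Theta.q3_smul] at hq
      exact mul_left_cancel₀ (pow_ne_zero 2 hM) (by rw [hq, mul_one])
    obtain ⟨γ, hγ⟩ := exists_actK_baseVec_eq E h2
    exact ⟨γ⁻¹, by simp only [π', inv_inv, hv₀, map_zsmul, hγ, h1]⟩
  · rw [Set.indicator_of_notMem (s := {v : IVec | q3 v = (M : ℤ) ^ 2}) hq,
      Set.indicator_of_notMem]
    rintro ⟨g, rfl⟩
    exact hq (by simp only [π', q3_actK_unit, hv₀, Theta.q3_smul, q3_baseVec, mul_one])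

end Period

end Fermat.Agent.LT.Lift
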