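import Fermat.Agent.LT.Asai.Coefficients
import Fermat.Agent.LT.Lift.Main

/-!
# From the period theorem to a period vector

The period theorem gives invariance of the translate at the level `3 M'^2`; away from `3` this
already gives it at `M'^2`.
-/

set_option autoImplicit false

open NumberField IsDedekindDomain

noncomputable section

namespace Fermat.Agent.LT.Lift

open Adelic
open Aleph (localGL gfOfLocal mem_principalLevel_of_local)

local notation "𝕆" => 𝓞 fieldF

theorem intValuation_natCast_eq_one_of_coprime {v : HeightOneSpectrum 𝕆} {n m : ℕ}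
    (h : Nat.Coprime n m) (hv : (n : 𝕆) ∈ v.asIdeal) : v.intValuation (m : 𝕆) = 1 :=
  v.intValuation_eq_one_iff.mpr (Asai.not_mem_of_coprime h v hv)

theorem intValuation_eq_one_of_dvd {v : HeightOneSpectrum 𝕆} {x y : 𝕆} (h : x ∣ y)
    (hy : v.intValuation y = 1) : v.intValuation x = 1 := by
  obtain ⟨z, rfl⟩ := h
  exact intValuation_eq_one_of_mul (x := z) (by rw [mul_comm]; exact hy)

open scoped Classical in
/-- Away from `3` the level `3 m` invariance of a translate by an element trivial at `3` gives the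
level `m` invariance. -/
theorem conj_mem_of_three_coprime {U : Subgroup (GfK fieldF)} {M m : ℕ} (hMm : M ∣ m)
    (hm3 : ¬ 3 ∣ m) (hMU : principalLevel fieldF (M : 𝕆) ≤ U) {h₀ : GfK fieldF}
    (hh₀ : ∀ v : HeightOneSpectrum 𝕆, PrimeTo M v → localGL fieldF v h₀ = 1)
    (hconj : ∀ g ∈ principalLevel fieldF ((3 * m : ℕ) : 𝕆), h₀⁻¹ * g * h₀ ∈ U)
    {g : GfK fieldF} (hg : g ∈ principalLevel fieldF (m : 𝕆)) : h₀⁻¹ * g * h₀ ∈ U := by
  have hg1 : g ∈ principalLevel fieldF (1 : 𝕆) := principalLevel_mono (one_dvd _) hg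
  have hint := Aleph.mem_principalLevel_one_iff.mp hg1
  have h3 : Nat.Coprime 3 m := (Nat.prime_three.coprime_iff_not_dvd).mpr hm3
  let γ : ∀ v : HeightOneSpectrum 𝕆, GL (Fin 2) (v.adicCompletion fieldF) :=
    fun v => if (3 : 𝕆) ∈ v.asIdeal then 1 else localGL fieldF v g
  have hγ : ∀ v, Aleph.IsIntLocal (γ v) := fun v => by
    simp only [γ]; split
    exacts [Aleph.isIntLocal_one, hint v]
  set g' := gfOfLocal fieldF γ hγ
  have hg' : g' ∈ principalLevel fieldF ((3 * m : ℕ) : 𝕆) := by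
    have key : ∀ x y : GfK fieldF, (∀ v, localGL fieldF v x =
        if (3 : 𝕆) ∈ v.asIdeal then 1 else localGL fieldF v y) →
        MatMemMul (m : 𝕆) ((y : Matrix (Fin 2) (Fin 2) (FiniteAdeleRing 𝕆 fieldF)) - 1) →
        MatMemMul ((3 * m : ℕ) : 𝕆)
          ((x : Matrix (Fin 2) (Fin 2) (FiniteAdeleRing 𝕆 fieldF)) - 1) := by
      intro x y hx hy i j v
      have h1 := hx v
      rw [Matrix.sub_apply, coe_apply_sub, ← Aleph.localGL_apply, h1]
      by_cases hv : (3 : 𝕆) ∈ v.asIdeal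
      · rw [if_pos hv, Units.val_one, Matrix.one_apply, Matrix.one_apply]
        split <;> simp [coe_apply_one, coe_apply_zero]
      · rw [if_neg hv, Aleph.localGL_apply, ← coe_apply_sub, ← Matrix.sub_apply,
          Nat.cast_mul, map_mul, show v.intValuation ((3 : ℕ) : 𝕆) = 1 from
            v.intValuation_eq_one_iff.mpr (by simpa using hv), one_mul]
        exact hy i j v
    refine mem_principalLevel.mpr ⟨key g' g (fun v => ?_) (mem_principalLevel.mp hg).1,
      key g'⁻¹ g⁻¹ (fun v => ?_) (mem_principalLevel.mp hg).2⟩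
    · rw [Aleph.localGL_gfOfLocal]
    · rw [map_inv, Aleph.localGL_gfOfLocal, map_inv]
      simp only [γ]; split
      exacts [inv_one, rfl]
  have hc : g'⁻¹ * g ∈ U := by
    refine hMU (mem_principalLevel_of_local
      (mul_mem (inv_mem (Aleph.gfOfLocal_mem γ hγ)) hg1) fun v hv => ?_)
    have hv3 : (3 : 𝕆) ∉ v.asIdeal := fun h => hv.ne
      (intValuation_eq_one_of_dvd (Nat.cast_dvd_cast hMm)
        (intValuation_natCast_eq_one_of_coprime h3 (by simpa using h)))
    rw [map_mul, map_inv, Aleph.localGL_gfOfLocal]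
    simp only [γ, if_neg hv3, inv_mul_cancel]
  have hcomm : h₀⁻¹ * (g'⁻¹ * g) * h₀ = g'⁻¹ * g := by
    refine Aleph.gf_ext fun v => ?_
    simp only [map_mul, map_inv, Aleph.localGL_gfOfLocal, g']
    by_cases hv : (3 : 𝕆) ∈ v.asIdeal
    · rw [hh₀ v (Asai.not_mem_of_coprime (h3.coprime_dvd_right hMm) v (by simpa using hv))]
      simp
    · simp only [γ, if_neg hv, inv_mul_cancel, mul_one]
  have h2 : h₀⁻¹ * (g'⁻¹ * g) * h₀ ∈ U := by rw [hcomm]; exact hc
  have h1 := mul_mem (hconj g' hg') h2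
  simpa [mul_assoc] using h1

/-- The output of the period theorem is a period vector. -/
theorem hasPeriodVector_of_period {Φ : Frame fieldF Unit} {U : Subgroup (GfK fieldF)} {M : ℕ}
    (hMU : principalLevel fieldF (M : 𝕆) ≤ U) {φ : Space Φ U → ℂ} {M' : ℕ} [NeZero M']
    {h₀ : GfK fieldF} (hdvd : M ∣ M') (hprimes : ∀ p : ℕ, p.Prime → p ∣ M' → p ∣ M)
    (hh₀ : ∀ v : HeightOneSpectrum 𝕆, PrimeTo M v → localGL fieldF v h₀ = 1)
    (hconj : ∀ g ∈ principalLevel fieldF ((3 * M' ^ 2 : ℕ) : 𝕆), h₀⁻¹ * g * h₀ ∈ U)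
    (hsum : haveI : NeZero (3 * M' ^ 2) := ⟨by simp [NeZero.ne M']⟩
      ∑ g : GL (Fin 2) (ZMod (3 * M' ^ 2)),
        Asai.planePeriod φ ((Asai.ratLift fieldF g * h₀ : GfK fieldF) : Yf U) ≠ 0) :
    HasPeriodVector M φ := by
  have hL : NeZero (3 * M' ^ 2) := ⟨by simp [NeZero.ne M']⟩
  have hhm : ∀ {m : ℕ}, M ∣ m → ∀ v : HeightOneSpectrum 𝕆, v.intValuation (m : 𝕆) = 1 →
      localGL fieldF v h₀ = 1 := fun hm v hv =>
    hh₀ v (v.intValuation_eq_one_iff.mp (intValuation_eq_one_of_dvd (Nat.cast_dvd_cast hm) hv))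
  by_cases h3 : 3 ∣ M'
  · have hm : M ∣ 3 * M' ^ 2 := (hdvd.trans (dvd_pow_self _ two_ne_zero)).mul_left 3
    refine ⟨3 * M' ^ 2, hL, h₀, 3 * M' ^ 2, hL, hm, fun p hp h => ?_, hhm hm, hconj,
      (dvd_pow_self _ two_ne_zero).mul_left 3, hconj, hsum⟩
    rcases hp.dvd_mul.mp h with h' | h'
    · exact hprimes p hp ((Nat.prime_dvd_prime_iff_eq hp Nat.prime_three).mp h' ▸ h3)
    · exact hprimes p hp (hp.dvd_of_dvd_pow h')
  · have hm : M ∣ M' ^ 2 := hdvd.trans (dvd_pow_self _ two_ne_zero)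
    exact ⟨M' ^ 2, ⟨by simp [NeZero.ne M']⟩, h₀, 3 * M' ^ 2, hL, hm,
      fun p hp h => hprimes p hp (hp.dvd_of_dvd_pow h), hhm hm,
      fun g hg => conj_mem_of_three_coprime hm (fun h => h3 (Nat.prime_three.dvd_of_dvd_pow h))
        hMU hh₀ hconj hg,
      Nat.mul_dvd_mul_left 3 (dvd_pow_self _ two_ne_zero), hconj, hsum⟩

end Fermat.Agent.LT.Lift
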