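import Fermat.Agent.LT.Lift.Invariance
import Fermat.Agent.LT.Orbit.Stab
import Fermat.Agent.LT.Lift.ShellKernel
import Fermat.Agent.LT.Asai.HalfPlane

/-!
# The vectors with `q3 = 1`

They form one orbit of `GL₂(O)`, that of `X₀ = (0, 0, 0, -1)` whose plane is `Im z = 0`; the
stabiliser of `X₀` is the product of the cube roots of unity and `SL₂(ℤ)`.
-/

set_option autoImplicit false

noncomputable section

namespace Fermat.Agent.LT.Lift

open Matrix MeasureTheory
open Adelic (HSpace)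
open Theta (actK IVec q3 skewMat)
open Orbit (EisData)
open UpperHalfPlane hiding I
open scoped MatrixGroups Real

variable {O : Type*} [CommRing O]

/-- `X₀`. -/
def baseVec : IVec := ![0, 0, 0, -1]

theorem q3_baseVec : q3 baseVec = 1 := by simp [q3, baseVec]

theorem skewMat_baseVec (E : EisData O) : skewMat E baseVec = !![0, 1; -1, 0] := by
  ext i j
  fin_cases i <;> fin_cases j <;> simp [skewMat, baseVec]

theorem s_dvd_coord_sub (E : EisData O) (p q : ℤ) :
    E.s ∣ ((p : O) + (q : O) * E.w) - ((p + q : ℤ) : O) :=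
  ⟨(q : O) * (1 + E.w), by
    unfold EisData.s; push_cast; linear_combination (-2 * (q : O)) * E.w_eq⟩

theorem s_dvd_three (E : EisData O) : E.s ∣ ((3 : ℤ) : O) :=
  ⟨-E.s, by push_cast; linear_combination E.s_sq⟩

/-- An element of norm `1` modulo `3` is `±1` modulo `√-3`. -/
theorem s_dvd_sub_one_or_add_one (E : EisData O) {x : O} {n : ℤ} (hx : x * E.conj x = (n : O))
    (hn : (3 : ℤ) ∣ n - 1) : E.s ∣ x - 1 ∨ E.s ∣ x + 1 := by
  obtain ⟨p, q, rfl⟩ := E.repr x
  have h : p * p - p * q + q * q = n := E.intCast_inj (by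
    simp only [map_add, map_mul, map_intCast, E.conj_w] at hx
    push_cast
    linear_combination hx + (q : O) * (q : O) * E.w_eq)
  have h3 : (3 : ℤ) ∣ (p + q - 1) * (p + q + 1) := by
    obtain ⟨t, ht⟩ := hn
    exact ⟨t + p * q, by linear_combination h + ht⟩
  obtain ⟨u, hu⟩ := s_dvd_coord_sub E p q
  obtain ⟨v, hv⟩ := s_dvd_three E
  rcases Int.prime_three.dvd_or_dvd h3 with ⟨t, ht⟩ | ⟨t, ht⟩
  · left
    refine ⟨u + v * (t : O), ?_⟩
    have e : ((p + q - 1 : ℤ) : O) = ((3 : ℤ) : O) * (t : O) := by rw [ht]; push_cast; ring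
    push_cast at hu e hv
    linear_combination hu + e + (t : O) * hv
  · right
    refine ⟨u + v * (t : O), ?_⟩
    have e : ((p + q + 1 : ℤ) : O) = ((3 : ℤ) : O) * (t : O) := by rw [ht]; push_cast; ring
    push_cast at hu e hv
    linear_combination hu + e + (t : O) * hv

theorem exists_actK_baseVec_eq [IsDomain O] [IsBezout O] (E : EisData O) {v : IVec}
    (hv : q3 v = 1) : ∃ γ : GL (Fin 2) O, actK E γ baseVec = v := by
  -- positive case
  have key : ∀ l : IVec, q3 l = 1 → E.s ∣ (-(l 3 : O) + (l 2 : O) * E.w) - 1 →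
      ∃ γ : GL (Fin 2) O, actK E γ baseVec = l := by
    intro l hl hz
    set z : O := -(l 3 : O) + (l 2 : O) * E.w with hzdef
    have hpt : Orbit.CosetPt E 1 (-l 1) (-l 0) z := by
      refine ⟨?_, ?_, one_dvd _, one_dvd _⟩
      · have h : ((l 2 ^ 2 + l 2 * l 3 + l 3 ^ 2 - 3 * (l 0 * l 1) : ℤ) : O) = ((1 : ℤ) : O) :=
          congrArg Int.cast hl
        push_cast at h
        simp only [hzdef, map_add, map_mul, map_neg, map_intCast, E.conj_w, Int.cast_neg]
        linear_combination h - ((l 2 : O) * (l 2 : O)) * E.w_eq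
      · simpa using hz
    obtain ⟨γ, -, hγ⟩ := Orbit.exists_skewImage_eq one_ne_zero hpt
    refine ⟨Matrix.SpecialLinearGroup.toGL γ, Theta.skewMat_injective E ?_⟩
    rw [Theta.skewMat_actK, skewMat_baseVec]
    have e1 : skewMat E l = Orbit.skewForm E (-l 1) (-l 0) z := by
      ext i j
      fin_cases i <;> fin_cases j <;> simp [skewMat, Orbit.skewForm, hzdef]
    rw [e1, ← hγ]
    ext i j
    show ((γ : Matrix (Fin 2) (Fin 2) O) * (!![0, 1; -1, 0] : Matrix (Fin 2) (Fin 2) O) *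
      Theta.adjT E (γ : Matrix (Fin 2) (Fin 2) O)) i j = _
    simp [Orbit.skewImage, Matrix.mul_apply, Fin.sum_univ_two, Theta.adjT]
    ring
  have hn : (-(v 3 : O) + (v 2 : O) * E.w) * E.conj (-(v 3 : O) + (v 2 : O) * E.w) =
      ((v 2 ^ 2 + v 2 * v 3 + v 3 ^ 2 : ℤ) : O) := by
    simp only [map_add, map_mul, map_neg, map_intCast, E.conj_w]
    push_cast
    linear_combination (-(v 2 : O) * (v 2 : O)) * E.w_eq
  have hn3 : (3 : ℤ) ∣ (v 2 ^ 2 + v 2 * v 3 + v 3 ^ 2) - 1 :=
    ⟨v 0 * v 1, by simp only [q3] at hv; linarith⟩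
  rcases s_dvd_sub_one_or_add_one E hn hn3 with h | h
  · exact key v hv h
  · obtain ⟨γ, hγ⟩ := key (-v) (by rw [Theta.q3_neg, hv]) (by
      rw [← dvd_neg]
      convert h using 1
      simp
      ring)
    have hdet : IsUnit (!![1, 0; 0, -1] : Matrix (Fin 2) (Fin 2) O).det := by
      simp [Matrix.det_fin_two_of]
    refine ⟨γ * Matrix.GeneralLinearGroup.mk'' _ hdet, ?_⟩
    have h1 : actK E !![1, 0; 0, -1] baseVec = -baseVec := by
      refine Theta.skewMat_injective E ?_
      rw [Theta.skewMat_actK, map_neg, skewMat_baseVec]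
      ext i j
      fin_cases i <;> fin_cases j <;> simp [Matrix.mul_apply, Fin.sum_univ_two, Theta.adjT]
    rw [Units.val_mul, Theta.actK_mul]
    show actK E (γ : Matrix (Fin 2) (Fin 2) O) (actK E !![1, 0; 0, -1] baseVec) = v
    rw [h1, map_neg, hγ, neg_neg]

/-! ### The stabiliser -/

/-- An integral matrix of determinant `1` as an element of `GL₂(O)`. -/
def zGL (O : Type*) [CommRing O] : SL(2, ℤ) →* GL (Fin 2) O :=
  Matrix.SpecialLinearGroup.toGL.comp (Matrix.SpecialLinearGroup.map (Int.castRingHom O))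

theorem coe_zGL (H : SL(2, ℤ)) (i j : Fin 2) :
    (zGL O H : Matrix (Fin 2) (Fin 2) O) i j = ((H i j : ℤ) : O) := rfl

/-- `ω` as a unit. -/
def wUnit (E : EisData O) : Oˣ :=
  Units.mkOfMulEqOne E.w (E.conj E.w) E.w_mul_conj

/-- `ωⁱ` times an integral matrix. -/
def stabElt (E : EisData O) (p : Fin 3 × SL(2, ℤ)) : GL (Fin 2) O :=
  Matrix.GeneralLinearGroup.scalar (Fin 2) (wUnit E ^ (p.1 : ℕ)) * zGL O p.2

theorem coe_stabElt (E : EisData O) (p : Fin 3 × SL(2, ℤ)) (i j : Fin 2) :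
    (stabElt E p : Matrix (Fin 2) (Fin 2) O) i j = E.w ^ (p.1 : ℕ) * ((p.2 i j : ℤ) : O) := by
  have hd : (Matrix.GeneralLinearGroup.scalar (Fin 2) (wUnit E ^ (p.1 : ℕ)) : Matrix (Fin 2) (Fin 2) O) =
      Matrix.diagonal fun _ => E.w ^ (p.1 : ℕ) := by
    show Matrix.scalar (Fin 2) ((wUnit E ^ (p.1 : ℕ) : Oˣ) : O) = _
    rw [Units.val_pow_eq_pow_val]
    rfl
  rw [stabElt, Units.val_mul, hd, Matrix.diagonal_mul, coe_zGL]

theorem conj_pow_mul_pow (E : EisData O) (n : ℕ) : E.w ^ n * E.conj (E.w ^ n) = 1 := by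
  rw [map_pow, ← mul_pow, E.w_mul_conj, one_pow]

theorem actK_stabElt (E : EisData O) (p : Fin 3 × SL(2, ℤ)) :
    actK E (stabElt E p) baseVec = baseVec := by
  refine Theta.skewMat_injective E ?_
  rw [Theta.skewMat_actK, skewMat_baseVec]
  have hd : ((p.2 0 0 * p.2 1 1 - p.2 0 1 * p.2 1 0 : ℤ) : O) = ((1 : ℤ) : O) := by
    rw [show p.2 0 0 * p.2 1 1 - p.2 0 1 * p.2 1 0 = 1 from by
      rw [← Matrix.det_fin_two]; exact p.2.det_coe]
  push_cast at hd
  have hc := conj_pow_mul_pow E (p.1 : ℕ)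
  ext i j
  fin_cases i <;> fin_cases j <;>
    simp [Matrix.mul_apply, Fin.sum_univ_two, Theta.adjT, coe_stabElt, -map_pow]
  · ring
  · linear_combination ((p.2 0 0 : O) * (p.2 1 1 : O) - (p.2 0 1 : O) * (p.2 1 0 : O)) * hc + hd
  · linear_combination (-((p.2 0 0 : O) * (p.2 1 1 : O) - (p.2 0 1 : O) * (p.2 1 0 : O))) * hc - hd
  · ring

/-- A cube root of unity in `O`. -/
theorem exists_pow_eq_of_cube [IsDomain O] (E : EisData O) {e : O} (he : e ^ 3 = 1) :
    ∃ i : Fin 3, e = E.w ^ (i : ℕ) := by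
  have h : (e - 1) * ((e - E.w) * (e - E.w ^ 2)) = 0 := by
    linear_combination he + (e * E.w - e ^ 2 - E.w + 1) * E.w_eq
  rcases mul_eq_zero.mp h with h | h
  · exact ⟨0, by simpa using sub_eq_zero.mp h⟩
  rcases mul_eq_zero.mp h with h | h
  · exact ⟨1, by simpa using sub_eq_zero.mp h⟩
  · exact ⟨2, by simpa using sub_eq_zero.mp h⟩

theorem pow_w_eq_intCast (E : EisData O) {i : Fin 3} {a : ℤ} (h : E.w ^ (i : ℕ) = (a : O)) :
    i = 0 := by
  fin_cases i
  · rfl
  · exfalso
    have := (E.ext_coords (a := 0) (b := 1) (a' := a) (b' := 0) (by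
      push_cast; simpa using h)).2
    omega
  · exfalso
    have := (E.ext_coords (a := -1) (b := -1) (a' := a) (b' := 0) (by
      push_cast at h ⊢; linear_combination h - E.w_eq)).2
    omega

/-- The stabiliser of `X₀`. -/
theorem exists_stabElt_eq [IsDomain O] (E : EisData O) {h : GL (Fin 2) O}
    (hfix : actK E h baseVec = baseVec) : ∃ p, stabElt E p = h := by
  set g := (h : Matrix (Fin 2) (Fin 2) O) with hg
  set D := g.det with hD
  have e := congrArg (skewMat E) hfix
  rw [Theta.skewMat_actK, skewMat_baseVec] at e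
  have e00 := congrFun (congrFun e 0) 0
  have e01 := congrFun (congrFun e 0) 1
  have e10 := congrFun (congrFun e 1) 0
  have e11 := congrFun (congrFun e 1) 1
  simp [Matrix.mul_apply, Fin.sum_univ_two, Theta.adjT] at e00 e01 e10 e11
  have hconj : ∀ i j, D * E.conj (g i j) = g i j := by
    intro i j
    rw [hD, Matrix.det_fin_two]
    fin_cases i <;> fin_cases j <;> simp only [Fin.zero_eta, Fin.mk_one, Fin.isValue]
    · linear_combination g 1 0 * e00 - g 0 0 * e10
    · linear_combination g 1 1 * e00 - g 0 1 * e10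
    · linear_combination g 1 0 * e01 - g 0 0 * e11
    · linear_combination g 1 1 * e01 - g 0 1 * e11
  have hu : IsUnit D := Matrix.isUnits_det_units h
  have hN : D * E.conj D = 1 := by rw [normO_spec, normO_of_isUnit E hu, Int.cast_one]
  have hD3 : D ^ 3 = 1 := by
    rcases s_dvd_sub_one_or_add_one E (n := 1) (by rw [hN, Int.cast_one]) (dvd_zero _) with h1 | h1
    · exact E.cube_eq_one hN h1
    exfalso
    have hneg : (-D) ^ 3 = 1 := E.cube_eq_one (by rw [map_neg]; linear_combination hN)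
      (by rw [← dvd_neg]; simpa [add_comm] using h1)
    have hD4 : D * D * D = -1 := by linear_combination -hneg
    have hdiv : ∀ i j, E.s ∣ g i j := by
      intro i j
      have hx : E.conj (D * g i j) = -(D * g i j) := by
        have hc : E.conj D = -(D * D) := by
          refine mul_left_cancel₀ hu.ne_zero ?_
          linear_combination hN + hD4
        rw [map_mul, hc]
        linear_combination (-D) * hconj i j
      have h2 : E.s ∣ 2 * (D * g i j) := by
        obtain ⟨u, hu'⟩ := E.s_dvd_sub_conj (D * g i j)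
        exact ⟨u, by linear_combination hu' + hx⟩
      have h3 : E.s ∣ D * g i j := by
        obtain ⟨u, hu'⟩ := h2
        exact ⟨-E.s * (D * g i j) - u, by linear_combination (D * g i j) * E.s_sq - hu'⟩
      exact (hu.dvd_mul_left).mp h3
    refine E.not_s_dvd_one ?_
    have hdd : E.s ∣ D := by
      rw [hD, Matrix.det_fin_two]
      exact dvd_sub (dvd_mul_of_dvd_left (hdiv 0 0) _) (dvd_mul_of_dvd_left (hdiv 0 1) _)
    exact hdd.trans hu.dvd
  have hc : E.conj D = D ^ 2 := by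
    refine mul_left_cancel₀ hu.ne_zero ?_
    linear_combination hN - hD3
  have hreal : ∀ i j, ∃ a : ℤ, D * g i j = (a : O) := fun i j => E.conj_eq_self_iff.mp (by
    rw [map_mul, hc]; linear_combination D * hconj i j)
  choose H hH using hreal
  have hdet : (Matrix.of H).det = 1 := by
    refine E.intCast_inj ?_
    rw [Matrix.det_fin_two, Int.cast_one]
    simp only [Matrix.of_apply, Int.cast_sub, Int.cast_mul, ← hH]
    rw [hD, Matrix.det_fin_two] at hD3
    rw [hD, Matrix.det_fin_two]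
    linear_combination hD3
  obtain ⟨i, hi⟩ := exists_pow_eq_of_cube E (e := D ^ 2) (by linear_combination (D ^ 3 + 1) * hD3)
  refine ⟨(i, ⟨Matrix.of H, hdet⟩), Units.ext (Matrix.ext fun a b => ?_)⟩
  rw [coe_stabElt]
  show E.w ^ (i : ℕ) * ((H a b : ℤ) : O) = g a b
  rw [← hi, ← hH]
  linear_combination g a b * hD3

theorem stabElt_injective [IsDomain O] (E : EisData O) : Function.Injective (stabElt E) := by
  rintro ⟨i, H⟩ ⟨i', H'⟩ e
  have h : ∀ a b, E.w ^ (i : ℕ) * ((H a b : ℤ) : O) = E.w ^ (i' : ℕ) * ((H' a b : ℤ) : O) :=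
    fun a b => by rw [← coe_stabElt E (i, H), ← coe_stabElt E (i', H'), e]
  have hw : E.w ^ 3 = 1 := by linear_combination (E.w - 1) * E.w_eq
  have hd : ∀ H : SL(2, ℤ), ((H 0 0 : ℤ) : O) * (H 1 1 : ℤ) - (H 0 1 : ℤ) * (H 1 0 : ℤ) = 1 := by
    intro H
    have : ((H 0 0 * H 1 1 - H 0 1 * H 1 0 : ℤ) : O) = ((1 : ℤ) : O) := by
      rw [show H 0 0 * H 1 1 - H 0 1 * H 1 0 = 1 from by
        rw [← Matrix.det_fin_two]; exact H.det_coe]
    push_cast at this
    exact this
  have h2 : E.w ^ (i : ℕ) * E.w ^ (i : ℕ) = E.w ^ (i' : ℕ) * E.w ^ (i' : ℕ) := by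
    linear_combination (E.w ^ (i' : ℕ) * ((H' 1 1 : ℤ) : O)) * h 0 0
      + (E.w ^ (i : ℕ) * ((H 0 0 : ℤ) : O)) * h 1 1
      - (E.w ^ (i' : ℕ) * ((H' 1 0 : ℤ) : O)) * h 0 1
      - (E.w ^ (i : ℕ) * ((H 0 1 : ℤ) : O)) * h 1 0
      - (E.w ^ (i : ℕ) * E.w ^ (i : ℕ)) * hd H + (E.w ^ (i' : ℕ) * E.w ^ (i' : ℕ)) * hd H'
  have hi : i = i' := by
    have h3 : (E.w ^ (i : ℕ)) ^ 3 = 1 := by rw [← pow_mul, mul_comm, pow_mul, hw, one_pow]
    have h4 : (E.w ^ (i' : ℕ)) ^ 3 = 1 := by rw [← pow_mul, mul_comm, pow_mul, hw, one_pow]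
    have h5 : E.w ^ (i : ℕ) = E.w ^ (i' : ℕ) := by
      linear_combination (-(E.w ^ (i : ℕ))) * h3 + (E.w ^ (i' : ℕ)) * h4
        + (E.w ^ (i : ℕ) * E.w ^ (i : ℕ) + E.w ^ (i' : ℕ) * E.w ^ (i' : ℕ)) * h2
    fin_cases i <;> fin_cases i' <;> first | rfl | exfalso
    all_goals first
      | exact absurd (pow_w_eq_intCast E (i := 1) (a := 1) (by simpa using h5)) (by decide)
      | exact absurd (pow_w_eq_intCast E (i := 1) (a := 1) (by simpa using h5.symm)) (by decide)
      | exact absurd (pow_w_eq_intCast E (i := 2) (a := 1) (by simpa using h5)) (by decide)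
      | exact absurd (pow_w_eq_intCast E (i := 2) (a := 1) (by simpa using h5.symm)) (by decide)
      | (have h6 : E.w ^ (((1 : Fin 3)) : ℕ) = ((1 : ℤ) : O) := by
           simp at h5 ⊢
           first
             | linear_combination (E.w ^ 2) * h5 - (E.w - 1) * hw
             | linear_combination (-(E.w ^ 2)) * h5 - (E.w - 1) * hw
         exact absurd (pow_w_eq_intCast E h6) (by decide))
  subst hi
  refine Prod.ext rfl (Matrix.SpecialLinearGroup.ext _ _ fun a b => E.intCast_inj ?_)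
  have := h a b
  exact mul_left_cancel₀ (pow_ne_zero _ fun h0 => by simp [h0] at hw) this

/-! ### The plane of `X₀` -/

/-- A point of the plane `Im z = 0`. -/
def planePt (t : ℍ) : HSpace := ⟨(t.re : ℂ), t.im, t.im_pos⟩

theorem continuous_planePt : Continuous planePt :=
  HSpace.continuous_iff_coords.mpr
    ((Complex.continuous_ofReal.comp UpperHalfPlane.continuous_re).prodMk
      UpperHalfPlane.continuous_im)

theorem map_zGL_smul_planePt (emb : O →+* ℂ) (H : SL(2, ℤ)) (t : ℍ) :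
    Matrix.GeneralLinearGroup.map emb (zGL O H) • planePt t = planePt (H • t) := by
  set g := Matrix.GeneralLinearGroup.map emb (zGL O H)
  have hg : ∀ i j, (g : Matrix (Fin 2) (Fin 2) ℂ) i j = ((H i j : ℤ) : ℂ) := fun i j => by
    simp [g, Matrix.GeneralLinearGroup.map_apply, coe_zGL]
  have hden : HSpace.denSq g (planePt t) =
      Complex.normSq ((H 1 0 : ℂ) * t + (H 1 1 : ℂ)) := by
    simp [HSpace.denSq, hg, planePt, Complex.normSq_apply]
    ring
  have hne : Complex.normSq ((H 1 0 : ℂ) * t + (H 1 1 : ℂ)) ≠ 0 := by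
    rw [← hden]; exact (HSpace.denSq_pos g _).ne'
  have hd : ((H 0 0 : ℤ) : ℝ) * (H 1 1 : ℤ) - (H 0 1 : ℤ) * (H 1 0 : ℤ) = 1 := by
    exact_mod_cast (show H 0 0 * H 1 1 - H 0 1 * H 1 0 = 1 from by
      rw [← Matrix.det_fin_two]; exact H.det_coe)
  have hco : ((H • t : ℍ) : ℂ) = ((H 0 0 : ℂ) * t + (H 0 1 : ℂ)) / ((H 1 0 : ℂ) * t + (H 1 1 : ℂ)) := by
    rw [UpperHalfPlane.coe_specialLinearGroup_apply]; simp
  have habs : HSpace.absDet g = 1 := by
    have : (g : Matrix (Fin 2) (Fin 2) ℂ).det = 1 := by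
      rw [Matrix.det_fin_two, hg, hg, hg, hg]; exact_mod_cast hd
    rw [HSpace.absDet, this, norm_one]
  refine HSpace.ext ?_ ?_
  · rw [HSpace.smul_z, hden]
    show _ = (((H • t : ℍ) : ℂ).re : ℂ)
    rw [hco, Complex.div_re, ← add_div]
    simp [hg, planePt]
    ring
  · rw [HSpace.smul_r, hden, habs]
    show _ = ((H • t : ℍ) : ℂ).im
    rw [hco, Complex.div_im, ← sub_div]
    simp [planePt]
    congr 1
    linear_combination (-t.im) * hd

theorem map_scalar_smul (emb : O →+* ℂ) (u : Oˣ) (w : HSpace) :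
    Matrix.GeneralLinearGroup.map emb (Matrix.GeneralLinearGroup.scalar (Fin 2) u) • w = w := by
  set g := Matrix.GeneralLinearGroup.map emb (Matrix.GeneralLinearGroup.scalar (Fin 2) u)
  have hg : (g : Matrix (Fin 2) (Fin 2) ℂ) = !![emb u, 0; 0, emb u] := by
    ext i j
    fin_cases i <;> fin_cases j <;>
      simp [g, Matrix.GeneralLinearGroup.map_apply, Matrix.GeneralLinearGroup.scalar]
  have hu : emb u ≠ 0 := (u.isUnit.map emb).ne_zero
  have hn : Complex.normSq (emb u) ≠ 0 := by simp [hu]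
  refine HSpace.ext ?_ ?_
  · rw [HSpace.smul_z, HSpace.denSq, hg]
    simp [← Complex.mul_conj]
    have hu' : starRingEnd ℂ (emb u) ≠ 0 := by simpa using hu
    field_simp
  · rw [HSpace.smul_r, HSpace.absDet, HSpace.denSq, hg]
    simp [Matrix.det_fin_two_of, Complex.norm_mul_self_eq_normSq]
    field_simp

theorem shellEx_base {M : ℕ} [NeZero M] (w : HSpace) :
    shellEx w ((M : ℤ) • baseVec) = (w.z.im / w.r) ^ 2 := by
  have hM : (M : ℝ) ≠ 0 := Nat.cast_ne_zero.mpr (NeZero.ne M)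
  have hs : (√3 : ℝ) ≠ 0 := by positivity
  have hv : Theta.dv ((M : ℤ) • baseVec) = (-((M : ℝ) / √3)) • planeVec := by
    have h3 : (√3 : ℝ) * √3 = 3 := Real.mul_self_sqrt (by norm_num)
    funext i
    fin_cases i <;> simp [Theta.dv, Theta.dvecR, baseVec, planeVec]
    all_goals field_simp
    all_goals linear_combination (-(1 : ℝ)) * h3
  have hq : q3 ((M : ℤ) • baseVec) = (M : ℤ) ^ 2 := by
    rw [Theta.q3_smul, q3_baseVec, mul_one]
  rw [shellEx, hq, hv, map_smul, Pi.smul_apply, smul_eq_mul, frame_planeVec,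
    if_neg (not_lt.mpr (sq_nonneg _))]
  have h3 : (√3 : ℝ) ^ 2 = 3 := Real.sq_sqrt (by norm_num)
  push_cast
  rw [abs_of_nonneg (by positivity)]
  field_simp
  rw [h3]
  ring

/-- The Gaussian of `X₀` as an integral over its plane. -/
theorem integral_planeKer_planePt (w : HSpace) :
    ∫ t : ℍ, (Arch.planeKer 1 (HSpace.coshDist w (planePt t)) : ℂ) =
      (Real.exp (-(w.z.im / w.r) ^ 2) : ℂ) := by
  have h := Asai.integral_half_plane
    (fun z : ℂ => (Arch.planeKer 1 (Arch.planeArg w z.re z.im) : ℂ)) MeasurableSet.univ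
  rw [Set.univ_inter, show {τ : ℍ | ((τ : ℂ).re, (τ : ℂ).im) ∈ (Set.univ : Set (ℝ × ℝ))} = Set.univ
    from Set.eq_univ_of_forall fun _ => trivial, Measure.restrict_univ] at h
  calc ∫ t : ℍ, (Arch.planeKer 1 (HSpace.coshDist w (planePt t)) : ℂ)
      = ∫ t : ℍ, (Arch.planeKer 1 (Arch.planeArg w (t : ℂ).re (t : ℂ).im) : ℂ) := by
        refine integral_congr_ae (Filter.Eventually.of_forall fun t => ?_)
        show _ = ((Arch.planeKer 1 (Arch.planeArg w t.re t.im) : ℝ) : ℂ)
        rw [Arch.planeArg_eq w t.re t.im t.im_pos]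
        rfl
    _ = _ := by
        rw [h]
        refine (Arch.integral_plane_planeKer one_pos w).trans ?_
        rw [one_mul]

end Fermat.Agent.LT.Lift
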