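import Fermat.Agent.LT.Lift.Basic
import Fermat.Agent.LT.Arch.Eigen
import Fermat.Agent.LT.Descent.PPKer

/-!
# Point-pair operators are symmetric on the quotient

Two weights give the same integral of an invariant function. Applied to `Pt × ℍ₃` with the weight
pulled back along either point this gives `∫ (K * F) G = ∫ F (K * G)` on the quotient.
-/

set_option autoImplicit false

noncomputable section

namespace Fermat.Agent.LT.Lift

open MeasureTheory Filter
open Adelic (HSpace)
open Orbit (EisData)
open scoped ENNReal MatrixGroups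

section General

variable {G : Type*} [Group G] [Countable G] {X : Type*} [MeasurableSpace X] [MulAction G X]
  [MeasurableConstSMul G X] {μ : Measure X} [SMulInvariantMeasure G X μ] {w w' : X → ℝ≥0∞}

/-- Two weights give the same integral of an invariant function. -/
theorem integral_quotMeasure_congr (hw : Geom.IsWeight G μ w) (hw' : Geom.IsWeight G μ w')
    {H : X → ℂ} (hm : Measurable H) (hinv : ∀ (g : G) (x : X), H (g • x) = H x)
    (hint : Integrable H (Spectral.quotMeasure μ w)) :
    Integrable H (Spectral.quotMeasure μ w') ∧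
      ∫ x, H x ∂Spectral.quotMeasure μ w = ∫ x, H x ∂Spectral.quotMeasure μ w' := by
  have hlin : ∫⁻ x, ‖H x‖ₑ ∂Spectral.quotMeasure μ w' = ∫⁻ x, ‖H x‖ₑ ∂Spectral.quotMeasure μ w := by
    rw [lintegral_withDensity_eq_lintegral_mul μ hw'.1 hm.enorm,
      lintegral_withDensity_eq_lintegral_mul μ hw.1 hm.enorm,
      ← Geom.lintegral_weight_mul_tsum (G := G) hw (F := w' * fun x => ‖H x‖ₑ)
        (hw'.1.mul hm.enorm)]
    refine lintegral_congr_ae (hw'.2.mono fun x hx => ?_)
    simp only [Pi.mul_apply, hinv, ENNReal.tsum_mul_right, hx, one_mul]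
  have hint' : Integrable H (Spectral.quotMeasure μ w') :=
    ⟨hm.aestronglyMeasurable, by
      show ∫⁻ x, ‖H x‖ₑ ∂Spectral.quotMeasure μ w' < ⊤
      rw [hlin]; exact hint.2⟩
  refine ⟨hint', ?_⟩
  have hF : Integrable (fun x => ((w' x).toReal : ℂ) * H x) μ :=
    ((integrable_withDensity_iff_integrable_smul' hw'.1 (Spectral.weight_lt_top (G := G) hw')).1
      hint').congr (Eventually.of_forall fun x => Complex.real_smul)
  rw [integral_withDensity_eq_integral_toReal_smul hw'.1 (Spectral.weight_lt_top (G := G) hw')]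
  simp only [Complex.real_smul]
  rw [← Spectral.integral_periodize_mul (G := G) hw (F := fun x => ((w' x).toReal : ℂ))
    (Complex.measurable_ofReal.comp hw'.1.ennreal_toReal) hm hinv hF]
  refine integral_congr_ae ((Spectral.quotMeasure_absolutelyContinuous (μ := μ) (w := w)).ae_le
    (hw'.2.mono fun x hx => ?_))
  dsimp only
  rw [← Complex.ofReal_tsum, ← ENNReal.tsum_toReal_eq (f := fun g : G => w' (g • x)) fun g =>
    ne_top_of_le_ne_top (hx ▸ ENNReal.one_ne_top) (ENNReal.le_tsum g), hx]
  simp

omit [Countable G] [MeasurableConstSMul G X] [SMulInvariantMeasure G X μ] in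
/-- A weight pulled back along an equivariant measure preserving map. -/
theorem isWeight_comp {Y : Type*} [MeasurableSpace Y] [MulAction G Y] {ν : Measure Y}
    {f : Y → X} (hf : Measure.QuasiMeasurePreserving f ν μ)
    (heq : ∀ (g : G) (y : Y), f (g • y) = g • f y) (hw : Geom.IsWeight G μ w) :
    Geom.IsWeight G ν (fun y => w (f y)) := by
  refine ⟨hw.1.comp hf.measurable, (hf.ae hw.2).mono fun y hy => ?_⟩
  simp only [heq]
  exact hy

end General

variable {O : Type*} [CommRing O] {emb : O →+* ℂ} {M : ℕ}

theorem measurable_pairKer {E' : Type*} [TopologicalSpace E'] [MeasurableSpace E'] [BorelSpace E']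
    {K : ℝ → E'} (hK : Continuous K) :
    Measurable fun z : HSpace × HSpace => K (HSpace.coshDist z.1 z.2) :=
  (hK.comp HSpace.continuous_coshDist).measurable

theorem integrable_ker {K : ℝ → ℂ} (hK : Continuous K) (hq : Arch.IsQuartic K) (p : HSpace) :
    Integrable (fun y => K (HSpace.coshDist p y)) HSpace.measure := by
  simpa using Arch.integrable_pointPair hK hq p (j := 0) zero_le_one

theorem integral_norm_ker (K : ℝ → ℂ) (p : HSpace) :
    ∫ y, ‖K (HSpace.coshDist p y)‖ ∂HSpace.measure =
      ∫ y, ‖K (HSpace.coshDist HSpace.base y)‖ ∂HSpace.measure := by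
  rw [← (HSpace.measurePreserving_const_smul (HSpace.toPt p)).integral_comp
    (measurableEmbedding_const_smul _)]
  refine integral_congr_ae (Eventually.of_forall fun y => ?_)
  have h := HSpace.coshDist_smul (HSpace.toPt p) HSpace.base y
  rw [HSpace.toPt_smul_base] at h
  simp only [h]

/-- The operator of a point-pair kernel in the archimedean coordinate. -/
def kerOp (K : ℝ → ℂ) (F : Pt emb M → ℂ) (x : Pt emb M) : ℂ :=
  ∫ y, K (HSpace.coshDist x.pt y) * F (Pt.mk emb y x.fin) ∂HSpace.measure

/-- The diagonal action on pairs. -/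
@[reducible] def pairAction : MulAction (GL (Fin 2) O) (Pt emb M × HSpace) where
  smul γ z := (γ • z.1, Matrix.GeneralLinearGroup.map emb γ • z.2)
  one_smul z := by
    show (_, _) = z
    simp only [one_smul, map_one]
  mul_smul γ δ z := by
    show (_, _) = (_, _)
    simp only [mul_smul, map_mul]
    rfl

attribute [local instance] pairAction

theorem pair_smul (γ : GL (Fin 2) O) (z : Pt emb M × HSpace) :
    γ • z = (γ • z.1, Matrix.GeneralLinearGroup.map emb γ • z.2) := rfl

/-- Exchange of the two points. -/
def pairSwap (z : Pt emb M × HSpace) : Pt emb M × HSpace :=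
  (Pt.mk emb z.2 z.1.fin, z.1.pt)

@[simp] theorem pairSwap_pairSwap (z : Pt emb M × HSpace) : pairSwap (pairSwap z) = z := rfl

theorem measurePreserving_pairSwap [Finite (Red O M)] :
    MeasurePreserving (pairSwap : Pt emb M × HSpace → Pt emb M × HSpace)
      ((ptMeasure emb M).prod HSpace.measure) ((ptMeasure emb M).prod HSpace.measure) := by
  have : IsFiniteMeasure (Measure.count : Measure (Red O M)) := by infer_instance
  let μH := HSpace.measure
  let μR : Measure (Red O M) := Measure.count
  have h1 : MeasurePreserving Prod.swap ((μH.prod μR).prod μH) (μH.prod (μH.prod μR)) :=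
    Measure.measurePreserving_swap
  have h2 : MeasurePreserving (Prod.map id Prod.swap) (μH.prod (μH.prod μR))
      (μH.prod (μR.prod μH)) := (MeasurePreserving.id μH).prod Measure.measurePreserving_swap
  have h3 := (measurePreserving_prodAssoc μH μR μH).symm
  exact h3.comp (h2.comp h1)

set_option maxHeartbeats 800000 in
/-- `∫ (K * F) G = ∫ F (K * G)` on the quotient, for invariant `F`, `G` with `G` bounded. -/
theorem integral_kerOp_mul [NeZero M] (E : EisData O) {wt : Pt emb M → ℝ≥0∞}
    (hwt : IsGoodWeight wt) {K : ℝ → ℂ} (hK : Continuous K) (hq : Arch.IsQuartic K)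
    {F G : Pt emb M → ℂ} (hFm : Measurable F) (hGm : Measurable G)
    (hFi : ∀ (γ : GL (Fin 2) O) (x : Pt emb M), F (γ • x) = F x)
    (hGi : ∀ (γ : GL (Fin 2) O) (x : Pt emb M), G (γ • x) = G x)
    (hF : Integrable F (Spectral.quotMeasure (ptMeasure emb M) wt))
    (hG : ∃ C : ℝ, ∀ x, ‖G x‖ ≤ C) :
    Integrable (fun z : Pt emb M × HSpace =>
        K (HSpace.coshDist z.1.pt z.2) * F (Pt.mk emb z.2 z.1.fin) * G z.1)
      ((Spectral.quotMeasure (ptMeasure emb M) wt).prod HSpace.measure) ∧
    ∫ x, kerOp K F x * G x ∂Spectral.quotMeasure (ptMeasure emb M) wt =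
      ∫ x, F x * kerOp K G x ∂Spectral.quotMeasure (ptMeasure emb M) wt := by
  have := countable_of_eisData E
  have := countable_gl (O := O)
  have := finite_red E M
  have := sigmaFinite_pt (emb := emb) (M := M)
  have := smulInvariantMeasure_pt (emb := emb) (M := M)
  set μ := ptMeasure emb M
  set ν := HSpace.measure
  set q := Spectral.quotMeasure μ wt
  obtain ⟨C, hC⟩ := hG
  have : MeasurableConstSMul (GL (Fin 2) O) (Pt emb M × HSpace) :=
    ⟨fun γ => ((measurable_const_smul γ).comp measurable_fst).prodMk
      ((measurable_const_smul (Matrix.GeneralLinearGroup.map emb γ)).comp measurable_snd)⟩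
  have : SMulInvariantMeasure (GL (Fin 2) O) (Pt emb M × HSpace) (μ.prod ν) :=
    ⟨fun γ s hs => ((measurePreserving_smul γ μ).prod
      (HSpace.measurePreserving_const_smul (Matrix.GeneralLinearGroup.map emb γ))).measure_preimage
        hs.nullMeasurableSet⟩
  set w1 : Pt emb M × HSpace → ℝ≥0∞ := fun z => wt z.1
  set w2 : Pt emb M × HSpace → ℝ≥0∞ := fun z => w1 (pairSwap z) with hw2
  have hσ := measurePreserving_pairSwap (emb := emb) (M := M)
  have hW1 : Geom.IsWeight (GL (Fin 2) O) (μ.prod ν) w1 :=
    isWeight_comp Measure.quasiMeasurePreserving_fst (fun _ _ => rfl) hwt.isWeight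
  have hW2 : Geom.IsWeight (GL (Fin 2) O) (μ.prod ν) w2 :=
    isWeight_comp hσ.quasiMeasurePreserving (fun _ _ => rfl) hW1
  have hq1 : q.prod ν = Spectral.quotMeasure (μ.prod ν) w1 :=
    prod_withDensity_left hwt.isWeight.1
  set H1 : Pt emb M × HSpace → ℂ := fun z =>
    K (HSpace.coshDist z.1.pt z.2) * F (Pt.mk emb z.2 z.1.fin) * G z.1 with hH1
  set H0 : Pt emb M × HSpace → ℂ := fun z =>
    F z.1 * (K (HSpace.coshDist z.1.pt z.2) * G (Pt.mk emb z.2 z.1.fin)) with hH0
  have hKm : Measurable fun z : Pt emb M × HSpace => K (HSpace.coshDist z.1.pt z.2) :=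
    (measurable_pairKer hK).comp ((Pt.measurable_pt.comp measurable_fst).prodMk measurable_snd)
  have hswap1 : Measurable fun z : Pt emb M × HSpace => Pt.mk emb z.2 z.1.fin :=
    measurable_snd.prodMk (Pt.measurable_fin.comp measurable_fst)
  have hm0 : Measurable H0 :=
    (hFm.comp measurable_fst).mul (hKm.mul (hGm.comp hswap1))
  have h01 : ∀ z, H0 z = H1 (pairSwap z) := fun z => by
    simp only [hH0, hH1, pairSwap, Pt.pt_mk, Pt.fin_mk, Pt.mk_pt_fin]
    rw [HSpace.coshDist_comm z.1.pt z.2]
    ring
  have hinv0 : ∀ (γ : GL (Fin 2) O) (z : Pt emb M × HSpace), H0 (γ • z) = H0 z := fun γ z => by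
    simp only [hH0, pair_smul, hFi, Pt.pt_smul, HSpace.coshDist_smul]
    rw [Pt.fin_smul, ← Pt.smul_mk, hGi]
  set k1 := ∫ y, ‖K (HSpace.coshDist HSpace.base y)‖ ∂ν
  have hint0 : Integrable H0 (q.prod ν) := by
    refine (integrable_prod_iff hm0.aestronglyMeasurable).2 ⟨Eventually.of_forall fun x => ?_, ?_⟩
    · exact ((integrable_ker hK hq x.pt).mul_bdd
        ((hGm.comp (Pt.measurable_mk x.fin)).aestronglyMeasurable)
        (Eventually.of_forall fun y => hC _)).const_mul (F x)
    · refine (hF.norm.mul_const (k1 * C)).mono'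
        (hm0.norm.aestronglyMeasurable.integral_prod_right') (Eventually.of_forall fun x => ?_)
      rw [Real.norm_of_nonneg (integral_nonneg fun y => norm_nonneg _)]
      refine (integral_mono_of_nonneg (Eventually.of_forall fun y => norm_nonneg _)
        (((integrable_ker hK hq x.pt).norm.mul_const C).const_mul ‖F x‖)
        (Eventually.of_forall fun y => ?_)).trans_eq ?_
      · simp only [hH0, norm_mul]
        exact mul_le_mul_of_nonneg_left (mul_le_mul_of_nonneg_left (hC _) (norm_nonneg _))
          (norm_nonneg _)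
      · rw [integral_const_mul, integral_mul_const, integral_norm_ker]
  have key := integral_quotMeasure_congr hW1 hW2 hm0 hinv0 (hq1 ▸ hint0)
  set σe : (Pt emb M × HSpace) ≃ᵐ (Pt emb M × HSpace) :=
    { toFun := pairSwap, invFun := pairSwap, left_inv := pairSwap_pairSwap
      right_inv := pairSwap_pairSwap, measurable_toFun := hσ.measurable
      measurable_invFun := hσ.measurable }
  have hσw : MeasurePreserving σe (Spectral.quotMeasure (μ.prod ν) w2)
      (Spectral.quotMeasure (μ.prod ν) w1) := by
    refine ⟨σe.measurable, Measure.ext fun s hs => ?_⟩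
    rw [Measure.map_apply σe.measurable hs, withDensity_apply _ (σe.measurable hs),
      withDensity_apply _ hs]
    exact hσ.setLIntegral_comp_preimage hs hW1.1
  have hint1 : Integrable H1 (q.prod ν) := by
    rw [hq1, ← hσw.integrable_comp_emb σe.measurableEmbedding]
    exact key.1.congr (Eventually.of_forall h01)
  refine ⟨hint1, ?_⟩
  have e : ∫ z, H0 z ∂q.prod ν = ∫ z, H1 z ∂q.prod ν := by
    rw [hq1, key.2, ← hσw.integral_comp σe.measurableEmbedding H1]
    exact integral_congr_ae (Eventually.of_forall h01)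
  rw [integral_prod _ hint0, integral_prod _ hint1] at e
  simp only [hH0, hH1, integral_const_mul, integral_mul_const] at e
  exact e.symm

end Fermat.Agent.LT.Lift
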